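/-
ESJ / REP layer — interface definitions (owner: helper55).

`TateDatum p N` is everything the REP layer consumes from the lower ESJ layers
(JAC-TORS, RED, ES-CONG): a finite free `ℤ_[p]`-module `Ta` ("the `p`-adic Tate module of
`J₀(N)`", in any model) with a continuous action of `G_ℚ`, Hecke operators for ALL primes
(`T_ℓ` for `ℓ ∤ N`, `U_ℓ` for `ℓ ∣ N`), unramifiedness outside `N p`, the Eichler–Shimura
relation for every Frobenius lift at `ℓ ∤ N p`, and the multiplicity statement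
"every eigenspace of the full Hecke algebra is two-dimensional".

`FrobDensity` is the Frobenius density theorem in existence form (FROB team).
-/
import Mathlib
import Fermat.Prelude.Def_CuspForm_HeckeGaloisRepDatum
import Fermat.Prelude.Def_CuspForm_HeckeEvalForms

set_option autoImplicit false

open scoped TensorProduct

namespace Fermat.Agent.ESJ.Rep

/-- The field `ℚ̄`. -/
abbrev Qb : Type := AlgebraicClosure ℚ

/-- The absolute Galois group of `ℚ`. -/
abbrev GQ : Type := Qb ≃ₐ[ℚ] Qb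

/-- Frobenius density theorem, existence form: for every finite extension `L/ℚ` inside `ℚ̄`,
every finite set `S` of primes and every `g ∈ G_ℚ` there are a prime `ℓ ∉ S`, a valuation
subring `A` of `ℚ̄` over `ℓ` and a Frobenius lift `σ` at `A` such that `g` agrees on `L` with a
power of `σ`. -/
def FrobDensity : Prop :=
  ∀ (L : IntermediateField ℚ Qb), FiniteDimensional ℚ L → ∀ (S : Finset ℕ) (g : GQ),
    ∃ (ℓ : ℕ) (A : ValuationSubring Qb) (σ : GQ) (k : ℕ),
      ℓ.Prime ∧ ℓ ∉ S ∧ A.LiesOverPrime ℓ ∧ A.IsFrobeniusAt σ ℓ ∧ ∀ x ∈ L, (σ ^ k) x = g x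

/-- Simultaneous eigenspace of a family of endomorphisms `t i` for the eigenvalues `a i`. -/
def eigenspace {R : Type*} [CommRing R] {M : Type*} [AddCommGroup M] [Module R M] {ι : Type*}
    (t : ι → Module.End R M) (a : ι → R) : Submodule R M :=
  ⨅ i, LinearMap.ker (t i - a i • (1 : Module.End R M))

theorem mem_eigenspace {R : Type*} [CommRing R] {M : Type*} [AddCommGroup M] [Module R M]
    {ι : Type*} {t : ι → Module.End R M} {a : ι → R} {v : M} :
    v ∈ eigenspace t a ↔ ∀ i, t i v = a i • v := by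
  simp [eigenspace, Submodule.mem_iInf, sub_eq_zero]

/-- The Hecke operator on `S₂(Γ₀(N))` attached to a prime `ℓ`: `T_ℓ` if `ℓ ∤ N`, `U_ℓ` if
`ℓ ∣ N` (the Prelude's `CuspForm.heckeFormsGen`, as an endomorphism). -/
noncomputable def heckeOp (N : ℕ) [NeZero N] (ℓ : Nat.Primes) :
    Module.End ℂ (CuspForm (CongruenceSubgroup.Gamma0 N) 2) :=
  (CuspForm.heckeFormsGen N 2 ℓ : Module.End ℂ (CuspForm (CongruenceSubgroup.Gamma0 N) 2))

/-- The input of the REP layer: "the `p`-adic Tate module of `J₀(N)` with its Galois and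
Hecke actions" in hypothesis-shaped form. -/
structure TateDatum (p N : ℕ) [Fact p.Prime] [NeZero N] : Type 1 where
  /-- the Tate module -/
  Ta : Type
  [instAddCommGroup : AddCommGroup Ta]
  [instModule : Module ℤ_[p] Ta]
  [instFree : Module.Free ℤ_[p] Ta]
  [instFinite : Module.Finite ℤ_[p] Ta]
  /-- the Galois action -/
  gal : GQ →* Module.End ℤ_[p] Ta
  /-- the Hecke operators, for ALL primes (`T_ℓ` for `ℓ ∤ N`, `U_ℓ` for `ℓ ∣ N`) -/
  hecke : Nat.Primes → Module.End ℤ_[p] Ta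
  /-- `p`-adic continuity of the Galois action -/
  gal_continuous : ∀ n : ℕ, ∃ L : IntermediateField ℚ Qb, FiniteDimensional ℚ L ∧
    ∀ σ : GQ, (∀ x ∈ L, σ x = x) → ∀ v : Ta, ∃ w : Ta, gal σ v - v = (p : ℤ_[p]) ^ n • w
  hecke_comm : ∀ ℓ ℓ' : Nat.Primes, Commute (hecke ℓ) (hecke ℓ')
  hecke_gal : ∀ (ℓ : Nat.Primes) (σ : GQ), Commute (hecke ℓ) (gal σ)
  /-- unramified outside `N p` -/
  unram : ∀ q : ℕ, q.Prime → ¬ q ∣ N → q ≠ p →
    ∀ A : ValuationSubring Qb, A.LiesOverPrime q → ∀ σ ∈ A.inertiaSubgroupIn ℚ, gal σ = 1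
  /-- the Eichler–Shimura relation for every Frobenius lift at `ℓ ∤ N p` -/
  eichlerShimura : ∀ ℓ : Nat.Primes, ¬ (ℓ : ℕ) ∣ N → (ℓ : ℕ) ≠ p →
    ∀ A : ValuationSubring Qb, A.LiesOverPrime ℓ → ∀ σ : GQ, A.IsFrobeniusAt σ ℓ →
      gal σ * gal σ - hecke ℓ * gal σ + ((ℓ : ℕ) : Module.End ℤ_[p] Ta) = 0
  /-- multiplicity: every eigenspace of the full Hecke algebra of `S₂(Γ₀(N))` on
  `E ⊗ Ta` is two-dimensional -/
  eigen_dim : ∀ (E : Type) [Field E] [CharZero E] [Algebra ℤ_[p] E]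
    (χ : CuspForm.heckeAlgebra N 2 (∅ : Set ℕ) →+* E),
    Module.finrank E (eigenspace (fun ℓ : Nat.Primes => (hecke ℓ).baseChange E)
      (fun ℓ : Nat.Primes => χ (CuspForm.heckeFormsGen N 2 ℓ))) = 2

attribute [instance] TateDatum.instAddCommGroup TateDatum.instModule TateDatum.instFree
  TateDatum.instFinite

/-- Comparison data from which `TateDatum.eigen_dim` follows (lemma EIGDIM): an integral
lattice `H` with Hecke operators (think `H¹_par(Γ₀(N), ℤ)`), an equivariant identification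
`Ta ≃ ℤ_[p] ⊗ H`, and an equivariant identification `ℂ ⊗ H ≃ S₂ × S₂`
(Eichler–Shimura isomorphism, S21). -/
structure CmpData (p N : ℕ) [Fact p.Prime] [NeZero N] (Ta : Type) [AddCommGroup Ta]
    [Module ℤ_[p] Ta] (hecke : Nat.Primes → Module.End ℤ_[p] Ta) : Type 1 where
  H : Type
  [instAddCommGroup : AddCommGroup H]
  [instFree : Module.Free ℤ H]
  [instFinite : Module.Finite ℤ H]
  heckeH : Nat.Primes → Module.End ℤ H
  cmpTa : Ta ≃ₗ[ℤ_[p]] ℤ_[p] ⊗[ℤ] H
  cmpTa_hecke : ∀ (ℓ : Nat.Primes) (v : Ta),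
    cmpTa (hecke ℓ v) = (heckeH ℓ).baseChange ℤ_[p] (cmpTa v)
  cmpS2 : ℂ ⊗[ℤ] H ≃ₗ[ℂ]
    (CuspForm (CongruenceSubgroup.Gamma0 N) 2 × CuspForm (CongruenceSubgroup.Gamma0 N) 2)
  cmpS2_hecke : ∀ (ℓ : Nat.Primes) (x : ℂ ⊗[ℤ] H),
    cmpS2 ((heckeH ℓ).baseChange ℂ x) = (heckeOp N ℓ (cmpS2 x).1, heckeOp N ℓ (cmpS2 x).2)

attribute [instance] CmpData.instAddCommGroup CmpData.instFree CmpData.instFinite

/-- What the lower ESJ layers (JAC-TORS, RED, ES-CONG) deliver to REP: a Tate datum for every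
prime `p` and every level `N`. -/
def TateDatumExists : Prop :=
  ∀ (p N : ℕ) [Fact p.Prime] [NeZero N], Nonempty (TateDatum p N)

end Fermat.Agent.ESJ.Rep
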