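/-
ESJ / REP layer (helper55) — the ANEMIC Tate datum.

For a prime `q ∣ N` the Prelude's geometric correspondence `heckeOperatorBar N q = α_* β^*`
acts on Kummer characters through the double coset of `[q, 0; 0, 1]` (the operator `U_q^*`),
NOT through the `U_q` of `ParHom.heckeCoh` / `CuspForm.heckeFormsGen` (double coset of
`[1, 0; 0, q]`); the two agree only for `q ∤ N`.  So the geometric layers can prove that the
Galois action on the Tate module commutes with the lattice Hecke operators only for `ℓ ∤ N`.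

`TateDatumA p N` is `TateDatum p N` with `hecke_gal` required only for `ℓ ∤ N`.  The Hecke
operators at `ℓ ∣ N` are still there (as the lattice operators), so `CmpData` and `eigen_dim`
keep their full form; they are used only to know that eigenspaces are nonzero.
-/
import Mathlib
import Fermat.Agent.ESJ.Rep.Defs

set_option autoImplicit false

open scoped TensorProduct

namespace Fermat.Agent.ESJ.Rep

/-- `TateDatum` with Galois–Hecke commutation only at the primes `ℓ ∤ N`. -/
structure TateDatumA (p N : ℕ) [Fact p.Prime] [NeZero N] : Type 1 where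
  /-- the Tate module -/
  Ta : Type
  [instAddCommGroup : AddCommGroup Ta]
  [instModule : Module ℤ_[p] Ta]
  [instFree : Module.Free ℤ_[p] Ta]
  [instFinite : Module.Finite ℤ_[p] Ta]
  /-- the Galois action -/
  gal : GQ →* Module.End ℤ_[p] Ta
  /-- the Hecke operators (`T_ℓ` for `ℓ ∤ N`, `U_ℓ` for `ℓ ∣ N`) -/
  hecke : Nat.Primes → Module.End ℤ_[p] Ta
  /-- `p`-adic continuity of the Galois action -/
  gal_continuous : ∀ n : ℕ, ∃ L : IntermediateField ℚ Qb, FiniteDimensional ℚ L ∧
    ∀ σ : GQ, (∀ x ∈ L, σ x = x) → ∀ v : Ta, ∃ w : Ta, gal σ v - v = (p : ℤ_[p]) ^ n • w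
  hecke_comm : ∀ ℓ ℓ' : Nat.Primes, Commute (hecke ℓ) (hecke ℓ')
  /-- Galois commutes with the Hecke operators at the primes NOT dividing `N` -/
  hecke_gal : ∀ ℓ : Nat.Primes, ¬ (ℓ : ℕ) ∣ N → ∀ σ : GQ, Commute (hecke ℓ) (gal σ)
  /-- unramified outside `N p` -/
  unram : ∀ q : ℕ, q.Prime → ¬ q ∣ N → q ≠ p →
    ∀ A : ValuationSubring Qb, A.LiesOverPrime q → ∀ σ ∈ A.inertiaSubgroupIn ℚ, gal σ = 1
  /-- the Eichler–Shimura relation for every Frobenius lift at `ℓ ∤ N p` -/
  eichlerShimura : ∀ ℓ : Nat.Primes, ¬ (ℓ : ℕ) ∣ N → (ℓ : ℕ) ≠ p →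
    ∀ A : ValuationSubring Qb, A.LiesOverPrime ℓ → ∀ σ : GQ, A.IsFrobeniusAt σ ℓ →
      gal σ * gal σ - hecke ℓ * gal σ + ((ℓ : ℕ) : Module.End ℤ_[p] Ta) = 0
  /-- every eigenspace of the full Hecke algebra of `S₂(Γ₀(N))` on `E ⊗ Ta` is
  two-dimensional (only "nonzero" is used) -/
  eigen_dim : ∀ (E : Type) [Field E] [CharZero E] [Algebra ℤ_[p] E]
    (χ : CuspForm.heckeAlgebra N 2 (∅ : Set ℕ) →+* E),
    Module.finrank E (eigenspace (fun ℓ : Nat.Primes => (hecke ℓ).baseChange E)
      (fun ℓ : Nat.Primes => χ (CuspForm.heckeFormsGen N 2 ℓ))) = 2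

attribute [instance] TateDatumA.instAddCommGroup TateDatumA.instModule TateDatumA.instFree
  TateDatumA.instFinite

/-- A `TateDatum` is in particular a `TateDatumA`. -/
def TateDatum.toA {p N : ℕ} [Fact p.Prime] [NeZero N] (D : TateDatum p N) : TateDatumA p N where
  Ta := D.Ta
  gal := D.gal
  hecke := D.hecke
  gal_continuous := D.gal_continuous
  hecke_comm := D.hecke_comm
  hecke_gal := fun ℓ _ σ => D.hecke_gal ℓ σ
  unram := D.unram
  eichlerShimura := D.eichlerShimura
  eigen_dim := D.eigen_dim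

/-- **The single geometric target of the trunk** (S29, S30, S31, S42): for all `p`, `N` an
anemic Tate datum together with comparison data for its Hecke operators. -/
def TateCmpAExists : Prop :=
  ∀ (p N : ℕ) [Fact p.Prime] [NeZero N],
    ∃ D : TateDatumA p N, Nonempty (CmpData p N D.Ta D.hecke)

/-- What the REP layer needs for S30 / S29 / S42. -/
def TateDatumAExists : Prop :=
  ∀ (p N : ℕ) [Fact p.Prime] [NeZero N], Nonempty (TateDatumA p N)

theorem tateDatumAExists_of_tateCmpAExists (h : TateCmpAExists) : TateDatumAExists := by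
  intro p N _ _
  obtain ⟨D, _⟩ := h p N
  exact ⟨D⟩

theorem tateDatumAExists_of_tateDatumExists (h : TateDatumExists) : TateDatumAExists := by
  intro p N _ _
  obtain ⟨D⟩ := h p N
  exact ⟨D.toA⟩

end Fermat.Agent.ESJ.Rep
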