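import Mathlib
import Fermat.Agent.ESJ.Rep.Defs

/-!
# ESJ / REP — EIGDIM, core (task 166)

`EigenDim.eigen_dim_of_cmpData_of`: from comparison data `CmpData` (an integral lattice `H` with
`Ta ≃ ℤ_p ⊗ H` and `ℂ ⊗ H ≃ S₂ × S₂`, both Hecke-equivariant), every eigenspace of the full Hecke
algebra on `E ⊗ Ta` is two-dimensional — GIVEN
* `hLatt`: invariance of the dimension of simultaneous eigenspaces under field extension
  (REP-LATT, `finrank_eigenspace_fieldExt`), and
* `hMult`: multiplicity one on `S₂(Γ₀(N))` (REP-MULT1, `finrank_eigenspace_cuspForm`),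
* `hfin`: the full Hecke algebra is a finite `ℤ`-module (S22).

The unconditional statement `eigen_dim_of_cmpData` is in `EigenDim.lean`.
-/

set_option autoImplicit false

open scoped TensorProduct

namespace Fermat.Agent.ESJ.Rep.EigenDim

open Fermat.Agent.ESJ.Rep

/-- An equivalence intertwining two families of operators identifies their eigenspaces. -/
theorem finrank_eigenspace_congr {R : Type*} [CommRing R] {V W : Type*} [AddCommGroup V]
    [Module R V] [AddCommGroup W] [Module R W] {ι : Type*} (t : ι → Module.End R V)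
    (t' : ι → Module.End R W) (a : ι → R) (Φ : V ≃ₗ[R] W)
    (h : ∀ i x, Φ (t i x) = t' i (Φ x)) :
    Module.finrank R (eigenspace t a) = Module.finrank R (eigenspace t' a) := by
  have hmap : (eigenspace t a).map (Φ : V →ₗ[R] W) = eigenspace t' a := by
    ext w
    rw [Submodule.mem_map, mem_eigenspace]
    constructor
    · rintro ⟨v, hv, rfl⟩ i
      rw [mem_eigenspace] at hv
      rw [LinearEquiv.coe_coe, ← h, hv i, map_smul]
    · intro hw
      refine ⟨Φ.symm w, ?_, by simp⟩
      rw [mem_eigenspace]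
      intro i
      apply Φ.injective
      rw [h, Φ.apply_symm_apply, hw i, map_smul, Φ.apply_symm_apply]
  rw [← hmap]
  exact (LinearEquiv.finrank_map_eq Φ (eigenspace t a)).symm

/-- The eigenspace of a diagonal family on a product is the product of the eigenspaces. -/
theorem eigenspace_prodMap {R : Type*} [CommRing R] {V : Type*} [AddCommGroup V]
    [Module R V] {ι : Type*} (t : ι → Module.End R V) (a : ι → R) :
    eigenspace (fun i => LinearMap.prodMap (t i) (t i)) a =
      (eigenspace t a).prod (eigenspace t a) := by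
  ext ⟨x, y⟩
  simp only [mem_eigenspace, Submodule.mem_prod, LinearMap.prodMap_apply, Prod.smul_mk,
    Prod.mk.injEq]
  exact ⟨fun h => ⟨fun i => (h i).1, fun i => (h i).2⟩, fun h i => ⟨h.1 i, h.2 i⟩⟩

/-- `p.prod q ≃ p × q`. -/
def prodSubEquiv {R : Type*} [CommRing R] {V : Type*} [AddCommGroup V] [Module R V]
    (p q : Submodule R V) : (p.prod q) ≃ₗ[R] p × q where
  toFun x := (⟨x.1.1, x.2.1⟩, ⟨x.1.2, x.2.2⟩)
  invFun y := ⟨(y.1.1, y.2.1), ⟨y.1.2, y.2.2⟩⟩
  map_add' _ _ := rfl
  map_smul' _ _ := rfl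
  left_inv _ := rfl
  right_inv _ := rfl

theorem finrank_eigenspace_prodMap {K : Type*} [Field K] {V : Type*} [AddCommGroup V]
    [Module K V] {ι : Type*} (t : ι → Module.End K V) (a : ι → K)
    (h1 : Module.finrank K (eigenspace t a) = 1) :
    Module.finrank K (eigenspace (fun i => LinearMap.prodMap (t i) (t i)) a) = 2 := by
  rw [eigenspace_prodMap]
  have hfin : Module.Finite K (eigenspace t a) := Module.finite_of_finrank_pos (by omega)
  rw [(prodSubEquiv (eigenspace t a) (eigenspace t a)).finrank_eq, Module.finrank_prod, h1]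

section Cancel

variable (R A B : Type*) [CommRing R] [CommRing A] [CommRing B] [Algebra R A] [Algebra A B]
  [Algebra R B] [IsScalarTower R A B]
  {N : Type*} [AddCommGroup N] [Module R N] {T : Type*} [AddCommGroup T] [Module A T]

/-- `B ⊗[A] T ≃ B ⊗[R] N` for `T ≃ A ⊗[R] N`. -/
noncomputable def cancelEquiv (c : T ≃ₗ[A] A ⊗[R] N) : B ⊗[A] T ≃ₗ[B] B ⊗[R] N :=
  (LinearEquiv.baseChange A B T (A ⊗[R] N) c) ≪≫ₗ
    TensorProduct.AlgebraTensorModule.cancelBaseChange R A B B N

theorem cancelEquiv_tmul (c : T ≃ₗ[A] A ⊗[R] N) (b : B) (v : T) :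
    cancelEquiv R A B c (b ⊗ₜ v) =
      TensorProduct.AlgebraTensorModule.cancelBaseChange R A B B N (b ⊗ₜ c v) := rfl

theorem cancelBaseChange_baseChange (f' : Module.End R N) (b : B) (y : A ⊗[R] N) :
    TensorProduct.AlgebraTensorModule.cancelBaseChange R A B B N (b ⊗ₜ (f'.baseChange A y)) =
      f'.baseChange B (TensorProduct.AlgebraTensorModule.cancelBaseChange R A B B N (b ⊗ₜ y)) := by
  induction y using TensorProduct.induction_on with
  | zero => simp
  | tmul a n => simp
  | add x y hx hy => simp only [map_add, TensorProduct.tmul_add, hx, hy]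

theorem cancelEquiv_intertwine (c : T ≃ₗ[A] A ⊗[R] N) (f : Module.End A T) (f' : Module.End R N)
    (h : ∀ v, c (f v) = f'.baseChange A (c v)) (x : B ⊗[A] T) :
    cancelEquiv R A B c (f.baseChange B x) = f'.baseChange B (cancelEquiv R A B c x) := by
  induction x using TensorProduct.induction_on with
  | zero => simp
  | tmul b v =>
    rw [LinearMap.baseChange_tmul, cancelEquiv_tmul, cancelEquiv_tmul, h,
      cancelBaseChange_baseChange]
  | add x y hx hy => simp only [map_add, hx, hy]

end Cancel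

section Overfield

variable (E : Type) [Field E] [CharZero E] (C : Type) [Field C] [CharZero C]


/-- a common overfield of two fields of characteristic zero -/
theorem exists_common_overfield :
    ∃ (Ω : Type) (_ : Field Ω) (_ : E →+* Ω) (_ : C →+* Ω), True := by
  obtain ⟨m, hm⟩ := Ideal.exists_maximal (E ⊗[ℚ] C)
  exact ⟨(E ⊗[ℚ] C) ⧸ m, Ideal.Quotient.field m,
    (Ideal.Quotient.mk m).comp (Algebra.TensorProduct.includeLeft (R := ℚ) (S := ℚ) (A := E) (B := C)).toRingHom,
    (Ideal.Quotient.mk m).comp (Algebra.TensorProduct.includeRight (R := ℚ) (A := E) (B := C)).toRingHom, trivial⟩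

end Overfield

section Descend

/-- a ring hom from a finite `ℤ`-algebra into an overfield `Ω` of an algebraically closed field `C`
takes values in `C`. -/
theorem exists_ringHom_descend {T : Type*} [CommRing T] [Module.Finite ℤ T]
    {C Ω : Type*} [Field C] [IsAlgClosed C] [Field Ω] (jC : C →+* Ω) (ψ : T →+* Ω) :
    ∃ χ' : T →+* C, ∀ t, jC (χ' t) = ψ t := by
  let _ : Algebra C Ω := jC.toAlgebra
  have hmem : ∀ t : T, ψ t ∈ jC.range := by
    intro t
    have h1 : IsIntegral ℤ t := Algebra.IsIntegral.isIntegral t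
    have h2 : IsIntegral ℤ (ψ t) := h1.map ψ.toIntAlgHom
    have h3 : IsIntegral C (ψ t) := h2.tower_top
    have h4 : (minpoly C (ψ t)).degree = 1 :=
      IsAlgClosed.degree_eq_one_of_irreducible C (minpoly.irreducible h3)
    exact minpoly.mem_range_of_degree_eq_one C (ψ t) h4
  have hbij : Function.Bijective jC.rangeRestrict :=
    ⟨(RingHom.injective _), jC.rangeRestrict_surjective⟩
  let e : C ≃+* jC.range := RingEquiv.ofBijective jC.rangeRestrict hbij
  refine ⟨e.symm.toRingHom.comp (ψ.codRestrict jC.range hmem), fun t => ?_⟩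
  set y := e.symm (ψ.codRestrict jC.range hmem t) with hy
  have h5 : e y = ψ.codRestrict jC.range hmem t := e.apply_symm_apply _
  have h6 : (e y : Ω) = jC y := rfl
  change jC y = ψ t
  rw [← h6, h5]
  rfl

end Descend

section Main

/-- **EIGDIM, conditional core.** -/
theorem eigen_dim_of_cmpData_of {p N : ℕ} [Fact p.Prime] [NeZero N] {Ta : Type} [AddCommGroup Ta]
    [Module ℤ_[p] Ta] {hecke : Nat.Primes → Module.End ℤ_[p] Ta} (D : CmpData p N Ta hecke)
    (hLatt : ∀ (K : Type) [Field K] (Ω : Type) [Field Ω] [Algebra K Ω] (a : Nat.Primes → K),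
      Module.finrank Ω (eigenspace (fun i => (D.heckeH i).baseChange Ω)
          (fun i => algebraMap K Ω (a i))) =
        Module.finrank K (eigenspace (fun i => (D.heckeH i).baseChange K) a))
    (hMult : ∀ χ' : CuspForm.heckeAlgebra N 2 (∅ : Set ℕ) →+* ℂ,
      Module.finrank ℂ (eigenspace (fun ℓ : Nat.Primes => heckeOp N ℓ)
        (fun ℓ : Nat.Primes => χ' (CuspForm.heckeFormsGen N 2 ℓ))) = 1)
    (hfin : Module.Finite ℤ (CuspForm.heckeAlgebra N 2 (∅ : Set ℕ)))
    (E : Type) [Field E] [CharZero E] [Algebra ℤ_[p] E]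
    (χ : CuspForm.heckeAlgebra N 2 (∅ : Set ℕ) →+* E) :
    Module.finrank E (eigenspace (fun ℓ : Nat.Primes => (hecke ℓ).baseChange E)
      (fun ℓ : Nat.Primes => χ (CuspForm.heckeFormsGen N 2 ℓ))) = 2 := by
  -- Step 1: pass from `Ta` to the lattice `H`
  have h1 : Module.finrank E (eigenspace (fun ℓ : Nat.Primes => (hecke ℓ).baseChange E)
        (fun ℓ : Nat.Primes => χ (CuspForm.heckeFormsGen N 2 ℓ))) =
      Module.finrank E (eigenspace (fun ℓ : Nat.Primes => (D.heckeH ℓ).baseChange E)
        (fun ℓ : Nat.Primes => χ (CuspForm.heckeFormsGen N 2 ℓ))) :=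
    finrank_eigenspace_congr _ _ _ (cancelEquiv ℤ ℤ_[p] E D.cmpTa)
      (fun ℓ x => cancelEquiv_intertwine ℤ ℤ_[p] E D.cmpTa (hecke ℓ) (D.heckeH ℓ)
        (D.cmpTa_hecke ℓ) x)
  -- Step 2: a common overfield and the complex character
  obtain ⟨Ω, _, jE, jC, -⟩ := exists_common_overfield E ℂ
  obtain ⟨χ', hχ'⟩ := exists_ringHom_descend jC (jE.comp χ)
  -- Step 3: compare over `Ω`
  have h2 := @hLatt E _ Ω _ jE.toAlgebra (fun ℓ : Nat.Primes => χ (CuspForm.heckeFormsGen N 2 ℓ))
  have h3 := @hLatt ℂ _ Ω _ jC.toAlgebra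
    (fun ℓ : Nat.Primes => χ' (CuspForm.heckeFormsGen N 2 ℓ))
  have hfam : (fun i : Nat.Primes => @algebraMap E Ω _ _ jE.toAlgebra
        (χ (CuspForm.heckeFormsGen N 2 i))) =
      (fun i : Nat.Primes => @algebraMap ℂ Ω _ _ jC.toAlgebra
        (χ' (CuspForm.heckeFormsGen N 2 i))) := by
    funext i
    exact (hχ' _).symm
  rw [hfam] at h2
  -- Step 4: the complex eigenspace via Eichler–Shimura
  have h4 : Module.finrank ℂ (eigenspace (fun ℓ : Nat.Primes => (D.heckeH ℓ).baseChange ℂ)
      (fun ℓ : Nat.Primes => χ' (CuspForm.heckeFormsGen N 2 ℓ))) = 2 := by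
    rw [finrank_eigenspace_congr _
      (fun ℓ : Nat.Primes => LinearMap.prodMap (heckeOp N ℓ) (heckeOp N ℓ)) _ D.cmpS2
      (fun ℓ x => by rw [D.cmpS2_hecke]; rfl)]
    exact finrank_eigenspace_prodMap _ _ (hMult χ')
  rw [h1, ← h2, h3, h4]

end Main

end Fermat.Agent.ESJ.Rep.EigenDim
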