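import Mathlib
import Fermat.Agent.ESJ.Rep.Defs
import Fermat.Agent.ESJ.Rep.EigenDimCore

/-!
# ESJ / REP — invariance of simultaneous eigenspaces under field extension

`EigenDim.eigenspace_baseChange_eq`: for a family of endomorphisms of a `K`-vector space and a
field extension `Ω/K`, the simultaneous eigenspace over `Ω` is the base change of the one over `K`
(no finiteness assumption on the family or on the space).

`EigenDim.finrank_eigenspace_fieldExt_aux`: the statement `finrank_eigenspace_fieldExt` of task
REP-LATT (for an arbitrary `R`-module `M`).
-/

set_option autoImplicit false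

open scoped TensorProduct

namespace Fermat.Agent.ESJ.Rep.EigenDim

open Fermat.Agent.ESJ.Rep

section VectorSpace

variable {K : Type*} [Field K] {V : Type*} [AddCommGroup V] [Module K V] {ι : Type*}
  (s : ι → Module.End K V) (a : ι → K) (Ω : Type*) [Field Ω] [Algebra K Ω]

/-- The eigenspace over an extension field is the base change of the eigenspace. -/
theorem eigenspace_baseChange_eq :
    eigenspace (fun i => (s i).baseChange Ω) (fun i => algebraMap K Ω (a i)) =
      (eigenspace s a).baseChange Ω := by
  classical
  apply le_antisymm
  · intro x hx
    rw [mem_eigenspace] at hx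
    let ℬ := Module.Free.chooseBasis K Ω
    let e := TensorProduct.equivFinsuppOfBasisLeft (N := V) ℬ
    have hcoord : ∀ i j, s i (e x j) = a i • e x j := by
      intro i j
      have h1 : ∀ y : Ω ⊗[K] V, e ((s i).baseChange Ω y) j = s i (e y j) := by
        intro y
        induction y using TensorProduct.induction_on with
        | zero => simp
        | tmul ω v =>
          rw [LinearMap.baseChange_tmul, TensorProduct.equivFinsuppOfBasisLeft_apply_tmul_apply,
            TensorProduct.equivFinsuppOfBasisLeft_apply_tmul_apply, map_smul]
        | add y z hy hz => simp only [map_add, Finsupp.add_apply, hy, hz]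
      have h2 : e (algebraMap K Ω (a i) • x) j = a i • e x j := by
        rw [algebraMap_smul, map_smul, Finsupp.smul_apply]
      rw [← h1, hx i, h2]
    have hx' : x = (e x).sum fun j v => ℬ j ⊗ₜ v := by
      rw [← TensorProduct.equivFinsuppOfBasisLeft_symm_apply, LinearEquiv.symm_apply_apply]
    rw [hx']
    refine Submodule.sum_mem _ fun j _ => ?_
    exact Submodule.tmul_mem_baseChange_of_mem (ℬ j) (mem_eigenspace.mpr fun i => hcoord i j)
  · rw [Submodule.baseChange_eq_span, Submodule.span_le]
    rintro _ ⟨v, hv, rfl⟩
    rw [SetLike.mem_coe, mem_eigenspace] at hv ⊢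
    intro i
    rw [TensorProduct.mk_apply, LinearMap.baseChange_tmul, hv i, TensorProduct.tmul_smul,
      algebraMap_smul]

/-- The dimension of a simultaneous eigenspace is invariant under field extension. -/
theorem finrank_eigenspace_fieldExt_vs :
    Module.finrank Ω (eigenspace (fun i => (s i).baseChange Ω) (fun i => algebraMap K Ω (a i))) =
      Module.finrank K (eigenspace s a) := by
  rw [eigenspace_baseChange_eq]
  have hinj : Function.Injective ((eigenspace s a).subtype.baseChange Ω) := by
    rw [LinearMap.baseChange_eq_ltensor]
    exact Module.Flat.lTensor_preserves_injective_linearMap _ (Submodule.injective_subtype _)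
  rw [Submodule.baseChange, LinearMap.finrank_range_of_inj hinj, Module.finrank_baseChange]

end VectorSpace

/-- The statement of `finrank_eigenspace_fieldExt` (task REP-LATT), for an arbitrary module. -/
theorem finrank_eigenspace_fieldExt_aux (R : Type*) [CommRing R] (M : Type*) [AddCommGroup M]
    [Module R M] {ι : Type*} (t : ι → Module.End R M) (K : Type*) [Field K] [Algebra R K]
    (Ω : Type*) [Field Ω] [Algebra K Ω] [Algebra R Ω] [IsScalarTower R K Ω] (a : ι → K) :
    Module.finrank Ω (eigenspace (fun i => (t i).baseChange Ω) (fun i => algebraMap K Ω (a i))) =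
      Module.finrank K (eigenspace (fun i => (t i).baseChange K) a) := by
  rw [← finrank_eigenspace_fieldExt_vs (fun i => (t i).baseChange K) a Ω]
  exact (finrank_eigenspace_congr _ _ _ (cancelEquiv R K Ω (LinearEquiv.refl K (K ⊗[R] M)))
    (fun i x => cancelEquiv_intertwine R K Ω (LinearEquiv.refl K (K ⊗[R] M))
      ((t i).baseChange K) (t i) (fun v => rfl) x)).symm

end Fermat.Agent.ESJ.Rep.EigenDim
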