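/-
ESJ / REP layer — task 165 (REP-MULT1), owner helper66.

Multiplicity one for the FULL Hecke algebra on `S₂(Γ₀(N))`: every ring homomorphism
`χ : 𝕋 → ℂ` has a ONE-dimensional simultaneous eigenspace.

Proof.  `a₁(T_n f) = a_n(f)` for suitable `T_n ∈ 𝕋`, so an eigenvector is determined by its first
coefficient (`≤ 1`).  For `≥ 1` we use the integral structure (S23): choose a finite family
`b` of cusp forms with integral `q`-expansions spanning `S₂`; the `ℤ`-linear map
`t ↦ (a₁(t bᵢ))ᵢ` is injective with values in integer vectors; as `ℂ` is a divisible group, `χ`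
extends along it to a `ℤ`-linear `φ`, and `f := ∑ φ(eᵢ) bᵢ` satisfies `a₁(t f) = χ t` for all
`t`, hence is a `χ`-eigenvector with `a₁(f) = 1`.
-/
import Mathlib
import Fermat.Agent.ESJ.Rep.Defs
import Fermat.Agent.S49.Forms
import Fermat.Agent.S23

set_option autoImplicit false

open scoped TensorProduct
open Polynomial CongruenceSubgroup ModularFormClass

namespace Fermat.Agent.ESJ.Rep

namespace MultOne

open Fermat.Agent.S49

/-- the first coefficient of `t f`, for `t` in the Hecke algebra -/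
theorem coe_mul_apply (N : ℕ) [NeZero N] (a b : CuspForm.heckeAlgebra N 2 (∅ : Set ℕ))
    (f : CuspForm (Gamma0 N) 2) :
    ((a * b : CuspForm.heckeAlgebra N 2 (∅ : Set ℕ)) :
      Module.End ℂ (CuspForm (Gamma0 N) 2)) f =
      (a : Module.End ℂ (CuspForm (Gamma0 N) 2))
        ((b : Module.End ℂ (CuspForm (Gamma0 N) 2)) f) := rfl

/-- For every `n ≥ 1` there is `T_n` in the full Hecke algebra with `a₁(T_n f) = a_n(f)`. -/
theorem exists_hecke_coeff (N : ℕ) [NeZero N] (n : ℕ) (hn : 1 ≤ n) :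
    ∃ t : CuspForm.heckeAlgebra N 2 (∅ : Set ℕ), ∀ f : CuspForm (Gamma0 N) 2,
      qCoeff (⇑((t : Module.End ℂ (CuspForm (Gamma0 N) 2)) f)) 1 = qCoeff (⇑f) n := by
  induction n using Nat.strong_induction_on with
  | _ n ih =>
    rcases eq_or_ne n 1 with rfl | hn1
    · exact ⟨1, fun f => rfl⟩
    obtain ⟨ℓ, hℓ, hℓn⟩ := Nat.exists_prime_and_dvd hn1
    obtain ⟨m, rfl⟩ := hℓn
    have hm1 : 1 ≤ m := by
      rcases Nat.eq_zero_or_pos m with h | h
      · subst h; simp at hn
      · exact h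
    have hmlt : m < ℓ * m := by
      have := hℓ.two_le
      nlinarith
    obtain ⟨tm, htm⟩ := ih m hmlt hm1
    by_cases hℓN : ℓ ∣ N
    · refine ⟨tm * CuspForm.heckeAlgebra.U hℓ hℓN (Set.notMem_empty _), fun f => ?_⟩
      rw [coe_mul_apply, htm, CuspForm.heckeAlgebra.coe_U, qCoeff_heckeU hℓ hℓN, mul_comm]
    · by_cases hℓm : ℓ ∣ m
      · have hml1 : 1 ≤ m / ℓ := Nat.div_pos (Nat.le_of_dvd hm1 hℓm) hℓ.pos
        have hmllt : m / ℓ < ℓ * m :=
          lt_of_le_of_lt (Nat.div_le_self m ℓ) hmlt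
        obtain ⟨tq, htq⟩ := ih (m / ℓ) hmllt hml1
        refine ⟨tm * CuspForm.heckeAlgebra.T hℓ hℓN (Set.notMem_empty _) - (ℓ : ℤ) • tq,
          fun f => ?_⟩
        have h1 : ((tm * CuspForm.heckeAlgebra.T hℓ hℓN (Set.notMem_empty _) - (ℓ : ℤ) • tq :
            CuspForm.heckeAlgebra N 2 (∅ : Set ℕ)) : Module.End ℂ (CuspForm (Gamma0 N) 2)) f =
            (tm : Module.End ℂ (CuspForm (Gamma0 N) 2))
              (CuspForm.heckeTLin 2 hℓ hℓN f) -
            (ℓ : ℤ) • (tq : Module.End ℂ (CuspForm (Gamma0 N) 2)) f := rfl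
        rw [h1, ← qLin_apply, map_sub, map_zsmul, qLin_apply, qLin_apply, htm, htq,
          qCoeff_heckeT hℓ hℓN, if_pos hℓm, mul_comm m ℓ]
        simp
      · refine ⟨tm * CuspForm.heckeAlgebra.T hℓ hℓN (Set.notMem_empty _), fun f => ?_⟩
        rw [coe_mul_apply, htm, CuspForm.heckeAlgebra.coe_T, qCoeff_heckeT hℓ hℓN,
          if_neg hℓm, add_zero, mul_comm]

/-- An element of the simultaneous eigenspace of the generators is an eigenvector of the whole
Hecke algebra. -/
theorem eigen_all (N : ℕ) [NeZero N] (χ : CuspForm.heckeAlgebra N 2 (∅ : Set ℕ) →+* ℂ)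
    (f : CuspForm (Gamma0 N) 2)
    (hf : ∀ ℓ : Nat.Primes, heckeOp N ℓ f = χ (CuspForm.heckeFormsGen N 2 ℓ) • f)
    (t : CuspForm.heckeAlgebra N 2 (∅ : Set ℕ)) :
    (t : Module.End ℂ (CuspForm (Gamma0 N) 2)) f = χ t • f := by
  obtain ⟨t, ht⟩ := t
  have key : ∀ (x : Module.End ℂ (CuspForm (Gamma0 N) 2))
      (hx : x ∈ Algebra.adjoin ℤ (CuspForm.heckeGenerators N 2 (∅ : Set ℕ))),
      x f = χ (⟨x, hx⟩ : CuspForm.heckeAlgebra N 2 (∅ : Set ℕ)) • f := by
    intro x hx
    induction hx using Algebra.adjoin_induction with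
    | mem x hx =>
      rcases hx with ⟨ℓ, hℓ, hℓN, -, rfl⟩ | ⟨q, hqN, hq, -, rfl⟩
      · have h := hf ⟨ℓ, hℓ⟩
        have e : CuspForm.heckeFormsGen N 2 ⟨ℓ, hℓ⟩ =
            (⟨CuspForm.heckeTLin 2 hℓ hℓN, Algebra.subset_adjoin
              (CuspForm.heckeTLin_mem_heckeGenerators hℓ hℓN (Set.notMem_empty _))⟩ :
              CuspForm.heckeAlgebra N 2 (∅ : Set ℕ)) :=
          CuspForm.heckeFormsGen_of_not_dvd (N := N) (k := 2) (ℓ := ⟨ℓ, hℓ⟩) hℓN
        rw [heckeOp, e] at h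
        exact h
      · have h := hf ⟨q, hq⟩
        have e : CuspForm.heckeFormsGen N 2 ⟨q, hq⟩ =
            (⟨CuspForm.heckeULin 2 hqN, Algebra.subset_adjoin
              (CuspForm.heckeULin_mem_heckeGenerators hq hqN (Set.notMem_empty _))⟩ :
              CuspForm.heckeAlgebra N 2 (∅ : Set ℕ)) :=
          CuspForm.heckeFormsGen_of_dvd (N := N) (k := 2) (q := ⟨q, hq⟩) hqN
        rw [heckeOp, e] at h
        exact h
    | algebraMap r =>
      have e : (⟨algebraMap ℤ (Module.End ℂ (CuspForm (Gamma0 N) 2)) r,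
          Subalgebra.algebraMap_mem _ r⟩ : CuspForm.heckeAlgebra N 2 (∅ : Set ℕ)) =
          ((r : ℤ) : CuspForm.heckeAlgebra N 2 (∅ : Set ℕ)) := by
        apply Subtype.ext
        simp
      rw [e, map_intCast]
      simpa using (Int.cast_smul_eq_zsmul ℂ r f).symm
    | add x y hx hy ihx ihy =>
      have e : (⟨x + y, add_mem hx hy⟩ : CuspForm.heckeAlgebra N 2 (∅ : Set ℕ)) =
          (⟨x, hx⟩ : CuspForm.heckeAlgebra N 2 (∅ : Set ℕ)) + ⟨y, hy⟩ := rfl
      rw [e, map_add, add_smul, LinearMap.add_apply, ihx, ihy]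
    | mul x y hx hy ihx ihy =>
      have e : (⟨x * y, mul_mem hx hy⟩ : CuspForm.heckeAlgebra N 2 (∅ : Set ℕ)) =
          (⟨x, hx⟩ : CuspForm.heckeAlgebra N 2 (∅ : Set ℕ)) * ⟨y, hy⟩ := rfl
      rw [e, map_mul, Module.End.mul_apply, ihy, map_smul, ihx, smul_smul, mul_comm]
  exact key t ht

/-- On the eigenspace, all coefficients are determined by the first one. -/
theorem eq_zero_of_coeff_one (N : ℕ) [NeZero N]
    (χ : CuspForm.heckeAlgebra N 2 (∅ : Set ℕ) →+* ℂ) (f : CuspForm (Gamma0 N) 2)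
    (hf : ∀ ℓ : Nat.Primes, heckeOp N ℓ f = χ (CuspForm.heckeFormsGen N 2 ℓ) • f)
    (h1 : qCoeff (⇑f) 1 = 0) : f = 0 := by
  apply ext_qCoeff
  intro n
  have h0 : qCoeff (⇑(0 : CuspForm (Gamma0 N) 2)) n = 0 := by
    rw [← qLin_apply, map_zero]
  rw [h0]
  rcases Nat.eq_zero_or_pos n with rfl | hn
  · exact qCoeff_zero_eq f
  · obtain ⟨t, ht⟩ := exists_hecke_coeff N n hn
    rw [← ht f, eigen_all N χ f hf t, ← qLin_apply, map_smul, qLin_apply, h1, smul_zero]

/-- Existence: a cusp form `f` with `a₁(t f) = χ t` for all `t` in the Hecke algebra. -/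
theorem exists_dual (N : ℕ) [NeZero N] (χ : CuspForm.heckeAlgebra N 2 (∅ : Set ℕ) →+* ℂ) :
    ∃ f : CuspForm (Gamma0 N) 2, ∀ t : CuspForm.heckeAlgebra N 2 (∅ : Set ℕ),
      qCoeff (⇑((t : Module.End ℂ (CuspForm (Gamma0 N) 2)) f)) 1 = χ t := by
  classical
  -- a finite family of integral forms spanning `S₂`
  obtain ⟨s, hs⟩ := CuspForm.intLattice_fg N 2
  have hint : ∀ b ∈ s, b ∈ CuspForm.intLattice N 2 := fun b hb => by
    rw [← hs]; exact Submodule.subset_span hb
  have hspan : Submodule.span ℂ (s : Set (CuspForm (Gamma0 N) 2)) = ⊤ := by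
    have h23 : Submodule.span ℂ ((CuspForm.intLattice N 2 :
        Submodule ℤ (CuspForm (Gamma0 N) 2)) : Set (CuspForm (Gamma0 N) 2)) = ⊤ :=
      Fermat.Agent.S23.result N
    rw [eq_top_iff, ← h23]
    apply Submodule.span_le.mpr
    intro x hx
    have hx' : x ∈ Submodule.span ℤ (s : Set (CuspForm (Gamma0 N) 2)) := by rw [hs]; exact hx
    exact (Submodule.span_le_restrictScalars ℤ ℂ (s : Set (CuspForm (Gamma0 N) 2))) hx'
  -- the map `t ↦ (a₁(t b))_b`
  let ι : CuspForm.heckeAlgebra N 2 (∅ : Set ℕ) →ₗ[ℤ] (s → ℂ) :=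
    { toFun := fun t b => qLin N 2 1 ((t : Module.End ℂ (CuspForm (Gamma0 N) 2)) (b : _))
      map_add' := fun t t' => by
        funext b
        simp [LinearMap.add_apply]
      map_smul' := fun c t => by
        funext b
        simp [LinearMap.smul_apply] }
  have hι : ∀ t b, ι t b = qCoeff (⇑((t : Module.End ℂ (CuspForm (Gamma0 N) 2)) (b : _))) 1 :=
    fun t b => rfl
  -- injectivity
  have hinj : Function.Injective ι := by
    rw [injective_iff_map_eq_zero]
    intro t ht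
    -- `a₁(t x) = 0` for all `x`
    have hzero : (qLin N 2 1) ∘ₗ (t : Module.End ℂ (CuspForm (Gamma0 N) 2)) = 0 := by
      apply LinearMap.ext_on hspan
      intro b hb
      have h := congrFun ht ⟨b, hb⟩
      exact h
    have hall : ∀ x : CuspForm (Gamma0 N) 2,
        (t : Module.End ℂ (CuspForm (Gamma0 N) 2)) x = 0 := by
      intro x
      apply ext_qCoeff
      intro n
      have h0 : qCoeff (⇑(0 : CuspForm (Gamma0 N) 2)) n = 0 := by
        rw [← qLin_apply, map_zero]
      rw [h0]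
      rcases Nat.eq_zero_or_pos n with rfl | hn
      · exact qCoeff_zero_eq _
      · obtain ⟨tn, htn⟩ := exists_hecke_coeff N n hn
        rw [← htn, ← coe_mul_apply, mul_comm, coe_mul_apply]
        exact LinearMap.congr_fun hzero _
    apply Subtype.ext
    exact LinearMap.ext hall
  -- extension of `χ`
  have hB : Module.Baer ℤ ℂ := Module.Baer.of_divisible ℂ
  obtain ⟨φ, hφ⟩ := hB.extension_property ι hinj χ.toAddMonoidHom.toIntLinearMap
  refine ⟨∑ b : s, φ (Pi.single b 1) • (b : CuspForm (Gamma0 N) 2), fun t => ?_⟩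
  -- integrality of `a₁(t b)`
  have hm : ∀ b : s, ∃ m : ℤ, ι t b = (m : ℂ) := by
    intro b
    have hb := CuspForm.mem_intLattice_of_mem_heckeAlgebra one_le_two t.2 (hint b b.2)
    exact (mem_intLattice_iff _).mp hb 1
  choose m hm using hm
  have hιt : ι t = ∑ b : s, m b • (Pi.single b (1 : ℂ) : s → ℂ) := by
    funext b
    rw [hm b, Finset.sum_apply]
    simp [Pi.single_apply]
  have hχ : χ t = φ (ι t) := by
    have := LinearMap.congr_fun hφ t
    simpa using this.symm
  rw [hχ, hιt, map_sum, ← qLin_apply, map_sum, map_sum]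
  apply Finset.sum_congr rfl
  intro b _
  rw [map_smul, map_smul, qLin_apply, ← hι, hm b, map_zsmul, smul_eq_mul, zsmul_eq_mul, mul_comm]

/-- **Multiplicity one** for the full Hecke algebra on `S₂(Γ₀(N))`. -/
theorem finrank_eigenspace_aux (N : ℕ) [NeZero N]
    (χ : CuspForm.heckeAlgebra N 2 (∅ : Set ℕ) →+* ℂ) :
    Module.finrank ℂ (eigenspace (fun ℓ : Nat.Primes => heckeOp N ℓ)
      (fun ℓ : Nat.Primes => χ (CuspForm.heckeFormsGen N 2 ℓ))) = 1 := by
  set E := eigenspace (fun ℓ : Nat.Primes => heckeOp N ℓ)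
      (fun ℓ : Nat.Primes => χ (CuspForm.heckeFormsGen N 2 ℓ)) with hE
  let e : E →ₗ[ℂ] ℂ := (qLin N 2 1).domRestrict E
  have he : ∀ x : E, e x = qCoeff (⇑(x : CuspForm (Gamma0 N) 2)) 1 := fun x => rfl
  have hinj : Function.Injective e := by
    rw [injective_iff_map_eq_zero]
    intro x hx
    apply Subtype.ext
    exact eq_zero_of_coeff_one N χ x (mem_eigenspace.mp x.2) (by rw [← he, hx])
  have hsurj : Function.Surjective e := by
    obtain ⟨f, hf⟩ := exists_dual N χ
    have hf1 : qCoeff (⇑f) 1 = 1 := by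
      have := hf 1
      simpa using this
    -- `f` is an eigenvector of every `t`
    have hfe : ∀ t : CuspForm.heckeAlgebra N 2 (∅ : Set ℕ),
        (t : Module.End ℂ (CuspForm (Gamma0 N) 2)) f = χ t • f := by
      intro t
      apply ext_qCoeff
      intro n
      rcases Nat.eq_zero_or_pos n with rfl | hn
      · rw [qCoeff_zero_eq, qCoeff_zero_eq]
      · obtain ⟨tn, htn⟩ := exists_hecke_coeff N n hn
        rw [← htn, ← htn, ← coe_mul_apply, hf, ← qLin_apply, map_smul, map_smul, qLin_apply,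
          hf, map_mul, smul_eq_mul, mul_comm]
    have hfE : f ∈ E := by
      rw [hE, mem_eigenspace]
      intro ℓ
      exact hfe (CuspForm.heckeFormsGen N 2 ℓ)
    intro c
    refine ⟨c • ⟨f, hfE⟩, ?_⟩
    rw [map_smul, he, hf1, smul_eq_mul, mul_one]
  have := (LinearEquiv.ofBijective e ⟨hinj, hsurj⟩).finrank_eq
  rw [this, Module.finrank_self]

end MultOne

/-- **Multiplicity one** for the full Hecke algebra on `S₂(Γ₀(N))`: every ring homomorphism
`χ : 𝕋 → ℂ` has a one-dimensional simultaneous eigenspace. -/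
theorem finrank_eigenspace_cuspForm (N : ℕ) [NeZero N]
    (χ : CuspForm.heckeAlgebra N 2 (∅ : Set ℕ) →+* ℂ) :
    Module.finrank ℂ (eigenspace (fun ℓ : Nat.Primes => heckeOp N ℓ)
      (fun ℓ : Nat.Primes => χ (CuspForm.heckeFormsGen N 2 ℓ))) = 1 :=
  MultOne.finrank_eigenspace_aux N χ

end Fermat.Agent.ESJ.Rep
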