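import Mathlib
import Fermat.Agent.ESJ.Rep.Defs
import Fermat.Agent.ESJ.Rep.EigenDimCore
import Fermat.Agent.ESJ.Rep.FieldExt
import Fermat.Agent.ESJ.Rep.MultOne
import Fermat.Agent.S22

/-!
# ESJ / REP — EIGDIM (task 166)

`eigen_dim_of_cmpData`: comparison data `CmpData` imply that every eigenspace of the full Hecke
algebra on `E ⊗ Ta` is two-dimensional (the field `TateDatum.eigen_dim`).
-/

set_option autoImplicit false

open scoped TensorProduct

namespace Fermat.Agent.ESJ.Rep

/-- **EIGDIM.** From comparison data, every eigenspace of the full Hecke algebra on `E ⊗ Ta` is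
two-dimensional. -/
theorem eigen_dim_of_cmpData {p N : ℕ} [Fact p.Prime] [NeZero N] {Ta : Type} [AddCommGroup Ta]
    [Module ℤ_[p] Ta] {hecke : Nat.Primes → Module.End ℤ_[p] Ta} (D : CmpData p N Ta hecke)
    (E : Type) [Field E] [CharZero E] [Algebra ℤ_[p] E]
    (χ : CuspForm.heckeAlgebra N 2 (∅ : Set ℕ) →+* E) :
    Module.finrank E (eigenspace (fun ℓ : Nat.Primes => (hecke ℓ).baseChange E)
      (fun ℓ : Nat.Primes => χ (CuspForm.heckeFormsGen N 2 ℓ))) = 2 :=
  EigenDim.eigen_dim_of_cmpData_of D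
    (fun K _ Ω _ _ a => EigenDim.finrank_eigenspace_fieldExt_aux ℤ D.H D.heckeH K Ω a)
    (fun χ' => finrank_eigenspace_cuspForm N χ')
    (Fermat.Agent.S22.result N 2 ∅) E χ

end Fermat.Agent.ESJ.Rep
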