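/-
ESJ / REP layer (helper84): construction of a `TateDatum p N` (the input of REP-A, S30_of,
S29_of, S42_of) from "level maps" `π n : Ta → J₀(N)` and the torsion-level interfaces of
`ESJ/Interfaces.lean`.

Inputs:
* `Ta` a finite free `ℤ_[p]`-module with operators `hecke ℓ` (all primes `ℓ`);
* level maps `π : ℕ → Ta →+ JZero N` with
  (K) `π n t = 0 ↔ t ∈ p ^ n • Ta`, (S) `π n` is onto the `p ^ n`-torsion,
  (C) `p • π (n + 1) t = π n t`, (H) `π n (hecke ℓ t) = heckeOperatorBar N ℓ (π n t)`;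
* `HeckeGaloisCommute N`, `TorsionFiniteLevel N (p ^ n)` for all `n`, `TorsionESRelation N p`;
* the eigenspace-dimension clause for `(Ta, hecke)` (or a `CmpData`).

The Galois action on `Ta` is obtained from the action on the torsion of `JZero N` by the
abstract lifting lemma `Lib/TateLim.exists_lift`.
-/
import Mathlib
import Fermat.Agent.ESJ.Rep.Defs
import Fermat.Agent.ESJ.Interfaces
import Fermat.Agent.ESJ.Rep.EigenDim
import Fermat.Agent.Lib.TateLim

set_option autoImplicit false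

open scoped TensorProduct

namespace Fermat.Agent.ESJ.Rep.TateAsm

open ModularCurve AlgebraicCurve Fermat.Agent.Lib.TateLim

variable {p N : ℕ} [Fact p.Prime] [NeZero N]

/-- The Galois action on `JZero N` as an additive endomorphism. -/
noncomputable def galHom (N : ℕ) [NeZero N] (σ : GQ) : JZero N →+ JZero N :=
  DistribSMul.toAddMonoidHom (JZero N) σ

theorem galHom_apply (σ : GQ) (x : JZero N) : galHom N σ x = σ • x := rfl

section

variable {Ta : Type} [AddCommGroup Ta] [Module ℤ_[p] Ta] [Module.Free ℤ_[p] Ta]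
  [Module.Finite ℤ_[p] Ta] (π : ℕ → Ta →+ JZero N)

/-- The Galois action lifts to `Ta`. -/
theorem exists_galLift (hK : ∀ n t, π n t = 0 ↔ ∃ w : Ta, t = (p : ℤ_[p]) ^ n • w)
    (hS : ∀ (n : ℕ) (x : JZero N), p ^ n • x = 0 → ∃ t, π n t = x)
    (hC : ∀ n t, p • π (n + 1) t = π n t) (σ : GQ) :
    ∃ Φ : Ta →ₗ[ℤ_[p]] Ta, ∀ n t, π n (Φ t) = σ • π n t := by
  refine exists_lift π hK hC (galHom N σ) (fun n t => hS n _ ?_)
  rw [← map_nsmul, pow_nsmul_map π hK, map_zero]

omit [NeZero N] [Module.Free ℤ_[p] Ta] [Module.Finite ℤ_[p] Ta] in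
/-- The image of a level map is `p`-power torsion. -/
theorem exists_pow_nsmul_eq_zero (hK : ∀ n t, π n t = 0 ↔ ∃ w : Ta, t = (p : ℤ_[p]) ^ n • w)
    (n : ℕ) (t : Ta) : ∃ m : ℕ, p ^ m • π n t = 0 :=
  ⟨n, pow_nsmul_map π hK n t⟩

omit [NeZero N] [Module.Free ℤ_[p] Ta] [Module.Finite ℤ_[p] Ta] in
/-- The image of the `n`-th level map lies in the `p ^ n`-torsion subgroup. -/
theorem mem_torsion (hK : ∀ n t, π n t = 0 ↔ ∃ w : Ta, t = (p : ℤ_[p]) ^ n • w)
    (n : ℕ) (t : Ta) :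
    π n t ∈ Pic0.torsion (AlgebraicClosure ℚ) (modularFunctionFieldBar N) (p ^ n) := by
  rw [Pic0.mem_torsion, natCast_zsmul]
  exact pow_nsmul_map π hK n t

end

/-- **TATE-ASM**: a Tate datum from level maps and the torsion-level interfaces. -/
theorem nonempty_tateDatum_of_levelMaps
    (Ta : Type) [AddCommGroup Ta] [Module ℤ_[p] Ta] [Module.Free ℤ_[p] Ta]
    [Module.Finite ℤ_[p] Ta]
    (hecke : Nat.Primes → Module.End ℤ_[p] Ta) (π : ℕ → Ta →+ JZero N)
    (hK : ∀ n t, π n t = 0 ↔ ∃ w : Ta, t = (p : ℤ_[p]) ^ n • w)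
    (hS : ∀ (n : ℕ) (x : JZero N), p ^ n • x = 0 → ∃ t, π n t = x)
    (hC : ∀ n t, p • π (n + 1) t = π n t)
    (hH : ∀ (ℓ : Nat.Primes) (n : ℕ) (t : Ta),
      π n (hecke ℓ t) = heckeOperatorBar N ℓ (π n t))
    (hcomm : ∀ ℓ ℓ' : Nat.Primes, Commute (hecke ℓ) (hecke ℓ'))
    (hG : HeckeGaloisCommute N) (hL : ∀ n : ℕ, TorsionFiniteLevel N (p ^ n))
    (hES : TorsionESRelation N p)
    (hdim : ∀ (E : Type) [Field E] [CharZero E] [Algebra ℤ_[p] E]
      (χ : CuspForm.heckeAlgebra N 2 (∅ : Set ℕ) →+* E),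
      Module.finrank E (eigenspace (fun ℓ : Nat.Primes => (hecke ℓ).baseChange E)
        (fun ℓ : Nat.Primes => χ (CuspForm.heckeFormsGen N 2 ℓ))) = 2) :
    Nonempty (TateDatum p N) := by
  have hp : p.Prime := Fact.out
  choose g hg using exists_galLift π hK hS hC
  let gal : GQ →* Module.End ℤ_[p] Ta :=
    { toFun := g
      map_one' := linearMap_ext π hK fun n t => by
        rw [hg, one_smul, Module.End.one_apply]
      map_mul' := fun σ τ => linearMap_ext π hK fun n t => by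
        rw [hg, Module.End.mul_apply, hg, hg, mul_smul] }
  have hgal : ∀ (σ : GQ) (n : ℕ) (t : Ta), π n (gal σ t) = σ • π n t := hg
  refine ⟨{ Ta := Ta, gal := gal, hecke := hecke, gal_continuous := ?_, hecke_comm := hcomm,
            hecke_gal := ?_, unram := ?_, eichlerShimura := ?_, eigen_dim := hdim }⟩
  · -- continuity
    intro n
    obtain ⟨L, hLfin, hLfix⟩ := hL n
    refine ⟨L, hLfin, fun σ hσ v => ?_⟩
    apply (hK n _).mp
    rw [map_sub, hgal, hLfix σ hσ _ (mem_torsion π hK n v), sub_self]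
  · -- Hecke commutes with Galois
    intro ℓ σ
    refine linearMap_ext π hK fun n t => ?_
    rw [Module.End.mul_apply, Module.End.mul_apply, hH, hgal, hgal, hH]
    exact hG ℓ σ (π n t)
  · -- unramified outside `N p`
    intro q hq hqN hqp A hA σ hσ
    have hqNp : ¬ q ∣ N * p := by
      intro h
      rcases (Nat.Prime.dvd_mul hq).mp h with h | h
      · exact hqN h
      · exact hqp ((Nat.prime_dvd_prime_iff_eq hq hp).mp h)
    refine linearMap_ext π hK fun n t => ?_
    rw [hgal, Module.End.one_apply]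
    exact (hES q hq hqNp A hA).1 σ hσ _ (exists_pow_nsmul_eq_zero π hK n t)
  · -- Eichler–Shimura
    intro ℓ hℓN hℓp A hA σ hσ
    have hℓNp : ¬ (ℓ : ℕ) ∣ N * p := by
      intro h
      rcases (Nat.Prime.dvd_mul ℓ.2).mp h with h | h
      · exact hℓN h
      · exact hℓp ((Nat.prime_dvd_prime_iff_eq ℓ.2 hp).mp h)
    refine linearMap_ext π hK fun n t => ?_
    rw [LinearMap.add_apply, LinearMap.sub_apply, Module.End.mul_apply, Module.End.mul_apply,
      LinearMap.zero_apply, map_add, map_sub, hgal, hgal, hH, hgal, map_zero,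
      Module.End.natCast_apply, map_nsmul]
    exact (hES ℓ ℓ.2 hℓNp A hA).2 σ hσ _ (exists_pow_nsmul_eq_zero π hK n t)

/-- **TATE-ASM**, with the eigenspace dimensions supplied by comparison data (REP-EIGDIM). -/
theorem nonempty_tateDatum_of_levelMaps_of_cmpData
    (Ta : Type) [AddCommGroup Ta] [Module ℤ_[p] Ta] [Module.Free ℤ_[p] Ta]
    [Module.Finite ℤ_[p] Ta]
    (hecke : Nat.Primes → Module.End ℤ_[p] Ta) (π : ℕ → Ta →+ JZero N)
    (hK : ∀ n t, π n t = 0 ↔ ∃ w : Ta, t = (p : ℤ_[p]) ^ n • w)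
    (hS : ∀ (n : ℕ) (x : JZero N), p ^ n • x = 0 → ∃ t, π n t = x)
    (hC : ∀ n t, p • π (n + 1) t = π n t)
    (hH : ∀ (ℓ : Nat.Primes) (n : ℕ) (t : Ta),
      π n (hecke ℓ t) = heckeOperatorBar N ℓ (π n t))
    (hcomm : ∀ ℓ ℓ' : Nat.Primes, Commute (hecke ℓ) (hecke ℓ'))
    (hG : HeckeGaloisCommute N) (hL : ∀ n : ℕ, TorsionFiniteLevel N (p ^ n))
    (hES : TorsionESRelation N p) (D : CmpData p N Ta hecke) :
    Nonempty (TateDatum p N) :=
  nonempty_tateDatum_of_levelMaps Ta hecke π hK hS hC hH hcomm hG hL hES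
    (fun E _ _ _ χ => eigen_dim_of_cmpData D E χ)

end Fermat.Agent.ESJ.Rep.TateAsm
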