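/-
ESJ / REP layer (helper84): the ANEMIC version of `TateAsm.lean`.

At the primes `ℓ ∣ N` the geometric Hecke correspondence `heckeOperatorBar N ℓ` acts on Kummer
characters through `U_ℓ^*`, not through the lattice operator `U_ℓ`; so the level maps
`π n : Ta → J₀(N)` can be asked to be Hecke-equivariant only at the primes `ℓ ∤ N`.  The result
is then a `TateDatumA p N` (`Rep/DefsA.lean`: Galois commutes with `hecke ℓ` for `ℓ ∤ N`)
together with the given comparison data — the single geometric target `TateCmpAExists` of the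
trunk.

* `exists_gal` : the Galois action on `Ta` with all the properties asked by `TateDatumA`;
* `exists_tateDatumA_of_levelMaps` : from level maps with (K), (S), (C) and (H) at `ℓ ∤ N`,
  `HeckeGaloisCommute N`, `TorsionFiniteLevel N (p ^ n)`, `TorsionESRelation N p` and a
  `CmpData p N Ta hecke` to `∃ D : TateDatumA p N, Nonempty (CmpData p N D.Ta D.hecke)`.
-/
import Mathlib
import Fermat.Agent.ESJ.Rep.DefsA
import Fermat.Agent.ESJ.Rep.TateAsm

set_option autoImplicit false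

open scoped TensorProduct

namespace Fermat.Agent.ESJ.Rep.TateAsmA

open ModularCurve AlgebraicCurve Fermat.Agent.Lib.TateLim Fermat.Agent.ESJ.Rep.TateAsm

variable {p N : ℕ} [Fact p.Prime] [NeZero N]

/-- The Galois action on `Ta` induced by level maps which are Hecke-equivariant at the primes
not dividing `N`, with the four Galois fields of `TateDatumA`. -/
theorem exists_gal
    (Ta : Type) [AddCommGroup Ta] [Module ℤ_[p] Ta] [Module.Free ℤ_[p] Ta]
    [Module.Finite ℤ_[p] Ta]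
    (hecke : Nat.Primes → Module.End ℤ_[p] Ta) (π : ℕ → Ta →+ JZero N)
    (hK : ∀ n t, π n t = 0 ↔ ∃ w : Ta, t = (p : ℤ_[p]) ^ n • w)
    (hS : ∀ (n : ℕ) (x : JZero N), p ^ n • x = 0 → ∃ t, π n t = x)
    (hC : ∀ n t, p • π (n + 1) t = π n t)
    (hH : ∀ ℓ : Nat.Primes, ¬ (ℓ : ℕ) ∣ N → ∀ (n : ℕ) (t : Ta),
      π n (hecke ℓ t) = heckeOperatorBar N ℓ (π n t))
    (hG : HeckeGaloisCommute N) (hL : ∀ n : ℕ, TorsionFiniteLevel N (p ^ n))
    (hES : TorsionESRelation N p) :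
    ∃ gal : GQ →* Module.End ℤ_[p] Ta,
      (∀ (σ : GQ) (n : ℕ) (t : Ta), π n (gal σ t) = σ • π n t) ∧
      (∀ n : ℕ, ∃ L : IntermediateField ℚ Qb, FiniteDimensional ℚ L ∧
        ∀ σ : GQ, (∀ x ∈ L, σ x = x) → ∀ v : Ta, ∃ w : Ta,
          gal σ v - v = (p : ℤ_[p]) ^ n • w) ∧
      (∀ ℓ : Nat.Primes, ¬ (ℓ : ℕ) ∣ N → ∀ σ : GQ, Commute (hecke ℓ) (gal σ)) ∧
      (∀ q : ℕ, q.Prime → ¬ q ∣ N → q ≠ p →
        ∀ A : ValuationSubring Qb, A.LiesOverPrime q → ∀ σ ∈ A.inertiaSubgroupIn ℚ,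
          gal σ = 1) ∧
      (∀ ℓ : Nat.Primes, ¬ (ℓ : ℕ) ∣ N → (ℓ : ℕ) ≠ p →
        ∀ A : ValuationSubring Qb, A.LiesOverPrime ℓ → ∀ σ : GQ, A.IsFrobeniusAt σ ℓ →
          gal σ * gal σ - hecke ℓ * gal σ + ((ℓ : ℕ) : Module.End ℤ_[p] Ta) = 0) := by
  have hp : p.Prime := Fact.out
  choose g hg using exists_galLift π hK hS hC
  let gal : GQ →* Module.End ℤ_[p] Ta :=
    { toFun := g
      map_one' := linearMap_ext π hK fun n t => by
        rw [hg, one_smul, Module.End.one_apply]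
      map_mul' := fun σ τ => linearMap_ext π hK fun n t => by
        rw [hg, Module.End.mul_apply, hg, hg, mul_smul] }
  have hgal : ∀ (σ : GQ) (n : ℕ) (t : Ta), π n (gal σ t) = σ • π n t := hg
  refine ⟨gal, hgal, ?_, ?_, ?_, ?_⟩
  · -- continuity
    intro n
    obtain ⟨L, hLfin, hLfix⟩ := hL n
    refine ⟨L, hLfin, fun σ hσ v => ?_⟩
    apply (hK n _).mp
    rw [map_sub, hgal, hLfix σ hσ _ (mem_torsion π hK n v), sub_self]
  · -- Hecke commutes with Galois at `ℓ ∤ N`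
    intro ℓ hℓN σ
    refine linearMap_ext π hK fun n t => ?_
    rw [Module.End.mul_apply, Module.End.mul_apply, hH ℓ hℓN, hgal, hgal, hH ℓ hℓN]
    exact hG ℓ σ (π n t)
  · -- unramified outside `N p`
    intro q hq hqN hqp A hA σ hσ
    have hqNp : ¬ q ∣ N * p := by
      intro h
      rcases (Nat.Prime.dvd_mul hq).mp h with h | h
      · exact hqN h
      · exact hqp ((Nat.prime_dvd_prime_iff_eq hq hp).mp h)
    refine linearMap_ext π hK fun n t => ?_
    rw [hgal, Module.End.one_apply]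
    exact (hES q hq hqNp A hA).1 σ hσ _ (exists_pow_nsmul_eq_zero π hK n t)
  · -- Eichler–Shimura
    intro ℓ hℓN hℓp A hA σ hσ
    have hℓNp : ¬ (ℓ : ℕ) ∣ N * p := by
      intro h
      rcases (Nat.Prime.dvd_mul ℓ.2).mp h with h | h
      · exact hℓN h
      · exact hℓp ((Nat.prime_dvd_prime_iff_eq ℓ.2 hp).mp h)
    refine linearMap_ext π hK fun n t => ?_
    rw [LinearMap.add_apply, LinearMap.sub_apply, Module.End.mul_apply, Module.End.mul_apply,
      LinearMap.zero_apply, map_add, map_sub, hgal, hgal, hH ℓ hℓN, hgal, map_zero,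
      Module.End.natCast_apply, map_nsmul]
    exact (hES ℓ ℓ.2 hℓNp A hA).2 σ hσ _ (exists_pow_nsmul_eq_zero π hK n t)

/-- **TATE-ASM, anemic form, with comparison data**: the shape of `TateCmpAExists`. -/
theorem exists_tateDatumA_of_levelMaps
    (Ta : Type) [AddCommGroup Ta] [Module ℤ_[p] Ta] [Module.Free ℤ_[p] Ta]
    [Module.Finite ℤ_[p] Ta]
    (hecke : Nat.Primes → Module.End ℤ_[p] Ta) (π : ℕ → Ta →+ JZero N)
    (hK : ∀ n t, π n t = 0 ↔ ∃ w : Ta, t = (p : ℤ_[p]) ^ n • w)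
    (hS : ∀ (n : ℕ) (x : JZero N), p ^ n • x = 0 → ∃ t, π n t = x)
    (hC : ∀ n t, p • π (n + 1) t = π n t)
    (hH : ∀ ℓ : Nat.Primes, ¬ (ℓ : ℕ) ∣ N → ∀ (n : ℕ) (t : Ta),
      π n (hecke ℓ t) = heckeOperatorBar N ℓ (π n t))
    (hcomm : ∀ ℓ ℓ' : Nat.Primes, Commute (hecke ℓ) (hecke ℓ'))
    (hG : HeckeGaloisCommute N) (hL : ∀ n : ℕ, TorsionFiniteLevel N (p ^ n))
    (hES : TorsionESRelation N p) (C : CmpData p N Ta hecke) :
    ∃ D : TateDatumA p N, Nonempty (CmpData p N D.Ta D.hecke) := by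
  obtain ⟨gal, -, h1, h2, h3, h4⟩ := exists_gal Ta hecke π hK hS hC hH hG hL hES
  exact ⟨{ Ta := Ta, gal := gal, hecke := hecke, gal_continuous := h1, hecke_comm := hcomm,
           hecke_gal := h2, unram := h3, eichlerShimura := h4,
           eigen_dim := fun E _ _ _ χ => eigen_dim_of_cmpData C E χ }, ⟨C⟩⟩

end Fermat.Agent.ESJ.Rep.TateAsmA
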