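/-
ESJ / REP layer, task REP-CYC (owner: helper73).

The `p`-adic cyclotomic character of `G_ℚ`: `p`-adic continuity, the value `ℓ` on Frobenius
lifts at `ℓ ≠ p`, and triviality on inertia at `q ≠ p`.
-/
import Mathlib
import Fermat.Agent.ESJ.Rep.Defs
import Fermat.Agent.Lib.FrobeniusGlue
import Fermat.Agent.Lib.ValuationIntegral
import Fermat.Agent.S05.Inertia

set_option autoImplicit false

namespace Fermat.Agent.ESJ.Rep

/-- The `p`-adic cyclotomic character of `G_ℚ`. -/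
noncomputable def cyclo (p : ℕ) [Fact p.Prime] : GQ →* ℤ_[p]ˣ :=
  (cyclotomicCharacter Qb p).comp (MulSemiringAction.toRingAut GQ Qb)

namespace Cyclo

open Finset

/-- If `x ≠ 1` is an `N`-th root of unity then `1 - x` divides `N`, with an explicit
cofactor. -/
theorem natCast_eq_one_sub_mul {K : Type*} [Field K] {x : K} {N : ℕ} (hx : x ^ N = 1)
    (hx1 : x ≠ 1) :
    (N : K) = (1 - x) * ∑ j ∈ range N, ∑ i ∈ range j, x ^ i := by
  have h0 : ∑ j ∈ range N, x ^ j = 0 := by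
    have h := geom_sum_mul x N
    rw [hx, sub_self] at h
    rcases mul_eq_zero.mp h with h | h
    · exact h
    · exact absurd (sub_eq_zero.mp h) hx1
  rw [Finset.mul_sum]
  have h1 : ∀ j ∈ range N, (1 - x) * ∑ i ∈ range j, x ^ i = 1 - x ^ j := fun j _ =>
    mul_neg_geom_sum x j
  rw [Finset.sum_congr rfl h1, Finset.sum_sub_distrib, h0, sub_zero]
  simp

/-- If `x ≠ 1` is an `N`-th root of unity and `1 - x` is a non-unit of the valuation subring
`A`, then `N` is a non-unit of `A`. -/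
theorem natCast_mem_nonunits_of_root {K : Type*} [Field K] (A : ValuationSubring K) {x : K}
    {N : ℕ} (hx : x ^ N = 1) (hx1 : x ≠ 1) (hxA : x ∈ A) (h : 1 - x ∈ A.nonunits) :
    (N : K) ∈ A.nonunits := by
  rw [natCast_eq_one_sub_mul hx hx1]
  refine Lib.ValuationIntegral.mul_mem_nonunits A h ?_
  exact sum_mem fun j _ => sum_mem fun i _ => pow_mem hxA i

/-- Two powers of a `p`-power root of unity which are congruent modulo the maximal ideal of a
valuation subring of residue characteristic `q ≠ p` are equal. -/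
theorem pow_eq_pow_of_sub_mem_nonunits {K : Type*} [Field K] (A : ValuationSubring K) {q p : ℕ}
    (hq : q.Prime) (hp : p.Prime) (hqp : q ≠ p) (hA : (q : K) ∈ A.nonunits) {ζ : K} {n : ℕ}
    (hζ : ζ ^ p ^ n = 1) (a b : ℕ) (h : ζ ^ a - ζ ^ b ∈ A.nonunits) : ζ ^ a = ζ ^ b := by
  by_contra hne
  have hN : p ^ n ≠ 0 := pow_ne_zero _ hp.ne_zero
  have hζ0 : ζ ≠ 0 := by
    rintro rfl
    rw [zero_pow hN] at hζ
    exact zero_ne_one hζ
  have hζint : IsIntegral ℤ ζ := by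
    refine ⟨Polynomial.X ^ p ^ n - 1, Polynomial.monic_X_pow_sub_C 1 hN, ?_⟩
    simp [hζ]
  have hζinv : ζ⁻¹ ^ p ^ n = 1 := by rw [inv_pow, hζ, inv_one]
  have hζinvint : IsIntegral ℤ ζ⁻¹ := by
    refine ⟨Polynomial.X ^ p ^ n - 1, Polynomial.monic_X_pow_sub_C 1 hN, ?_⟩
    simp [hζinv]
  have hζA : ζ ∈ A := Lib.ValuationIntegral.mem_of_isIntegral_int A hζint
  have hζinvA : ζ⁻¹ ∈ A := Lib.ValuationIntegral.mem_of_isIntegral_int A hζinvint
  set x : K := ζ ^ a * ζ⁻¹ ^ b with hx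
  have hxN : x ^ p ^ n = 1 := by
    rw [hx, mul_pow, ← pow_mul, ← pow_mul, mul_comm a, mul_comm b, pow_mul, pow_mul, hζ, hζinv,
      one_pow, one_pow, one_mul]
  have hb0 : ζ ^ b ≠ 0 := pow_ne_zero _ hζ0
  have hx1 : x ≠ 1 := by
    intro h1
    apply hne
    rw [hx, inv_pow] at h1
    field_simp at h1
    exact h1
  have hxA : x ∈ A := mul_mem (pow_mem hζA a) (pow_mem hζinvA b)
  have h1x : 1 - x ∈ A.nonunits := by
    have e : 1 - x = (ζ ^ a - ζ ^ b) * (-ζ⁻¹ ^ b) := by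
      rw [hx, inv_pow]
      field_simp
      ring
    rw [e]
    exact Lib.ValuationIntegral.mul_mem_nonunits A h (neg_mem (pow_mem hζinvA b))
  have hpn : ((p ^ n : ℕ) : K) ∈ A.nonunits := natCast_mem_nonunits_of_root A hxN hx1 hxA h1x
  have hndvd : ¬ (q : ℤ) ∣ ((p ^ n : ℕ) : ℤ) := by
    rw [Int.natCast_dvd_natCast]
    intro hdvd
    exact hqp ((Nat.prime_dvd_prime_iff_eq hq hp).mp (hq.dvd_of_dvd_pow hdvd))
  have := Lib.ValuationIntegral.intCast_notMem_nonunits A hq hA hndvd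
  apply this
  exact_mod_cast hpn

/-- A Frobenius element at `A` acts as `x ↦ x ^ q` modulo the maximal ideal of `A`. -/
theorem frob_sub_mem_nonunits {K L : Type*} [Field K] [Field L] [Algebra K L]
    (A : ValuationSubring L) (σ : L ≃ₐ[K] L) (q : ℕ) (hσ : A.IsFrobeniusAt σ q) {x : L}
    (hx : x ∈ A) : σ x - x ^ q ∈ A.nonunits := by
  have hdec := hσ.mem_decompositionSubgroup
  have h := hσ.smul_residue_eq (IsLocalRing.residue A ⟨x, hx⟩)
  set g : A.decompositionSubgroup K := ⟨σ, hdec⟩ with hg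
  have hmem : σ x ∈ A := ((g • (⟨x, hx⟩ : A) : A)).2
  rw [← IsLocalRing.ResidueField.residue_smul, ← map_pow] at h
  have h3 : (g • (⟨x, hx⟩ : A) : A) - (⟨x, hx⟩ : A) ^ q ∈ IsLocalRing.maximalIdeal A := by
    rw [← Ideal.Quotient.eq]
    exact h
  rw [ValuationSubring.mem_nonunits_iff_exists_mem_maximalIdeal]
  exact ⟨A.sub_mem hmem (pow_mem hx q), h3⟩

theorem neZero_prime (p : ℕ) [hp : Fact p.Prime] : NeZero ((p : ℕ) : ℚ) :=
  ⟨by exact_mod_cast hp.1.ne_zero⟩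

/-- The defining property of `cyclo`. -/
theorem cyclo_spec (p : ℕ) [Fact p.Prime] (n : ℕ) (σ : GQ) (t : Qb) (ht : t ^ p ^ n = 1) :
    σ t = t ^ (PadicInt.toZModPow n ((cyclo p σ : ℤ_[p]ˣ) : ℤ_[p])).val :=
  have := neZero_prime p
  cyclotomicCharacter.spec p (MulSemiringAction.toRingAut GQ Qb σ) t ht

/-- Reading off `cyclo p σ` modulo `p ^ n` from the action on a primitive `p ^ n`-th root of
unity. -/
theorem toZModPow_cyclo_eq (p : ℕ) [Fact p.Prime] (n : ℕ) (σ : GQ) (b : ℕ) {ζ : Qb}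
    (hζ : IsPrimitiveRoot ζ (p ^ n)) (h : σ ζ = ζ ^ b) :
    PadicInt.toZModPow n ((cyclo p σ : ℤ_[p]ˣ) : ℤ_[p]) = (b : ZMod (p ^ n)) := by
  have hp : p.Prime := Fact.out
  have : NeZero (p ^ n) := ⟨pow_ne_zero _ hp.ne_zero⟩
  have h1 := cyclo_spec p n σ ζ hζ.pow_eq_one
  rw [h] at h1
  have h2 : b ≡ (PadicInt.toZModPow n ((cyclo p σ : ℤ_[p]ˣ) : ℤ_[p])).val [MOD p ^ n] := by
    have hpos : 0 < p ^ n := Nat.pos_of_ne_zero (pow_ne_zero _ hp.ne_zero)
    refine hζ.pow_inj (Nat.mod_lt _ hpos) (Nat.mod_lt _ hpos) ?_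
    have e : ∀ k : ℕ, ζ ^ (k % p ^ n) = ζ ^ k := fun k => by
      conv_lhs => rw [hζ.eq_orderOf]
      exact pow_mod_orderOf ζ k
    rw [e, e, h1]
  have h3 := (ZMod.natCast_eq_natCast_iff _ _ _).mpr h2
  rw [ZMod.natCast_zmod_val] at h3
  exact h3.symm

/-- Existence of primitive `p ^ n`-th roots of unity in `ℚ̄`. -/
theorem exists_primitiveRoot (p : ℕ) [Fact p.Prime] (n : ℕ) :
    ∃ ζ : Qb, IsPrimitiveRoot ζ (p ^ n) :=
  have := neZero_prime p
  HasEnoughRootsOfUnity.exists_primitiveRoot Qb (p ^ n)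

/-- If `σ ζ ≡ ζ ^ b` modulo the maximal ideal of `A` for all `p`-power roots of unity `ζ`, and
the residue characteristic of `A` is `q ≠ p`, then `cyclo p σ = b`. -/
theorem cyclo_eq_natCast (p : ℕ) [Fact p.Prime] {q : ℕ} (hq : q.Prime) (hqp : q ≠ p)
    (A : ValuationSubring Qb) (hA : A.LiesOverPrime q) (σ : GQ) (b : ℕ)
    (h : ∀ ζ : Qb, IsIntegral ℤ ζ → σ ζ - ζ ^ b ∈ A.nonunits) :
    ((cyclo p σ : ℤ_[p]ˣ) : ℤ_[p]) = (b : ℤ_[p]) := by
  have hp : p.Prime := Fact.out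
  refine PadicInt.ext_of_toZModPow.mp fun n => ?_
  obtain ⟨ζ, hζ⟩ := exists_primitiveRoot p n
  have hN : p ^ n ≠ 0 := pow_ne_zero _ hp.ne_zero
  have hζint : IsIntegral ℤ ζ := hζ.isIntegral (Nat.pos_of_ne_zero hN)
  have h1 := cyclo_spec p n σ ζ hζ.pow_eq_one
  have h2 := h ζ hζint
  rw [h1] at h2
  have h3 := pow_eq_pow_of_sub_mem_nonunits A hq hp hqp hA hζ.pow_eq_one _ _ h2
  rw [← h1] at h3
  rw [toZModPow_cyclo_eq p n σ b hζ h3, map_natCast]

end Cyclo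

open Cyclo

/-- `p`-adic continuity of the cyclotomic character. -/
theorem cyclo_sub_one (p : ℕ) [Fact p.Prime] (n : ℕ) :
    ∃ L : IntermediateField ℚ Qb, FiniteDimensional ℚ L ∧
      ∀ σ : GQ, (∀ x ∈ L, σ x = x) →
        ∃ c : ℤ_[p], ((cyclo p σ : ℤ_[p]ˣ) : ℤ_[p]) - 1 = (p : ℤ_[p]) ^ n * c := by
  have hp : p.Prime := Fact.out
  obtain ⟨ζ, hζ⟩ := exists_primitiveRoot p n
  have hN : p ^ n ≠ 0 := pow_ne_zero _ hp.ne_zero
  have hζint : IsIntegral ℤ ζ := hζ.isIntegral (Nat.pos_of_ne_zero hN)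
  refine ⟨IntermediateField.adjoin ℚ {ζ},
    IntermediateField.adjoin.finiteDimensional hζint.tower_top, fun σ hσ => ?_⟩
  have h1 : σ ζ = ζ ^ 1 := by
    rw [pow_one]
    exact hσ ζ (IntermediateField.mem_adjoin_simple_self ℚ ζ)
  have h2 := toZModPow_cyclo_eq p n σ 1 hζ h1
  have h3 : ((cyclo p σ : ℤ_[p]ˣ) : ℤ_[p]) - 1 ∈ RingHom.ker (PadicInt.toZModPow (p := p) n) := by
    rw [RingHom.mem_ker, map_sub, map_one, h2, Nat.cast_one, sub_self]
  rw [PadicInt.ker_toZModPow, Ideal.mem_span_singleton] at h3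
  obtain ⟨c, hc⟩ := h3
  exact ⟨c, hc⟩

/-- The cyclotomic character takes the value `ℓ` on Frobenius lifts at `ℓ ≠ p`. -/
theorem cyclo_frobenius (p : ℕ) [Fact p.Prime] {ℓ : ℕ} (hℓ : ℓ.Prime) (hℓp : ℓ ≠ p)
    (A : ValuationSubring Qb) (hA : A.LiesOverPrime ℓ) (σ : GQ) (hσ : A.IsFrobeniusAt σ ℓ) :
    ((cyclo p σ : ℤ_[p]ˣ) : ℤ_[p]) = (ℓ : ℤ_[p]) :=
  cyclo_eq_natCast p hℓ hℓp A hA σ ℓ fun _ hζ =>
    frob_sub_mem_nonunits A σ ℓ hσ (Lib.ValuationIntegral.mem_of_isIntegral_int A hζ)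

/-- The cyclotomic character is trivial on inertia at `q ≠ p`. -/
theorem cyclo_inertia (p : ℕ) [Fact p.Prime] {q : ℕ} (hq : q.Prime) (hqp : q ≠ p)
    (A : ValuationSubring Qb) (hA : A.LiesOverPrime q) (σ : GQ)
    (hσ : σ ∈ A.inertiaSubgroupIn ℚ) : cyclo p σ = 1 := by
  apply Units.ext
  have h := cyclo_eq_natCast p hq hqp A hA σ 1 fun ζ hζ => by
    rw [pow_one]
    exact (S05.Inertia.mem_and_sub_mem_nonunits A σ hσ).2 ζ
      (Lib.ValuationIntegral.mem_of_isIntegral_int A hζ)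
  rw [h, Nat.cast_one, Units.val_one]

end Fermat.Agent.ESJ.Rep
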