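/-
ESJ / REP layer — task 174 (REP-EIGFORM), owner helper40.

A normalized eigenform `g` of level `Γ₀(N)` and weight `2` gives a ring homomorphism
`χ_g` from the FULL Hecke algebra `heckeAlgebra N 2 ∅` to the ring of algebraic integers,
with `t g = χ_g(t) • g` for all `t` and `χ_g(T_ℓ) = a_ℓ(g)`, `χ_g(U_q) = a_q(g)`.
-/
import Mathlib
import Fermat.Agent.ESJ.Rep.Defs
import Fermat.Agent.S49.Forms
import Fermat.Agent.S22

set_option autoImplicit false

open CongruenceSubgroup ModularFormClass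

namespace Fermat.Agent.ESJ.Rep.EigChar

variable {N : ℕ} {g : CuspForm (Gamma0 N) 2}

/-- `T_ℓ g = a_ℓ(g) g` for a normalized eigenform `g` and a prime `ℓ ∤ N`. -/
theorem heckeTLin_apply_eq (hg : g.IsNormalizedEigenform) {ℓ : ℕ} (hℓ : ℓ.Prime)
    (hℓN : ¬ ℓ ∣ N) : CuspForm.heckeTLin 2 hℓ hℓN g = qCoeff (⇑g) ℓ • g := by
  apply Fermat.Agent.S49.ext_qCoeff
  intro n
  rw [Fermat.Agent.S49.qCoeff_heckeT, Fermat.Agent.S49.qCoeff_smul]
  have hz : ((ℓ : ℂ)) ^ ((2 : ℤ) - 1) = ℓ := by norm_num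
  rw [hz]
  rcases eq_or_ne n 0 with rfl | hn
  · simp [Fermat.Agent.S49.qCoeff_zero_eq]
  obtain ⟨r, m, hm, rfl⟩ := Nat.exists_eq_pow_mul_and_not_dvd hn ℓ hℓ.ne_one
  have hcop1 : ℓ.Coprime m := (Nat.Prime.coprime_iff_not_dvd hℓ).mpr hm
  have hcop : ∀ s : ℕ, (ℓ ^ s).Coprime m := fun s => Nat.Coprime.pow_left s hcop1
  cases r with
  | zero =>
    have h1 : ¬ ℓ ∣ ℓ ^ 0 * m := by simpa using hm
    rw [if_neg h1]
    have e : ℓ ^ 0 * m * ℓ = ℓ * m := by ring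
    rw [e, hg.qCoeff_mul_of_coprime ℓ m hcop1]
    simp
  | succ s =>
    have h1 : ℓ ∣ ℓ ^ (s + 1) * m := Dvd.dvd.mul_right (dvd_pow_self ℓ (Nat.succ_ne_zero s)) m
    rw [if_pos h1]
    have e1 : ℓ ^ (s + 1) * m * ℓ = ℓ ^ (s + 2) * m := by ring
    have e2 : ℓ ^ (s + 1) * m / ℓ = ℓ ^ s * m := by
      rw [pow_succ, mul_right_comm, Nat.mul_div_cancel _ hℓ.pos]
    rw [e1, e2, hg.qCoeff_mul_of_coprime _ _ (hcop _), hg.qCoeff_mul_of_coprime _ _ (hcop _),
      hg.qCoeff_mul_of_coprime _ _ (hcop _), hg.qCoeff_prime_pow_of_not_dvd ℓ s hℓ hℓN]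
    ring

/-- `U_q g = a_q(g) g` for a normalized eigenform `g` and a prime `q ∣ N`. -/
theorem heckeULin_apply_eq [NeZero N] (hg : g.IsNormalizedEigenform) {q : ℕ} (hq : q.Prime)
    (hqN : q ∣ N) : CuspForm.heckeULin 2 hqN g = qCoeff (⇑g) q • g := by
  apply Fermat.Agent.S49.ext_qCoeff
  intro n
  rw [Fermat.Agent.S49.qCoeff_heckeU hq hqN, Fermat.Agent.S49.qCoeff_smul]
  rcases eq_or_ne n 0 with rfl | hn
  · simp [Fermat.Agent.S49.qCoeff_zero_eq]
  obtain ⟨r, m, hm, rfl⟩ := Nat.exists_eq_pow_mul_and_not_dvd hn q hq.ne_one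
  have hcop1 : q.Coprime m := (Nat.Prime.coprime_iff_not_dvd hq).mpr hm
  have hcop : ∀ s : ℕ, (q ^ s).Coprime m := fun s => Nat.Coprime.pow_left s hcop1
  have hpow : ∀ r : ℕ, qCoeff (⇑g) (q ^ (r + 1)) = qCoeff (⇑g) q * qCoeff (⇑g) (q ^ r) := by
    intro r
    cases r with
    | zero => simp [hg.qCoeff_one]
    | succ s => exact hg.qCoeff_prime_pow_of_dvd q s hq hqN
  have e1 : q ^ r * m * q = q ^ (r + 1) * m := by ring
  rw [e1, hg.qCoeff_mul_of_coprime _ _ (hcop _), hg.qCoeff_mul_of_coprime _ _ (hcop _), hpow]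
  ring

/-- Every element of the full Hecke algebra acts on a normalized eigenform by a scalar. -/
theorem exists_smul_eq [NeZero N] (hg : g.IsNormalizedEigenform)
    {t : Module.End ℂ (CuspForm (Gamma0 N) 2)} (ht : t ∈ CuspForm.heckeAlgebra N 2 (∅ : Set ℕ)) :
    ∃ c : ℂ, t g = c • g := by
  unfold CuspForm.heckeAlgebra at ht
  induction ht using Algebra.adjoin_induction with
  | mem x hx =>
    rcases hx with ⟨ℓ, hℓ, hℓN, -, rfl⟩ | ⟨q, hqN, hq, -, rfl⟩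
    · exact ⟨_, heckeTLin_apply_eq hg hℓ hℓN⟩
    · exact ⟨_, heckeULin_apply_eq hg hq hqN⟩
  | algebraMap r =>
    refine ⟨(r : ℂ), ?_⟩
    rw [Algebra.algebraMap_eq_smul_one, LinearMap.smul_apply, Module.End.one_apply]
    exact (Int.cast_smul_eq_zsmul ℂ r g).symm
  | add x y _ _ hx hy =>
    obtain ⟨a, ha⟩ := hx
    obtain ⟨b, hb⟩ := hy
    exact ⟨a + b, by rw [LinearMap.add_apply, ha, hb, add_smul]⟩
  | mul x y _ _ hx hy =>
    obtain ⟨a, ha⟩ := hx
    obtain ⟨b, hb⟩ := hy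
    exact ⟨a * b, by rw [Module.End.mul_apply, hb, map_smul, ha, smul_smul, mul_comm]⟩

/-- The scalar by which `t` acts on `g`, read off from the first `q`-coefficient. -/
theorem apply_eq_qLin_smul [NeZero N] (hg : g.IsNormalizedEigenform)
    (t : CuspForm.heckeAlgebra N 2 (∅ : Set ℕ)) :
    (t : Module.End ℂ (CuspForm (Gamma0 N) 2)) g =
      Fermat.Agent.S49.qLin N 2 1 ((t : Module.End ℂ (CuspForm (Gamma0 N) 2)) g) • g := by
  obtain ⟨c, hc⟩ := exists_smul_eq hg t.2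
  rw [hc, map_smul, Fermat.Agent.S49.qLin_apply, hg.qCoeff_one, smul_eq_mul, mul_one]

theorem coe_one_heckeAlgebra [NeZero N] :
    ((1 : CuspForm.heckeAlgebra N 2 (∅ : Set ℕ)) : Module.End ℂ (CuspForm (Gamma0 N) 2)) = 1 :=
  rfl

theorem coe_mul_heckeAlgebra [NeZero N] (a b : CuspForm.heckeAlgebra N 2 (∅ : Set ℕ)) :
    ((a * b : CuspForm.heckeAlgebra N 2 (∅ : Set ℕ)) :
      Module.End ℂ (CuspForm (Gamma0 N) 2)) = (a : Module.End ℂ (CuspForm (Gamma0 N) 2)) * b :=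
  rfl

theorem coe_zero_heckeAlgebra [NeZero N] :
    ((0 : CuspForm.heckeAlgebra N 2 (∅ : Set ℕ)) : Module.End ℂ (CuspForm (Gamma0 N) 2)) = 0 :=
  rfl

theorem coe_add_heckeAlgebra [NeZero N] (a b : CuspForm.heckeAlgebra N 2 (∅ : Set ℕ)) :
    ((a + b : CuspForm.heckeAlgebra N 2 (∅ : Set ℕ)) :
      Module.End ℂ (CuspForm (Gamma0 N) 2)) = (a : Module.End ℂ (CuspForm (Gamma0 N) 2)) + b :=
  rfl

/-- The underlying function of the eigencharacter. -/
noncomputable def chiFun [NeZero N] (g : CuspForm (Gamma0 N) 2)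
    (t : CuspForm.heckeAlgebra N 2 (∅ : Set ℕ)) : ℂ :=
  Fermat.Agent.S49.qLin N 2 1 ((t : Module.End ℂ (CuspForm (Gamma0 N) 2)) g)

theorem chiFun_one [NeZero N] (hg : g.IsNormalizedEigenform) : chiFun g 1 = 1 := by
  unfold chiFun
  rw [coe_one_heckeAlgebra, Module.End.one_apply, Fermat.Agent.S49.qLin_apply, hg.qCoeff_one]

theorem chiFun_mul [NeZero N] (hg : g.IsNormalizedEigenform)
    (a b : CuspForm.heckeAlgebra N 2 (∅ : Set ℕ)) :
    chiFun g (a * b) = chiFun g a * chiFun g b := by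
  unfold chiFun
  rw [coe_mul_heckeAlgebra, Module.End.mul_apply, apply_eq_qLin_smul hg b, map_smul, map_smul,
    smul_eq_mul, ← apply_eq_qLin_smul hg b, mul_comm]

theorem chiFun_zero [NeZero N] (g : CuspForm (Gamma0 N) 2) : chiFun g 0 = 0 := by
  unfold chiFun
  rw [coe_zero_heckeAlgebra, LinearMap.zero_apply, map_zero]

theorem chiFun_add [NeZero N] (g : CuspForm (Gamma0 N) 2)
    (a b : CuspForm.heckeAlgebra N 2 (∅ : Set ℕ)) :
    chiFun g (a + b) = chiFun g a + chiFun g b := by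
  unfold chiFun
  rw [coe_add_heckeAlgebra, LinearMap.add_apply, map_add]

/-- The eigencharacter of a normalized eigenform, with values in `ℂ`. -/
noncomputable def chiC [NeZero N] (hg : g.IsNormalizedEigenform) :
    CuspForm.heckeAlgebra N 2 (∅ : Set ℕ) →+* ℂ where
  toFun := chiFun g
  map_one' := chiFun_one hg
  map_mul' := chiFun_mul hg
  map_zero' := chiFun_zero g
  map_add' := chiFun_add g

theorem chiC_apply [NeZero N] (hg : g.IsNormalizedEigenform)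
    (t : CuspForm.heckeAlgebra N 2 (∅ : Set ℕ)) :
    chiC hg t = qCoeff (⇑((t : Module.End ℂ (CuspForm (Gamma0 N) 2)) g)) 1 := rfl

theorem apply_eq_chiC_smul [NeZero N] (hg : g.IsNormalizedEigenform)
    (t : CuspForm.heckeAlgebra N 2 (∅ : Set ℕ)) :
    (t : Module.End ℂ (CuspForm (Gamma0 N) 2)) g = chiC hg t • g :=
  apply_eq_qLin_smul hg t

/-- If `t g = c • g` then `χ_g(t) = c`. -/
theorem chiC_eq_of_apply_eq [NeZero N] (hg : g.IsNormalizedEigenform)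
    (t : CuspForm.heckeAlgebra N 2 (∅ : Set ℕ)) {c : ℂ}
    (h : (t : Module.End ℂ (CuspForm (Gamma0 N) 2)) g = c • g) : chiC hg t = c := by
  rw [chiC_apply, h, Fermat.Agent.S49.qCoeff_smul, hg.qCoeff_one, mul_one]

theorem chiC_T [NeZero N] (hg : g.IsNormalizedEigenform) {ℓ : ℕ} (hℓ : ℓ.Prime)
    (hℓN : ¬ ℓ ∣ N) :
    chiC hg (CuspForm.heckeAlgebra.T hℓ hℓN (Set.notMem_empty ℓ)) = qCoeff (⇑g) ℓ :=
  chiC_eq_of_apply_eq hg _ (heckeTLin_apply_eq hg hℓ hℓN)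

theorem chiC_U [NeZero N] (hg : g.IsNormalizedEigenform) {q : ℕ} (hq : q.Prime)
    (hqN : q ∣ N) :
    chiC hg (CuspForm.heckeAlgebra.U hq hqN (Set.notMem_empty q)) = qCoeff (⇑g) q :=
  chiC_eq_of_apply_eq hg _ (heckeULin_apply_eq hg hq hqN)

theorem chiC_heckeFormsGen [NeZero N] (hg : g.IsNormalizedEigenform) (ℓ : Nat.Primes) :
    chiC hg (CuspForm.heckeFormsGen N 2 ℓ) = qCoeff (⇑g) ℓ := by
  unfold CuspForm.heckeFormsGen
  split_ifs with h
  · exact chiC_U hg ℓ.2 h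
  · exact chiC_T hg ℓ.2 h

/-- The values of the eigencharacter are algebraic integers (uses S22: the Hecke algebra is
a finite `ℤ`-module). -/
theorem isIntegral_chiC [NeZero N] (hg : g.IsNormalizedEigenform)
    (t : CuspForm.heckeAlgebra N 2 (∅ : Set ℕ)) : IsIntegral ℤ (chiC hg t) := by
  have : Module.Finite ℤ (CuspForm.heckeAlgebra N 2 (∅ : Set ℕ)) :=
    Fermat.Agent.S22.result N 2 ∅
  have h : IsIntegral ℤ t := IsIntegral.of_finite ℤ t
  exact h.map (chiC hg).toIntAlgHom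

/-- The eigencharacter of a normalized eigenform, with values in the algebraic integers. -/
noncomputable def chi [NeZero N] (hg : g.IsNormalizedEigenform) :
    CuspForm.heckeAlgebra N 2 (∅ : Set ℕ) →+* integralClosure ℤ ℂ :=
  (chiC hg).codRestrict (integralClosure ℤ ℂ) (isIntegral_chiC hg)

theorem coe_chi [NeZero N] (hg : g.IsNormalizedEigenform)
    (t : CuspForm.heckeAlgebra N 2 (∅ : Set ℕ)) :
    ((chi hg t : integralClosure ℤ ℂ) : ℂ) = chiC hg t := rfl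

end Fermat.Agent.ESJ.Rep.EigChar

namespace Fermat.Agent.ESJ.Rep

open EigChar

/-- **REP-EIGFORM** (task 174): the eigencharacter of a normalized eigenform. -/
theorem exists_ringHom_of_isNormalizedEigenform {N : ℕ} [NeZero N]
    {g : CuspForm (CongruenceSubgroup.Gamma0 N) 2} (hg : g.IsNormalizedEigenform) :
    ∃ χ : CuspForm.heckeAlgebra N 2 (∅ : Set ℕ) →+* integralClosure ℤ ℂ,
      (∀ t : CuspForm.heckeAlgebra N 2 (∅ : Set ℕ),
        (t : Module.End ℂ (CuspForm (CongruenceSubgroup.Gamma0 N) 2)) g =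
          ((χ t : integralClosure ℤ ℂ) : ℂ) • g) ∧
      ∀ (ℓ : ℕ) (hℓ : ℓ.Prime) (hℓN : ¬ ℓ ∣ N),
        ((χ (CuspForm.heckeAlgebra.T hℓ hℓN (Set.notMem_empty ℓ)) : integralClosure ℤ ℂ) : ℂ) =
          ModularFormClass.qCoeff g ℓ :=
  ⟨chi hg, fun t => apply_eq_chiC_smul hg t, fun _ hℓ hℓN => chiC_T hg hℓ hℓN⟩

/-- Variant of `exists_ringHom_of_isNormalizedEigenform` which also records the values on
`U_q` (`q ∣ N`) and on the uniform generators `heckeFormsGen`. -/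
theorem exists_ringHom_of_isNormalizedEigenform' {N : ℕ} [NeZero N]
    {g : CuspForm (CongruenceSubgroup.Gamma0 N) 2} (hg : g.IsNormalizedEigenform) :
    ∃ χ : CuspForm.heckeAlgebra N 2 (∅ : Set ℕ) →+* integralClosure ℤ ℂ,
      (∀ t : CuspForm.heckeAlgebra N 2 (∅ : Set ℕ),
        (t : Module.End ℂ (CuspForm (CongruenceSubgroup.Gamma0 N) 2)) g =
          ((χ t : integralClosure ℤ ℂ) : ℂ) • g) ∧
      (∀ (ℓ : ℕ) (hℓ : ℓ.Prime) (hℓN : ¬ ℓ ∣ N),
        ((χ (CuspForm.heckeAlgebra.T hℓ hℓN (Set.notMem_empty ℓ)) : integralClosure ℤ ℂ) : ℂ) =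
          ModularFormClass.qCoeff g ℓ) ∧
      (∀ (q : ℕ) (hq : q.Prime) (hqN : q ∣ N),
        ((χ (CuspForm.heckeAlgebra.U hq hqN (Set.notMem_empty q)) : integralClosure ℤ ℂ) : ℂ) =
          ModularFormClass.qCoeff g q) ∧
      ∀ ℓ : Nat.Primes,
        ((χ (CuspForm.heckeFormsGen N 2 ℓ) : integralClosure ℤ ℂ) : ℂ) =
          ModularFormClass.qCoeff g ℓ :=
  ⟨chi hg, fun t => apply_eq_chiC_smul hg t, fun _ hℓ hℓN => chiC_T hg hℓ hℓN,
    fun _ hq hqN => chiC_U hg hq hqN, fun ℓ => chiC_heckeFormsGen hg ℓ⟩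

end Fermat.Agent.ESJ.Rep
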