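/-
ESJ / REP layer — REP-LATT (task 164, owner helper9).

Eigen-sublattices: for a finite free `R`-module `M` with a (possibly infinite) family of
endomorphisms `t i`, the simultaneous eigenspaces of the base-changed operators satisfy

* `finrank_eigenspace_fraction`: rank over a domain `𝒪` = dimension over its fraction field;
* `finrank_eigenspace_fieldExt`: invariance of the dimension under a field extension;
* `eigenspace_saturated`: the eigen-sublattice over a domain is saturated.
-/
import Mathlib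
import Fermat.Agent.ESJ.Rep.Defs

set_option autoImplicit false
set_option linter.unusedSectionVars false

open scoped TensorProduct
open Polynomial

namespace Fermat.Agent.ESJ.Rep

namespace Lattice

open TensorProduct

section Cmp

variable {R : Type*} [CommRing R] {M : Type*} [AddCommGroup M] [Module R M]
variable (A : Type*) [CommRing A] [Algebra R A] (B : Type*) [CommRing B] [Algebra R B]
  [Algebra A B] [IsScalarTower R A B]

/-- The comparison map `A ⊗[R] M → B ⊗[R] M`, `a ⊗ m ↦ a ⊗ m`. -/
noncomputable def cmp : A ⊗[R] M →ₗ[A] B ⊗[R] M :=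
  AlgebraTensorModule.rTensor R M (Algebra.linearMap A B)

@[simp] theorem cmp_tmul (a : A) (m : M) :
    cmp (R := R) A B (a ⊗ₜ[R] m) = algebraMap A B a ⊗ₜ[R] m := rfl

theorem cmp_baseChange (t : Module.End R M) (x : A ⊗[R] M) :
    cmp A B (t.baseChange A x) = t.baseChange B (cmp A B x) := by
  induction x using TensorProduct.induction_on with
  | zero => simp
  | tmul a m => simp
  | add x y hx hy => simp [hx, hy]

theorem cmp_smul (a : A) (x : A ⊗[R] M) :
    cmp A B (a • x) = algebraMap A B a • cmp A B x := by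
  rw [map_smul, algebraMap_smul]

variable {ι : Type*} (t : ι → Module.End R M)

theorem cmp_mem_eigenspace {a : ι → A} {x : A ⊗[R] M}
    (hx : x ∈ eigenspace (fun i => (t i).baseChange A) a) :
    cmp A B x ∈ eigenspace (fun i => (t i).baseChange B) (fun i => algebraMap A B (a i)) := by
  rw [mem_eigenspace] at hx ⊢
  intro i
  rw [← cmp_baseChange, hx i, cmp_smul]

theorem mem_eigenspace_of_cmp (hinj : Function.Injective (cmp (R := R) (M := M) A B))
    {a : ι → A} {x : A ⊗[R] M}
    (hx : cmp A B x ∈ eigenspace (fun i => (t i).baseChange B)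
      (fun i => algebraMap A B (a i))) :
    x ∈ eigenspace (fun i => (t i).baseChange A) a := by
  rw [mem_eigenspace] at hx ⊢
  intro i
  apply hinj
  rw [cmp_baseChange, hx i, cmp_smul]

/-- The comparison map restricted to the eigenspaces. -/
noncomputable def cmpEig (a : ι → A) :
    eigenspace (fun i => (t i).baseChange A) a →ₗ[A]
      eigenspace (fun i => (t i).baseChange B) (fun i => algebraMap A B (a i)) where
  toFun x := ⟨cmp A B x, cmp_mem_eigenspace A B t x.2⟩
  map_add' x y := by ext; simp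
  map_smul' c x := by ext; simp

@[simp] theorem cmpEig_coe (a : ι → A) (x : eigenspace (fun i => (t i).baseChange A) a) :
    (cmpEig A B t a x : B ⊗[R] M) = cmp A B (x : A ⊗[R] M) := rfl

end Cmp

section Fraction

variable {R : Type*} [CommRing R] {M : Type*} [AddCommGroup M] [Module R M] [Module.Free R M]
variable (𝒪 : Type*) [CommRing 𝒪] [IsDomain 𝒪] [Algebra R 𝒪] (K : Type*) [Field K]
  [Algebra 𝒪 K] [IsFractionRing 𝒪 K] [Algebra R K] [IsScalarTower R 𝒪 K]

theorem cmp_injective_fraction : Function.Injective (cmp (R := R) (M := M) 𝒪 K) :=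
  Module.Flat.rTensor_preserves_injective_linearMap (M := M)
    ((Algebra.linearMap 𝒪 K).restrictScalars R) (IsFractionRing.injective 𝒪 K)

theorem exists_clear_denom (y : K ⊗[R] M) :
    ∃ (s : 𝒪) (x : 𝒪 ⊗[R] M), s ≠ 0 ∧ s • y = cmp 𝒪 K x := by
  induction y using TensorProduct.induction_on with
  | zero => exact ⟨1, 0, one_ne_zero, by simp⟩
  | tmul k m =>
    obtain ⟨a, s, hs, rfl⟩ := IsFractionRing.div_surjective (A := 𝒪) k
    have hs0 : algebraMap 𝒪 K s ≠ 0 :=
      IsFractionRing.to_map_ne_zero_of_mem_nonZeroDivisors hs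
    refine ⟨s, a ⊗ₜ m, nonZeroDivisors.ne_zero hs, ?_⟩
    rw [cmp_tmul, TensorProduct.smul_tmul', Algebra.smul_def, mul_div_cancel₀ _ hs0]
  | add y₁ y₂ h₁ h₂ =>
    obtain ⟨s₁, x₁, hs₁, e₁⟩ := h₁
    obtain ⟨s₂, x₂, hs₂, e₂⟩ := h₂
    refine ⟨s₁ * s₂, s₂ • x₁ + s₁ • x₂, mul_ne_zero hs₁ hs₂, ?_⟩
    rw [smul_add, map_add, map_smul, map_smul, ← e₁, ← e₂, smul_smul, smul_smul, mul_comm s₂ s₁]

variable {ι : Type*} (t : ι → Module.End R M)

theorem finrank_eigenspace_fraction_aux (a : ι → 𝒪) :
    Module.finrank 𝒪 (eigenspace (fun i => (t i).baseChange 𝒪) a) =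
      Module.finrank K (eigenspace (fun i => (t i).baseChange K)
        (fun i => algebraMap 𝒪 K (a i))) := by
  have hloc : IsLocalizedModule (nonZeroDivisors 𝒪) (cmpEig 𝒪 K t a) :=
    { map_units := fun s => by
        have hs0 : algebraMap 𝒪 K (s : 𝒪) ≠ 0 :=
          IsFractionRing.to_map_ne_zero_of_mem_nonZeroDivisors s.2
        rw [Module.End.isUnit_iff]
        constructor
        · intro y₁ y₂ h
          have h' : (s : 𝒪) • y₁ = (s : 𝒪) • y₂ := h
          rw [← algebraMap_smul K (s : 𝒪) y₁, ← algebraMap_smul K (s : 𝒪) y₂] at h'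
          exact smul_right_injective _ hs0 h'
        · intro y
          refine ⟨(algebraMap 𝒪 K (s : 𝒪))⁻¹ • y, ?_⟩
          change (s : 𝒪) • ((algebraMap 𝒪 K (s : 𝒪))⁻¹ • y) = y
          rw [← algebraMap_smul K (s : 𝒪), smul_smul, mul_inv_cancel₀ hs0, one_smul]
      surj := fun y => by
        obtain ⟨s, x, hs, e⟩ := exists_clear_denom (R := R) 𝒪 K (y : K ⊗[R] M)
        have hx : x ∈ eigenspace (fun i => (t i).baseChange 𝒪) a := by
          apply mem_eigenspace_of_cmp 𝒪 K t (cmp_injective_fraction 𝒪 K)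
          rw [← e]
          exact Submodule.smul_of_tower_mem _ s y.2
        exact ⟨(⟨x, hx⟩, ⟨s, mem_nonZeroDivisors_of_ne_zero hs⟩), Subtype.ext e⟩
      exists_of_eq := fun {x₁ x₂} h => ⟨1, by
        have h' : (x₁ : 𝒪 ⊗[R] M) = x₂ :=
          cmp_injective_fraction 𝒪 K (congrArg Subtype.val h)
        rw [Subtype.ext h']⟩ }
  have h1 := IsLocalizedModule.finrank_eq
    (M := eigenspace (fun i => (t i).baseChange 𝒪) a)
    (N := eigenspace (fun i => (t i).baseChange K) (fun i => algebraMap 𝒪 K (a i)))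
    (nonZeroDivisors 𝒪) (cmpEig 𝒪 K t a) le_rfl
  have h2 := IsLocalization.finrank_eq K (nonZeroDivisors 𝒪) le_rfl
    (N := eigenspace (fun i => (t i).baseChange K) (fun i => algebraMap 𝒪 K (a i)))
  rw [h2, h1]

end Fraction

section FieldExt

/-- In an Artinian module, an arbitrary intersection of submodules is a finite
sub-intersection. -/
theorem exists_finset_iInf_eq {K V ι : Type*} [Ring K] [AddCommGroup V] [Module K V]
    [IsArtinian K V] (W : ι → Submodule K V) :
    ∃ F : Finset ι, ⨅ i, W i = ⨅ i : F, W i := by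
  classical
  obtain ⟨N, ⟨F, rfl⟩, hmin⟩ := IsArtinian.set_has_minimal
    (Set.range fun F : Finset ι => ⨅ i ∈ F, W i) ⟨_, ⟨∅, rfl⟩⟩
  refine ⟨F, le_antisymm (le_iInf fun i => iInf_le W i) (le_iInf fun j => ?_)⟩
  have h0 : (⨅ i : F, W i) = ⨅ i ∈ F, W i := iInf_subtype' (p := fun i => i ∈ F) (f := fun i _ => W i) |>.symm
  have h1 : (⨅ i ∈ insert j F, W i) ≤ ⨅ i ∈ F, W i := by
    rw [Finset.iInf_insert]; exact inf_le_right
  have h2 : (⨅ i ∈ insert j F, W i) = ⨅ i ∈ F, W i :=
    eq_of_le_of_not_lt h1 (hmin _ ⟨insert j F, rfl⟩)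
  rw [h0, ← h2, Finset.iInf_insert]; exact inf_le_left

/-- Kernels of finite families commute with flat base change. -/
theorem isBaseChange_iInf_ker {A B : Type*} [CommRing A] [CommRing B] [Algebra A B]
    [Module.Flat A B] {V V' : Type*} [AddCommGroup V] [Module A V] [AddCommGroup V']
    [Module A V'] [Module B V'] [IsScalarTower A B V'] {φ : V →ₗ[A] V'}
    (hφ : IsBaseChange B φ) {F : Type*} [Finite F] (C : F → V →ₗ[A] V)
    (D : F → V' →ₗ[B] V') (hCD : ∀ i x, φ (C i x) = D i (φ x))
    (g : ↥(⨅ i, LinearMap.ker (C i)) →ₗ[A] ↥(⨅ i, LinearMap.ker (D i)))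
    (hg : ∀ x, (g x : V') = φ x) : IsBaseChange B g := by
  refine IsBaseChange.of_left_exact B g φ (φ.compLeft F) (f := Submodule.subtype _)
    (g := LinearMap.pi C) (f' := Submodule.subtype _) (g' := LinearMap.pi D) ?_ ?_ hφ
    (hφ.finitePow F) ?_ (Submodule.injective_subtype _) ?_ (Submodule.injective_subtype _)
  · ext x; simp [hg]
  · ext x i; simp [hCD]
  · rw [LinearMap.exact_iff, LinearMap.ker_pi, Submodule.range_subtype]
  · rw [LinearMap.exact_iff, LinearMap.ker_pi, Submodule.range_subtype]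

variable {R : Type*} [CommRing R] {M : Type*} [AddCommGroup M] [Module R M]
variable (K : Type*) [Field K] [Algebra R K] (Ω : Type*) [Field Ω]
    [Algebra K Ω] [Algebra R Ω] [IsScalarTower R K Ω]

theorem isBaseChange_cmp : IsBaseChange Ω (cmp (R := R) (M := M) K Ω) := by
  refine IsBaseChange.of_comp (TensorProduct.isBaseChange R M K) ?_
  have h : ((cmp (R := R) (M := M) K Ω).restrictScalars R) ∘ₗ (TensorProduct.mk R K M 1) =
      TensorProduct.mk R Ω M 1 := by
    ext m; simp
  rw [h]
  exact TensorProduct.isBaseChange R M Ω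

variable [Module.Finite R M] {ι : Type*} (t : ι → Module.End R M)

theorem finrank_eigenspace_fieldExt_aux (a : ι → K) :
    Module.finrank Ω (eigenspace (fun i => (t i).baseChange Ω)
        (fun i => algebraMap K Ω (a i))) =
      Module.finrank K (eigenspace (fun i => (t i).baseChange K) a) := by
  classical
  let C : ι → Module.End K (K ⊗[R] M) := fun i => (t i).baseChange K - a i • 1
  let D : ι → Module.End Ω (Ω ⊗[R] M) :=
    fun i => (t i).baseChange Ω - algebraMap K Ω (a i) • 1
  have hEK : eigenspace (fun i => (t i).baseChange K) a = ⨅ i, LinearMap.ker (C i) := rfl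
  have hEΩ : eigenspace (fun i => (t i).baseChange Ω) (fun i => algebraMap K Ω (a i)) =
      ⨅ i, LinearMap.ker (D i) := rfl
  obtain ⟨F, hF⟩ := exists_finset_iInf_eq (fun i => LinearMap.ker (C i))
  have hCD : ∀ (i : ι) (x : K ⊗[R] M), cmp K Ω (C i x) = D i (cmp K Ω x) := by
    intro i x
    simp [C, D, cmp_baseChange]
  have hmem : ∀ x : ↥(⨅ i : F, LinearMap.ker (C i)),
      cmp K Ω (x : K ⊗[R] M) ∈ ⨅ i : F, LinearMap.ker (D i) := by
    intro x
    rw [Submodule.mem_iInf]
    intro i
    have hx := (Submodule.mem_iInf _).1 x.2 i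
    rw [LinearMap.mem_ker] at hx ⊢
    rw [← hCD, hx, map_zero]
  let g : ↥(⨅ i : F, LinearMap.ker (C i)) →ₗ[K] ↥(⨅ i : F, LinearMap.ker (D i)) :=
    { toFun := fun x => ⟨cmp K Ω x, hmem x⟩
      map_add' := fun x y => by ext; simp
      map_smul' := fun c x => by ext; simp }
  have hbc : IsBaseChange Ω g :=
    isBaseChange_iInf_ker (isBaseChange_cmp K Ω) (fun i : F => C i) (fun i : F => D i)
      (fun i x => hCD i x) g (fun x => rfl)
  have hle : (⨅ i : F, LinearMap.ker (D i)) ≤ ⨅ i, LinearMap.ker (D i) := by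
    intro y hy
    refine hbc.inductionOn ⟨y, hy⟩ (motive := fun z => (z : Ω ⊗[R] M) ∈ ⨅ i, LinearMap.ker (D i))
      (Submodule.zero_mem _) ?_ ?_ ?_
    · intro x
      have hx : (x : K ⊗[R] M) ∈ eigenspace (fun i => (t i).baseChange K) a := by
        rw [hEK, hF]; exact x.2
      have := cmp_mem_eigenspace K Ω t hx
      rw [hEΩ] at this
      exact this
    · intro s n hn
      exact Submodule.smul_mem _ s hn
    · intro n₁ n₂ h₁ h₂
      exact Submodule.add_mem _ h₁ h₂
  have hEΩ' : eigenspace (fun i => (t i).baseChange Ω) (fun i => algebraMap K Ω (a i)) =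
      ⨅ i : F, LinearMap.ker (D i) :=
    hEΩ.trans (le_antisymm (le_iInf fun i => iInf_le _ (i : ι)) hle)
  rw [hEΩ', hEK, hF]
  exact IsBaseChange.finrank_eq (M := ↥(⨅ i : F, LinearMap.ker (C i)))
    (P := ↥(⨅ i : F, LinearMap.ker (D i))) hbc

end FieldExt

end Lattice

section Main

variable (R : Type*) [CommRing R] (M : Type*) [AddCommGroup M] [Module R M] [Module.Free R M]
  [Module.Finite R M] {ι : Type*} (t : ι → Module.End R M)

/-- **Rank over `𝒪` = dimension over the fraction field** for simultaneous eigenspaces of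
base-changed operators (the index type `ι` may be infinite). -/
theorem finrank_eigenspace_fraction (𝒪 : Type*) [CommRing 𝒪] [IsDomain 𝒪] [IsPrincipalIdealRing 𝒪]
    [Algebra R 𝒪] (K : Type*) [Field K] [Algebra 𝒪 K] [IsFractionRing 𝒪 K] [Algebra R K]
    [IsScalarTower R 𝒪 K] (a : ι → 𝒪) :
    Module.finrank 𝒪 (eigenspace (fun i => (t i).baseChange 𝒪) a) =
      Module.finrank K (eigenspace (fun i => (t i).baseChange K) (fun i => algebraMap 𝒪 K (a i))) :=
  Lattice.finrank_eigenspace_fraction_aux 𝒪 K t a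

/-- **Invariance of the eigenspace dimension under a field extension.** -/
theorem finrank_eigenspace_fieldExt (K : Type*) [Field K] [Algebra R K] (Ω : Type*) [Field Ω]
    [Algebra K Ω] [Algebra R Ω] [IsScalarTower R K Ω] (a : ι → K) :
    Module.finrank Ω (eigenspace (fun i => (t i).baseChange Ω) (fun i => algebraMap K Ω (a i))) =
      Module.finrank K (eigenspace (fun i => (t i).baseChange K) a) :=
  Lattice.finrank_eigenspace_fieldExt_aux K Ω t a

/-- **Saturation** of the eigen-sublattice over a domain. -/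
theorem eigenspace_saturated (𝒪 : Type*) [CommRing 𝒪] [IsDomain 𝒪] [Algebra R 𝒪] (a : ι → 𝒪)
    (c : 𝒪) (hc : c ≠ 0) (w : 𝒪 ⊗[R] M)
    (h : c • w ∈ eigenspace (fun i => (t i).baseChange 𝒪) a) :
    w ∈ eigenspace (fun i => (t i).baseChange 𝒪) a := by
  rw [mem_eigenspace] at h ⊢
  intro i
  have hi := h i
  rw [map_smul, smul_comm (a i) c w] at hi
  exact smul_right_injective _ hc hi

/-- The eigen-sublattice over a PID is free. -/
theorem eigenspace_free (𝒪 : Type*) [CommRing 𝒪] [IsDomain 𝒪] [IsPrincipalIdealRing 𝒪]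
    [Algebra R 𝒪] (a : ι → 𝒪) :
    Module.Free 𝒪 (eigenspace (fun i => (t i).baseChange 𝒪) a) := by
  obtain ⟨n, ⟨b⟩⟩ := Submodule.nonempty_basis_of_pid
    (Module.Free.chooseBasis 𝒪 (𝒪 ⊗[R] M)) (eigenspace (fun i => (t i).baseChange 𝒪) a)
  exact Module.Free.of_basis b

/-- The eigen-sublattice over a PID is finitely generated. -/
theorem eigenspace_finite (𝒪 : Type*) [CommRing 𝒪] [IsDomain 𝒪] [IsPrincipalIdealRing 𝒪]
    [Algebra R 𝒪] (a : ι → 𝒪) :
    Module.Finite 𝒪 (eigenspace (fun i => (t i).baseChange 𝒪) a) :=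
  inferInstance

end Main

section Stable

variable {R : Type*} [CommRing R] {M : Type*} [AddCommGroup M] [Module R M] {ι : Type*}
  {t : ι → Module.End R M}

/-- **Stability**: an endomorphism commuting with all `t i` preserves, after base change, every
simultaneous eigenspace. -/
theorem baseChange_mem_eigenspace {g : Module.End R M} (hg : ∀ i, Commute g (t i))
    (A : Type*) [CommRing A] [Algebra R A] {a : ι → A} {w : A ⊗[R] M}
    (hw : w ∈ eigenspace (fun i => (t i).baseChange A) a) :
    g.baseChange A w ∈ eigenspace (fun i => (t i).baseChange A) a := by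
  rw [mem_eigenspace] at hw ⊢
  intro i
  have h1 : (t i).baseChange A (g.baseChange A w) = g.baseChange A ((t i).baseChange A w) := by
    have e : (t i) ∘ₗ g = g ∘ₗ (t i) := (hg i).eq.symm
    rw [← LinearMap.comp_apply, ← LinearMap.comp_apply, ← LinearMap.baseChange_comp,
      ← LinearMap.baseChange_comp, e]
  rw [h1, hw i, map_smul]

/-- The base change of a commuting endomorphism, restricted to a simultaneous eigenspace. -/
noncomputable def eigenspaceRestrict {g : Module.End R M} (hg : ∀ i, Commute g (t i))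
    (A : Type*) [CommRing A] [Algebra R A] (a : ι → A) :
    Module.End A (eigenspace (fun i => (t i).baseChange A) a) :=
  (g.baseChange A).restrict fun _ hw => baseChange_mem_eigenspace hg A hw

@[simp] theorem eigenspaceRestrict_coe {g : Module.End R M} (hg : ∀ i, Commute g (t i))
    (A : Type*) [CommRing A] [Algebra R A] (a : ι → A)
    (w : eigenspace (fun i => (t i).baseChange A) a) :
    (eigenspaceRestrict hg A a w : A ⊗[R] M) = g.baseChange A (w : A ⊗[R] M) := rfl

end Stable

end Fermat.Agent.ESJ.Rep
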