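/-
helper50 — REP-EXT (task 167): the integral closure of a complete discrete valuation ring of
characteristic zero in a finite extension of its fraction field, in the exact shape consumed by
the REP layer.  The mathematics is helper42's `Fermat/Agent/Lib/DVRExt.lean`.
-/
import Mathlib
import Fermat.Agent.Lib.DVRExt

set_option autoImplicit false
set_option linter.style.haveILetI false

namespace Fermat.Agent.ESJ.Rep

/-- **Coefficient extension** (REP-EXT).  For a complete discrete valuation ring `𝒪` of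
characteristic zero with finite residue field and fraction field `K`, and a finite extension
`L / K`, the integral closure `𝒪''` of `𝒪` in `L` carries all the structure demanded in the
conclusion of the Galois-representation statements, has fraction field `L`, and contains every
element of `L` integral over `𝒪`. -/
theorem exists_dvr_extension (𝒪 : Type) [CommRing 𝒪] [IsDomain 𝒪] [IsDiscreteValuationRing 𝒪]
    [IsAdicComplete (IsLocalRing.maximalIdeal 𝒪) 𝒪] [Finite (IsLocalRing.ResidueField 𝒪)]
    [CharZero 𝒪] (K : Type) [Field K] [Algebra 𝒪 K] [IsFractionRing 𝒪 K]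
    (L : Type) [Field L] [Algebra K L] [FiniteDimensional K L] [Algebra 𝒪 L] [IsScalarTower 𝒪 K L] :
    ∃ (𝒪'' : Type) (_ : CommRing 𝒪'') (_ : IsDomain 𝒪'') (_ : IsDiscreteValuationRing 𝒪'')
      (_ : IsAdicComplete (IsLocalRing.maximalIdeal 𝒪'') 𝒪'')
      (_ : Finite (IsLocalRing.ResidueField 𝒪'')) (_ : CharZero 𝒪'')
      (_ : Algebra 𝒪 𝒪'') (_ : Module.Finite 𝒪 𝒪'') (_ : IsLocalHom (algebraMap 𝒪 𝒪''))
      (_ : Algebra 𝒪'' L) (_ : IsScalarTower 𝒪 𝒪'' L) (_ : IsFractionRing 𝒪'' L),
      Function.Injective (algebraMap 𝒪 𝒪'') ∧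
      ∀ y : L, IsIntegral 𝒪 y → ∃ z : 𝒪'', algebraMap 𝒪'' L z = y := by
  haveI : CharZero K := charZero_of_injective_algebraMap (IsFractionRing.injective 𝒪 K)
  haveI : Algebra.IsSeparable K L := inferInstance
  let B := integralClosure 𝒪 L
  haveI hloc : IsLocalRing B := Fermat.Agent.Lib.DVRExt.isLocalRing 𝒪 K L B
  haveI hdvr : IsDiscreteValuationRing B := Fermat.Agent.Lib.DVRExt.isDiscreteValuationRing 𝒪 K L B
  haveI hcomp : IsAdicComplete (IsLocalRing.maximalIdeal B) B :=
    Fermat.Agent.Lib.DVRExt.isAdicComplete 𝒪 K L B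
  haveI hfin : Finite (IsLocalRing.ResidueField B) :=
    Fermat.Agent.Lib.DVRExt.finite_residueField 𝒪 K L B
  haveI hchar : CharZero B := Fermat.Agent.Lib.DVRExt.charZero 𝒪 K L B
  haveI hmf : Module.Finite 𝒪 B := Fermat.Agent.Lib.DVRExt.moduleFinite 𝒪 K L B
  haveI hlh : IsLocalHom (algebraMap 𝒪 B) := Fermat.Agent.Lib.DVRExt.isLocalHom 𝒪 K L B
  haveI hfr : IsFractionRing B L := IsIntegralClosure.isFractionRing_of_finite_extension 𝒪 K L B
  exact ⟨B, inferInstance, inferInstance, hdvr, hcomp, hfin, hchar, inferInstance, hmf, hlh,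
    inferInstance, inferInstance, hfr, Fermat.Agent.Lib.DVRExt.algebraMap_injective 𝒪 K L B,
    fun y hy => ⟨⟨y, hy⟩, rfl⟩⟩

end Fermat.Agent.ESJ.Rep
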