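/-
helper83 — REP-ADIC-DESC (task 241): a subspace of `F^n`, `F` the algebraic closure of the
fraction field of a complete discrete valuation ring `𝒪`, is cut out by a free lattice of the
same rank over (the integral closure of `𝒪` in) a finite extension.
-/
import Mathlib
import Fermat.Agent.ESJ.Rep.DvrExt

set_option autoImplicit false
set_option linter.style.haveILetI false

namespace Fermat.Agent.ESJ.Rep

namespace AdicDescent

open Module

/-- Linear independence of vectors of `K^n` survives any field extension `F / K`. -/
theorem linearIndependent_map_pi {K F : Type*} [Field K] [Field F] [Algebra K F] {n : ℕ}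
    {ι : Type*} {v : ι → (Fin n → K)} (hv : LinearIndependent K v) :
    LinearIndependent F (fun s => fun i => algebraMap K F (v s i)) := by
  have h1 := Module.Flat.linearIndependent_one_tmul (S := F) hv
  have h2 := h1.map' (TensorProduct.piScalarRight K F F (Fin n)).toLinearMap
    (LinearEquiv.ker _)
  have h3 : (fun s => fun i => algebraMap K F (v s i)) =
      (TensorProduct.piScalarRight K F F (Fin n)).toLinearMap ∘ fun s => (1 : F) ⊗ₜ[K] v s := by
    funext s i
    simp [Algebra.smul_def]
  rw [h3]
  exact h2

/-- **The rank of the lattice cut out by a subspace.**  `R` a principal ideal domain with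
fraction field `K`, `F / K` a field extension, `U ≤ F^n` a subspace with a basis whose entries
lie in `K`, and `L = {x ∈ R^n : x ∈ U}`.  Then `rank_R L = dim_F U`. -/
theorem finrank_lattice_eq {R K F : Type*} [CommRing R] [IsDomain R] [IsPrincipalIdealRing R]
    [Field K] [Algebra R K] [IsFractionRing R K] [Field F] [Algebra K F] [Algebra R F]
    [IsScalarTower R K F] {n : ℕ} (U : Submodule F (Fin n → F))
    (L : Submodule R (Fin n → R))
    (hL : ∀ x : Fin n → R, x ∈ L ↔ (fun i => algebraMap R F (x i)) ∈ U) {r : ℕ}
    (u : Basis (Fin r) F U) (hu : ∀ s i, ∃ w : K, algebraMap K F w = (u s : Fin n → F) i) :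
    finrank R L = finrank F U := by
  classical
  have hinjRF : Function.Injective (algebraMap R F) := by
    rw [IsScalarTower.algebraMap_eq R K F]
    exact (algebraMap K F).injective.comp (IsFractionRing.injective R K)
  apply le_antisymm
  · -- `finrank R L ≤ finrank F U`: a basis of `L` stays independent over `F`
    obtain ⟨m, ⟨y⟩⟩ := Submodule.nonempty_basis_of_pid (Pi.basisFun R (Fin n)) L
    rw [finrank_eq_card_basis y, Fintype.card_fin]
    have h1 : LinearIndependent R (fun s => (y s : Fin n → R)) :=
      y.linearIndependent.map' L.subtype (Submodule.ker_subtype L)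
    have h2 : LinearIndependent R
        (fun s => fun i => algebraMap R K ((y s : Fin n → R) i)) := by
      refine h1.map' ((Algebra.linearMap R K).compLeft (Fin n)) ?_
      rw [LinearMap.ker_eq_bot]
      intro a b hab
      funext i
      exact IsFractionRing.injective R K (congrFun hab i)
    have h3 : LinearIndependent K
        (fun s => fun i => algebraMap R K ((y s : Fin n → R) i)) :=
      (LinearIndependent.iff_fractionRing R K).mp h2
    have h4 := linearIndependent_map_pi (F := F) h3
    have hmem : ∀ s, (fun i => algebraMap R F ((y s : Fin n → R) i)) ∈ U :=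
      fun s => (hL _).mp (y s).2
    have h5 : LinearIndependent F (fun s => (⟨_, hmem s⟩ : U)) := by
      apply LinearIndependent.of_comp U.subtype
      convert h4 using 1
      funext s i
      simp [IsScalarTower.algebraMap_apply R K F]
    simpa using h5.fintype_card_le_finrank
  · -- `finrank F U ≤ finrank R L`: clear the denominators of a basis of `U`
    rw [finrank_eq_card_basis u, Fintype.card_fin]
    choose w hw using hu
    obtain ⟨b, hb⟩ := IsLocalization.exist_integer_multiples_of_finite (nonZeroDivisors R)
      (fun p : Fin r × Fin n => w p.1 p.2)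
    choose x hx using hb
    have hb0 : algebraMap R F (b : R) ≠ 0 := by
      rw [Ne, map_eq_zero_iff _ hinjRF]
      exact nonZeroDivisors.coe_ne_zero b
    have hxs : ∀ s, (fun i => algebraMap R F (x (s, i))) =
        algebraMap R F (b : R) • (u s : Fin n → F) := by
      intro s
      funext i
      rw [IsScalarTower.algebraMap_apply R K F, hx, Algebra.smul_def, map_mul,
        ← IsScalarTower.algebraMap_apply R K F]
      simp [hw]
    have hmem : ∀ s, (fun i => x (s, i)) ∈ L := fun s =>
      (hL _).mpr (by rw [hxs]; exact U.smul_mem _ (u s).2)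
    have hli : LinearIndependent R (fun s => (⟨fun i => x (s, i), hmem s⟩ : L)) := by
      apply LinearIndependent.of_comp (((Algebra.linearMap R F).compLeft (Fin n)).comp L.subtype)
      have h1 : LinearIndependent F (fun s => (u s : Fin n → F)) :=
        u.linearIndependent.map' U.subtype (Submodule.ker_subtype U)
      have h2 : LinearIndependent F
          (fun s => algebraMap R F (b : R) • (u s : Fin n → F)) :=
        h1.units_smul (fun _ => Units.mk0 _ hb0)
      have h3 : LinearIndependent R
          (fun s => algebraMap R F (b : R) • (u s : Fin n → F)) := by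
        refine LinearIndependent.restrict_scalars (R := R) ?_ h2
        intro a c hac
        apply hinjRF
        simpa [Algebra.smul_def] using hac
      convert h3 using 1
      funext s
      exact hxs s
    simpa using hli.fintype_card_le_finrank

end AdicDescent

open Module in
/-- **Descent of a subspace to a lattice over a finite extension** (REP-ADIC-DESC).  For a
complete discrete valuation ring `𝒪` of characteristic zero with finite residue field and a
subspace `U` of `F^n`, `F` the algebraic closure of `Frac 𝒪`, there is a finite extension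
`𝒪''` of `𝒪` of the same kind, embedded in `F`, such that the lattice `{x ∈ 𝒪''^n : x ∈ U}`
has rank `dim_F U`. -/
theorem exists_lattice_of_subspace (𝒪 : Type) [CommRing 𝒪] [IsDomain 𝒪]
    [IsDiscreteValuationRing 𝒪] [IsAdicComplete (IsLocalRing.maximalIdeal 𝒪) 𝒪]
    [Finite (IsLocalRing.ResidueField 𝒪)] [CharZero 𝒪] {n : ℕ}
    (U : Submodule (AlgebraicClosure (FractionRing 𝒪))
      (Fin n → AlgebraicClosure (FractionRing 𝒪))) :
    ∃ (𝒪'' : Type) (_ : CommRing 𝒪'') (_ : IsDomain 𝒪'') (_ : IsDiscreteValuationRing 𝒪'')
      (_ : IsAdicComplete (IsLocalRing.maximalIdeal 𝒪'') 𝒪'')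
      (_ : Finite (IsLocalRing.ResidueField 𝒪'')) (_ : CharZero 𝒪'') (_ : Algebra 𝒪 𝒪'')
      (_ : Module.Finite 𝒪 𝒪'') (_ : IsLocalHom (algebraMap 𝒪 𝒪''))
      (j : 𝒪'' →+* AlgebraicClosure (FractionRing 𝒪)),
      Function.Injective (algebraMap 𝒪 𝒪'') ∧ Function.Injective j ∧
      (∀ c : 𝒪, j (algebraMap 𝒪 𝒪'' c) = algebraMap 𝒪 (AlgebraicClosure (FractionRing 𝒪)) c) ∧
      ∃ L : Submodule 𝒪'' (Fin n → 𝒪''),
        (∀ x : Fin n → 𝒪'', x ∈ L ↔ (fun i => j (x i)) ∈ U) ∧
        Module.finrank 𝒪'' L = Module.finrank (AlgebraicClosure (FractionRing 𝒪)) U := by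
  classical
  let K := FractionRing 𝒪
  let F := AlgebraicClosure K
  let r := Module.finrank F U
  let u : Basis (Fin r) F U := Module.finBasis F U
  let S : Set F := Set.range (fun p : Fin r × Fin n => (u p.1 : Fin n → F) p.2)
  let K' : IntermediateField K F := IntermediateField.adjoin K S
  haveI : Finite S := Set.finite_range _
  haveI : FiniteDimensional K K' :=
    IntermediateField.finiteDimensional_adjoin (fun x _ => Algebra.IsIntegral.isIntegral x)
  obtain ⟨𝒪'', i1, i2, i3, i4, i5, i6, i7, i8, i9, i10, i11, i12, hinj, -⟩ :=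
    exists_dvr_extension 𝒪 K ↥K'
  let j : 𝒪'' →+* F := (algebraMap ↥K' F).comp (algebraMap 𝒪'' ↥K')
  have hj : Function.Injective j :=
    (algebraMap ↥K' F).injective.comp (IsFractionRing.injective 𝒪'' ↥K')
  have hjc : ∀ c : 𝒪, j (algebraMap 𝒪 𝒪'' c) = algebraMap 𝒪 F c := by
    intro c
    show algebraMap ↥K' F (algebraMap 𝒪'' ↥K' (algebraMap 𝒪 𝒪'' c)) = _
    rw [← IsScalarTower.algebraMap_apply 𝒪 𝒪'' ↥K', IsScalarTower.algebraMap_apply 𝒪 K ↥K',
      ← IsScalarTower.algebraMap_apply K ↥K' F, ← IsScalarTower.algebraMap_apply 𝒪 K F]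
  let L : Submodule 𝒪'' (Fin n → 𝒪'') :=
    { carrier := {x | (fun i => j (x i)) ∈ U}
      add_mem' := by
        intro a b ha hb
        have : (fun i => j ((a + b) i)) = (fun i => j (a i)) + (fun i => j (b i)) := by
          funext i; simp
        show (fun i => j ((a + b) i)) ∈ U
        rw [this]
        exact U.add_mem ha hb
      zero_mem' := by
        have : (fun i => j ((0 : Fin n → 𝒪'') i)) = 0 := by funext i; simp
        show (fun i => j ((0 : Fin n → 𝒪'') i)) ∈ U
        rw [this]
        exact U.zero_mem
      smul_mem' := by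
        intro c a ha
        have : (fun i => j ((c • a) i)) = j c • (fun i => j (a i)) := by
          funext i; simp
        show (fun i => j ((c • a) i)) ∈ U
        rw [this]
        exact U.smul_mem _ ha }
  refine ⟨𝒪'', i1, i2, i3, i4, i5, i6, i7, i8, i9, j, hinj, hj, hjc, L, fun x => Iff.rfl, ?_⟩
  letI : Algebra 𝒪'' F := j.toAlgebra
  haveI : IsScalarTower 𝒪'' ↥K' F := IsScalarTower.of_algebraMap_eq (fun x => rfl)
  refine AdicDescent.finrank_lattice_eq (R := 𝒪'') (K := ↥K') (F := F) U L (fun x => Iff.rfl) u ?_
  intro s i
  have hmem : (u s : Fin n → F) i ∈ K' :=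
    IntermediateField.subset_adjoin K S ⟨(s, i), rfl⟩
  exact ⟨⟨_, hmem⟩, rfl⟩

end Fermat.Agent.ESJ.Rep

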