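/-
ESJ / REP layer, REP-EXTRACT (owner: helper73) — abstract core.

Let `ρ` be a representation of a group `G` on a finite-dimensional `k`-vector space on which
every `g` satisfies a split quadratic relation `(g - α)(g - β) = 0` with `α β = χ g` for a
character `χ`.  Then every simple subrepresentation has dimension at most two; in dimension
two the characteristic polynomial of `g` is the quadratic polynomial, and in dimension one
the representation `ψ ⊕ χ ψ⁻¹` has this property.  Everything is `k`-rational.
-/
import Mathlib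

set_option autoImplicit false

namespace Fermat.Agent.ESJ.Rep.Extract

open Polynomial

/-! ### A polarisation identity in an algebra -/

/-- Polarisation of the quadratic relation: if `G`, `H` and `G * H` satisfy quadratic relations
with multiplicative constant terms, then `G * H + H * G` is a linear combination of `1`, `G`,
`H`. -/
theorem polar {k R : Type*} [Field k] [Ring R] [Algebra k R] (G G' H H' : R)
    (hG : G * G' = 1) (hH : H * H' = 1) (tg th tgh cg ch : k)
    (eg : G * G = tg • G - cg • (1 : R)) (eh : H * H = th • H - ch • (1 : R))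
    (egh : (G * H) * (G * H) = tgh • (G * H) - (cg * ch) • (1 : R)) :
    G * H + H * G = (tgh - tg * th) • (1 : R) + th • G + tg • H := by
  have E1 : cg • G' = tg • (1 : R) - G := by
    have h1 : G * G * G' = G := by rw [mul_assoc, hG, mul_one]
    rw [eg, sub_mul, smul_mul_assoc, smul_mul_assoc, hG, one_mul] at h1
    rw [← h1]; abel
  have E2 : ch • H' = th • (1 : R) - H := by
    have h1 : H * H * H' = H := by rw [mul_assoc, hH, mul_one]
    rw [eh, sub_mul, smul_mul_assoc, smul_mul_assoc, hH, one_mul] at h1
    rw [← h1]; abel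
  have hinv : G * H * (H' * G') = 1 := by
    rw [mul_assoc, ← mul_assoc H, hH, one_mul, hG]
  have E3 : G * H = tgh • (1 : R) - (cg * ch) • (H' * G') := by
    have h1 : (G * H) * (G * H) * (H' * G') = G * H := by rw [mul_assoc, hinv, mul_one]
    rw [egh, sub_mul, smul_mul_assoc, smul_mul_assoc, hinv, one_mul] at h1
    exact h1.symm
  have E4 : (cg * ch) • (H' * G') = (ch • H') * (cg • G') := by
    rw [smul_mul_smul_comm, mul_comm]
  rw [E4, E1, E2] at E3
  rw [E3]
  simp only [sub_mul, mul_sub, smul_mul_assoc, mul_smul_comm, one_mul, mul_one, sub_smul,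
    smul_sub, smul_smul]
  abel

variable {G : Type*} [Group G] {k : Type*} [Field k] {V : Type*} [AddCommGroup V] [Module k V]

/-- Every `g` satisfies a split quadratic relation whose constant term is `χ g`. -/
def QuadRel (ρ : G →* Module.End k V) (χ : G →* kˣ) : Prop :=
  ∀ g : G, ∃ α β : k, α * β = (χ g : k) ∧
    ∀ w : V, ρ g (ρ g w) - (α + β) • ρ g w + (α * β) • w = 0

/-- The orbit of every nonzero vector spans (a form of simplicity). -/
def OrbitSpan (ρ : G →* Module.End k V) : Prop :=
  ∀ v : V, v ≠ 0 → Submodule.span k (Set.range fun g : G => ρ g v) = ⊤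

theorem quad_op (ρ : G →* Module.End k V) (g : G) (t c : k)
    (h : ∀ w : V, ρ g (ρ g w) - t • ρ g w + c • w = 0) :
    ρ g * ρ g = t • ρ g - c • (1 : Module.End k V) := by
  ext w
  have := h w
  simp only [Module.End.mul_apply, LinearMap.sub_apply, LinearMap.smul_apply,
    Module.End.one_apply]
  rw [← sub_eq_zero]
  rw [← this]
  abel

/-- Elementwise polarisation identity. -/
theorem polar_apply (ρ : G →* Module.End k V) (χ : G →* kˣ) (hq : QuadRel ρ χ) (g h : G)
    (a b : k) (hab : a * b = (χ g : k))
    (hg : ∀ w : V, ρ g (ρ g w) - (a + b) • ρ g w + (a * b) • w = 0) :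
    ∃ th s : k, ∀ w : V,
      ρ g (ρ h w) + ρ h (ρ g w) = s • w + th • ρ g w + (a + b) • ρ h w := by
  obtain ⟨αh, βh, hh1, hh2⟩ := hq h
  obtain ⟨α', β', hgh1, hgh2⟩ := hq (g * h)
  have hmul : α' * β' = (a * b) * (αh * βh) := by
    rw [hgh1, hab, hh1, map_mul, Units.val_mul]
  have eg := quad_op ρ g _ _ hg
  have eh := quad_op ρ h _ _ hh2
  have egh := quad_op ρ (g * h) _ _ hgh2
  rw [map_mul, hmul] at egh
  have hG : ρ g * ρ g⁻¹ = 1 := by rw [← map_mul, mul_inv_cancel, map_one]
  have hH : ρ h * ρ h⁻¹ = 1 := by rw [← map_mul, mul_inv_cancel, map_one]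
  have key := polar (ρ g) (ρ g⁻¹) (ρ h) (ρ h⁻¹) hG hH _ _ _ _ _ eg eh egh
  refine ⟨αh + βh, (α' + β') - (a + b) * (αh + βh), fun w => ?_⟩
  have := congrArg (fun f : Module.End k V => f w) key
  simpa only [Module.End.mul_apply, LinearMap.add_apply, LinearMap.smul_apply,
    Module.End.one_apply] using this

/-- If `v` is an eigenvector of `ρ g` for the root `a`, then `ρ g - b` maps everything into
the line spanned by `v`. -/
theorem range_le_span (ρ : G →* Module.End k V) (χ : G →* kˣ) (hq : QuadRel ρ χ)
    (hs : OrbitSpan ρ) (g : G) (a b : k) (hab : a * b = (χ g : k))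
    (hg : ∀ w : V, ρ g (ρ g w) - (a + b) • ρ g w + (a * b) • w = 0)
    (v : V) (hv0 : v ≠ 0) (hv : ρ g v = a • v) :
    LinearMap.range (ρ g - b • (1 : Module.End k V)) ≤ Submodule.span k {v} := by
  have hmem : ∀ h : G, (ρ g - b • (1 : Module.End k V)) (ρ h v) ∈ Submodule.span k {v} := by
    intro h
    obtain ⟨th, s, hpol⟩ := polar_apply ρ χ hq g h a b hab hg
    have e := hpol v
    rw [hv, map_smul] at e
    have e2 : (ρ g - b • (1 : Module.End k V)) (ρ h v) = (s + th * a) • v := by
      simp only [LinearMap.sub_apply, LinearMap.smul_apply, Module.End.one_apply]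
      have e3 : ρ g (ρ h v) = s • v + th • a • v + (a + b) • ρ h v - a • ρ h v := by
        rw [← e]; abel
      rw [e3, add_smul, add_smul, mul_smul]
      abel
    rw [e2]
    exact Submodule.smul_mem _ _ (Submodule.mem_span_singleton_self v)
  rw [LinearMap.range_eq_map, ← hs v hv0, Submodule.map_span, Submodule.span_le]
  rintro _ ⟨_, ⟨h, rfl⟩, rfl⟩
  exact hmem h

/-- Dimension bound: a "simple" representation with the quadratic relation has dimension at
most two. -/
theorem finrank_le_two [FiniteDimensional k V] (ρ : G →* Module.End k V) (χ : G →* kˣ)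
    (hq : QuadRel ρ χ) (hs : OrbitSpan ρ) : Module.finrank k V ≤ 2 := by
  by_cases hsc : ∀ g : G, ∃ c : k, ρ g = c • (1 : Module.End k V)
  · rcases subsingleton_or_nontrivial V with hV | hV
    · rw [Module.finrank_zero_of_subsingleton]; norm_num
    · obtain ⟨v, hv⟩ := exists_ne (0 : V)
      have h1 : (⊤ : Submodule k V) ≤ Submodule.span k {v} := by
        rw [← hs v hv, Submodule.span_le]
        rintro _ ⟨g, rfl⟩
        obtain ⟨c, hc⟩ := hsc g
        simp only [hc, LinearMap.smul_apply, Module.End.one_apply]
        exact Submodule.smul_mem _ _ (Submodule.mem_span_singleton_self v)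
      have h2 := Submodule.finrank_mono h1
      rw [finrank_top, finrank_span_singleton hv] at h2
      omega
  · push Not at hsc
    obtain ⟨g, hg⟩ := hsc
    obtain ⟨α, β, hab, hrel⟩ := hq g
    have hrel' : ∀ w : V, ρ g (ρ g w) - (β + α) • ρ g w + (β * α) • w = 0 := by
      intro w; rw [add_comm β α, mul_comm β α]; exact hrel w
    have hba : β * α = (χ g : k) := by rw [mul_comm]; exact hab
    -- an eigenvector for `α`
    obtain ⟨w, hw⟩ : ∃ w : V, (ρ g - β • (1 : Module.End k V)) w ≠ 0 := by
      by_contra hcon
      push Not at hcon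
      apply hg β
      ext x
      have := hcon x
      simp only [LinearMap.sub_apply, LinearMap.smul_apply, Module.End.one_apply,
        sub_eq_zero] at this
      simp [this]
    obtain ⟨w', hw'⟩ : ∃ w : V, (ρ g - α • (1 : Module.End k V)) w ≠ 0 := by
      by_contra hcon
      push Not at hcon
      apply hg α
      ext x
      have := hcon x
      simp only [LinearMap.sub_apply, LinearMap.smul_apply, Module.End.one_apply,
        sub_eq_zero] at this
      simp [this]
    set u : V := (ρ g - β • (1 : Module.End k V)) w with hu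
    set u' : V := (ρ g - α • (1 : Module.End k V)) w' with hu'
    have hu_eig : ρ g u = α • u := by
      have := hrel w
      simp only [hu, LinearMap.sub_apply, LinearMap.smul_apply, Module.End.one_apply, map_sub,
        map_smul, smul_sub]
      rw [← sub_eq_zero]
      rw [← this, add_smul, mul_smul]
      abel
    have hu'_eig : ρ g u' = β • u' := by
      have := hrel w'
      simp only [hu', LinearMap.sub_apply, LinearMap.smul_apply, Module.End.one_apply, map_sub,
        map_smul, smul_sub]
      rw [← sub_eq_zero]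
      rw [← this, add_smul, mul_smul, smul_comm β α w']
      abel
    have hrange : LinearMap.range (ρ g - β • (1 : Module.End k V)) ≤ Submodule.span k {u} :=
      range_le_span ρ χ hq hs g α β hab hrel u hw hu_eig
    have hker : LinearMap.ker (ρ g - β • (1 : Module.End k V)) ≤ Submodule.span k {u'} := by
      intro v' hv'
      by_cases hv0 : v' = 0
      · rw [hv0]; exact Submodule.zero_mem _
      have hv'_eig : ρ g v' = β • v' := by
        have := LinearMap.mem_ker.mp hv'
        simpa only [LinearMap.sub_apply, LinearMap.smul_apply, Module.End.one_apply,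
          sub_eq_zero] using this
      have h1 := range_le_span ρ χ hq hs g β α hba hrel' v' hv0 hv'_eig
      have h2 : u' ∈ Submodule.span k {v'} := h1 ⟨w', rfl⟩
      obtain ⟨c, hc⟩ := Submodule.mem_span_singleton.mp h2
      have hc0 : c ≠ 0 := by
        rintro rfl
        rw [zero_smul] at hc
        exact hw' hc.symm
      have : v' = c⁻¹ • u' := by rw [← hc, smul_smul, inv_mul_cancel₀ hc0, one_smul]
      rw [this]
      exact Submodule.smul_mem _ _ (Submodule.mem_span_singleton_self u')
    have h1 := Submodule.finrank_mono hrange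
    have h2 := Submodule.finrank_mono hker
    rw [finrank_span_singleton hw] at h1
    rw [finrank_span_singleton hw'] at h2
    have h3 := LinearMap.finrank_range_add_finrank_ker (ρ g - β • (1 : Module.End k V))
    omega

/-! ### Dimension two: the characteristic polynomial -/

/-- Cayley–Hamilton for `2 × 2` matrices. -/
theorem matrix_two_cayley {R : Type*} [CommRing R] (M : Matrix (Fin 2) (Fin 2) R) :
    M * M = M.trace • M - M.det • (1 : Matrix (Fin 2) (Fin 2) R) := by
  ext i j
  fin_cases i <;> fin_cases j <;>
    simp [Matrix.mul_apply, Fin.sum_univ_two, Matrix.trace_fin_two, Matrix.det_fin_two] <;> ring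

/-- In dimension two, in the presence of a non-scalar element, the quadratic relation for `g`
with constant term `χ g` determines the characteristic polynomial of `ρ g`. -/
theorem charpoly_eq_of_finrank_two [FiniteDimensional k V] (hV : Module.finrank k V = 2)
    (ρ : G →* Module.End k V) (χ : G →* kˣ) (hq : QuadRel ρ χ)
    (hns : ∃ h : G, ∀ c : k, ρ h ≠ c • (1 : Module.End k V)) (g : G) (a : k)
    (hg : ∀ w : V, ρ g (ρ g w) - a • ρ g w + (χ g : k) • w = 0) :
    (ρ g).charpoly = X ^ 2 - C a * X + C (χ g : k) := by
  have hnt : Nontrivial V := Module.nontrivial_of_finrank_pos (R := k) (by rw [hV]; norm_num)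
  let b : Module.Basis (Fin 2) k V := Module.finBasisOfFinrankEq k V hV
  set M : Matrix (Fin 2) (Fin 2) k := LinearMap.toMatrix b b (ρ g) with hM
  rw [← LinearMap.charpoly_toMatrix (ρ g) b, ← hM, Matrix.charpoly_fin_two]
  have eop := quad_op ρ g a (χ g : k) hg
  have eM : M * M = a • M - (χ g : k) • (1 : Matrix (Fin 2) (Fin 2) k) := by
    have := congrArg (LinearMap.toMatrix b b) eop
    rw [LinearMap.toMatrix_mul, map_sub, map_smul, map_smul, LinearMap.toMatrix_one] at this
    exact this
  have eCH := matrix_two_cayley M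
  have ediff : (M.trace - a) • M = (M.det - (χ g : k)) • (1 : Matrix (Fin 2) (Fin 2) k) := by
    rw [sub_smul, sub_smul]
    have : M.trace • M - M.det • (1 : Matrix (Fin 2) (Fin 2) k) =
        a • M - (χ g : k) • (1 : Matrix (Fin 2) (Fin 2) k) := by rw [← eCH, eM]
    rw [sub_eq_sub_iff_add_eq_add] at this ⊢
    rw [this]
    abel
  by_cases htr : M.trace = a
  · have hdet : M.det = (χ g : k) := by
      rw [htr, sub_self, zero_smul] at ediff
      have := congrFun (congrFun ediff 0) 0
      simp only [Matrix.zero_apply, Matrix.smul_apply, Matrix.one_apply_eq, smul_eq_mul,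
        mul_one] at this
      exact (sub_eq_zero.mp this.symm)
    rw [htr, hdet]
  · exfalso
    have hne : M.trace - a ≠ 0 := sub_ne_zero.mpr htr
    set c : k := (M.trace - a)⁻¹ * (M.det - (χ g : k)) with hc
    have hMc : M = c • (1 : Matrix (Fin 2) (Fin 2) k) := by
      have := congrArg (fun X => (M.trace - a)⁻¹ • X) ediff
      simp only [smul_smul, inv_mul_cancel₀ hne, one_smul] at this
      rw [this]
    have hρc : ρ g = c • (1 : Module.End k V) := by
      apply (LinearMap.toMatrix b b).injective
      rw [map_smul, LinearMap.toMatrix_one]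
      exact hMc
    obtain ⟨h, hh⟩ := hns
    obtain ⟨αh, βh, hh1, hh2⟩ := hq h
    obtain ⟨α', β', hgh1, hgh2⟩ := hq (g * h)
    have hχh : (χ h : k) ≠ 0 := (χ h).ne_zero
    have hχg : (χ g : k) ≠ 0 := (χ g).ne_zero
    -- the relation for `g * h` in terms of `ρ h`
    have hrel : ∀ w : V, (c * c * (αh + βh) - c * (α' + β')) • ρ h w +
        (((χ g : k) - c * c) * (χ h : k)) • w = 0 := by
      intro w
      have e1 := hgh2 w
      have e2 := hh2 w
      rw [map_mul, hρc] at e1
      simp only [Module.End.mul_apply, LinearMap.smul_apply, Module.End.one_apply,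
        map_smul] at e1
      have e3 : ρ h (ρ h w) = (αh + βh) • ρ h w - (αh * βh) • w := by
        rw [← sub_eq_zero, ← e2]; abel
      rw [e3, hgh1, map_mul, Units.val_mul] at e1
      rw [hh1] at e1
      have e5 : (c * c * (αh + βh) - c * (α' + β')) • ρ h w +
          (((χ g : k) - c * c) * (χ h : k)) • w =
          c • c • ((αh + βh) • ρ h w - (χ h : k) • w) - (α' + β') • c • ρ h w +
            ((χ g : k) * (χ h : k)) • w := by
        module
      rw [e5]
      exact e1
    have hA : c * c * (αh + βh) - c * (α' + β') = 0 := by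
      by_contra hA
      apply hh (-(c * c * (αh + βh) - c * (α' + β'))⁻¹ * (((χ g : k) - c * c) * (χ h : k)))
      ext w
      have := hrel w
      have e4 : ρ h w = (c * c * (αh + βh) - c * (α' + β'))⁻¹ •
          ((c * c * (αh + βh) - c * (α' + β')) • ρ h w) := by
        rw [smul_smul, inv_mul_cancel₀ hA, one_smul]
      rw [LinearMap.smul_apply, Module.End.one_apply, e4, eq_neg_of_add_eq_zero_left this,
        smul_neg, smul_smul, neg_mul, neg_smul]
    have hB : (χ g : k) = c * c := by
      obtain ⟨w, hw⟩ := exists_ne (0 : V)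
      have := hrel w
      rw [hA, zero_smul, zero_add] at this
      rcases smul_eq_zero.mp this with h0 | h0
      · rcases mul_eq_zero.mp h0 with h1 | h1
        · exact sub_eq_zero.mp h1
        · exact absurd h1 hχh
      · exact absurd h0 hw
    have hc0 : c ≠ 0 := by
      rintro h0
      rw [h0, mul_zero] at hB
      exact hχg hB
    have hac : a = 2 * c := by
      obtain ⟨w, hw⟩ := exists_ne (0 : V)
      have := hg w
      rw [hρc] at this
      simp only [LinearMap.smul_apply, Module.End.one_apply, smul_smul, ← sub_smul,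
        ← add_smul] at this
      rcases smul_eq_zero.mp this with h0 | h0
      · rw [hB] at h0
        have h1 : c * (2 * c - a) = 0 := by rw [← h0]; ring
        rcases mul_eq_zero.mp h1 with h2 | h2
        · exact absurd h2 hc0
        · exact (sub_eq_zero.mp h2).symm
      · exact absurd h0 hw
    apply htr
    rw [hMc, hac, Matrix.trace_smul, Matrix.trace_one, Fintype.card_fin, smul_eq_mul]
    push_cast
    ring

/-! ### Dimension one -/

/-- On a one-dimensional space every endomorphism is multiplication by its determinant. -/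
theorem apply_eq_det_smul [FiniteDimensional k V] (hV : Module.finrank k V = 1)
    (f : Module.End k V) (v : V) : f v = LinearMap.det f • v := by
  obtain ⟨v₀, hv₀, hspan⟩ := finrank_eq_one_iff'.mp hV
  obtain ⟨c₀, hc₀⟩ := hspan (f v₀)
  have hf : f = c₀ • (1 : Module.End k V) := by
    ext w
    obtain ⟨c, rfl⟩ := hspan w
    rw [map_smul, ← hc₀, LinearMap.smul_apply, Module.End.one_apply, smul_comm]
  have hdet : LinearMap.det f = c₀ := by
    rw [hf, LinearMap.det_smul, hV, pow_one]
    simp
  rw [hdet, hf, LinearMap.smul_apply, Module.End.one_apply]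

/-- The diagonal representation `ψ ⊕ χ ψ⁻¹`. -/
noncomputable def diagRep (ψ χ : G →* kˣ) : G →* Module.End k (Fin 2 → k) where
  toFun g := Matrix.toLin' (Matrix.diagonal ![(ψ g : k), (χ g : k) * (((ψ g)⁻¹ : kˣ) : k)])
  map_one' := by
    rw [map_one, map_one, inv_one, Units.val_one, mul_one]
    have : Matrix.diagonal ![(1 : k), 1] = 1 := by
      ext i j
      fin_cases i <;> fin_cases j <;> simp
    rw [this, Matrix.toLin'_one]
    rfl
  map_mul' g h := by
    rw [Module.End.mul_eq_comp, ← Matrix.toLin'_mul, Matrix.diagonal_mul_diagonal]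
    congr 2
    ext i
    fin_cases i
    · simp
    · simp only [map_mul, mul_inv_rev, Units.val_mul, Fin.mk_one, Fin.isValue,
        Matrix.cons_val_one, Matrix.cons_val_zero]
      ring

theorem diagRep_apply (ψ χ : G →* kˣ) (g : G) :
    diagRep ψ χ g =
      Matrix.toLin' (Matrix.diagonal ![(ψ g : k), (χ g : k) * (((ψ g)⁻¹ : kˣ) : k)]) := rfl

theorem diagRep_eq_one (ψ χ : G →* kˣ) (g : G) (h1 : ψ g = 1) (h2 : χ g = 1) :
    diagRep ψ χ g = 1 := by
  rw [← map_one (diagRep ψ χ), diagRep_apply, diagRep_apply, h1, h2, map_one, map_one]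

/-- The characteristic polynomial of the diagonal representation. -/
theorem charpoly_diagRep (ψ χ : G →* kˣ) (g : G) (a : k)
    (h : (ψ g : k) * (ψ g : k) - a * (ψ g : k) + (χ g : k) = 0) :
    (diagRep ψ χ g).charpoly = X ^ 2 - C a * X + C (χ g : k) := by
  rw [diagRep_apply, Matrix.charpoly_toLin', Matrix.charpoly_fin_two]
  have hx : (ψ g : k) ≠ 0 := (ψ g).ne_zero
  have htr : (Matrix.diagonal ![(ψ g : k), (χ g : k) * (((ψ g)⁻¹ : kˣ) : k)]).trace = a := by
    rw [Matrix.trace_fin_two]
    simp only [Matrix.diagonal_apply_eq, Matrix.cons_val_zero, Matrix.cons_val_one,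
      Units.val_inv_eq_inv_val]
    field_simp
    linear_combination h
  have hdet : (Matrix.diagonal ![(ψ g : k), (χ g : k) * (((ψ g)⁻¹ : kˣ) : k)]).det =
      (χ g : k) := by
    rw [Matrix.det_diagonal, Fin.prod_univ_two]
    simp only [Matrix.cons_val_zero, Matrix.cons_val_one, Units.val_inv_eq_inv_val]
    field_simp
  rw [htr, hdet]

/-! ### Invariant subspaces -/

/-- Invariance of a subspace. -/
def IsInv (ρ : G →* Module.End k V) (U : Submodule k V) : Prop :=
  ∀ g : G, ∀ w ∈ U, ρ g w ∈ U

/-- The restriction of a representation to an invariant subspace. -/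
def resRep (ρ : G →* Module.End k V) (U : Submodule k V) (hU : IsInv ρ U) :
    G →* Module.End k U where
  toFun g := (ρ g).restrict (hU g)
  map_one' := by
    ext w
    simp
  map_mul' g h := by
    ext w
    simp

theorem resRep_apply (ρ : G →* Module.End k V) (U : Submodule k V) (hU : IsInv ρ U) (g : G)
    (w : U) : ((resRep ρ U hU g w : U) : V) = ρ g (w : V) := rfl

/-- Existence of a minimal nonzero invariant subspace. -/
theorem exists_minimal_inv [FiniteDimensional k V] [Nontrivial V] (ρ : G →* Module.End k V) :
    ∃ U : Submodule k V, IsInv ρ U ∧ U ≠ ⊥ ∧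
      ∀ U' : Submodule k V, U' ≤ U → IsInv ρ U' → U' ≠ ⊥ → U' = U := by
  classical
  have hex : ∃ n : ℕ, ∃ U : Submodule k V, IsInv ρ U ∧ U ≠ ⊥ ∧ Module.finrank k U = n :=
    ⟨_, ⊤, fun _ _ _ => Submodule.mem_top, top_ne_bot, rfl⟩
  obtain ⟨U, hU, hU0, hUn⟩ := Nat.find_spec hex
  refine ⟨U, hU, hU0, fun U' hle hU' hU'0 => ?_⟩
  have hmin : Nat.find hex ≤ Module.finrank k U' := Nat.find_min' hex ⟨U', hU', hU'0, rfl⟩
  rw [← hUn] at hmin
  exact Submodule.eq_of_le_of_finrank_le hle hmin

/-- A minimal nonzero invariant subspace is "simple". -/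
theorem orbitSpan_resRep (ρ : G →* Module.End k V) (U : Submodule k V) (hU : IsInv ρ U)
    (hmin : ∀ U' : Submodule k V, U' ≤ U → IsInv ρ U' → U' ≠ ⊥ → U' = U) :
    OrbitSpan (resRep ρ U hU) := by
  intro v hv
  set U' : Submodule k V := Submodule.span k (Set.range fun g : G => ρ g (v : V)) with hU'
  have hle : U' ≤ U := by
    rw [hU', Submodule.span_le]
    rintro _ ⟨g, rfl⟩
    exact hU g _ v.2
  have hinv : IsInv ρ U' := by
    intro h w hw
    have : U' ≤ Submodule.comap (ρ h) U' := by
      rw [hU', Submodule.span_le]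
      rintro _ ⟨g, rfl⟩
      refine Submodule.subset_span ⟨h * g, ?_⟩
      simp
    exact this hw
  have hne : U' ≠ ⊥ := by
    intro h0
    have : (v : V) ∈ U' := Submodule.subset_span ⟨1, by simp⟩
    rw [h0, Submodule.mem_bot] at this
    exact hv (Subtype.ext this)
  have heq := hmin U' hle hinv hne
  apply Submodule.map_injective_of_injective U.injective_subtype
  have himg : (U.subtype '' Set.range fun g : G => resRep ρ U hU g v) =
      Set.range fun g : G => ρ g (v : V) := by
    ext x
    constructor
    · rintro ⟨_, ⟨g, rfl⟩, rfl⟩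
      exact ⟨g, rfl⟩
    · rintro ⟨g, rfl⟩
      exact ⟨_, ⟨g, rfl⟩, rfl⟩
  rw [Submodule.map_span, Submodule.map_subtype_top, himg]
  exact heq

theorem quadRel_resRep (ρ : G →* Module.End k V) (χ : G →* kˣ) (hq : QuadRel ρ χ)
    (U : Submodule k V) (hU : IsInv ρ U) : QuadRel (resRep ρ U hU) χ := by
  intro g
  obtain ⟨α, β, hab, h⟩ := hq g
  refine ⟨α, β, hab, fun w => ?_⟩
  apply Subtype.ext
  rw [Submodule.coe_add, Submodule.coe_sub, Submodule.coe_smul, Submodule.coe_smul,
    Submodule.coe_zero]
  exact h (w : V)

/-- A two-dimensional "simple" representation contains a non-scalar element. -/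
theorem exists_nonscalar_of_finrank_two [FiniteDimensional k V] (hV : Module.finrank k V = 2)
    (ρ : G →* Module.End k V) (hs : OrbitSpan ρ) :
    ∃ h : G, ∀ c : k, ρ h ≠ c • (1 : Module.End k V) := by
  by_contra hcon
  push Not at hcon
  have hnt : Nontrivial V := Module.nontrivial_of_finrank_pos (R := k) (by rw [hV]; norm_num)
  obtain ⟨v, hv⟩ := exists_ne (0 : V)
  have h1 : (⊤ : Submodule k V) ≤ Submodule.span k {v} := by
    rw [← hs v hv, Submodule.span_le]
    rintro _ ⟨g, rfl⟩
    obtain ⟨c, hc⟩ := hcon g
    simp only [hc, LinearMap.smul_apply, Module.End.one_apply]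
    exact Submodule.smul_mem _ _ (Submodule.mem_span_singleton_self v)
  have h2 := Submodule.finrank_mono h1
  rw [finrank_top, finrank_span_singleton hv, hV] at h2
  omega

/-- Powers of an endomorphism satisfying a split quadratic relation satisfy the quadratic
relation with the powers of the roots. -/
theorem quad_pow (M : Module.End k V) (α β : k)
    (h : ∀ w : V, M (M w) - (α + β) • M w + (α * β) • w = 0) (n : ℕ) :
    ∀ w : V, (M ^ n) ((M ^ n) w) - (α ^ n + β ^ n) • (M ^ n) w + (α ^ n * β ^ n) • w = 0 := by
  have hP : aeval M ((X - C α) * (X - C β)) = 0 := by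
    ext w
    simp only [map_mul, map_sub, aeval_X, aeval_C, Module.End.mul_apply, LinearMap.sub_apply,
      Module.algebraMap_end_apply, LinearMap.zero_apply, map_smul]
    rw [← h w]
    module
  have hdvd : (X - C α) * (X - C β) ∣ (X ^ n - C (α ^ n)) * (X ^ n - C (β ^ n)) := by
    rw [C_pow, C_pow]
    exact mul_dvd_mul (sub_dvd_pow_sub_pow _ _ n) (sub_dvd_pow_sub_pow _ _ n)
  obtain ⟨R, hR⟩ := hdvd
  have hQ : aeval M ((X ^ n - C (α ^ n)) * (X ^ n - C (β ^ n))) = 0 := by
    rw [hR, map_mul, hP, zero_mul]
  intro w
  have := congrArg (fun f : Module.End k V => f w) hQ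
  simp only [map_mul, map_sub, aeval_X_pow, aeval_C, Module.End.mul_apply,
    LinearMap.sub_apply, Module.algebraMap_end_apply, LinearMap.zero_apply, map_smul] at this
  rw [← this]
  module

end Fermat.Agent.ESJ.Rep.Extract
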