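import Mathlib
import Fermat.Agent.ESJ.Rep.ExtractCore

/-!
# REP-ADIC-LATT, field-generic core

A matrix representation `M : G →* Matrix (Fin n) (Fin n) R` (`n > 0`) all of whose members
satisfy a quadratic relation `M g ^ 2 - t • M g + d g = 0` has, over any algebraically closed
field `F` receiving `R`, an invariant subspace of dimension `1` or `2` (a minimal invariant
subspace, by `ExtractCore`).  If the subspace descends to a lattice `L` over an intermediate
ring `R''` (hypothesis `hdesc`-shape, see `AdicLatt.lean`), the lattice is invariant and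
saturated.
-/

set_option autoImplicit false

namespace Fermat.Agent.ESJ.Rep.AdicLatt

open Fermat.Agent.ESJ.Rep.Extract

variable {R F : Type*} [CommRing R] [Field F] {G : Type*} [Group G] {n : ℕ}

/-- The representation on `Fⁿ` obtained from a matrix representation over `R`. -/
noncomputable def rhoF (ι : R →+* F) (M : G →* Matrix (Fin n) (Fin n) R) :
    G →* Module.End F (Fin n → F) where
  toFun g := Matrix.toLin' ((M g).map ι)
  map_one' := by
    rw [map_one, Matrix.map_one ι (map_zero ι) (map_one ι), Matrix.toLin'_one]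
    rfl
  map_mul' g h := by
    rw [map_mul, Matrix.map_mul, Matrix.toLin'_mul]
    rfl

theorem rhoF_apply (ι : R →+* F) (M : G →* Matrix (Fin n) (Fin n) R) (g : G)
    (w : Fin n → F) : rhoF ι M g w = ((M g).map ι).mulVec w := rfl

/-- The determinant character over `F`. -/
noncomputable def chiF (ι : R →+* F) (d : G →* Rˣ) : G →* Fˣ :=
  (Units.map ι.toMonoidHom).comp d

theorem chiF_apply (ι : R →+* F) (d : G →* Rˣ) (g : G) :
    ((chiF ι d g : Fˣ) : F) = ι (d g : R) := rfl

theorem quadRel_rhoF [IsAlgClosed F] (ι : R →+* F) (M : G →* Matrix (Fin n) (Fin n) R)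
    (d : G →* Rˣ)
    (hq : ∀ g : G, ∃ t : R, M g * M g - t • M g + (d g : R) • (1 : Matrix (Fin n) (Fin n) R) = 0) :
    QuadRel (rhoF ι M) (chiF ι d) := by
  intro g
  obtain ⟨t, ht⟩ := hq g
  -- a root of `X² - ι t X + ι (d g)`
  obtain ⟨α, hα⟩ : ∃ α : F, α * α - ι t * α + ι (d g : R) = 0 := by
    have hdeg : (Polynomial.X ^ 2 - Polynomial.C (ι t) * Polynomial.X +
        Polynomial.C (ι (d g : R)) : Polynomial F).degree ≠ 0 := by
      have h2 : (Polynomial.X ^ 2 - Polynomial.C (ι t) * Polynomial.X +
          Polynomial.C (ι (d g : R)) : Polynomial F).degree = 2 := by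
        rw [sub_add]
        rw [Polynomial.degree_sub_eq_left_of_degree_lt]
        · simp
        · rw [Polynomial.degree_X_pow]
          refine lt_of_le_of_lt (Polynomial.degree_sub_le _ _) ?_
          refine max_lt ?_ ?_
          · refine lt_of_le_of_lt (Polynomial.degree_C_mul_X_le _) ?_
            norm_num
          · refine lt_of_le_of_lt Polynomial.degree_C_le ?_
            norm_num
      rw [h2]
      norm_num
    obtain ⟨α, hα⟩ := IsAlgClosed.exists_root _ hdeg
    refine ⟨α, ?_⟩
    have := hα
    simp only [Polynomial.IsRoot.def, Polynomial.eval_add, Polynomial.eval_sub,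
      Polynomial.eval_pow, Polynomial.eval_X, Polynomial.eval_mul, Polynomial.eval_C] at this
    rw [← this]
    ring
  refine ⟨α, ι t - α, ?_, fun w => ?_⟩
  · rw [chiF_apply]
    linear_combination (-1 : F) * hα
  · have hmat : (M g).map ι * (M g).map ι - ι t • (M g).map ι +
        ι (d g : R) • (1 : Matrix (Fin n) (Fin n) F) = 0 := by
      have h1 : (M g * M g - t • M g + (d g : R) • (1 : Matrix (Fin n) (Fin n) R)).map ι =
          (0 : Matrix (Fin n) (Fin n) R).map ι := by rw [ht]
      rw [Matrix.map_add _ (map_add ι), Matrix.map_sub _ (map_sub ι), Matrix.map_mul,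
        Matrix.map_smul' _ _ _ (map_mul ι), Matrix.map_smul' _ _ _ (map_mul ι),
        Matrix.map_one ι (map_zero ι) (map_one ι), Matrix.map_zero ι (map_zero ι)] at h1
      exact h1
    have h2 := congrArg (fun A : Matrix (Fin n) (Fin n) F => A.mulVec w) hmat
    simp only [Matrix.add_mulVec, Matrix.sub_mulVec, Matrix.smul_mulVec, Matrix.one_mulVec,
      Matrix.zero_mulVec, ← Matrix.mulVec_mulVec] at h2
    rw [rhoF_apply, rhoF_apply]
    have hab : α + (ι t - α) = ι t := by ring
    have hab' : α * (ι t - α) = ι (d g : R) := by linear_combination (-1 : F) * hα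
    rw [hab, hab']
    exact h2

/-- **Field-generic core.**  Over an algebraically closed field, a matrix representation with
quadratic relations has an invariant subspace of dimension one or two. -/
theorem exists_invariant_subspace [IsAlgClosed F] (ι : R →+* F) (hn : 0 < n)
    (M : G →* Matrix (Fin n) (Fin n) R) (d : G →* Rˣ)
    (hq : ∀ g : G, ∃ t : R, M g * M g - t • M g + (d g : R) • (1 : Matrix (Fin n) (Fin n) R) = 0) :
    ∃ U : Submodule F (Fin n → F), (∀ (g : G) (x : Fin n → F), x ∈ U →
      ((M g).map ι).mulVec x ∈ U) ∧ (Module.finrank F U = 1 ∨ Module.finrank F U = 2) := by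
  have : Nonempty (Fin n) := ⟨⟨0, hn⟩⟩
  have : Nontrivial (Fin n → F) := Function.nontrivial
  obtain ⟨U, hU, hU0, hmin⟩ := exists_minimal_inv (rhoF ι M)
  have hle : Module.finrank F U ≤ 2 :=
    finrank_le_two (resRep (rhoF ι M) U hU) (chiF ι d)
      (quadRel_resRep (rhoF ι M) (chiF ι d) (quadRel_rhoF ι M d hq) U hU)
      (orbitSpan_resRep (rhoF ι M) U hU hmin)
  have hpos : 0 < Module.finrank F U := by
    rw [Nat.pos_iff_ne_zero]
    intro h0
    exact hU0 (Submodule.finrank_eq_zero.mp h0)
  refine ⟨U, fun g x hx => hU g x hx, ?_⟩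
  omega

/-- Transport of invariance and saturation to a lattice cut out by the subspace. -/
theorem lattice_of_subspace {R'' : Type*} [CommRing R''] [Algebra R R''] (ι : R →+* F)
    (j : R'' →+* F) (hj : Function.Injective j)
    (hjι : ∀ c : R, j (algebraMap R R'' c) = ι c)
    (M : G →* Matrix (Fin n) (Fin n) R) (U : Submodule F (Fin n → F))
    (hU : ∀ (g : G) (x : Fin n → F), x ∈ U → ((M g).map ι).mulVec x ∈ U)
    (L : Submodule R'' (Fin n → R''))
    (hL : ∀ x : Fin n → R'', x ∈ L ↔ (fun i => j (x i)) ∈ U) :
    (∀ (g : G) (x : Fin n → R''), x ∈ L → ((M g).map (algebraMap R R'')).mulVec x ∈ L) ∧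
      (∀ (c : R'') (x : Fin n → R''), c ≠ 0 → c • x ∈ L → x ∈ L) := by
  constructor
  · intro g x hx
    rw [hL] at hx ⊢
    have h1 : (fun i => j ((((M g).map (algebraMap R R'')).mulVec x) i)) =
        ((M g).map ι).mulVec (fun i => j (x i)) := by
      have h2 := RingHom.map_mulVec j ((M g).map (algebraMap R R'')) x
      have h3 : ((M g).map (algebraMap R R'')).map j = (M g).map ι := by
        ext a b
        simp [Matrix.map_apply, hjι]
      rw [h3] at h2
      funext i
      exact h2 i
    rw [h1]
    exact hU g _ hx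
  · intro c x hc hx
    rw [hL] at hx ⊢
    have hjc : j c ≠ 0 := fun h => hc (hj (by rw [h, map_zero]))
    have h1 : (fun i => j ((c • x) i)) = j c • (fun i => j (x i)) := by
      funext i
      simp
    rw [h1] at hx
    have h2 := U.smul_mem (j c)⁻¹ hx
    rwa [smul_smul, inv_mul_cancel₀ hjc, one_smul] at h2

end Fermat.Agent.ESJ.Rep.AdicLatt
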