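import Mathlib
import Fermat.Agent.ESJ.Rep.AdicLattCore
import Fermat.Agent.ESJ.Rep.AdicDescent

/-!
# REP-ADIC-LATT

A matrix representation over a complete DVR `𝒪` all of whose members satisfy a quadratic
relation `M g ^ 2 - t • M g + d g = 0` has an invariant saturated lattice of rank one or two
over a finite extension `𝒪''` of `𝒪`.
-/

set_option autoImplicit false

namespace Fermat.Agent.ESJ.Rep

theorem exists_invariant_lattice_of_quadratic (𝒪 : Type) [CommRing 𝒪] [IsDomain 𝒪]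
    [IsDiscreteValuationRing 𝒪] [IsAdicComplete (IsLocalRing.maximalIdeal 𝒪) 𝒪]
    [Finite (IsLocalRing.ResidueField 𝒪)] [CharZero 𝒪] {G : Type} [Group G] {n : ℕ}
    (hn : 0 < n) (M : G →* Matrix (Fin n) (Fin n) 𝒪) (d : G →* 𝒪ˣ)
    (hq : ∀ g : G, ∃ t : 𝒪,
      M g * M g - t • M g + (d g : 𝒪) • (1 : Matrix (Fin n) (Fin n) 𝒪) = 0) :
    ∃ (𝒪'' : Type) (_ : CommRing 𝒪'') (_ : IsDomain 𝒪'') (_ : IsDiscreteValuationRing 𝒪'')
      (_ : IsAdicComplete (IsLocalRing.maximalIdeal 𝒪'') 𝒪'')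
      (_ : Finite (IsLocalRing.ResidueField 𝒪'')) (_ : CharZero 𝒪'') (_ : Algebra 𝒪 𝒪'')
      (_ : Module.Finite 𝒪 𝒪'') (_ : IsLocalHom (algebraMap 𝒪 𝒪'')),
      Function.Injective (algebraMap 𝒪 𝒪'') ∧ ∃ L : Submodule 𝒪'' (Fin n → 𝒪''),
        (∀ (g : G) (x : Fin n → 𝒪''), x ∈ L →
          ((M g).map (algebraMap 𝒪 𝒪'')).mulVec x ∈ L) ∧
        (∀ (c : 𝒪'') (x : Fin n → 𝒪''), c ≠ 0 → c • x ∈ L → x ∈ L) ∧
        (Module.finrank 𝒪'' L = 1 ∨ Module.finrank 𝒪'' L = 2) := by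
  obtain ⟨U, hU, hrank⟩ := AdicLatt.exists_invariant_subspace
    (algebraMap 𝒪 (AlgebraicClosure (FractionRing 𝒪))) hn M d hq
  obtain ⟨𝒪'', i1, i2, i3, i4, i5, i6, i7, i8, i9, j, hinj, hj, hjι, L, hL, hLrank⟩ :=
    exists_lattice_of_subspace 𝒪 U
  refine ⟨𝒪'', i1, i2, i3, i4, i5, i6, i7, i8, i9, hinj, L, ?_, ?_, ?_⟩
  · exact (AdicLatt.lattice_of_subspace
      (algebraMap 𝒪 (AlgebraicClosure (FractionRing 𝒪))) j hj hjι M U hU L hL).1
  · exact (AdicLatt.lattice_of_subspace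
      (algebraMap 𝒪 (AlgebraicClosure (FractionRing 𝒪))) j hj hjι M U hU L hL).2
  · rw [hLrank]
    exact hrank

end Fermat.Agent.ESJ.Rep
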