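/-
ESJ / REP layer, task REP-ADIC-QUAD (owner: helper32).

On a continuous `𝒪`-lattice `W` with the Eichler–Shimura quadratic relation at all Frobenius
lifts outside `S`, EVERY `g ∈ G_ℚ` satisfies `ρ(g)² − t·ρ(g) + χ_cyc(g) = 0` for some `t ∈ 𝒪`.
-/
import Mathlib
import Fermat.Agent.ESJ.Rep.Defs
import Fermat.Agent.ESJ.Rep.Cyclo
import Fermat.Agent.S31.Lucas

set_option autoImplicit false

namespace Fermat.Agent.ESJ.Rep

open IsLocalRing

namespace AdicQuad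

/-- Coordinates of an element of `I • ⊤` lie in `I`. -/
theorem repr_mem_of_mem_smul_top {𝒪 : Type*} [CommRing 𝒪] {ι : Type*} {V : Type*}
    [AddCommGroup V] [Module 𝒪 V] (b : Module.Basis ι 𝒪 V) (I : Ideal 𝒪) {x : V}
    (hx : x ∈ I • (⊤ : Submodule 𝒪 V)) (i : ι) : b.repr x i ∈ I := by
  refine Submodule.smul_induction_on (p := fun x => b.repr x i ∈ I) hx ?_ ?_
  · intro r hr w _
    rw [map_smul, Finsupp.smul_apply, smul_eq_mul]
    exact I.mul_mem_right _ hr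
  · intro x y hx hy
    rw [map_add, Finsupp.add_apply]
    exact I.add_mem hx hy

/-- Krull's intersection theorem for a discrete valuation ring. -/
theorem eq_zero_of_forall_mem_pow {𝒪 : Type*} [CommRing 𝒪] [IsDomain 𝒪]
    [IsDiscreteValuationRing 𝒪] {x : 𝒪} (h : ∀ n : ℕ, x ∈ maximalIdeal 𝒪 ^ n) : x = 0 := by
  have h1 := Ideal.iInf_pow_eq_bot_of_isLocalRing (maximalIdeal 𝒪)
    (Ideal.IsMaximal.ne_top inferInstance)
  have hx : x ∈ ⨅ i : ℕ, maximalIdeal 𝒪 ^ i := (Submodule.mem_iInf _).2 h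
  rw [h1] at hx
  exact hx

section EndIdeal

variable {𝒪 : Type*} [CommRing 𝒪] {W : Type*} [AddCommGroup W] [Module 𝒪 W]

/-- An endomorphism maps `I • ⊤` into itself. -/
theorem map_mem_smul_top (I : Ideal 𝒪) (f : Module.End 𝒪 W) {x : W}
    (hx : x ∈ I • (⊤ : Submodule 𝒪 W)) : f x ∈ I • (⊤ : Submodule 𝒪 W) := by
  refine Submodule.smul_induction_on (p := fun x => f x ∈ I • (⊤ : Submodule 𝒪 W)) hx ?_ ?_
  · intro a ha w _
    rw [map_smul]
    exact Submodule.smul_mem_smul ha Submodule.mem_top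
  · intro x y hx hy
    rw [map_add]
    exact Submodule.add_mem _ hx hy

/-- The endomorphisms with image in `I • ⊤` (a two-sided ideal of `End W`). -/
def smulTopEnd (I : Ideal 𝒪) (W : Type*) [AddCommGroup W] [Module 𝒪 W] :
    Submodule 𝒪 (Module.End 𝒪 W) where
  carrier := {f | ∀ w, f w ∈ I • (⊤ : Submodule 𝒪 W)}
  add_mem' := fun hf hg w => Submodule.add_mem _ (hf w) (hg w)
  zero_mem' := fun _ => Submodule.zero_mem _
  smul_mem' := fun c _ hf w => Submodule.smul_mem _ c (hf w)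

theorem mem_smulTopEnd {I : Ideal 𝒪} {f : Module.End 𝒪 W} :
    f ∈ smulTopEnd I W ↔ ∀ w, f w ∈ I • (⊤ : Submodule 𝒪 W) := Iff.rfl

theorem mul_mem_smulTopEnd_left {I : Ideal 𝒪} (g : Module.End 𝒪 W) {f : Module.End 𝒪 W}
    (hf : f ∈ smulTopEnd I W) : g * f ∈ smulTopEnd I W :=
  fun w => map_mem_smul_top I g (hf w)

theorem mul_mem_smulTopEnd_right {I : Ideal 𝒪} {f : Module.End 𝒪 W} (hf : f ∈ smulTopEnd I W)
    (g : Module.End 𝒪 W) : f * g ∈ smulTopEnd I W :=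
  fun w => hf (g w)

theorem smul_one_mem_smulTopEnd {I : Ideal 𝒪} {c : 𝒪} (hc : c ∈ I) :
    c • (1 : Module.End 𝒪 W) ∈ smulTopEnd I W :=
  fun _ => Submodule.smul_mem_smul hc Submodule.mem_top

/-- Over a finite free module, an endomorphism with image in `I • ⊤` lies in `I • End`. -/
theorem smulTopEnd_le {ι : Type*} [Finite ι] (b : Module.Basis ι 𝒪 W) (I : Ideal 𝒪) :
    smulTopEnd I W ≤ I • (⊤ : Submodule 𝒪 (Module.End 𝒪 W)) := by
  classical
  have := Fintype.ofFinite ι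
  intro f hf
  have hsum : f = ∑ i, (b.coord i).smulRight (f (b i)) := by
    refine b.ext fun j => ?_
    rw [LinearMap.sum_apply]
    simp only [LinearMap.smulRight_apply, Module.Basis.coord_apply, Module.Basis.repr_self]
    rw [Finset.sum_eq_single j]
    · simp
    · intro i _ hij
      simp [hij.symm]
    · intro hj
      exact absurd (Finset.mem_univ j) hj
  rw [hsum]
  refine Submodule.sum_mem _ fun i _ => ?_
  refine Submodule.smul_induction_on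
    (p := fun y => (b.coord i).smulRight y ∈ I • (⊤ : Submodule 𝒪 (Module.End 𝒪 W))) (hf (b i))
    ?_ ?_
  · intro a ha w _
    have : (b.coord i).smulRight (a • w) = a • (b.coord i).smulRight w := by
      ext v
      rw [LinearMap.smulRight_apply, LinearMap.smul_apply, LinearMap.smulRight_apply, smul_comm]
    rw [this]
    exact Submodule.smul_mem_smul ha Submodule.mem_top
  · intro y y' hy hy'
    have : (b.coord i).smulRight (y + y') = (b.coord i).smulRight y + (b.coord i).smulRight y' := by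
      ext v
      simp
    rw [this]
    exact Submodule.add_mem _ hy hy'

end EndIdeal

end AdicQuad

/-- In a finite free module over a discrete valuation ring: if `u` is a multiple of `v` modulo
every power of the maximal ideal, then `u` is a multiple of `v`. -/
theorem exists_smul_eq_of_forall_mem (𝒪 : Type) [CommRing 𝒪] [IsDomain 𝒪]
    [IsDiscreteValuationRing 𝒪] (M : Type*) [AddCommGroup M] [Module 𝒪 M] [Module.Free 𝒪 M]
    [Module.Finite 𝒪 M] (u v : M)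
    (h : ∀ n : ℕ, ∃ t : 𝒪, u - t • v ∈ (IsLocalRing.maximalIdeal 𝒪 ^ n) • (⊤ : Submodule 𝒪 M)) :
    ∃ t : 𝒪, u = t • v := by
  classical
  let b := Module.Free.chooseBasis 𝒪 M
  choose tn htn using h
  have hcoord : ∀ n j, b.repr u j - tn n * b.repr v j ∈ maximalIdeal 𝒪 ^ n := by
    intro n j
    have h1 := AdicQuad.repr_mem_of_mem_smul_top b _ (htn n) j
    rwa [map_sub, map_smul, Finsupp.sub_apply, Finsupp.smul_apply, smul_eq_mul] at h1
  by_cases hv : v = 0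
  · refine ⟨0, ?_⟩
    rw [zero_smul]
    apply b.repr.injective
    ext j
    rw [map_zero, Finsupp.zero_apply]
    apply AdicQuad.eq_zero_of_forall_mem_pow
    intro n
    have h1 := hcoord n j
    rwa [hv, map_zero, Finsupp.zero_apply, mul_zero, sub_zero] at h1
  · obtain ⟨i, hi⟩ : ∃ i, b.repr v i ≠ 0 := by
      by_contra hall
      apply hv
      apply b.repr.injective
      ext j
      rw [not_not.1 (not_exists.1 hall j), map_zero, Finsupp.zero_apply]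
    obtain ⟨ϖ, hϖ⟩ := IsDiscreteValuationRing.exists_irreducible 𝒪
    obtain ⟨c, w, he⟩ := IsDiscreteValuationRing.eq_unit_mul_pow_irreducible hi hϖ
    have hm : ∀ n, maximalIdeal 𝒪 ^ n = Ideal.span {ϖ ^ n} := fun n => by
      rw [hϖ.maximalIdeal_eq, Ideal.span_singleton_pow]
    have hw : ((w⁻¹ : 𝒪ˣ) : 𝒪) * (w : 𝒪) = 1 := Units.inv_mul w
    obtain ⟨t, ht⟩ : ∃ t, b.repr u i = t * b.repr v i := by
      have h1 := hcoord c i
      rw [hm, Ideal.mem_span_singleton] at h1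
      obtain ⟨z, hz⟩ := h1
      refine ⟨tn c + z * ((w⁻¹ : 𝒪ˣ) : 𝒪), ?_⟩
      have h2 : z * ((w⁻¹ : 𝒪ˣ) : 𝒪) * b.repr v i = ϖ ^ c * z := by
        rw [he]
        linear_combination (z * ϖ ^ c) * hw
      rw [add_mul, h2, ← hz]
      ring
    refine ⟨t, ?_⟩
    rw [← sub_eq_zero]
    apply b.repr.injective
    ext j
    rw [map_zero, Finsupp.zero_apply]
    apply AdicQuad.eq_zero_of_forall_mem_pow
    intro n
    have h1 := hcoord (n + c) i
    rw [ht, ← sub_mul, he, hm, Ideal.mem_span_singleton] at h1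
    obtain ⟨z, hz⟩ := h1
    have h2 : t - tn (n + c) = ϖ ^ n * (z * ((w⁻¹ : 𝒪ˣ) : 𝒪)) := by
      have hϖc : ϖ ^ c ≠ 0 := pow_ne_zero _ hϖ.ne_zero
      apply mul_right_cancel₀ hϖc
      apply mul_right_cancel₀ (Units.ne_zero w)
      rw [pow_add] at hz
      linear_combination hz - (ϖ ^ n * z * ϖ ^ c) * hw
    have h3 : t - tn (n + c) ∈ maximalIdeal 𝒪 ^ n := by
      rw [hm, Ideal.mem_span_singleton]
      exact ⟨_, h2⟩
    have h4 := Ideal.pow_le_pow_right (Nat.le_add_right n c) (hcoord (n + c) j)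
    have h5 : b.repr (u - t • v) j =
        (b.repr u j - tn (n + c) * b.repr v j) - (t - tn (n + c)) * b.repr v j := by
      rw [map_sub, map_smul, Finsupp.sub_apply, Finsupp.smul_apply, smul_eq_mul]
      ring
    rw [h5]
    exact Ideal.sub_mem _ h4 (Ideal.mul_mem_right _ _ h3)

/-- On a continuous `𝒪`-lattice with the Eichler–Shimura relation at every Frobenius lift
outside `S`, every `g ∈ G_ℚ` satisfies a quadratic relation with constant term the cyclotomic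
character. -/
theorem exists_quadratic_of_frob (hFrob : FrobDensity) {p : ℕ} [Fact p.Prime] (𝒪 : Type)
    [CommRing 𝒪] [IsDomain 𝒪] [IsDiscreteValuationRing 𝒪] [Algebra ℤ_[p] 𝒪]
    (hp : (p : 𝒪) ∈ IsLocalRing.maximalIdeal 𝒪) (S : Finset ℕ) (hpS : p ∈ S) (a : ℕ → 𝒪)
    (W : Type) [AddCommGroup W] [Module 𝒪 W] [Module.Free 𝒪 W] [Module.Finite 𝒪 W]
    (ρ : GQ →* Module.End 𝒪 W) (hcont : GaloisActionIsAdicContinuous 𝒪 ρ)
    (hquad : ∀ ℓ : ℕ, ℓ.Prime → ℓ ∉ S → ∀ A : ValuationSubring Qb, A.LiesOverPrime ℓ →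
      ∀ σ : GQ, A.IsFrobeniusAt σ ℓ →
        ρ σ * ρ σ - a ℓ • ρ σ + (ℓ : 𝒪) • (1 : Module.End 𝒪 W) = 0) (g : GQ) :
    ∃ t : 𝒪, ρ g * ρ g - t • ρ g +
      algebraMap ℤ_[p] 𝒪 ((cyclo p g : ℤ_[p]ˣ) : ℤ_[p]) • (1 : Module.End 𝒪 W) = 0 := by
  classical
  have key : ∀ n : ℕ, ∃ t : 𝒪,
      (ρ g * ρ g + algebraMap ℤ_[p] 𝒪 ((cyclo p g : ℤ_[p]ˣ) : ℤ_[p]) • (1 : Module.End 𝒪 W)) -
        t • ρ g ∈ (IsLocalRing.maximalIdeal 𝒪 ^ n) • (⊤ : Submodule 𝒪 (Module.End 𝒪 W)) := by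
    intro n
    obtain ⟨L₁, hL₁, h₁⟩ := hcont n
    obtain ⟨L₂, hL₂, h₂⟩ := cyclo_sub_one p n
    have hLfin : FiniteDimensional ℚ (L₁ ⊔ L₂ : IntermediateField ℚ Qb) :=
      IntermediateField.finiteDimensional_sup L₁ L₂
    obtain ⟨ℓ, A, σ, k, hℓ, hℓS, hA, hσ, hgk⟩ := hFrob (L₁ ⊔ L₂) hLfin S g
    have hℓp : ℓ ≠ p := fun h => hℓS (h ▸ hpS)
    -- the correction `τ = g⁻¹ σ^k`, trivial on `L₁ ⊔ L₂`
    obtain ⟨τ, hτ⟩ : ∃ τ : GQ, τ = g⁻¹ * σ ^ k := ⟨_, rfl⟩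
    have hσk : σ ^ k = g * τ := by rw [hτ, mul_inv_cancel_left]
    have hτfix : ∀ y ∈ (L₁ ⊔ L₂ : IntermediateField ℚ Qb), τ y = y := by
      intro y hy
      have h1 : τ y = g⁻¹ ((σ ^ k) y) := by rw [hτ]; rfl
      have h2 : g⁻¹ (g y) = y := by
        have : (g⁻¹ * g) y = y := by rw [inv_mul_cancel]; rfl
        exact this
      rw [h1, hgk y hy, h2]
    have hτ₁ : ∀ y ∈ L₁, τ y = y := fun y hy => hτfix y ((le_sup_left : L₁ ≤ L₁ ⊔ L₂) hy)
    have hτ₂ : ∀ y ∈ L₂, τ y = y := fun y hy => hτfix y ((le_sup_right : L₂ ≤ L₁ ⊔ L₂) hy)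
    -- the ideal `J` of endomorphisms with image in `𝔪ⁿ W`
    set J := AdicQuad.smulTopEnd (IsLocalRing.maximalIdeal 𝒪 ^ n) W with hJ
    have hε : ρ τ - 1 ∈ J := fun w => h₁ τ hτ₁ w
    -- the relation for `z = ρ(σ^k)`
    have hyy' : ρ σ * ρ σ⁻¹ = 1 := by rw [← map_mul, mul_inv_cancel, map_one]
    have hy'y : ρ σ⁻¹ * ρ σ = 1 := by rw [← map_mul, inv_mul_cancel, map_one]
    have hq := hquad ℓ hℓ hℓS A hA σ hσ
    have hsum : ρ σ + (ℓ : 𝒪) • ρ σ⁻¹ = algebraMap 𝒪 (Module.End 𝒪 W) (a ℓ) := by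
      rw [Algebra.algebraMap_eq_smul_one]
      have h1 := congrArg (fun f => f * ρ σ⁻¹) hq
      simp only [sub_mul, add_mul, smul_mul_assoc, mul_assoc, hyy', mul_one, one_mul,
        zero_mul] at h1
      rw [← sub_eq_zero, ← h1]
      abel
    have hluc := Fermat.Agent.S31.pow_add_pow_eq_lucas (ρ σ) (ρ σ⁻¹) hyy' hy'y (a ℓ) (ℓ : 𝒪)
      hsum k
    have hz'z : ρ σ⁻¹ ^ k * ρ σ ^ k = 1 := by
      rw [← map_pow, ← map_pow, ← map_mul, inv_pow, inv_mul_cancel, map_one]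
    have hzq : ρ σ ^ k * ρ σ ^ k + (ℓ : 𝒪) ^ k • (1 : Module.End 𝒪 W) =
        Fermat.Agent.S31.lucas (a ℓ) (ℓ : 𝒪) k • ρ σ ^ k := by
      have h1 := congrArg (fun f => f * ρ σ ^ k) hluc
      simp only [add_mul, smul_mul_assoc, hz'z] at h1
      rw [Algebra.algebraMap_eq_smul_one, smul_mul_assoc, one_mul] at h1
      exact h1
    have hz : ρ σ ^ k = ρ g + ρ g * (ρ τ - 1) := by
      rw [← map_pow, hσk, map_mul, mul_sub, mul_one]
      abel
    -- the cyclotomic character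
    have hdl : algebraMap ℤ_[p] 𝒪 ((cyclo p g : ℤ_[p]ˣ) : ℤ_[p]) - (ℓ : 𝒪) ^ k ∈
        IsLocalRing.maximalIdeal 𝒪 ^ n := by
      obtain ⟨c, hc⟩ := h₂ τ hτ₂
      have h3 : (ℓ : ℤ_[p]) ^ k =
          ((cyclo p g : ℤ_[p]ˣ) : ℤ_[p]) * ((cyclo p τ : ℤ_[p]ˣ) : ℤ_[p]) := by
        have h4 := congrArg (fun e : ℤ_[p]ˣ => (e : ℤ_[p])) (congrArg (cyclo p) hσk)
        simp only [map_pow, map_mul, Units.val_pow_eq_pow_val, Units.val_mul] at h4
        rw [cyclo_frobenius p hℓ hℓp A hA σ hσ] at h4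
        exact h4
      have h5 : algebraMap ℤ_[p] 𝒪 ((cyclo p g : ℤ_[p]ˣ) : ℤ_[p]) - (ℓ : 𝒪) ^ k =
          algebraMap ℤ_[p] 𝒪 (-((cyclo p g : ℤ_[p]ˣ) : ℤ_[p]) * c) * (p : 𝒪) ^ n := by
        have h6 : (ℓ : 𝒪) ^ k = algebraMap ℤ_[p] 𝒪 ((ℓ : ℤ_[p]) ^ k) := by
          rw [map_pow, map_natCast]
        have h7 : (p : 𝒪) ^ n = algebraMap ℤ_[p] 𝒪 ((p : ℤ_[p]) ^ n) := by
          rw [map_pow, map_natCast]
        rw [h6, h7, ← map_sub, ← map_mul, h3]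
        congr 1
        linear_combination (-((cyclo p g : ℤ_[p]ˣ) : ℤ_[p])) * hc
      rw [h5]
      exact Ideal.mul_mem_left _ _ (Ideal.pow_mem_pow hp n)
    -- conclusion
    refine ⟨Fermat.Agent.S31.lucas (a ℓ) (ℓ : 𝒪) k, AdicQuad.smulTopEnd_le
      (Module.Free.chooseBasis 𝒪 W) _ ?_⟩
    have e : ρ g * ρ g + algebraMap ℤ_[p] 𝒪 ((cyclo p g : ℤ_[p]ˣ) : ℤ_[p]) •
          (1 : Module.End 𝒪 W) - Fermat.Agent.S31.lucas (a ℓ) (ℓ : 𝒪) k • ρ g =
        (algebraMap ℤ_[p] 𝒪 ((cyclo p g : ℤ_[p]ˣ) : ℤ_[p]) - (ℓ : 𝒪) ^ k) •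
            (1 : Module.End 𝒪 W)
          + Fermat.Agent.S31.lucas (a ℓ) (ℓ : 𝒪) k • (ρ g * (ρ τ - 1))
          - (ρ g * (ρ g * (ρ τ - 1)) + ρ g * (ρ τ - 1) * ρ g
              + ρ g * (ρ τ - 1) * (ρ g * (ρ τ - 1))) := by
      have h8 : ρ g * ρ g = ρ σ ^ k * ρ σ ^ k - (ρ g * (ρ g * (ρ τ - 1)) + ρ g * (ρ τ - 1) * ρ g
              + ρ g * (ρ τ - 1) * (ρ g * (ρ τ - 1))) := by
        rw [hz]
        noncomm_ring
      have h9 : ρ σ ^ k * ρ σ ^ k = Fermat.Agent.S31.lucas (a ℓ) (ℓ : 𝒪) k • ρ σ ^ k -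
          (ℓ : 𝒪) ^ k • (1 : Module.End 𝒪 W) := by
        rw [← hzq]
        abel
      rw [h8, h9, hz, sub_smul, smul_add]
      abel
    rw [e]
    refine J.sub_mem (J.add_mem (AdicQuad.smul_one_mem_smulTopEnd hdl)
      (J.smul_mem _ (AdicQuad.mul_mem_smulTopEnd_left _ hε)))
      (J.add_mem (J.add_mem ?_ ?_) ?_)
    · exact AdicQuad.mul_mem_smulTopEnd_left _ (AdicQuad.mul_mem_smulTopEnd_left _ hε)
    · exact AdicQuad.mul_mem_smulTopEnd_right (AdicQuad.mul_mem_smulTopEnd_left _ hε) _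
    · exact AdicQuad.mul_mem_smulTopEnd_right (AdicQuad.mul_mem_smulTopEnd_left _ hε) _
  obtain ⟨t, ht⟩ := exists_smul_eq_of_forall_mem 𝒪 (Module.End 𝒪 W) _ _ key
  refine ⟨t, ?_⟩
  rw [sub_add_eq_add_sub, ht, sub_self]

end Fermat.Agent.ESJ.Rep
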