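/-
ESJ / REP layer — task REP-DICH (owner: helper51).

From the Eichler–Shimura QUADRATIC relation `ρ(σ)² − a_ℓ ρ(σ) + ℓ = 0` for Frobenius lifts to a
representation whose Frobenius CHARACTERISTIC POLYNOMIALS are `X² − a_ℓ X + ℓ`
(Frobenius density + the cyclotomic character; no Weil pairing).
-/
import Mathlib
import Fermat.Agent.ESJ.Rep.Defs
import Fermat.Agent.ESJ.Rep.Cyclo

set_option autoImplicit false

open scoped TensorProduct
open Polynomial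

namespace Fermat.Agent.ESJ.Rep.Dichotomy

/-! ### `2 × 2` matrices -/

section Mat2

variable {R : Type*} [CommRing R]

/-- Cayley–Hamilton for `2 × 2` matrices. -/
theorem mat2_cayley (M : Matrix (Fin 2) (Fin 2) R) :
    M * M - M.trace • M + M.det • (1 : Matrix (Fin 2) (Fin 2) R) = 0 := by
  ext i j
  fin_cases i <;> fin_cases j <;>
    simp [Matrix.mul_apply, Fin.sum_univ_two, Matrix.trace_fin_two, Matrix.det_fin_two] <;> ring

/-- Entrywise consequences of a monic quadratic relation for a `2 × 2` matrix. -/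
theorem mat2_entries_of_quad (M : Matrix (Fin 2) (Fin 2) R) (a l : R)
    (h : M * M - a • M + l • (1 : Matrix (Fin 2) (Fin 2) R) = 0) :
    (M.trace - a) * M 0 1 = 0 ∧ (M.trace - a) * M 1 0 = 0 ∧
      (M.trace - a) * M 0 0 = M.det - l ∧ (M.trace - a) * M 1 1 = M.det - l := by
  have h00 := congrFun (congrFun h 0) 0
  have h01 := congrFun (congrFun h 0) 1
  have h10 := congrFun (congrFun h 1) 0
  have h11 := congrFun (congrFun h 1) 1
  simp [Matrix.mul_apply, Fin.sum_univ_two] at h00 h01 h10 h11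
  rw [Matrix.trace_fin_two, Matrix.det_fin_two]
  refine ⟨?_, ?_, ?_, ?_⟩
  · linear_combination h01
  · linear_combination h10
  · linear_combination h00
  · linear_combination h11

/-- A `2 × 2` matrix over a domain satisfying `M² − a M + l = 0` is scalar, or has trace `a`
and determinant `l`. -/
theorem mat2_quad_dichotomy [IsDomain R] (M : Matrix (Fin 2) (Fin 2) R) (a l : R)
    (h : M * M - a • M + l • (1 : Matrix (Fin 2) (Fin 2) R) = 0) :
    (M 0 1 = 0 ∧ M 1 0 = 0 ∧ M 0 0 = M 1 1) ∨ (M.trace = a ∧ M.det = l) := by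
  obtain ⟨h01, h10, h00, h11⟩ := mat2_entries_of_quad M a l h
  by_cases ht : M.trace - a = 0
  · right
    refine ⟨sub_eq_zero.mp ht, ?_⟩
    rw [ht, zero_mul] at h00
    exact (sub_eq_zero.mp h00.symm)
  · left
    refine ⟨(mul_eq_zero.mp h01).resolve_left ht, (mul_eq_zero.mp h10).resolve_left ht, ?_⟩
    exact mul_left_cancel₀ ht (h00.trans h11.symm)

/-- A matrix with vanishing off-diagonal entries and equal diagonal entries is scalar. -/
theorem mat2_eq_smul_one (M : Matrix (Fin 2) (Fin 2) R) (h01 : M 0 1 = 0) (h10 : M 1 0 = 0)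
    (h : M 0 0 = M 1 1) : M = M 0 0 • (1 : Matrix (Fin 2) (Fin 2) R) := by
  ext i j
  fin_cases i <;> fin_cases j <;> simp [h01, h10, h]

end Mat2

/-! ### The abstract dichotomy for a `2 × 2` matrix representation of a group -/

section Abstract

variable {Γ : Type*} [Group Γ] {R : Type*} [CommRing R] [IsDomain R]
  (G : Γ →* Matrix (Fin 2) (Fin 2) R) (c : Γ →* R)

/-- A group is not the union of the "scalar" locus and the "determinant `= c`" locus unless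
one of them is everything. -/
theorem scalar_or_det
    (hall : ∀ g, (G g 0 1 = 0 ∧ G g 1 0 = 0 ∧ G g 0 0 = G g 1 1) ∨ (G g).det = c g) :
    (∀ g, G g 0 1 = 0 ∧ G g 1 0 = 0 ∧ G g 0 0 = G g 1 1) ∨ (∀ g, (G g).det = c g) := by
  by_contra hcon
  rw [not_or] at hcon
  obtain ⟨hZ, hH⟩ := hcon
  rw [not_forall] at hZ hH
  obtain ⟨z, hz⟩ := hZ
  obtain ⟨h, hh⟩ := hH
  have hzH : (G z).det = c z := (hall z).resolve_left hz
  obtain ⟨h01, h10, h00⟩ := (hall h).resolve_right hh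
  have hGh : G h = G h 0 0 • (1 : Matrix (Fin 2) (Fin 2) R) := mat2_eq_smul_one _ h01 h10 h00
  have hs : G h 0 0 ≠ 0 := by
    intro hs0
    have h1 : G h * G h⁻¹ = 1 := by rw [← map_mul, mul_inv_cancel, map_one]
    rw [hGh, hs0, zero_smul, zero_mul] at h1
    have := congrFun (congrFun h1 0) 0
    simp at this
  have hcz : c z ≠ 0 := by
    intro hc0
    have h1 : c z * c z⁻¹ = 1 := by rw [← map_mul, mul_inv_cancel, map_one]
    rw [hc0, zero_mul] at h1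
    exact zero_ne_one h1
  rcases hall (z * h) with hZ | hH
  · apply hz
    have hmul : G (z * h) = G h 0 0 • G z := by
      rw [map_mul, hGh, Matrix.mul_smul, mul_one]
      simp
    obtain ⟨e01, e10, e00⟩ := hZ
    rw [hmul] at e01 e10 e00
    simp only [Matrix.smul_apply, smul_eq_mul] at e01 e10 e00
    exact ⟨(mul_eq_zero.mp e01).resolve_left hs, (mul_eq_zero.mp e10).resolve_left hs,
      mul_left_cancel₀ hs e00⟩
  · apply hh
    rw [map_mul, Matrix.det_mul, map_mul, hzH] at hH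
    exact mul_left_cancel₀ hcz hH

omit [IsDomain R] in
/-- Approximation step: if `σ ^ k = g * τ` with `σ` in the union of the two loci and `τ`
congruent to the identity modulo `I` (for `G` and for `c`), then `g` is in the union of the
two loci modulo `I`. -/
theorem approx_step (I : Ideal R) (g σ τ : Γ) (k : ℕ) (hστ : σ ^ k = g * τ)
    (hσ : (G σ 0 1 = 0 ∧ G σ 1 0 = 0 ∧ G σ 0 0 = G σ 1 1) ∨ (G σ).det = c σ)
    (hτ : ∀ i j, (G τ - 1) i j ∈ I) (hcτ : c τ - 1 ∈ I) :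
    (G g 0 1 ∈ I ∧ G g 1 0 ∈ I ∧ G g 0 0 - G g 1 1 ∈ I) ∨ (G g).det - c g ∈ I := by
  rcases hσ with ⟨h01, h10, h00⟩ | hdet
  · left
    have hGσ : G σ = G σ 0 0 • (1 : Matrix (Fin 2) (Fin 2) R) := mat2_eq_smul_one _ h01 h10 h00
    have hP : G g * G τ = (G σ 0 0) ^ k • (1 : Matrix (Fin 2) (Fin 2) R) := by
      rw [← map_mul, ← hστ, map_pow, hGσ, _root_.smul_pow, one_pow]
      simp
    have key : ∀ i j, (G g * G τ) i j - G g i j ∈ I := by
      intro i j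
      have : G g * G τ - G g = G g * (G τ - 1) := by rw [mul_sub, mul_one]
      have h2 : (G g * G τ) i j - G g i j = (G g * (G τ - 1)) i j := by
        rw [← this, Matrix.sub_apply]
      rw [h2, Matrix.mul_apply]
      exact I.sum_mem fun m _ => I.mul_mem_left _ (hτ m j)
    have k01 := key 0 1
    have k10 := key 1 0
    have k00 := key 0 0
    have k11 := key 1 1
    rw [hP] at k01 k10 k00 k11
    simp only [Matrix.smul_apply, smul_eq_mul, Matrix.one_apply_eq, mul_one] at k00 k11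
    have e01 : ((G σ 0 0) ^ k • (1 : Matrix (Fin 2) (Fin 2) R)) 0 1 = 0 := by simp
    have e10 : ((G σ 0 0) ^ k • (1 : Matrix (Fin 2) (Fin 2) R)) 1 0 = 0 := by simp
    rw [e01, zero_sub] at k01
    rw [e10, zero_sub] at k10
    refine ⟨by simpa using I.neg_mem k01, by simpa using I.neg_mem k10, ?_⟩
    have : G g 0 0 - G g 1 1 = ((G σ 0 0) ^ k - G g 1 1) - ((G σ 0 0) ^ k - G g 0 0) := by ring
    rw [this]
    exact I.sub_mem k11 k00
  · right
    have hdetk : (G g).det * (G τ).det = c g * c τ := by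
      rw [← Matrix.det_mul, ← map_mul, ← map_mul, ← hστ, map_pow, map_pow, Matrix.det_pow, hdet]
    have e00 : G τ 0 0 - 1 ∈ I := by simpa using hτ 0 0
    have e11 : G τ 1 1 - 1 ∈ I := by simpa using hτ 1 1
    have e01 : G τ 0 1 ∈ I := by simpa using hτ 0 1
    have e10 : G τ 1 0 ∈ I := by simpa using hτ 1 0
    have hdτ : (G τ).det - 1 ∈ I := by
      have : (G τ).det - 1 = (G τ 0 0 - 1) * G τ 1 1 + (G τ 1 1 - 1) - G τ 0 1 * G τ 1 0 := by
        rw [Matrix.det_fin_two]; ring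
      rw [this]
      exact I.sub_mem (I.add_mem (I.mul_mem_right _ e00) e11) (I.mul_mem_right _ e01)
    have : (G g).det - c g = c g * (c τ - 1) - (G g).det * ((G τ).det - 1) := by
      linear_combination hdetk
    rw [this]
    exact I.sub_mem (I.mul_mem_left _ hcτ) (I.mul_mem_left _ hdτ)

omit [IsDomain R] in
/-- Passage to the limit: membership in the union of the two loci modulo every power of the
maximal ideal gives membership in the union. -/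
theorem limit_step [IsNoetherianRing R] [IsLocalRing R] (g : Γ)
    (h : ∀ n : ℕ, (G g 0 1 ∈ IsLocalRing.maximalIdeal R ^ n ∧
        G g 1 0 ∈ IsLocalRing.maximalIdeal R ^ n ∧
        G g 0 0 - G g 1 1 ∈ IsLocalRing.maximalIdeal R ^ n) ∨
      (G g).det - c g ∈ IsLocalRing.maximalIdeal R ^ n) :
    (G g 0 1 = 0 ∧ G g 1 0 = 0 ∧ G g 0 0 = G g 1 1) ∨ (G g).det = c g := by
  have krull : ∀ x : R, (∀ n : ℕ, x ∈ IsLocalRing.maximalIdeal R ^ n) → x = 0 := by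
    intro x hx
    have h1 : x ∈ ⨅ n : ℕ, IsLocalRing.maximalIdeal R ^ n := (Ideal.mem_iInf).mpr hx
    rw [Ideal.iInf_pow_eq_bot_of_isLocalRing _ (IsLocalRing.maximalIdeal.isMaximal R).ne_top]
      at h1
    simpa using h1
  by_cases hZ : ∀ n : ℕ, (G g 0 1 ∈ IsLocalRing.maximalIdeal R ^ n ∧
        G g 1 0 ∈ IsLocalRing.maximalIdeal R ^ n ∧
        G g 0 0 - G g 1 1 ∈ IsLocalRing.maximalIdeal R ^ n)
  · left
    exact ⟨krull _ fun n => (hZ n).1, krull _ fun n => (hZ n).2.1,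
      sub_eq_zero.mp (krull _ fun n => (hZ n).2.2)⟩
  · right
    rw [not_forall] at hZ
    obtain ⟨n₀, hn₀⟩ := hZ
    refine sub_eq_zero.mp (krull _ fun n => ?_)
    rcases h (max n n₀) with hZ' | hH'
    · exfalso
      apply hn₀
      have hle := Ideal.pow_le_pow_right (I := IsLocalRing.maximalIdeal R) (le_max_right n n₀)
      exact ⟨hle hZ'.1, hle hZ'.2.1, hle hZ'.2.2⟩
    · exact Ideal.pow_le_pow_right (le_max_left n n₀) hH'

/-- The abstract dichotomy. -/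
theorem abstract_dichotomy [IsNoetherianRing R] [IsLocalRing R]
    (happ : ∀ (n : ℕ) (g : Γ), ∃ (σ τ : Γ) (k : ℕ), σ ^ k = g * τ ∧
      ((G σ 0 1 = 0 ∧ G σ 1 0 = 0 ∧ G σ 0 0 = G σ 1 1) ∨ (G σ).det = c σ) ∧
      (∀ i j, (G τ - 1) i j ∈ IsLocalRing.maximalIdeal R ^ n) ∧
      c τ - 1 ∈ IsLocalRing.maximalIdeal R ^ n) :
    (∀ g, G g 0 1 = 0 ∧ G g 1 0 = 0 ∧ G g 0 0 = G g 1 1) ∨ (∀ g, (G g).det = c g) := by
  refine scalar_or_det G c fun g => limit_step G c g fun n => ?_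
  obtain ⟨σ, τ, k, hστ, hσ, hτ, hcτ⟩ := happ n g
  exact approx_step G c _ g σ τ k hστ hσ hτ hcτ

end Abstract

/-! ### Characters, diagonal representations -/

section Galois

variable {𝒪 : Type} [CommRing 𝒪] [IsLocalRing 𝒪]

omit [IsLocalRing 𝒪] in
/-- Coordinates of an element of `I • ⊤` lie in `I`. -/
theorem repr_mem_of_mem_smul_top {ι : Type*} {V : Type*} [AddCommGroup V] [Module 𝒪 V]
    (b : Module.Basis ι 𝒪 V) (I : Ideal 𝒪) {x : V} (hx : x ∈ I • (⊤ : Submodule 𝒪 V)) (i : ι) :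
    b.repr x i ∈ I := by
  refine Submodule.smul_induction_on (p := fun x => b.repr x i ∈ I) hx ?_ ?_
  · intro r hr w _
    rw [map_smul, Finsupp.smul_apply, smul_eq_mul]
    exact I.mul_mem_right _ hr
  · intro x y hx hy
    rw [map_add, Finsupp.add_apply]
    exact I.add_mem hx hy

omit [IsLocalRing 𝒪] in
/-- A vector of `𝒪²` with coordinates in `I` lies in `I • ⊤`. -/
theorem pi_mem_smul_top (I : Ideal 𝒪) (x : Fin 2 → 𝒪) (hx : ∀ i, x i ∈ I) :
    x ∈ I • (⊤ : Submodule 𝒪 (Fin 2 → 𝒪)) := by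
  rw [pi_eq_sum_univ x]
  exact Submodule.sum_mem _ fun i _ => Submodule.smul_mem_smul (hx i) Submodule.mem_top

/-- Adic continuity of a character `G_ℚ → 𝒪`. -/
def CharCont (χ : GQ →* 𝒪) : Prop :=
  ∀ n : ℕ, ∃ L : IntermediateField ℚ Qb, FiniteDimensional ℚ L ∧
    ∀ σ : GQ, (∀ x ∈ L, σ x = x) → χ σ - 1 ∈ IsLocalRing.maximalIdeal 𝒪 ^ n

theorem CharCont.mul {χ₁ χ₂ : GQ →* 𝒪} (h₁ : CharCont χ₁) (h₂ : CharCont χ₂) :
    CharCont (χ₁ * χ₂) := by
  intro n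
  obtain ⟨L₁, hL₁, h₁⟩ := h₁ n
  obtain ⟨L₂, hL₂, h₂⟩ := h₂ n
  refine ⟨L₁ ⊔ L₂, inferInstance, fun σ hσ => ?_⟩
  have e₁ := h₁ σ fun x hx => hσ x ((le_sup_left : L₁ ≤ L₁ ⊔ L₂) hx)
  have e₂ := h₂ σ fun x hx => hσ x ((le_sup_right : L₂ ≤ L₁ ⊔ L₂) hx)
  have : (χ₁ * χ₂) σ - 1 = (χ₁ σ - 1) * χ₂ σ + (χ₂ σ - 1) := by
    rw [MonoidHom.mul_apply]; ring
  rw [this]
  exact Ideal.add_mem _ (Ideal.mul_mem_right _ _ e₁) e₂

/-- The diagonal representation `χ₁ ⊕ χ₂` on `𝒪²`. -/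
noncomputable def diagRep (χ₁ χ₂ : GQ →* 𝒪) (h₁ : CharCont χ₁) (h₂ : CharCont χ₂) :
    GaloisRepAdic 𝒪 where
  V := Fin 2 → 𝒪
  finrank_eq := by simp
  ρ :=
    { toFun := fun g => Matrix.toLin' (Matrix.diagonal ![χ₁ g, χ₂ g])
      map_one' := by
        have : (![χ₁ 1, χ₂ 1] : Fin 2 → 𝒪) = fun _ => 1 := by
          ext i; fin_cases i <;> simp
        rw [this, Matrix.diagonal_one, Matrix.toLin'_one]; rfl
      map_mul' := fun g h => by
        have : (![χ₁ (g * h), χ₂ (g * h)] : Fin 2 → 𝒪) =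
            fun i => ![χ₁ g, χ₂ g] i * ![χ₁ h, χ₂ h] i := by
          ext i; fin_cases i <;> simp
        rw [this, ← Matrix.diagonal_mul_diagonal, Matrix.toLin'_mul]; rfl }
  isAdicContinuous := by
    intro n
    obtain ⟨L₁, hL₁, h₁⟩ := h₁ n
    obtain ⟨L₂, hL₂, h₂⟩ := h₂ n
    refine ⟨L₁ ⊔ L₂, inferInstance, fun σ hσ v => ?_⟩
    have e₁ := h₁ σ fun x hx => hσ x ((le_sup_left : L₁ ≤ L₁ ⊔ L₂) hx)
    have e₂ := h₂ σ fun x hx => hσ x ((le_sup_right : L₂ ≤ L₁ ⊔ L₂) hx)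
    apply pi_mem_smul_top
    intro i
    have : (Matrix.toLin' (Matrix.diagonal ![χ₁ σ, χ₂ σ]) v - v) i =
        (![χ₁ σ, χ₂ σ] i - 1) * v i := by
      rw [Pi.sub_apply, Matrix.toLin'_apply, Matrix.mulVec_diagonal]; ring
    show (Matrix.toLin' (Matrix.diagonal ![χ₁ σ, χ₂ σ]) v - v) i ∈ _
    rw [this]
    refine Ideal.mul_mem_right _ _ ?_
    fin_cases i
    · simpa using e₁
    · simpa using e₂

theorem diagRep_apply (χ₁ χ₂ : GQ →* 𝒪) (h₁ : CharCont χ₁) (h₂ : CharCont χ₂) (g : GQ) :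
    (diagRep χ₁ χ₂ h₁ h₂).ρ g = Matrix.toLin' (Matrix.diagonal ![χ₁ g, χ₂ g]) := rfl

end Galois

/-! ### The main theorem, with the cyclotomic character as a parameter -/

section Main

/-- `exists_rep_of_quadratic` with the `p`-adic cyclotomic character (and its three basic
properties) as hypotheses. -/
theorem exists_rep_of_quadratic_of_cyclo (hFrob : FrobDensity) {p : ℕ} [Fact p.Prime]
    (cyc : GQ →* ℤ_[p]ˣ)
    (hcyc1 : ∀ n : ℕ, ∃ L : IntermediateField ℚ Qb, FiniteDimensional ℚ L ∧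
      ∀ σ : GQ, (∀ x ∈ L, σ x = x) →
        ∃ c : ℤ_[p], ((cyc σ : ℤ_[p]ˣ) : ℤ_[p]) - 1 = (p : ℤ_[p]) ^ n * c)
    (hcyc2 : ∀ {ℓ : ℕ}, ℓ.Prime → ℓ ≠ p → ∀ A : ValuationSubring Qb, A.LiesOverPrime ℓ →
      ∀ σ : GQ, A.IsFrobeniusAt σ ℓ → ((cyc σ : ℤ_[p]ˣ) : ℤ_[p]) = (ℓ : ℤ_[p]))
    (hcyc3 : ∀ {q : ℕ}, q.Prime → q ≠ p → ∀ A : ValuationSubring Qb, A.LiesOverPrime q →
      ∀ σ : GQ, σ ∈ A.inertiaSubgroupIn ℚ → cyc σ = 1)
    (𝒪 : Type) [CommRing 𝒪] [IsDomain 𝒪] [IsDiscreteValuationRing 𝒪] [CharZero 𝒪]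
    [Algebra ℤ_[p] 𝒪] (hp : (p : 𝒪) ∈ IsLocalRing.maximalIdeal 𝒪)
    (ρ₀ : GaloisRepAdic 𝒪) (S : Finset ℕ) (hpS : p ∈ S) (a : ℕ → 𝒪)
    (hquad : ∀ ℓ : ℕ, ℓ.Prime → ℓ ∉ S → ∀ A : ValuationSubring Qb, A.LiesOverPrime ℓ →
      ∀ σ : GQ, A.IsFrobeniusAt σ ℓ →
        ρ₀.ρ σ * ρ₀.ρ σ - a ℓ • ρ₀.ρ σ + (ℓ : 𝒪) • (1 : Module.End 𝒪 ρ₀.V) = 0) :
    ∃ ρ : GaloisRepAdic 𝒪,
      (∀ ℓ : ℕ, ℓ.Prime → ℓ ∉ S → ∀ A : ValuationSubring Qb, A.LiesOverPrime ℓ →
        ∀ σ : GQ, A.IsFrobeniusAt σ ℓ →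
          LinearMap.charpoly (ρ.ρ σ) = X ^ 2 - C (a ℓ) * X + C ((ℓ : 𝒪))) ∧
      (∀ q : ℕ, q.Prime → q ≠ p → ρ₀.IsUnramifiedAt q → ρ.IsUnramifiedAt q) := by
  classical
  -- a basis and the matrix form of `ρ₀`
  let b : Module.Basis (Fin 2) 𝒪 ρ₀.V := Module.finBasisOfFinrankEq 𝒪 ρ₀.V ρ₀.finrank_eq
  let G : GQ →* Matrix (Fin 2) (Fin 2) 𝒪 :=
    ((LinearMap.toMatrixAlgEquiv b : Module.End 𝒪 ρ₀.V ≃ₐ[𝒪] Matrix (Fin 2) (Fin 2) 𝒪) :
      Module.End 𝒪 ρ₀.V →* Matrix (Fin 2) (Fin 2) 𝒪).comp ρ₀.ρ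
  let c : GQ →* 𝒪 :=
    ((algebraMap ℤ_[p] 𝒪 : ℤ_[p] →* 𝒪).comp (Units.coeHom ℤ_[p])).comp cyc
  have hG : ∀ g, G g = LinearMap.toMatrix b b (ρ₀.ρ g) := fun g => rfl
  have hc : ∀ g, c g = algebraMap ℤ_[p] 𝒪 ((cyc g : ℤ_[p]ˣ) : ℤ_[p]) := fun g => rfl
  have hquadM : ∀ ℓ : ℕ, ℓ.Prime → ℓ ∉ S → ∀ A : ValuationSubring Qb, A.LiesOverPrime ℓ →
      ∀ σ : GQ, A.IsFrobeniusAt σ ℓ →
        G σ * G σ - a ℓ • G σ + (ℓ : 𝒪) • (1 : Matrix (Fin 2) (Fin 2) 𝒪) = 0 := by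
    intro ℓ hℓ hℓS A hA σ hσ
    have h := congrArg (LinearMap.toMatrixAlgEquiv b) (hquad ℓ hℓ hℓS A hA σ hσ)
    rw [map_add, map_sub, map_mul, map_smul, map_smul, map_one, map_zero] at h
    exact h
  have hcFrob : ∀ ℓ : ℕ, ℓ.Prime → ℓ ∉ S → ∀ A : ValuationSubring Qb, A.LiesOverPrime ℓ →
      ∀ σ : GQ, A.IsFrobeniusAt σ ℓ → c σ = (ℓ : 𝒪) := by
    intro ℓ hℓ hℓS A hA σ hσ
    have hℓp : ℓ ≠ p := fun h => hℓS (h ▸ hpS)
    rw [hc, hcyc2 hℓ hℓp A hA σ hσ, map_natCast]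
  have hcCont : CharCont c := by
    intro n
    obtain ⟨L, hL, h⟩ := hcyc1 n
    refine ⟨L, hL, fun σ hσ => ?_⟩
    obtain ⟨c', hc'⟩ := h σ hσ
    have : c σ - 1 = (p : 𝒪) ^ n * algebraMap ℤ_[p] 𝒪 c' := by
      rw [hc, ← map_one (algebraMap ℤ_[p] 𝒪), ← map_sub, hc', map_mul, map_pow, map_natCast]
    rw [this]
    exact Ideal.mul_mem_right _ _ (Ideal.pow_mem_pow hp n)
  have hentry : ∀ (τ : GQ) (i j : Fin 2),
      (G τ - 1) i j = b.repr (ρ₀.ρ τ (b j) - b j) i := by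
    intro τ i j
    rw [Matrix.sub_apply, hG, LinearMap.toMatrix_apply, map_sub, Finsupp.sub_apply,
      Module.Basis.repr_self, Matrix.one_apply, Finsupp.single_apply]
    simp [eq_comm]
  -- the dichotomy
  have hdich := abstract_dichotomy G c (by
    intro n g
    obtain ⟨L₁, hL₁, h₁⟩ := ρ₀.isAdicContinuous n
    obtain ⟨L₂, hL₂, h₂⟩ := hcCont n
    obtain ⟨ℓ, A, σ, k, hℓ, hℓS, hA, hσ, hag⟩ := hFrob (L₁ ⊔ L₂) inferInstance S g
    have hτfix : ∀ x ∈ L₁ ⊔ L₂, (g⁻¹ * σ ^ k) x = x := by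
      intro x hx
      have h1 : (g⁻¹ * g) x = x := by rw [inv_mul_cancel]; rfl
      rw [AlgEquiv.mul_apply] at h1 ⊢
      rw [hag x hx]; exact h1
    refine ⟨σ, g⁻¹ * σ ^ k, k, (mul_inv_cancel_left g _).symm, ?_, ?_, ?_⟩
    · rcases mat2_quad_dichotomy (G σ) (a ℓ) (ℓ : 𝒪) (hquadM ℓ hℓ hℓS A hA σ hσ) with
        h | ⟨-, hdet⟩
      · exact Or.inl h
      · exact Or.inr (by rw [hdet, hcFrob ℓ hℓ hℓS A hA σ hσ])
    · intro i j
      rw [hentry]
      exact repr_mem_of_mem_smul_top b _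
        (h₁ _ (fun x hx => hτfix x ((le_sup_left : L₁ ≤ L₁ ⊔ L₂) hx)) (b j)) i
    · exact h₂ _ fun x hx => hτfix x ((le_sup_right : L₂ ≤ L₁ ⊔ L₂) hx))
  rcases hdich with hZ | hH
  · -- the scalar case: `ρ₀ = ψ • 1`; take `ψ ⊕ c ψ⁻¹`
    let ψ : GQ →* 𝒪 :=
      { toFun := fun g => G g 0 0
        map_one' := by rw [map_one, Matrix.one_apply_eq]
        map_mul' := fun g h => by
          rw [map_mul, Matrix.mul_apply, Fin.sum_univ_two, (hZ g).1, zero_mul, add_zero] }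
    let ψ' : GQ →* 𝒪 :=
      { toFun := fun g => ψ g⁻¹
        map_one' := by rw [inv_one, map_one]
        map_mul' := fun g h => by rw [mul_inv_rev, map_mul, mul_comm] }
    have hψ : ∀ g, ψ g = G g 0 0 := fun g => rfl
    have hψψ' : ∀ g, ψ g * ψ' g = 1 := fun g => by
      show ψ g * ψ g⁻¹ = 1
      rw [← map_mul, mul_inv_cancel, map_one]
    have hψCont : CharCont ψ := by
      intro n
      obtain ⟨L, hL, h⟩ := ρ₀.isAdicContinuous n
      refine ⟨L, hL, fun σ hσ => ?_⟩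
      have h1 := repr_mem_of_mem_smul_top b _ (h σ hσ (b 0)) 0
      rw [← hentry] at h1
      rw [hψ]
      simpa using h1
    have hψ'Cont : CharCont ψ' := by
      intro n
      obtain ⟨L, hL, h⟩ := hψCont n
      refine ⟨L, hL, fun σ hσ => ?_⟩
      have : ψ' σ - 1 = -(ψ' σ * (ψ σ - 1)) := by linear_combination hψψ' σ
      rw [this]
      exact neg_mem (Ideal.mul_mem_left _ _ (h σ hσ))
    refine ⟨diagRep ψ (c * ψ') hψCont (hcCont.mul hψ'Cont), ?_, ?_⟩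
    · intro ℓ hℓ hℓS A hA σ hσ
      have hq := congrFun (congrFun (hquadM ℓ hℓ hℓS A hA σ hσ) 0) 0
      have e1 : ψ σ * ψ σ - a ℓ * ψ σ + (ℓ : 𝒪) = 0 := by
        simp only [Matrix.add_apply, Matrix.sub_apply, Matrix.mul_apply, Fin.sum_univ_two,
          Matrix.smul_apply, smul_eq_mul, Matrix.one_apply_eq, mul_one, Matrix.zero_apply,
          (hZ σ).1, zero_mul, add_zero] at hq
        exact hq
      have e2 := hψψ' σ
      have e3 := hcFrob ℓ hℓ hℓS A hA σ hσ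
      change LinearMap.charpoly (Matrix.toLin' (Matrix.diagonal ![ψ σ, (c * ψ') σ])) = _
      rw [Matrix.charpoly_toLin', Matrix.charpoly_fin_two]
      have htr : (Matrix.diagonal ![ψ σ, (c * ψ') σ]).trace = a ℓ := by
        rw [Matrix.trace_fin_two, MonoidHom.mul_apply, e3]
        simp only [Matrix.diagonal_apply_eq, Matrix.cons_val_zero, Matrix.cons_val_one]
        linear_combination ψ' σ * e1 - (ψ σ - a ℓ) * e2
      have hdet : (Matrix.diagonal ![ψ σ, (c * ψ') σ]).det = (ℓ : 𝒪) := by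
        rw [Matrix.det_diagonal, Fin.prod_univ_two, MonoidHom.mul_apply, e3]
        simp only [Matrix.cons_val_zero, Matrix.cons_val_one]
        linear_combination (ℓ : 𝒪) * e2
      rw [htr, hdet]
    · intro q hq hqp hur A hA σ hσ
      have h1 : ρ₀.ρ σ = 1 := hur A hA σ hσ
      have hψ1 : ψ σ = 1 := by
        rw [hψ, hG, h1, LinearMap.toMatrix_one, Matrix.one_apply_eq]
      have hψ'1 : ψ' σ = 1 := by
        have := hψψ' σ
        rwa [hψ1, one_mul] at this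
      have hc1 : c σ = 1 := by
        rw [hc, hcyc3 hq hqp A hA σ hσ, Units.val_one, map_one]
      change Matrix.toLin' (Matrix.diagonal ![ψ σ, (c * ψ') σ]) = 1
      rw [MonoidHom.mul_apply, hψ1, hψ'1, hc1, mul_one]
      have : (![1, 1] : Fin 2 → 𝒪) = fun _ => 1 := by
        ext i; fin_cases i <;> rfl
      rw [this, Matrix.diagonal_one, Matrix.toLin'_one]
      rfl
  · -- the determinant case: `ρ₀` itself works
    refine ⟨ρ₀, ?_, fun q _ _ h => h⟩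
    intro ℓ hℓ hℓS A hA σ hσ
    obtain ⟨h01, h10, h00, h11⟩ :=
      mat2_entries_of_quad (G σ) (a ℓ) (ℓ : 𝒪) (hquadM ℓ hℓ hℓS A hA σ hσ)
    have hdet : (G σ).det = (ℓ : 𝒪) := by rw [hH σ, hcFrob ℓ hℓ hℓS A hA σ hσ]
    have htr : (G σ).trace = a ℓ := by
      by_contra hne
      have hne' : (G σ).trace - a ℓ ≠ 0 := sub_ne_zero.mpr hne
      rw [hdet, sub_self] at h00 h11
      have e00 := (mul_eq_zero.mp h00).resolve_left hne'
      have e01 := (mul_eq_zero.mp h01).resolve_left hne'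
      have h0 : (G σ).det = 0 := by rw [Matrix.det_fin_two, e00, e01]; ring
      rw [hdet] at h0
      exact hℓ.ne_zero (Nat.cast_eq_zero.mp h0)
    rw [← LinearMap.charpoly_toMatrix (ρ₀.ρ σ) b, ← hG, Matrix.charpoly_fin_two, htr, hdet]

end Main

end Fermat.Agent.ESJ.Rep.Dichotomy

namespace Fermat.Agent.ESJ.Rep

/-- **REP-DICH.** From the Eichler–Shimura quadratic relation for Frobenius lifts outside `S`
to a representation whose Frobenius characteristic polynomials are `X² − a_ℓ X + ℓ`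
(Frobenius density + the `p`-adic cyclotomic character). -/
theorem exists_rep_of_quadratic (hFrob : FrobDensity) {p : ℕ} [Fact p.Prime]
    (𝒪 : Type) [CommRing 𝒪] [IsDomain 𝒪] [IsDiscreteValuationRing 𝒪] [CharZero 𝒪]
    [Algebra ℤ_[p] 𝒪] (hp : (p : 𝒪) ∈ IsLocalRing.maximalIdeal 𝒪)
    (ρ₀ : GaloisRepAdic 𝒪) (S : Finset ℕ) (hpS : p ∈ S) (a : ℕ → 𝒪)
    (hquad : ∀ ℓ : ℕ, ℓ.Prime → ℓ ∉ S → ∀ A : ValuationSubring Qb, A.LiesOverPrime ℓ →
      ∀ σ : GQ, A.IsFrobeniusAt σ ℓ →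
        ρ₀.ρ σ * ρ₀.ρ σ - a ℓ • ρ₀.ρ σ + (ℓ : 𝒪) • (1 : Module.End 𝒪 ρ₀.V) = 0) :
    ∃ ρ : GaloisRepAdic 𝒪,
      (∀ ℓ : ℕ, ℓ.Prime → ℓ ∉ S → ∀ A : ValuationSubring Qb, A.LiesOverPrime ℓ →
        ∀ σ : GQ, A.IsFrobeniusAt σ ℓ →
          LinearMap.charpoly (ρ.ρ σ) = X ^ 2 - C (a ℓ) * X + C ((ℓ : 𝒪))) ∧
      (∀ q : ℕ, q.Prime → q ≠ p → ρ₀.IsUnramifiedAt q → ρ.IsUnramifiedAt q) :=
  Dichotomy.exists_rep_of_quadratic_of_cyclo hFrob (cyclo p) (cyclo_sub_one p)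
    (fun hℓ hℓp A hA σ hσ => cyclo_frobenius p hℓ hℓp A hA σ hσ)
    (fun hq hqp A hA σ hσ => cyclo_inertia p hq hqp A hA σ hσ) 𝒪 hp ρ₀ S hpS a hquad

end Fermat.Agent.ESJ.Rep
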