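/-
ESJ / REP layer (helper55) — the dichotomy of `Dichotomy.lean` (helper51) with two more
conclusions, needed when the representation is cut out of a module on which more is known
than the Frobenius relations (e.g. at primes of bad reduction):

* the determinant of the representation is the cyclotomic character;
* every polynomial relation of an element `g` on the original module keeps an
  eigen-direction: `P(ρ₀ g) = 0 ⟹ ∃ v ≠ 0, P(ρ g) v = 0`.

Together they give the characteristic polynomial of every `g` satisfying a quadratic relation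
with constant term the cyclotomic character (`charpoly_of_rel`).
-/
import Mathlib
import Fermat.Agent.ESJ.Rep.Defs
import Fermat.Agent.ESJ.Rep.Cyclo
import Fermat.Agent.ESJ.Rep.Dichotomy

set_option autoImplicit false

open scoped TensorProduct
open Polynomial

namespace Fermat.Agent.ESJ.Rep.DichotomyRel

open Fermat.Agent.ESJ.Rep.Dichotomy

/-- Polynomial evaluation is compatible with intertwining maps. -/
theorem aeval_intertwine {R : Type*} [CommRing R] {V V' : Type*} [AddCommGroup V] [Module R V]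
    [AddCommGroup V'] [Module R V'] (j : V →ₗ[R] V') (f : Module.End R V)
    (f' : Module.End R V') (h : ∀ x, j (f x) = f' (j x)) (P : R[X]) (x : V) :
    j (aeval f P x) = aeval f' P (j x) := by
  induction P using Polynomial.induction_on generalizing x with
  | C a =>
    rw [aeval_C, aeval_C, Algebra.algebraMap_eq_smul_one, Algebra.algebraMap_eq_smul_one,
      LinearMap.smul_apply, LinearMap.smul_apply, Module.End.one_apply, Module.End.one_apply,
      map_smul]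
  | add p q hp hq =>
    rw [map_add, map_add, LinearMap.add_apply, LinearMap.add_apply, map_add, hp, hq]
  | monomial n a ih =>
    have e1 : aeval f (C a * X ^ (n + 1)) = aeval f (C a * X ^ n) * f := by
      rw [pow_succ, ← mul_assoc, map_mul, aeval_X]
    have e2 : aeval f' (C a * X ^ (n + 1)) = aeval f' (C a * X ^ n) * f' := by
      rw [pow_succ, ← mul_assoc, map_mul, aeval_X]
    rw [e1, e2, Module.End.mul_apply, Module.End.mul_apply, ih, h]

/-- The characteristic polynomial of an endomorphism of a free module of rank two over a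
domain, from its determinant and one vector satisfying a quadratic relation. -/
theorem charpoly_of_rel {R : Type*} [CommRing R] [IsDomain R] {V : Type*} [AddCommGroup V]
    [Module R V] [Module.Free R V] [Module.Finite R V] (hV : Module.finrank R V = 2)
    (f : Module.End R V) (c₁ c₀ : R) (hc₀ : c₀ ≠ 0) (hdet : LinearMap.det f = c₀) (v : V)
    (hv : v ≠ 0) (h : f (f v) - c₁ • f v + c₀ • v = 0) :
    f.charpoly = X ^ 2 - C c₁ * X + C c₀ := by
  classical
  let b : Module.Basis (Fin 2) R V := Module.finBasisOfFinrankEq R V hV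
  have hcp : f.charpoly = X ^ 2 - C (LinearMap.toMatrix b b f).trace * X + C c₀ := by
    rw [← LinearMap.charpoly_toMatrix f b, Matrix.charpoly_fin_two, LinearMap.det_toMatrix,
      hdet]
  have hCH := LinearMap.aeval_self_charpoly f
  rw [hcp] at hCH
  have hCHv := congrArg (fun g : Module.End R V => g v) hCH
  simp only [map_add, map_sub, map_mul, aeval_X, aeval_C,
    Algebra.algebraMap_eq_smul_one, LinearMap.add_apply, LinearMap.sub_apply,
    Module.End.mul_apply, LinearMap.smul_apply, Module.End.one_apply, pow_two,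
    LinearMap.zero_apply, smul_mul_assoc, one_mul] at hCHv
  have hsub : ((LinearMap.toMatrix b b f).trace - c₁) • f v = 0 := by
    rw [sub_smul]
    have e : (LinearMap.toMatrix b b f).trace • f v - c₁ • f v =
        (f (f v) - c₁ • f v + c₀ • v) - (f (f v) - (LinearMap.toMatrix b b f).trace • f v
          + c₀ • v) := by abel
    rw [e, h, hCHv, sub_zero]
  rcases smul_eq_zero.mp hsub with ht | hfv
  · rw [hcp, sub_eq_zero.mp ht]
  · exfalso
    rw [hfv, map_zero, smul_zero, sub_zero, zero_add] at h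
    rcases smul_eq_zero.mp h with h0 | h0
    · exact hc₀ h0
    · exact hv h0

/-- `charpoly_of_rel` with the relation written as a polynomial evaluation. -/
theorem charpoly_of_aeval {R : Type*} [CommRing R] [IsDomain R] {V : Type*} [AddCommGroup V]
    [Module R V] [Module.Free R V] [Module.Finite R V] (hV : Module.finrank R V = 2)
    (f : Module.End R V) (c₁ c₀ : R) (hc₀ : c₀ ≠ 0) (hdet : LinearMap.det f = c₀) (v : V)
    (hv : v ≠ 0) (h : aeval f (X ^ 2 - C c₁ * X + C c₀ : R[X]) v = 0) :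
    f.charpoly = X ^ 2 - C c₁ * X + C c₀ := by
  refine charpoly_of_rel hV f c₁ c₀ hc₀ hdet v hv ?_
  simp only [map_add, map_sub, map_mul, aeval_X, aeval_C,
    Algebra.algebraMap_eq_smul_one, LinearMap.add_apply, LinearMap.sub_apply,
    Module.End.mul_apply, LinearMap.smul_apply, Module.End.one_apply, pow_two,
    smul_mul_assoc, one_mul] at h
  exact h

section Main

/-- `Dichotomy.exists_rep_of_quadratic_of_cyclo` with the determinant and the relation-transfer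
clauses. -/
theorem exists_rep_of_quadratic_rel_of_cyclo (hFrob : FrobDensity) {p : ℕ} [Fact p.Prime]
    (cyc : GQ →* ℤ_[p]ˣ)
    (hcyc1 : ∀ n : ℕ, ∃ L : IntermediateField ℚ Qb, FiniteDimensional ℚ L ∧
      ∀ σ : GQ, (∀ x ∈ L, σ x = x) →
        ∃ c : ℤ_[p], ((cyc σ : ℤ_[p]ˣ) : ℤ_[p]) - 1 = (p : ℤ_[p]) ^ n * c)
    (hcyc2 : ∀ {ℓ : ℕ}, ℓ.Prime → ℓ ≠ p → ∀ A : ValuationSubring Qb, A.LiesOverPrime ℓ →
      ∀ σ : GQ, A.IsFrobeniusAt σ ℓ → ((cyc σ : ℤ_[p]ˣ) : ℤ_[p]) = (ℓ : ℤ_[p]))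
    (hcyc3 : ∀ {q : ℕ}, q.Prime → q ≠ p → ∀ A : ValuationSubring Qb, A.LiesOverPrime q →
      ∀ σ : GQ, σ ∈ A.inertiaSubgroupIn ℚ → cyc σ = 1)
    (𝒪 : Type) [CommRing 𝒪] [IsDomain 𝒪] [IsDiscreteValuationRing 𝒪] [CharZero 𝒪]
    [Algebra ℤ_[p] 𝒪] (hp : (p : 𝒪) ∈ IsLocalRing.maximalIdeal 𝒪)
    (ρ₀ : GaloisRepAdic 𝒪) (S : Finset ℕ) (hpS : p ∈ S) (a : ℕ → 𝒪)
    (hquad : ∀ ℓ : ℕ, ℓ.Prime → ℓ ∉ S → ∀ A : ValuationSubring Qb, A.LiesOverPrime ℓ →
      ∀ σ : GQ, A.IsFrobeniusAt σ ℓ →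
        ρ₀.ρ σ * ρ₀.ρ σ - a ℓ • ρ₀.ρ σ + (ℓ : 𝒪) • (1 : Module.End 𝒪 ρ₀.V) = 0) :
    ∃ ρ : GaloisRepAdic 𝒪,
      (∀ ℓ : ℕ, ℓ.Prime → ℓ ∉ S → ∀ A : ValuationSubring Qb, A.LiesOverPrime ℓ →
        ∀ σ : GQ, A.IsFrobeniusAt σ ℓ →
          LinearMap.charpoly (ρ.ρ σ) = X ^ 2 - C (a ℓ) * X + C ((ℓ : 𝒪))) ∧
      (∀ q : ℕ, q.Prime → q ≠ p → ρ₀.IsUnramifiedAt q → ρ.IsUnramifiedAt q) ∧
      (∀ g : GQ, LinearMap.det (ρ.ρ g) = algebraMap ℤ_[p] 𝒪 ((cyc g : ℤ_[p]ˣ) : ℤ_[p])) ∧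
      (∀ (g : GQ) (P : 𝒪[X]), aeval (ρ₀.ρ g) P = 0 →
        ∃ v : ρ.V, v ≠ 0 ∧ aeval (ρ.ρ g) P v = 0) := by
  classical
  -- a basis and the matrix form of `ρ₀`
  let b : Module.Basis (Fin 2) 𝒪 ρ₀.V := Module.finBasisOfFinrankEq 𝒪 ρ₀.V ρ₀.finrank_eq
  let G : GQ →* Matrix (Fin 2) (Fin 2) 𝒪 :=
    ((LinearMap.toMatrixAlgEquiv b : Module.End 𝒪 ρ₀.V ≃ₐ[𝒪] Matrix (Fin 2) (Fin 2) 𝒪) :
      Module.End 𝒪 ρ₀.V →* Matrix (Fin 2) (Fin 2) 𝒪).comp ρ₀.ρ
  let c : GQ →* 𝒪 :=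
    ((algebraMap ℤ_[p] 𝒪 : ℤ_[p] →* 𝒪).comp (Units.coeHom ℤ_[p])).comp cyc
  have hG : ∀ g, G g = LinearMap.toMatrix b b (ρ₀.ρ g) := fun g => rfl
  have hc : ∀ g, c g = algebraMap ℤ_[p] 𝒪 ((cyc g : ℤ_[p]ˣ) : ℤ_[p]) := fun g => rfl
  have hquadM : ∀ ℓ : ℕ, ℓ.Prime → ℓ ∉ S → ∀ A : ValuationSubring Qb, A.LiesOverPrime ℓ →
      ∀ σ : GQ, A.IsFrobeniusAt σ ℓ →
        G σ * G σ - a ℓ • G σ + (ℓ : 𝒪) • (1 : Matrix (Fin 2) (Fin 2) 𝒪) = 0 := by
    intro ℓ hℓ hℓS A hA σ hσ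
    have h := congrArg (LinearMap.toMatrixAlgEquiv b) (hquad ℓ hℓ hℓS A hA σ hσ)
    rw [map_add, map_sub, map_mul, map_smul, map_smul, map_one, map_zero] at h
    exact h
  have hcFrob : ∀ ℓ : ℕ, ℓ.Prime → ℓ ∉ S → ∀ A : ValuationSubring Qb, A.LiesOverPrime ℓ →
      ∀ σ : GQ, A.IsFrobeniusAt σ ℓ → c σ = (ℓ : 𝒪) := by
    intro ℓ hℓ hℓS A hA σ hσ
    have hℓp : ℓ ≠ p := fun h => hℓS (h ▸ hpS)
    rw [hc, hcyc2 hℓ hℓp A hA σ hσ, map_natCast]
  have hcCont : CharCont c := by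
    intro n
    obtain ⟨L, hL, h⟩ := hcyc1 n
    refine ⟨L, hL, fun σ hσ => ?_⟩
    obtain ⟨c', hc'⟩ := h σ hσ
    have : c σ - 1 = (p : 𝒪) ^ n * algebraMap ℤ_[p] 𝒪 c' := by
      rw [hc, ← map_one (algebraMap ℤ_[p] 𝒪), ← map_sub, hc', map_mul, map_pow, map_natCast]
    rw [this]
    exact Ideal.mul_mem_right _ _ (Ideal.pow_mem_pow hp n)
  have hentry : ∀ (τ : GQ) (i j : Fin 2),
      (G τ - 1) i j = b.repr (ρ₀.ρ τ (b j) - b j) i := by
    intro τ i j
    rw [Matrix.sub_apply, hG, LinearMap.toMatrix_apply, map_sub, Finsupp.sub_apply,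
      Module.Basis.repr_self, Matrix.one_apply, Finsupp.single_apply]
    simp [eq_comm]
  -- the dichotomy
  have hdich := abstract_dichotomy G c (by
    intro n g
    obtain ⟨L₁, hL₁, h₁⟩ := ρ₀.isAdicContinuous n
    obtain ⟨L₂, hL₂, h₂⟩ := hcCont n
    obtain ⟨ℓ, A, σ, k, hℓ, hℓS, hA, hσ, hag⟩ := hFrob (L₁ ⊔ L₂) inferInstance S g
    have hτfix : ∀ x ∈ L₁ ⊔ L₂, (g⁻¹ * σ ^ k) x = x := by
      intro x hx
      have h1 : (g⁻¹ * g) x = x := by rw [inv_mul_cancel]; rfl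
      rw [AlgEquiv.mul_apply] at h1 ⊢
      rw [hag x hx]; exact h1
    refine ⟨σ, g⁻¹ * σ ^ k, k, (mul_inv_cancel_left g _).symm, ?_, ?_, ?_⟩
    · rcases mat2_quad_dichotomy (G σ) (a ℓ) (ℓ : 𝒪) (hquadM ℓ hℓ hℓS A hA σ hσ) with
        h | ⟨-, hdet⟩
      · exact Or.inl h
      · exact Or.inr (by rw [hdet, hcFrob ℓ hℓ hℓS A hA σ hσ])
    · intro i j
      rw [hentry]
      exact repr_mem_of_mem_smul_top b _
        (h₁ _ (fun x hx => hτfix x ((le_sup_left : L₁ ≤ L₁ ⊔ L₂) hx)) (b j)) i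
    · exact h₂ _ fun x hx => hτfix x ((le_sup_right : L₂ ≤ L₁ ⊔ L₂) hx))
  rcases hdich with hZ | hH
  · -- the scalar case: `ρ₀ = ψ • 1`; take `ψ ⊕ c ψ⁻¹`
    let ψ : GQ →* 𝒪 :=
      { toFun := fun g => G g 0 0
        map_one' := by rw [map_one, Matrix.one_apply_eq]
        map_mul' := fun g h => by
          rw [map_mul, Matrix.mul_apply, Fin.sum_univ_two, (hZ g).1, zero_mul, add_zero] }
    let ψ' : GQ →* 𝒪 :=
      { toFun := fun g => ψ g⁻¹
        map_one' := by rw [inv_one, map_one]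
        map_mul' := fun g h => by rw [mul_inv_rev, map_mul, mul_comm] }
    have hψ : ∀ g, ψ g = G g 0 0 := fun g => rfl
    have hψψ' : ∀ g, ψ g * ψ' g = 1 := fun g => by
      show ψ g * ψ g⁻¹ = 1
      rw [← map_mul, mul_inv_cancel, map_one]
    have hψCont : CharCont ψ := by
      intro n
      obtain ⟨L, hL, h⟩ := ρ₀.isAdicContinuous n
      refine ⟨L, hL, fun σ hσ => ?_⟩
      have h1 := repr_mem_of_mem_smul_top b _ (h σ hσ (b 0)) 0
      rw [← hentry] at h1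
      rw [hψ]
      simpa using h1
    have hψ'Cont : CharCont ψ' := by
      intro n
      obtain ⟨L, hL, h⟩ := hψCont n
      refine ⟨L, hL, fun σ hσ => ?_⟩
      have : ψ' σ - 1 = -(ψ' σ * (ψ σ - 1)) := by linear_combination hψψ' σ
      rw [this]
      exact neg_mem (Ideal.mul_mem_left _ _ (h σ hσ))
    refine ⟨diagRep ψ (c * ψ') hψCont (hcCont.mul hψ'Cont), ?_, ?_, ?_, ?_⟩
    · intro ℓ hℓ hℓS A hA σ hσ
      have hq := congrFun (congrFun (hquadM ℓ hℓ hℓS A hA σ hσ) 0) 0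
      have e1 : ψ σ * ψ σ - a ℓ * ψ σ + (ℓ : 𝒪) = 0 := by
        simp only [Matrix.add_apply, Matrix.sub_apply, Matrix.mul_apply, Fin.sum_univ_two,
          Matrix.smul_apply, smul_eq_mul, Matrix.one_apply_eq, mul_one, Matrix.zero_apply,
          (hZ σ).1, zero_mul, add_zero] at hq
        exact hq
      have e2 := hψψ' σ
      have e3 := hcFrob ℓ hℓ hℓS A hA σ hσ
      change LinearMap.charpoly (Matrix.toLin' (Matrix.diagonal ![ψ σ, (c * ψ') σ])) = _
      rw [Matrix.charpoly_toLin', Matrix.charpoly_fin_two]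
      have htr : (Matrix.diagonal ![ψ σ, (c * ψ') σ]).trace = a ℓ := by
        rw [Matrix.trace_fin_two, MonoidHom.mul_apply, e3]
        simp only [Matrix.diagonal_apply_eq, Matrix.cons_val_zero, Matrix.cons_val_one]
        linear_combination ψ' σ * e1 - (ψ σ - a ℓ) * e2
      have hdet : (Matrix.diagonal ![ψ σ, (c * ψ') σ]).det = (ℓ : 𝒪) := by
        rw [Matrix.det_diagonal, Fin.prod_univ_two, MonoidHom.mul_apply, e3]
        simp only [Matrix.cons_val_zero, Matrix.cons_val_one]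
        linear_combination (ℓ : 𝒪) * e2
      rw [htr, hdet]
    · intro q hq hqp hur A hA σ hσ
      have h1 : ρ₀.ρ σ = 1 := hur A hA σ hσ
      have hψ1 : ψ σ = 1 := by
        rw [hψ, hG, h1, LinearMap.toMatrix_one, Matrix.one_apply_eq]
      have hψ'1 : ψ' σ = 1 := by
        have := hψψ' σ
        rwa [hψ1, one_mul] at this
      have hc1 : c σ = 1 := by
        rw [hc, hcyc3 hq hqp A hA σ hσ, Units.val_one, map_one]
      change Matrix.toLin' (Matrix.diagonal ![ψ σ, (c * ψ') σ]) = 1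
      rw [MonoidHom.mul_apply, hψ1, hψ'1, hc1, mul_one]
      have : (![1, 1] : Fin 2 → 𝒪) = fun _ => 1 := by
        ext i; fin_cases i <;> rfl
      rw [this, Matrix.diagonal_one, Matrix.toLin'_one]
      rfl
    · -- determinant
      intro g
      change LinearMap.det (Matrix.toLin' (Matrix.diagonal ![ψ g, (c * ψ') g])) = _
      rw [LinearMap.det_toLin', Matrix.det_diagonal, Fin.prod_univ_two, MonoidHom.mul_apply]
      simp only [Matrix.cons_val_zero, Matrix.cons_val_one]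
      rw [← hc]
      linear_combination c g * hψψ' g
    · -- relations
      intro g P hP
      let j : ρ₀.V →ₗ[𝒪] (Fin 2 → 𝒪) :=
        (LinearMap.single 𝒪 (fun _ : Fin 2 => 𝒪) 0).comp (b.coord 0)
      have hj : ∀ x : ρ₀.V, j (ρ₀.ρ g x) =
          (diagRep ψ (c * ψ') hψCont (hcCont.mul hψ'Cont)).ρ g (j x) := by
        intro x
        have h1 : b.repr (ρ₀.ρ g x) 0 = ψ g * b.repr x 0 := by
          have h2 := congrFun (LinearMap.toMatrix_mulVec_repr b b (ρ₀.ρ g) x) 0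
          rw [← hG, Matrix.mulVec, dotProduct, Fin.sum_univ_two, (hZ g).1, zero_mul,
            add_zero] at h2
          rw [← h2, hψ]
        show Pi.single 0 (b.repr (ρ₀.ρ g x) 0) =
          Matrix.toLin' (Matrix.diagonal ![ψ g, (c * ψ') g]) (Pi.single 0 (b.repr x 0))
        rw [h1, Matrix.toLin'_apply, Matrix.diagonal_mulVec_single]
        rfl
      refine ⟨j (b 0), ?_, ?_⟩
      · intro h0
        have h1 := congrFun h0 0
        have h2 : j (b 0) 0 = 1 := by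
          show (Pi.single 0 (b.repr (b 0) 0) : Fin 2 → 𝒪) 0 = 1
          rw [Pi.single_eq_same, Module.Basis.repr_self, Finsupp.single_eq_same]
        rw [h2] at h1
        exact one_ne_zero h1
      · have h3 := aeval_intertwine j (ρ₀.ρ g)
          ((diagRep ψ (c * ψ') hψCont (hcCont.mul hψ'Cont)).ρ g) hj P (b 0)
        rw [hP, LinearMap.zero_apply, map_zero] at h3
        exact h3.symm
  · -- the determinant case: `ρ₀` itself works
    refine ⟨ρ₀, ?_, fun q _ _ h => h, fun g => ?_,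
      fun g P hP => ⟨b 0, b.ne_zero 0, by rw [hP]; rfl⟩⟩
    rotate_left
    · rw [← LinearMap.det_toMatrix b, ← hG, hH g, hc]
    intro ℓ hℓ hℓS A hA σ hσ
    obtain ⟨h01, h10, h00, h11⟩ :=
      mat2_entries_of_quad (G σ) (a ℓ) (ℓ : 𝒪) (hquadM ℓ hℓ hℓS A hA σ hσ)
    have hdet : (G σ).det = (ℓ : 𝒪) := by rw [hH σ, hcFrob ℓ hℓ hℓS A hA σ hσ]
    have htr : (G σ).trace = a ℓ := by
      by_contra hne
      have hne' : (G σ).trace - a ℓ ≠ 0 := sub_ne_zero.mpr hne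
      rw [hdet, sub_self] at h00 h11
      have e00 := (mul_eq_zero.mp h00).resolve_left hne'
      have e01 := (mul_eq_zero.mp h01).resolve_left hne'
      have h0 : (G σ).det = 0 := by rw [Matrix.det_fin_two, e00, e01]; ring
      rw [hdet] at h0
      exact hℓ.ne_zero (Nat.cast_eq_zero.mp h0)
    rw [← LinearMap.charpoly_toMatrix (ρ₀.ρ σ) b, ← hG, Matrix.charpoly_fin_two, htr, hdet]

end Main

end Fermat.Agent.ESJ.Rep.DichotomyRel

namespace Fermat.Agent.ESJ.Rep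

/-- **REP-DICH with relations.** As `exists_rep_of_quadratic`, and moreover the determinant of
the representation is the cyclotomic character and every polynomial relation of an element on
`ρ₀` keeps an eigen-direction. -/
theorem exists_rep_of_quadratic_rel (hFrob : FrobDensity) {p : ℕ} [Fact p.Prime]
    (𝒪 : Type) [CommRing 𝒪] [IsDomain 𝒪] [IsDiscreteValuationRing 𝒪] [CharZero 𝒪]
    [Algebra ℤ_[p] 𝒪] (hp : (p : 𝒪) ∈ IsLocalRing.maximalIdeal 𝒪)
    (ρ₀ : GaloisRepAdic 𝒪) (S : Finset ℕ) (hpS : p ∈ S) (a : ℕ → 𝒪)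
    (hquad : ∀ ℓ : ℕ, ℓ.Prime → ℓ ∉ S → ∀ A : ValuationSubring Qb, A.LiesOverPrime ℓ →
      ∀ σ : GQ, A.IsFrobeniusAt σ ℓ →
        ρ₀.ρ σ * ρ₀.ρ σ - a ℓ • ρ₀.ρ σ + (ℓ : 𝒪) • (1 : Module.End 𝒪 ρ₀.V) = 0) :
    ∃ ρ : GaloisRepAdic 𝒪,
      (∀ ℓ : ℕ, ℓ.Prime → ℓ ∉ S → ∀ A : ValuationSubring Qb, A.LiesOverPrime ℓ →
        ∀ σ : GQ, A.IsFrobeniusAt σ ℓ →
          LinearMap.charpoly (ρ.ρ σ) = X ^ 2 - C (a ℓ) * X + C ((ℓ : 𝒪))) ∧
      (∀ q : ℕ, q.Prime → q ≠ p → ρ₀.IsUnramifiedAt q → ρ.IsUnramifiedAt q) ∧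
      (∀ g : GQ, LinearMap.det (ρ.ρ g) = algebraMap ℤ_[p] 𝒪 ((cyclo p g : ℤ_[p]ˣ) : ℤ_[p])) ∧
      (∀ (g : GQ) (P : 𝒪[X]), aeval (ρ₀.ρ g) P = 0 →
        ∃ v : ρ.V, v ≠ 0 ∧ aeval (ρ.ρ g) P v = 0) :=
  DichotomyRel.exists_rep_of_quadratic_rel_of_cyclo hFrob (cyclo p) (cyclo_sub_one p)
    (fun hℓ hℓp A hA σ hσ => cyclo_frobenius p hℓ hℓp A hA σ hσ)
    (fun hq hqp A hA σ hσ => cyclo_inertia p hq hqp A hA σ hσ) 𝒪 hp ρ₀ S hpS a hquad

end Fermat.Agent.ESJ.Rep
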