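/-
ESJ / REP layer (helper55) — REP-ADIC: extraction of a two-dimensional representation from a
nonzero `𝒪`-lattice with a continuous Galois action satisfying the Eichler–Shimura quadratic
relations at Frobenius lifts (no multiplicity one).

`exists_galoisRepAdic_of_module`: over a finite extension `𝒪''` of `𝒪` there is a
`GaloisRepAdic 𝒪''` with the prescribed Frobenius characteristic polynomials, unramified where
the lattice is.
-/
import Mathlib
import Fermat.Agent.ESJ.Rep.Defs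
import Fermat.Agent.ESJ.Rep.AdicQuad
import Fermat.Agent.ESJ.Rep.AdicLatt
import Fermat.Agent.ESJ.Rep.Dichotomy
import Fermat.Agent.ESJ.Rep.DichotomyRel

set_option autoImplicit false

open scoped TensorProduct
open Polynomial

namespace Fermat.Agent.ESJ.Rep

namespace AdicExtract

section Lattice

variable {𝒪 : Type} [CommRing 𝒪] {𝒪'' : Type} [CommRing 𝒪''] [Algebra 𝒪 𝒪'']
  {G : Type} [Group G] {n : ℕ} (M : G →* Matrix (Fin n) (Fin n) 𝒪)

/-- The matrices over the extension. -/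
def Mext : G →* Matrix (Fin n) (Fin n) 𝒪'' :=
  ((algebraMap 𝒪 𝒪'').mapMatrix : Matrix (Fin n) (Fin n) 𝒪 →+* Matrix (Fin n) (Fin n) 𝒪'').toMonoidHom.comp M

theorem Mext_apply (g : G) :
    Mext (𝒪'' := 𝒪'') M g = (M g).map (algebraMap 𝒪 𝒪'') := rfl

variable (L : Submodule 𝒪'' (Fin n → 𝒪''))
  (hinv : ∀ (g : G) (x : Fin n → 𝒪''), x ∈ L → ((M g).map (algebraMap 𝒪 𝒪'')).mulVec x ∈ L)

/-- The action on an invariant lattice. -/
def rhoL : G →* Module.End 𝒪'' L where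
  toFun g := (Matrix.toLin' (Mext (𝒪'' := 𝒪'') M g)).restrict
    (fun x hx => by rw [Matrix.toLin'_apply, Mext_apply]; exact hinv g x hx)
  map_one' := by
    ext x
    simp [LinearMap.restrict_apply]
  map_mul' g h := by
    ext x
    simp [LinearMap.restrict_apply, Matrix.toLin'_mul]

theorem rhoL_apply_coe (g : G) (x : L) :
    ((rhoL M L hinv g x : L) : Fin n → 𝒪'') = ((M g).map (algebraMap 𝒪 𝒪'')).mulVec x := by
  show Matrix.toLin' (Mext (𝒪'' := 𝒪'') M g) x = _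
  rw [Matrix.toLin'_apply, Mext_apply]

/-- Quadratic relations transfer to the lattice. -/
theorem rhoL_quadratic (g : G) (c₁ c₀ : 𝒪)
    (h : M g * M g - c₁ • M g + c₀ • (1 : Matrix (Fin n) (Fin n) 𝒪) = 0) :
    rhoL M L hinv g * rhoL M L hinv g - algebraMap 𝒪 𝒪'' c₁ • rhoL M L hinv g
      + algebraMap 𝒪 𝒪'' c₀ • (1 : Module.End 𝒪'' L) = 0 := by
  have h2 : Mext (𝒪'' := 𝒪'') M g * Mext (𝒪'' := 𝒪'') M g
      - algebraMap 𝒪 𝒪'' c₁ • Mext (𝒪'' := 𝒪'') M g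
      + algebraMap 𝒪 𝒪'' c₀ • (1 : Matrix (Fin n) (Fin n) 𝒪'') = 0 := by
    have h3 := congrArg
      ((algebraMap 𝒪 𝒪'').mapMatrix : Matrix (Fin n) (Fin n) 𝒪 →+* Matrix (Fin n) (Fin n) 𝒪'') h
    rw [map_add, map_sub, map_mul, map_zero] at h3
    have e1 : ((algebraMap 𝒪 𝒪'').mapMatrix : Matrix (Fin n) (Fin n) 𝒪 →+* _) (c₁ • M g)
        = algebraMap 𝒪 𝒪'' c₁ • (algebraMap 𝒪 𝒪'').mapMatrix (M g) := by
      ext i j
      simp [Matrix.map_apply, Matrix.smul_apply]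
    have e0 : ((algebraMap 𝒪 𝒪'').mapMatrix : Matrix (Fin n) (Fin n) 𝒪 →+* _)
        (c₀ • (1 : Matrix (Fin n) (Fin n) 𝒪))
        = algebraMap 𝒪 𝒪'' c₀ • (1 : Matrix (Fin n) (Fin n) 𝒪'') := by
      ext i j
      by_cases hij : i = j
      · subst hij; simp [Matrix.map_apply, Matrix.smul_apply]
      · simp [Matrix.map_apply, Matrix.smul_apply, Matrix.one_apply_ne hij]
    rw [e1, e0] at h3
    exact h3
  ext x : 2
  have h4 := congrArg (fun A : Matrix (Fin n) (Fin n) 𝒪'' => A.mulVec (x : Fin n → 𝒪'')) h2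
  simp only [Matrix.add_mulVec, Matrix.sub_mulVec, Matrix.zero_mulVec, Matrix.smul_mulVec,
    Matrix.one_mulVec, ← Matrix.mulVec_mulVec] at h4
  simp only [LinearMap.add_apply, LinearMap.sub_apply, Module.End.mul_apply, LinearMap.smul_apply,
    Module.End.one_apply, LinearMap.zero_apply, Submodule.coe_add, Submodule.coe_sub,
    Submodule.coe_smul, rhoL_apply_coe, Submodule.coe_zero]
  rw [Mext_apply] at h4
  exact h4

/-- Where the matrix is the identity the action on the lattice is trivial. -/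
theorem rhoL_eq_one (g : G) (h : M g = 1) : rhoL M L hinv g = 1 := by
  ext x : 2
  rw [rhoL_apply_coe, h]
  simp

omit [Group G] in
/-- Polynomial relations of a matrix over `𝒪` hold for the matrix over the extension. -/
theorem aeval_map_eq_zero (A : Matrix (Fin n) (Fin n) 𝒪) (P : 𝒪[X]) (h : aeval A P = 0) :
    aeval (A.map (algebraMap 𝒪 𝒪'')) (P.map (algebraMap 𝒪 𝒪'')) = 0 := by
  rw [Polynomial.aeval_map_algebraMap 𝒪'' (A.map (algebraMap 𝒪 𝒪'')) P]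
  have h1 := Polynomial.aeval_algHom_apply
    ((Algebra.ofId 𝒪 𝒪'').mapMatrix : Matrix (Fin n) (Fin n) 𝒪 →ₐ[𝒪] Matrix (Fin n) (Fin n) 𝒪'')
    A P
  rw [h, map_zero, AlgHom.mapMatrix_apply] at h1
  exact h1

/-- Polynomial relations of the matrices hold on the lattice. -/
theorem rhoL_aeval (g : G) (Q : 𝒪''[X])
    (h : aeval ((M g).map (algebraMap 𝒪 𝒪'')) Q = 0) : aeval (rhoL M L hinv g) Q = 0 := by
  have h1 : ∀ x : L, L.subtype (aeval (rhoL M L hinv g) Q x)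
      = aeval (Matrix.toLin' ((M g).map (algebraMap 𝒪 𝒪''))) Q (L.subtype x) :=
    DichotomyRel.aeval_intertwine L.subtype (rhoL M L hinv g)
      (Matrix.toLin' ((M g).map (algebraMap 𝒪 𝒪''))) (fun x => by
        rw [Submodule.subtype_apply, rhoL_apply_coe, Matrix.toLin'_apply]; rfl) Q
  have h2 : aeval (Matrix.toLin' ((M g).map (algebraMap 𝒪 𝒪''))) Q = 0 := by
    have h3 := Polynomial.aeval_algHom_apply
      (Matrix.toLinAlgEquiv' : Matrix (Fin n) (Fin n) 𝒪'' ≃ₐ[𝒪''] _)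
      ((M g).map (algebraMap 𝒪 𝒪'')) Q
    rw [h, map_zero] at h3
    exact h3
  ext x : 2
  have h4 := h1 x
  rw [h2] at h4
  exact h4

end Lattice

section Cont

variable {𝒪 : Type} [CommRing 𝒪] [IsLocalRing 𝒪] {𝒪'' : Type} [CommRing 𝒪''] [IsDomain 𝒪'']
  [IsDiscreteValuationRing 𝒪''] [Algebra 𝒪 𝒪''] [IsLocalHom (algebraMap 𝒪 𝒪'')]
  {G : Type} [Group G] {n : ℕ} (M : G →* Matrix (Fin n) (Fin n) 𝒪)
  (L : Submodule 𝒪'' (Fin n → 𝒪''))
  (hinv : ∀ (g : G) (x : Fin n → 𝒪''), x ∈ L → ((M g).map (algebraMap 𝒪 𝒪'')).mulVec x ∈ L)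
  (hsat : ∀ (c : 𝒪'') (x : Fin n → 𝒪''), c ≠ 0 → c • x ∈ L → x ∈ L)

include hsat in
/-- Adic continuity on a saturated invariant lattice. -/
theorem rhoL_sub_self (k : ℕ) (g : G)
    (h : ∀ i j, (M g - 1) i j ∈ IsLocalRing.maximalIdeal 𝒪 ^ k) (x : L) :
    rhoL M L hinv g x - x ∈ (IsLocalRing.maximalIdeal 𝒪'' ^ k) • (⊤ : Submodule 𝒪'' L) := by
  obtain ⟨ϖ, hϖ⟩ := IsDiscreteValuationRing.exists_irreducible 𝒪''
  have hmax : IsLocalRing.maximalIdeal 𝒪'' ^ k = Ideal.span {ϖ ^ k} := by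
    rw [hϖ.maximalIdeal_eq, Ideal.span_singleton_pow]
  have hmap : (IsLocalRing.maximalIdeal 𝒪).map (algebraMap 𝒪 𝒪'') ≤ IsLocalRing.maximalIdeal 𝒪'' :=
    ((IsLocalRing.local_hom_TFAE (algebraMap 𝒪 𝒪'')).out 0 2).mp ‹IsLocalHom (algebraMap 𝒪 𝒪'')›
  have hentry : ∀ i j, algebraMap 𝒪 𝒪'' ((M g - 1) i j) ∈ IsLocalRing.maximalIdeal 𝒪'' ^ k := by
    intro i j
    have h1 : algebraMap 𝒪 𝒪'' ((M g - 1) i j) ∈
        (IsLocalRing.maximalIdeal 𝒪 ^ k).map (algebraMap 𝒪 𝒪'') :=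
      Ideal.mem_map_of_mem _ (h i j)
    rw [Ideal.map_pow] at h1
    exact Ideal.pow_right_mono hmap k h1
  -- the difference as a vector
  have hdiff : ((rhoL M L hinv g x - x : L) : Fin n → 𝒪'')
      = ((M g - 1).map (algebraMap 𝒪 𝒪'')).mulVec (x : Fin n → 𝒪'') := by
    rw [Submodule.coe_sub, rhoL_apply_coe]
    have : (M g - 1).map (algebraMap 𝒪 𝒪'') = (M g).map (algebraMap 𝒪 𝒪'') - 1 := by
      ext i j
      by_cases hij : i = j
      · subst hij; simp [Matrix.map_apply, Matrix.sub_apply]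
      · simp [Matrix.map_apply, Matrix.sub_apply, Matrix.one_apply_ne hij]
    rw [this, Matrix.sub_mulVec, Matrix.one_mulVec]
  have hcoord : ∀ i, ((rhoL M L hinv g x - x : L) : Fin n → 𝒪'') i ∈ Ideal.span {ϖ ^ k} := by
    intro i
    rw [hdiff, ← hmax]
    show (∑ j, ((M g - 1).map (algebraMap 𝒪 𝒪'')) i j * (x : Fin n → 𝒪'') j) ∈ _
    exact Ideal.sum_mem _ fun j _ => Ideal.mul_mem_right _ _ (hentry i j)
  choose z hz using fun i => Ideal.mem_span_singleton'.mp (hcoord i)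
  have hzv : ϖ ^ k • z = ((rhoL M L hinv g x - x : L) : Fin n → 𝒪'') := by
    funext i
    rw [Pi.smul_apply, smul_eq_mul, mul_comm]
    exact hz i
  have hzL : z ∈ L := by
    refine hsat (ϖ ^ k) z (pow_ne_zero k hϖ.ne_zero) ?_
    rw [hzv]
    exact (rhoL M L hinv g x - x).2
  have hfin : rhoL M L hinv g x - x = ϖ ^ k • (⟨z, hzL⟩ : L) := by
    apply Subtype.ext
    rw [Submodule.coe_smul]
    exact hzv.symm
  rw [hfin, hmax]
  exact Submodule.smul_mem_smul (Ideal.mem_span_singleton_self _) Submodule.mem_top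

end Cont

section RankTwo

variable {𝒪 : Type} [CommRing 𝒪] [IsLocalRing 𝒪]

omit [IsLocalRing 𝒪] in
/-- Pairs of elements of `I • ⊤` lie in `I • ⊤`. -/
theorem prod_mem_smul_top {V : Type} [AddCommGroup V] [Module 𝒪 V] (I : Ideal 𝒪) {u v : V}
    (hu : u ∈ I • (⊤ : Submodule 𝒪 V)) (hv : v ∈ I • (⊤ : Submodule 𝒪 V)) :
    ((u, v) : V × V) ∈ I • (⊤ : Submodule 𝒪 (V × V)) := by
  have h1 : LinearMap.inl 𝒪 V V u ∈ I • (⊤ : Submodule 𝒪 (V × V)) := by
    have : LinearMap.inl 𝒪 V V u ∈ (I • (⊤ : Submodule 𝒪 V)).map (LinearMap.inl 𝒪 V V) :=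
      Submodule.mem_map_of_mem hu
    rw [Submodule.map_smul''] at this
    exact Submodule.smul_mono le_rfl le_top this
  have h2 : LinearMap.inr 𝒪 V V v ∈ I • (⊤ : Submodule 𝒪 (V × V)) := by
    have : LinearMap.inr 𝒪 V V v ∈ (I • (⊤ : Submodule 𝒪 V)).map (LinearMap.inr 𝒪 V V) :=
      Submodule.mem_map_of_mem hv
    rw [Submodule.map_smul''] at this
    exact Submodule.smul_mono le_rfl le_top this
  have h3 : ((u, v) : V × V) = LinearMap.inl 𝒪 V V u + LinearMap.inr 𝒪 V V v := by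
    simp
  rw [h3]
  exact Submodule.add_mem _ h1 h2

/-- The doubled action on `V × V`. -/
def double {G : Type} [Group G] {V : Type} [AddCommGroup V] [Module 𝒪 V]
    (ρ : G →* Module.End 𝒪 V) : G →* Module.End 𝒪 (V × V) where
  toFun g := (ρ g).prodMap (ρ g)
  map_one' := by
    ext x <;> simp
  map_mul' g h := by
    ext x <;> simp

omit [IsLocalRing 𝒪] in
theorem double_apply {G : Type} [Group G] {V : Type} [AddCommGroup V] [Module 𝒪 V]
    (ρ : G →* Module.End 𝒪 V) (g : G) (x : V × V) :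
    double ρ g x = (ρ g x.1, ρ g x.2) := rfl

/-- From a continuous action on a free module of rank one or two to a `GaloisRepAdic`
satisfying the same quadratic relations and trivial where the action is. -/
theorem exists_rank_two (V : Type) [AddCommGroup V] [Module 𝒪 V] [Module.Free 𝒪 V]
    [Module.Finite 𝒪 V] (hr : Module.finrank 𝒪 V = 1 ∨ Module.finrank 𝒪 V = 2)
    (ρ : GQ →* Module.End 𝒪 V) (hcont : GaloisActionIsAdicContinuous 𝒪 ρ) :
    ∃ ρ₀ : GaloisRepAdic 𝒪,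
      (∀ (σ : GQ) (c₁ c₀ : 𝒪), ρ σ * ρ σ - c₁ • ρ σ + c₀ • (1 : Module.End 𝒪 V) = 0 →
        ρ₀.ρ σ * ρ₀.ρ σ - c₁ • ρ₀.ρ σ + c₀ • (1 : Module.End 𝒪 ρ₀.V) = 0) ∧
      (∀ σ : GQ, ρ σ = 1 → ρ₀.ρ σ = 1) ∧
      (∀ (σ : GQ) (Q : 𝒪[X]), aeval (ρ σ) Q = 0 → aeval (ρ₀.ρ σ) Q = 0) := by
  rcases hr with hr | hr
  · refine ⟨{ V := V × V
              finrank_eq := by rw [Module.finrank_prod, hr]
              ρ := double ρ
              isAdicContinuous := ?_ }, ?_, ?_, ?_⟩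
    · intro k
      obtain ⟨L, hL, h1⟩ := hcont k
      refine ⟨L, hL, fun σ hσ v => ?_⟩
      have : double ρ σ v - v = (ρ σ v.1 - v.1, ρ σ v.2 - v.2) := by
        rw [double_apply]; rfl
      rw [this]
      exact prod_mem_smul_top _ (h1 σ hσ v.1) (h1 σ hσ v.2)
    · intro σ c₁ c₀ h
      have h' : ∀ x : V, ρ σ (ρ σ x) - c₁ • ρ σ x + c₀ • x = 0 := fun x => by
        have := congrArg (fun f : Module.End 𝒪 V => f x) h
        simpa using this
      refine LinearMap.ext fun x => ?_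
      show double ρ σ (double ρ σ x) - c₁ • double ρ σ x + c₀ • x = 0
      rw [double_apply, double_apply]
      exact Prod.ext (h' x.1) (h' x.2)
    · intro σ h
      refine LinearMap.ext fun x => ?_
      show double ρ σ x = x
      rw [double_apply, h]
      rfl
    · intro σ Q h
      refine LinearMap.ext fun x => ?_
      have h1 := DichotomyRel.aeval_intertwine (LinearMap.fst 𝒪 V V) (double ρ σ) (ρ σ)
        (fun _ => rfl) Q x
      have h2 := DichotomyRel.aeval_intertwine (LinearMap.snd 𝒪 V V) (double ρ σ) (ρ σ)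
        (fun _ => rfl) Q x
      rw [h, LinearMap.zero_apply] at h1 h2
      exact Prod.ext h1 h2
  · exact ⟨{ V := V
             finrank_eq := hr
             ρ := ρ
             isAdicContinuous := hcont }, fun σ c₁ c₀ h => h, fun σ h => h, fun σ Q h => h⟩

end RankTwo

section Main

/-- Quadratic relations transfer to matrices. -/
theorem toMatrix_quadratic {𝒪 : Type} [CommRing 𝒪] {W : Type} [AddCommGroup W] [Module 𝒪 W]
    {n : ℕ} (b : Module.Basis (Fin n) 𝒪 W) (f : Module.End 𝒪 W) (c₁ c₀ : 𝒪)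
    (h : f * f - c₁ • f + c₀ • (1 : Module.End 𝒪 W) = 0) :
    LinearMap.toMatrixAlgEquiv b f * LinearMap.toMatrixAlgEquiv b f
      - c₁ • LinearMap.toMatrixAlgEquiv b f + c₀ • (1 : Matrix (Fin n) (Fin n) 𝒪) = 0 := by
  have h2 := congrArg (LinearMap.toMatrixAlgEquiv b) h
  rw [map_add, map_sub, map_mul, map_smul, map_smul, map_one, map_zero] at h2
  exact h2

/-- **REP-ADIC.** From a nonzero `𝒪`-lattice with a continuous Galois action satisfying the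
Eichler–Shimura quadratic relations at Frobenius lifts outside `S` to a two-dimensional
representation over a finite extension with the prescribed Frobenius characteristic
polynomials, unramified where the lattice is. -/
theorem exists_galoisRepAdic_of_module (hFrob : FrobDensity) {p : ℕ} [Fact p.Prime]
    (𝒪 : Type) [CommRing 𝒪] [IsDomain 𝒪] [IsDiscreteValuationRing 𝒪]
    [IsAdicComplete (IsLocalRing.maximalIdeal 𝒪) 𝒪] [Finite (IsLocalRing.ResidueField 𝒪)]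
    [CharZero 𝒪] [Algebra ℤ_[p] 𝒪] (hp : (p : 𝒪) ∈ IsLocalRing.maximalIdeal 𝒪)
    (S : Finset ℕ) (hpS : p ∈ S) (a : ℕ → 𝒪)
    (W : Type) [AddCommGroup W] [Module 𝒪 W] [Module.Free 𝒪 W] [Module.Finite 𝒪 W]
    [Nontrivial W] (ρ : GQ →* Module.End 𝒪 W) (hcont : GaloisActionIsAdicContinuous 𝒪 ρ)
    (hquad : ∀ ℓ : ℕ, ℓ.Prime → ℓ ∉ S → ∀ A : ValuationSubring Qb, A.LiesOverPrime ℓ →
      ∀ σ : GQ, A.IsFrobeniusAt σ ℓ →
        ρ σ * ρ σ - a ℓ • ρ σ + (ℓ : 𝒪) • (1 : Module.End 𝒪 W) = 0) :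
    ∃ (𝒪'' : Type) (_ : CommRing 𝒪'') (_ : IsDomain 𝒪'') (_ : IsDiscreteValuationRing 𝒪'')
      (_ : IsAdicComplete (IsLocalRing.maximalIdeal 𝒪'') 𝒪'')
      (_ : Finite (IsLocalRing.ResidueField 𝒪'')) (_ : CharZero 𝒪'')
      (_ : Algebra 𝒪 𝒪'') (_ : Module.Finite 𝒪 𝒪'') (_ : IsLocalHom (algebraMap 𝒪 𝒪'')),
      Function.Injective (algebraMap 𝒪 𝒪'') ∧
      ∃ ρ' : GaloisRepAdic 𝒪'',
        (∀ ℓ : ℕ, ℓ.Prime → ℓ ∉ S → ∀ A : ValuationSubring Qb, A.LiesOverPrime ℓ →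
          ∀ σ : GQ, A.IsFrobeniusAt σ ℓ →
            LinearMap.charpoly (ρ'.ρ σ) =
              X ^ 2 - C (algebraMap 𝒪 𝒪'' (a ℓ)) * X + C ((ℓ : 𝒪''))) ∧
        (∀ q : ℕ, q.Prime → q ≠ p →
          (∀ A : ValuationSubring Qb, A.LiesOverPrime q →
            ∀ σ ∈ A.inertiaSubgroupIn ℚ, ρ σ = 1) → ρ'.IsUnramifiedAt q) ∧
        (∀ g : GQ, LinearMap.det (ρ'.ρ g) =
          algebraMap 𝒪 𝒪'' (algebraMap ℤ_[p] 𝒪 ((cyclo p g : ℤ_[p]ˣ) : ℤ_[p]))) ∧
        (∀ (g : GQ) (P : 𝒪[X]), aeval (ρ g) P = 0 →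
          ∃ v : ρ'.V, v ≠ 0 ∧ aeval (ρ'.ρ g) (P.map (algebraMap 𝒪 𝒪'')) v = 0) := by
  classical
  -- matrices
  have hn : 0 < Module.finrank 𝒪 W := (Module.finrank_pos_iff_of_free 𝒪 W).mpr inferInstance
  let b : Module.Basis (Fin (Module.finrank 𝒪 W)) 𝒪 W := Module.finBasis 𝒪 W
  let Mat : GQ →* Matrix (Fin (Module.finrank 𝒪 W)) (Fin (Module.finrank 𝒪 W)) 𝒪 :=
    ((LinearMap.toMatrixAlgEquiv b : Module.End 𝒪 W ≃ₐ[𝒪] _) : Module.End 𝒪 W →* _).comp ρ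
  have hMat : ∀ g, Mat g = LinearMap.toMatrixAlgEquiv b (ρ g) := fun g => rfl
  let d : GQ →* 𝒪ˣ := (Units.map (algebraMap ℤ_[p] 𝒪 : ℤ_[p] →* 𝒪)).comp (cyclo p)
  have hq : ∀ g : GQ, ∃ t : 𝒪, Mat g * Mat g - t • Mat g
      + (d g : 𝒪) • (1 : Matrix (Fin (Module.finrank 𝒪 W)) (Fin (Module.finrank 𝒪 W)) 𝒪) = 0 := by
    intro g
    obtain ⟨t, ht⟩ := exists_quadratic_of_frob hFrob 𝒪 hp S hpS a W ρ hcont hquad g
    exact ⟨t, toMatrix_quadratic b (ρ g) t _ ht⟩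
  obtain ⟨𝒪'', i1, i2, i3, i4, i5, i6, i7, i8, i9, hinj, L, hinv, hsat, hrank⟩ :=
    exists_invariant_lattice_of_quadratic 𝒪 hn Mat d hq
  let _ : Algebra ℤ_[p] 𝒪'' := ((algebraMap 𝒪 𝒪'').comp (algebraMap ℤ_[p] 𝒪)).toAlgebra
  have hp'' : (p : 𝒪'') ∈ IsLocalRing.maximalIdeal 𝒪'' := by
    have h1 : ¬ IsUnit (p : 𝒪) := hp
    have h2 : ¬ IsUnit (algebraMap 𝒪 𝒪'' (p : 𝒪)) := fun h => h1 (isUnit_of_map_unit _ _ h)
    rw [map_natCast] at h2
    exact h2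
  -- the action on the lattice
  have hcontL : GaloisActionIsAdicContinuous 𝒪'' (rhoL Mat L hinv) := by
    intro k
    obtain ⟨K, hK, h1⟩ := hcont k
    refine ⟨K, hK, fun σ hσ v => ?_⟩
    refine rhoL_sub_self Mat L hinv hsat k σ (fun i j => ?_) v
    have e : Mat σ - 1 = LinearMap.toMatrixAlgEquiv b (ρ σ - 1) := by
      rw [map_sub, map_one, hMat]
    rw [e, LinearMap.toMatrixAlgEquiv_apply]
    exact Dichotomy.repr_mem_of_mem_smul_top b _ (h1 σ hσ (b j)) i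
  obtain ⟨ρ₀, hρ₀q, hρ₀u, hρ₀a⟩ := exists_rank_two (↥L) hrank (rhoL Mat L hinv) hcontL
  obtain ⟨ρ', h1, h2, h3, h4⟩ := exists_rep_of_quadratic_rel hFrob 𝒪'' hp'' ρ₀ S hpS
    (fun ℓ => algebraMap 𝒪 𝒪'' (a ℓ)) (by
      intro ℓ hℓ hℓS A hA σ hσ
      refine hρ₀q σ _ _ ?_
      have h3 := rhoL_quadratic Mat L hinv σ (a ℓ) (ℓ : 𝒪)
        (toMatrix_quadratic b (ρ σ) _ _ (hquad ℓ hℓ hℓS A hA σ hσ))
      rw [map_natCast] at h3
      exact h3)
  refine ⟨𝒪'', i1, i2, i3, i4, i5, i6, i7, i8, i9, hinj, ρ', h1, ?_, h3, ?_⟩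
  · intro q hq hqp hur
    refine h2 q hq hqp ?_
    intro A hA σ hσ
    refine hρ₀u σ (rhoL_eq_one Mat L hinv σ ?_)
    rw [hMat, hur A hA σ hσ, map_one]
  · intro g P hP
    refine h4 g (P.map (algebraMap 𝒪 𝒪'')) (hρ₀a g _ (rhoL_aeval Mat L hinv g _ ?_))
    refine aeval_map_eq_zero (Mat g) P ?_
    have h5 := Polynomial.aeval_algHom_apply
      (LinearMap.toMatrixAlgEquiv b : Module.End 𝒪 W ≃ₐ[𝒪] _) (ρ g) P
    rw [hP, map_zero] at h5
    exact h5

end Main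

end AdicExtract

end Fermat.Agent.ESJ.Rep
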