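/-
ESJ / REP layer (helper55) — the ANEMIC eigen-lattice of a `TateDatumA`.

For a character `χ` of the full Hecke algebra with values in `𝒪` (a `ℤ_[p]`-algebra), the
simultaneous eigen-sublattice `latA` of `𝒪 ⊗ Ta` for the Hecke operators AT THE PRIMES `ℓ ∤ N`
(eigenvalues `χ (T_ℓ)`).  It is stable under Galois (only `hecke_gal` at `ℓ ∤ N` is used),
nonzero (it contains the eigenspace of the full Hecke algebra, which has rank two), free of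
finite rank over a DVR, saturated, and every Frobenius lift at `ℓ ∤ N p` satisfies
`σ² - χ(T_ℓ) σ + ℓ = 0` on it.
-/
import Mathlib
import Fermat.Agent.ESJ.Rep.DefsA
import Fermat.Agent.ESJ.Rep.Lattice

set_option autoImplicit false
set_option linter.unusedSectionVars false

open scoped TensorProduct
open Polynomial

namespace Fermat.Agent.ESJ.Rep

namespace AdicMod

/-- The primes not dividing `N`. -/
abbrev Good (N : ℕ) : Type := {ℓ : Nat.Primes // ¬ (ℓ : ℕ) ∣ N}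

variable {p N : ℕ} [Fact p.Prime] [NeZero N] (D : TateDatumA p N)
variable (𝒪 : Type) [CommRing 𝒪] [Algebra ℤ_[p] 𝒪]

/-- The Hecke operators on `𝒪 ⊗ Ta`. -/
noncomputable def tO (ℓ : Nat.Primes) : Module.End 𝒪 (𝒪 ⊗[ℤ_[p]] D.Ta) :=
  (D.hecke ℓ).baseChange 𝒪

/-- The Galois action on `𝒪 ⊗ Ta`. -/
noncomputable def galO : GQ →* Module.End 𝒪 (𝒪 ⊗[ℤ_[p]] D.Ta) where
  toFun σ := (D.gal σ).baseChange 𝒪
  map_one' := by rw [map_one, LinearMap.baseChange_one]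
  map_mul' σ τ := by rw [map_mul, LinearMap.baseChange_mul]

theorem galO_apply (σ : GQ) : galO D 𝒪 σ = (D.gal σ).baseChange 𝒪 := rfl

theorem tO_comm_galO (ℓ : Nat.Primes) (hℓ : ¬ (ℓ : ℕ) ∣ N) (σ : GQ) :
    tO D 𝒪 ℓ * galO D 𝒪 σ = galO D 𝒪 σ * tO D 𝒪 ℓ := by
  rw [tO, galO_apply, ← LinearMap.baseChange_mul, ← LinearMap.baseChange_mul,
    (D.hecke_gal ℓ hℓ σ).eq]

variable (χ : CuspForm.heckeAlgebra N 2 (∅ : Set ℕ) →+* 𝒪)

/-- The eigenvalues. -/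
noncomputable def ev (ℓ : Nat.Primes) : 𝒪 := χ (CuspForm.heckeFormsGen N 2 ℓ)

/-- The anemic eigen-sublattice of `𝒪 ⊗ Ta`: eigenvalue `χ (T_ℓ)` for `T_ℓ`, all `ℓ ∤ N`. -/
noncomputable def latA : Submodule 𝒪 (𝒪 ⊗[ℤ_[p]] D.Ta) :=
  eigenspace (fun i : Good N => tO D 𝒪 i.1) (fun i : Good N => ev 𝒪 χ i.1)

/-- The eigen-sublattice for the full Hecke algebra. -/
noncomputable def latFull : Submodule 𝒪 (𝒪 ⊗[ℤ_[p]] D.Ta) :=
  eigenspace (tO D 𝒪) (ev 𝒪 χ)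

/-- (Instance-search helper: with `ℤ_[p]` as base ring the default search for the group
structure on a submodule of `𝒪 ⊗ Ta` exceeds the pending-synthesis depth.) -/
noncomputable instance instAddCommGroupLatA : AddCommGroup (latA D 𝒪 χ) :=
  Submodule.addCommGroup _

noncomputable instance instAddCommGroupLatFull : AddCommGroup (latFull D 𝒪 χ) :=
  Submodule.addCommGroup _

theorem mem_latA {x : 𝒪 ⊗[ℤ_[p]] D.Ta} :
    x ∈ latA D 𝒪 χ ↔ ∀ ℓ : Nat.Primes, ¬ (ℓ : ℕ) ∣ N → tO D 𝒪 ℓ x = ev 𝒪 χ ℓ • x := by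
  unfold latA
  rw [mem_eigenspace]
  exact ⟨fun h ℓ hℓ => h ⟨ℓ, hℓ⟩, fun h i => h i.1 i.2⟩

theorem latFull_le_latA : latFull D 𝒪 χ ≤ latA D 𝒪 χ := by
  intro x hx
  rw [mem_latA]
  intro ℓ _
  exact (mem_eigenspace.mp hx) ℓ

theorem galO_mem_latA (σ : GQ) {x : 𝒪 ⊗[ℤ_[p]] D.Ta} (hx : x ∈ latA D 𝒪 χ) :
    galO D 𝒪 σ x ∈ latA D 𝒪 χ := by
  rw [mem_latA] at hx ⊢
  intro ℓ hℓ
  have h := congrArg (fun f : Module.End 𝒪 (𝒪 ⊗[ℤ_[p]] D.Ta) => f x)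
    (tO_comm_galO D 𝒪 ℓ hℓ σ)
  simp only [Module.End.mul_apply] at h
  rw [h, hx ℓ hℓ, map_smul]

/-- The Galois action on the anemic eigen-sublattice. -/
noncomputable def rhoA : GQ →* Module.End 𝒪 (latA D 𝒪 χ) where
  toFun σ := (galO D 𝒪 σ).restrict (fun _ hx => galO_mem_latA D 𝒪 χ σ hx)
  map_one' := by
    ext x
    simp [LinearMap.restrict_apply]
  map_mul' σ τ := by
    ext x
    simp [LinearMap.restrict_apply]

theorem rhoA_apply_coe (σ : GQ) (x : latA D 𝒪 χ) :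
    ((rhoA D 𝒪 χ σ x : latA D 𝒪 χ) : 𝒪 ⊗[ℤ_[p]] D.Ta) = galO D 𝒪 σ x := rfl

/-- `p`-adic continuity on `𝒪 ⊗ Ta`. -/
theorem galO_sub_self (n : ℕ) (σ : GQ)
    (h : ∀ v : D.Ta, ∃ w : D.Ta, D.gal σ v - v = (p : ℤ_[p]) ^ n • w)
    (x : 𝒪 ⊗[ℤ_[p]] D.Ta) :
    ∃ y : 𝒪 ⊗[ℤ_[p]] D.Ta, galO D 𝒪 σ x - x = (p : 𝒪) ^ n • y := by
  induction x using TensorProduct.induction_on with
  | zero => exact ⟨0, by simp⟩
  | tmul c v =>
    obtain ⟨w, hw⟩ := h v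
    refine ⟨c ⊗ₜ[ℤ_[p]] w, ?_⟩
    rw [galO_apply, LinearMap.baseChange_tmul, ← TensorProduct.tmul_sub, hw,
      TensorProduct.tmul_smul, TensorProduct.smul_tmul', TensorProduct.smul_tmul',
      Algebra.smul_def, smul_eq_mul, map_pow, map_natCast, mul_comm]
  | add x y hx hy =>
    obtain ⟨x', hx'⟩ := hx
    obtain ⟨y', hy'⟩ := hy
    refine ⟨x' + y', ?_⟩
    rw [map_add, add_sub_add_comm, hx', hy', smul_add]

/-- The Eichler–Shimura relation on `𝒪 ⊗ Ta`. -/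
theorem galO_quadratic (ℓ : Nat.Primes) (σ : GQ)
    (h : D.gal σ * D.gal σ - D.hecke ℓ * D.gal σ + ((ℓ : ℕ) : Module.End ℤ_[p] D.Ta) = 0)
    (x : 𝒪 ⊗[ℤ_[p]] D.Ta) :
    galO D 𝒪 σ (galO D 𝒪 σ x) - tO D 𝒪 ℓ (galO D 𝒪 σ x) + ((ℓ : ℕ) : 𝒪) • x = 0 := by
  induction x using TensorProduct.induction_on with
  | zero => simp
  | tmul c v =>
    have hv := congrArg (fun f : Module.End ℤ_[p] D.Ta => f v) h
    simp only [LinearMap.add_apply, LinearMap.sub_apply, Module.End.mul_apply,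
      LinearMap.zero_apply] at hv
    rw [galO_apply, tO, LinearMap.baseChange_tmul, LinearMap.baseChange_tmul,
      LinearMap.baseChange_tmul, ← TensorProduct.tmul_sub]
    have h3 : ((ℓ : ℕ) : 𝒪) • c ⊗ₜ[ℤ_[p]] v
        = c ⊗ₜ[ℤ_[p]] (((ℓ : ℕ) : Module.End ℤ_[p] D.Ta) v) := by
      rw [Module.End.natCast_apply, TensorProduct.tmul_smul, Nat.cast_smul_eq_nsmul]
    rw [h3, ← TensorProduct.tmul_add, hv, TensorProduct.tmul_zero]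
  | add x y hx hy =>
    simp only [map_add, smul_add]
    rw [← add_zero (0 : 𝒪 ⊗[ℤ_[p]] D.Ta)]
    nth_rewrite 2 [← hx]
    nth_rewrite 1 [← hy]
    abel

/-- **Eichler–Shimura on the anemic eigen-lattice**: every Frobenius lift at `ℓ ∤ N p`
satisfies `σ² - χ(T_ℓ) σ + ℓ = 0`. -/
theorem rhoA_quadratic (ℓ : Nat.Primes)
    (hℓN : ¬ (ℓ : ℕ) ∣ N) (hℓp : (ℓ : ℕ) ≠ p) (A : ValuationSubring Qb)
    (hA : A.LiesOverPrime ℓ) (σ : GQ) (hσ : A.IsFrobeniusAt σ ℓ) :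
    (rhoA D 𝒪 χ σ * rhoA D 𝒪 χ σ - ev 𝒪 χ ℓ • rhoA D 𝒪 χ σ
      + ((ℓ : ℕ) : 𝒪) • (1 : Module.End 𝒪 (latA D 𝒪 χ)) : Module.End 𝒪 (latA D 𝒪 χ)) = 0 := by
  have h := D.eichlerShimura ℓ hℓN hℓp A hA σ hσ
  ext x
  have hx := galO_quadratic D 𝒪 ℓ σ h (x : 𝒪 ⊗[ℤ_[p]] D.Ta)
  have hmem : galO D 𝒪 σ (x : 𝒪 ⊗[ℤ_[p]] D.Ta) ∈ latA D 𝒪 χ := galO_mem_latA D 𝒪 χ σ x.2
  rw [(mem_latA D 𝒪 χ).mp hmem ℓ hℓN] at hx
  simp only [LinearMap.add_apply, LinearMap.sub_apply, Module.End.mul_apply, LinearMap.smul_apply,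
    Module.End.one_apply, LinearMap.zero_apply, Submodule.coe_add, Submodule.coe_sub,
    Submodule.coe_smul, rhoA_apply_coe, Submodule.coe_zero]
  exact hx

/-- Unramifiedness: where Galois acts trivially on `Ta` it acts trivially on the lattice. -/
theorem rhoA_eq_one (σ : GQ) (h1 : D.gal σ = 1) : rhoA D 𝒪 χ σ = 1 := by
  ext x
  rw [rhoA_apply_coe, galO_apply, h1, LinearMap.baseChange_one]
  rfl

theorem rhoA_eq_one_of_inertia {q : ℕ} (hq : q.Prime) (hqN : ¬ q ∣ N) (hqp : q ≠ p)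
    (A : ValuationSubring Qb) (hA : A.LiesOverPrime q) (σ : GQ)
    (hσ : σ ∈ A.inertiaSubgroupIn ℚ) : rhoA D 𝒪 χ σ = 1 :=
  rhoA_eq_one D 𝒪 χ σ (D.unram q hq hqN hqp A hA σ hσ)

section Dvr

variable {p N : ℕ} [Fact p.Prime] [NeZero N] (D : TateDatumA p N)
variable (𝒪 : Type) [CommRing 𝒪] [IsDomain 𝒪] [IsDiscreteValuationRing 𝒪] [CharZero 𝒪]
  [Algebra ℤ_[p] 𝒪]
variable (χ : CuspForm.heckeAlgebra N 2 (∅ : Set ℕ) →+* 𝒪)

theorem finrank_latFull : Module.finrank 𝒪 (latFull D 𝒪 χ) = 2 := by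
  have h1 := finrank_eigenspace_fraction ℤ_[p] D.Ta D.hecke 𝒪 (FractionRing 𝒪) (ev 𝒪 χ)
  have h2 := D.eigen_dim (FractionRing 𝒪) ((algebraMap 𝒪 (FractionRing 𝒪)).comp χ)
  exact h1.trans h2

instance instFreeLatA : Module.Free 𝒪 (latA D 𝒪 χ) :=
  Module.Free.of_basis
    (Submodule.basisOfPid (Module.Free.chooseBasis 𝒪 (𝒪 ⊗[ℤ_[p]] D.Ta)) (latA D 𝒪 χ)).2

instance instFiniteLatA : Module.Finite 𝒪 (latA D 𝒪 χ) :=
  Module.Finite.of_basis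
    (Submodule.basisOfPid (Module.Free.chooseBasis 𝒪 (𝒪 ⊗[ℤ_[p]] D.Ta)) (latA D 𝒪 χ)).2

/-- The anemic eigen-lattice is nonzero. -/
instance instNontrivialLatA : Nontrivial (latA D 𝒪 χ) := by
  have h2 : Module.finrank 𝒪 (latFull D 𝒪 χ) = 2 := finrank_latFull D 𝒪 χ
  have hne : latFull D 𝒪 χ ≠ ⊥ := by
    intro h
    rw [h, finrank_bot] at h2
    exact absurd h2 (by norm_num)
  obtain ⟨x, hx, hx0⟩ := (Submodule.ne_bot_iff _).mp hne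
  exact ⟨⟨⟨x, latFull_le_latA D 𝒪 χ hx⟩, 0, fun h => hx0 (congrArg Subtype.val h)⟩⟩

/-- Saturation of the anemic eigen-lattice. -/
theorem latA_saturated (c : 𝒪) (hc : c ≠ 0) (y : 𝒪 ⊗[ℤ_[p]] D.Ta) (h : c • y ∈ latA D 𝒪 χ) :
    y ∈ latA D 𝒪 χ :=
  eigenspace_saturated ℤ_[p] D.Ta (fun i : Good N => D.hecke i.1) 𝒪
    (fun i : Good N => ev 𝒪 χ i.1) c hc y h

theorem rhoA_sub_self (hp : (p : 𝒪) ∈ IsLocalRing.maximalIdeal 𝒪) (n : ℕ) (σ : GQ)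
    (h : ∀ v : D.Ta, ∃ w : D.Ta, D.gal σ v - v = (p : ℤ_[p]) ^ n • w) (v : latA D 𝒪 χ) :
    rhoA D 𝒪 χ σ v - v ∈
      (IsLocalRing.maximalIdeal 𝒪 ^ n) • (⊤ : Submodule 𝒪 (latA D 𝒪 χ)) := by
  obtain ⟨y, hy⟩ := galO_sub_self D 𝒪 n σ h (v : 𝒪 ⊗[ℤ_[p]] D.Ta)
  have hpn : ((p : 𝒪) ^ n) ≠ 0 :=
    pow_ne_zero n (Nat.cast_ne_zero.mpr (Fact.out : p.Prime).ne_zero)
  have hy_mem : y ∈ latA D 𝒪 χ := by
    refine latA_saturated D 𝒪 χ ((p : 𝒪) ^ n) hpn y ?_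
    rw [← hy]
    exact sub_mem (galO_mem_latA D 𝒪 χ σ v.2) v.2
  have hv : rhoA D 𝒪 χ σ v - v = (p : 𝒪) ^ n • (⟨y, hy_mem⟩ : latA D 𝒪 χ) := by
    apply Subtype.ext
    rw [Submodule.coe_sub, rhoA_apply_coe, hy]
    rfl
  rw [hv]
  exact Submodule.smul_mem_smul (Ideal.pow_mem_pow hp n) Submodule.mem_top

/-- Adic continuity of the Galois action on the anemic eigen-lattice. -/
theorem rhoA_continuous (hp : (p : 𝒪) ∈ IsLocalRing.maximalIdeal 𝒪) :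
    GaloisActionIsAdicContinuous 𝒪 (rhoA D 𝒪 χ) := by
  intro n
  obtain ⟨L, hL, h⟩ := D.gal_continuous n
  exact ⟨L, hL, fun σ hσ v => rhoA_sub_self D 𝒪 χ hp n σ (h σ hσ) v⟩

end Dvr

end AdicMod

end Fermat.Agent.ESJ.Rep
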