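/-
helper15 — ESJ / REP layer, task 168 (REP-LIFTCHAR).

Extension of a character `χ : A →+* 𝒪` (with `𝒪` a complete discrete valuation ring of
characteristic zero with finite residue field) along a finite injective ring extension
`i : A →+* B`, after a finite extension `𝒪''` of `𝒪`.

Use: `A` = the anemic Hecke algebra, `B` = the full Hecke algebra (finite over `ℤ` by S22).

The heavy lifting (lying over + the integral closure of a complete DVR in a finite extension
of its fraction field) is `Fermat.Agent.Lib.DVRExt.exists_extension_ringHom` (helper42).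
-/
import Mathlib
import Fermat.Agent.ESJ.Rep.Defs
import Fermat.Agent.Lib.DVRExt

set_option autoImplicit false
set_option linter.style.haveILetI false

namespace Fermat.Agent.ESJ.Rep

/-- **REP-LIFTCHAR.** A ring homomorphism `χ : A →+* 𝒪` to a complete discrete valuation ring
of characteristic zero with finite residue field extends, along an injective ring homomorphism
`i : A →+* B` with `B` finite over `ℤ`, to a ring homomorphism `χ' : B →+* 𝒪''` for a suitable
finite extension `𝒪''` of `𝒪` of the same kind. -/
theorem exists_extension_of_ringHom {A B : Type} [CommRing A] [CommRing B] (i : A →+* B)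
    (hi : Function.Injective i) [Module.Finite ℤ B]
    (𝒪 : Type) [CommRing 𝒪] [IsDomain 𝒪] [IsDiscreteValuationRing 𝒪]
    [IsAdicComplete (IsLocalRing.maximalIdeal 𝒪) 𝒪] [Finite (IsLocalRing.ResidueField 𝒪)]
    [CharZero 𝒪] (χ : A →+* 𝒪) :
    ∃ (𝒪'' : Type) (_ : CommRing 𝒪'') (_ : IsDomain 𝒪'') (_ : IsDiscreteValuationRing 𝒪'')
      (_ : IsAdicComplete (IsLocalRing.maximalIdeal 𝒪'') 𝒪'')
      (_ : Finite (IsLocalRing.ResidueField 𝒪'')) (_ : CharZero 𝒪'')
      (_ : Algebra 𝒪 𝒪'') (_ : Module.Finite 𝒪 𝒪'') (_ : IsLocalHom (algebraMap 𝒪 𝒪'')),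
      Function.Injective (algebraMap 𝒪 𝒪'') ∧
      ∃ χ' : B →+* 𝒪'', ∀ x : A, χ' (i x) = algebraMap 𝒪 𝒪'' (χ x) := by
  letI : Algebra A B := i.toAlgebra
  haveI : Module.Finite A B := Module.Finite.of_restrictScalars_finite ℤ A B
  have hker : RingHom.ker (algebraMap A B) ≤ RingHom.ker χ := by
    intro a ha
    have h0 : a = 0 := hi (by rw [map_zero]; exact ha)
    rw [h0]
    exact (RingHom.ker χ).zero_mem
  exact Fermat.Agent.Lib.DVRExt.exists_extension_ringHom 𝒪 χ hker

end Fermat.Agent.ESJ.Rep
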