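/-
ESJ / REP layer — REP-ZPALG (task 169, owner helper32).

A complete local ring `𝒪` with `p` in its maximal ideal receives a ring homomorphism from `ℤ_[p]`
(so consumers may write `letI : Algebra ℤ_[p] 𝒪 := f.toAlgebra`).  We also record what the
homomorphism does modulo `𝔪 ^ n` and that such a homomorphism is unique.
-/
import Mathlib

set_option autoImplicit false

namespace Fermat.Agent.ESJ.Rep

namespace ZpAlg

variable (p : ℕ) (𝒪 : Type*) [CommRing 𝒪]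

/-- If `p ∈ I` then the characteristic of `𝒪 ⧸ I ^ n` divides `p ^ n`. -/
theorem ringChar_quot_pow_dvd (I : Ideal 𝒪) (hp : (p : 𝒪) ∈ I) (n : ℕ) :
    ringChar (𝒪 ⧸ I ^ n) ∣ p ^ n := by
  apply ringChar.dvd
  have h : ((p ^ n : ℕ) : 𝒪) ∈ I ^ n := by
    rw [Nat.cast_pow]
    exact Ideal.pow_mem_pow hp n
  rw [← map_natCast (Ideal.Quotient.mk (I ^ n))]
  exact Ideal.Quotient.eq_zero_iff_mem.mpr h

/-- The canonical map `ZMod (p ^ n) →+* 𝒪 ⧸ I ^ n` when `p ∈ I`. -/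
noncomputable def zmodToQuot (I : Ideal 𝒪) (hp : (p : 𝒪) ∈ I) (n : ℕ) :
    ZMod (p ^ n) →+* 𝒪 ⧸ I ^ n :=
  ZMod.castHom (ringChar_quot_pow_dvd p 𝒪 I hp n) (𝒪 ⧸ I ^ n)

variable [Fact p.Prime]

/-- The level-`n` map `ℤ_[p] →+* 𝒪 ⧸ I ^ n` when `p ∈ I`. -/
noncomputable def toQuot (I : Ideal 𝒪) (hp : (p : 𝒪) ∈ I) (n : ℕ) : ℤ_[p] →+* 𝒪 ⧸ I ^ n :=
  (zmodToQuot p 𝒪 I hp n).comp (PadicInt.toZModPow n)

theorem factorPow_comp_toQuot (I : Ideal 𝒪) (hp : (p : 𝒪) ∈ I) {m n : ℕ} (hle : m ≤ n) :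
    (Ideal.Quotient.factorPow I hle).comp (toQuot p 𝒪 I hp n) = toQuot p 𝒪 I hp m := by
  have h1 : (Ideal.Quotient.factorPow I hle).comp (zmodToQuot p 𝒪 I hp n) =
      (zmodToQuot p 𝒪 I hp m).comp (ZMod.castHom (pow_dvd_pow p hle) (ZMod (p ^ m))) :=
    RingHom.ext_zmod _ _
  calc (Ideal.Quotient.factorPow I hle).comp (toQuot p 𝒪 I hp n)
      = ((Ideal.Quotient.factorPow I hle).comp (zmodToQuot p 𝒪 I hp n)).comp
          (PadicInt.toZModPow n) := by rw [toQuot, RingHom.comp_assoc]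
    _ = ((zmodToQuot p 𝒪 I hp m).comp (ZMod.castHom (pow_dvd_pow p hle) (ZMod (p ^ m)))).comp
          (PadicInt.toZModPow n) := by rw [h1]
    _ = toQuot p 𝒪 I hp m := by
        rw [RingHom.comp_assoc, PadicInt.zmod_cast_comp_toZModPow _ _ hle, toQuot]

/-- The ring homomorphism `ℤ_[p] →+* 𝒪` for an `I`-adically complete ring `𝒪` with `p ∈ I`. -/
noncomputable def padicIntRingHom (I : Ideal 𝒪) [IsAdicComplete I 𝒪] (hp : (p : 𝒪) ∈ I) :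
    ℤ_[p] →+* 𝒪 :=
  IsAdicComplete.liftRingHom I (toQuot p 𝒪 I hp) (fun hle => factorPow_comp_toQuot p 𝒪 I hp hle)

theorem mk_padicIntRingHom (I : Ideal 𝒪) [IsAdicComplete I 𝒪] (hp : (p : 𝒪) ∈ I) (n : ℕ)
    (x : ℤ_[p]) :
    Ideal.Quotient.mk (I ^ n) (padicIntRingHom p 𝒪 I hp x) = toQuot p 𝒪 I hp n x :=
  IsAdicComplete.mk_liftRingHom I _ _ n x

/-- Any ring homomorphism `ℤ_[p] →+* 𝒪` maps `p ^ n ℤ_[p]` into `I ^ n` when `p ∈ I`. -/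
theorem map_mem_pow_of_toZModPow_eq_zero (I : Ideal 𝒪) (hp : (p : 𝒪) ∈ I) (φ : ℤ_[p] →+* 𝒪)
    (n : ℕ) (x : ℤ_[p]) (hx : PadicInt.toZModPow n x = 0) : φ x ∈ I ^ n := by
  have hx' : x ∈ RingHom.ker (PadicInt.toZModPow (p := p) n) := hx
  rw [PadicInt.ker_toZModPow, Ideal.mem_span_singleton] at hx'
  obtain ⟨y, rfl⟩ := hx'
  rw [map_mul, map_pow, map_natCast]
  exact Ideal.mul_mem_right _ _ (Ideal.pow_mem_pow hp n)

/-- Every ring homomorphism `ℤ_[p] →+* 𝒪` is given modulo `I ^ n` by `toQuot`. -/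
theorem mk_comp_eq_toQuot (I : Ideal 𝒪) (hp : (p : 𝒪) ∈ I) (φ : ℤ_[p] →+* 𝒪) (n : ℕ) :
    (Ideal.Quotient.mk (I ^ n)).comp φ = toQuot p 𝒪 I hp n := by
  ext x
  -- write `x = k + (x - k)` with `k` a natural number and `x - k ∈ p ^ n ℤ_[p]`
  obtain ⟨k, hk⟩ : ∃ k : ℕ, PadicInt.toZModPow n x = (k : ZMod (p ^ n)) :=
    ⟨(PadicInt.toZModPow n x).val, by
      have : NeZero (p ^ n) := ⟨pow_ne_zero n (Fact.out : p.Prime).ne_zero⟩
      exact (ZMod.natCast_zmod_val _).symm⟩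
  have h0 : PadicInt.toZModPow n (x - (k : ℤ_[p])) = 0 := by
    rw [map_sub, map_natCast, hk, sub_self]
  have h1 : φ (x - (k : ℤ_[p])) ∈ I ^ n := map_mem_pow_of_toZModPow_eq_zero p 𝒪 I hp φ n _ h0
  have h2 : Ideal.Quotient.mk (I ^ n) (φ x) = Ideal.Quotient.mk (I ^ n) (φ (k : ℤ_[p])) := by
    rw [Ideal.Quotient.eq, ← map_sub]
    exact h1
  simp only [RingHom.comp_apply, toQuot]
  rw [h2, hk, map_natCast, map_natCast, map_natCast]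

/-- Uniqueness: an `I`-adically separated ring with `p ∈ I` receives at most one ring
homomorphism from `ℤ_[p]`. -/
theorem ringHom_ext (I : Ideal 𝒪) [IsHausdorff I 𝒪] (hp : (p : 𝒪) ∈ I) (φ ψ : ℤ_[p] →+* 𝒪) :
    φ = ψ := by
  ext x
  rw [← sub_eq_zero]
  apply IsHausdorff.haus (I := I) inferInstance
  intro n
  rw [SModEq.zero, smul_eq_mul, Ideal.mul_top]
  have h1 := congrArg (fun f => f x) (mk_comp_eq_toQuot p 𝒪 I hp φ n)
  have h2 := congrArg (fun f => f x) (mk_comp_eq_toQuot p 𝒪 I hp ψ n)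
  simp only [RingHom.comp_apply] at h1 h2
  rw [← Ideal.Quotient.eq, h1, h2]

end ZpAlg

/-- **REP-ZPALG.** A complete local ring with `p` in its maximal ideal is a `ℤ_[p]`-algebra. -/
theorem exists_padicInt_ringHom (p : ℕ) [Fact p.Prime] (𝒪 : Type*) [CommRing 𝒪] [IsLocalRing 𝒪]
    [IsAdicComplete (IsLocalRing.maximalIdeal 𝒪) 𝒪] (hp : (p : 𝒪) ∈ IsLocalRing.maximalIdeal 𝒪) :
    Nonempty (ℤ_[p] →+* 𝒪) :=
  ⟨ZpAlg.padicIntRingHom p 𝒪 (IsLocalRing.maximalIdeal 𝒪) hp⟩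

/-- The ring homomorphism of `exists_padicInt_ringHom` is unique. -/
theorem subsingleton_padicInt_ringHom (p : ℕ) [Fact p.Prime] (𝒪 : Type*) [CommRing 𝒪]
    [IsLocalRing 𝒪] [IsAdicComplete (IsLocalRing.maximalIdeal 𝒪) 𝒪]
    (hp : (p : 𝒪) ∈ IsLocalRing.maximalIdeal 𝒪) : Subsingleton (ℤ_[p] →+* 𝒪) :=
  ⟨fun φ ψ => ZpAlg.ringHom_ext p 𝒪 (IsLocalRing.maximalIdeal 𝒪) hp φ ψ⟩

/-- Any ring homomorphism `ℤ_[p] →+* 𝒪` sends `p ^ n ℤ_[p]` into `𝔪 ^ n` (continuity). -/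
theorem padicInt_ringHom_mem_pow (p : ℕ) [Fact p.Prime] (𝒪 : Type*) [CommRing 𝒪] [IsLocalRing 𝒪]
    (hp : (p : 𝒪) ∈ IsLocalRing.maximalIdeal 𝒪) (φ : ℤ_[p] →+* 𝒪) (n : ℕ) (x : ℤ_[p]) :
    φ ((p : ℤ_[p]) ^ n * x) ∈ IsLocalRing.maximalIdeal 𝒪 ^ n := by
  rw [map_mul, map_pow, map_natCast]
  exact Ideal.mul_mem_right _ _ (Ideal.pow_mem_pow hp n)

end Fermat.Agent.ESJ.Rep
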