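/-
ESJ (owner: helper73): `TorsionESRelation N p` from `LocalESData` at all primes `ℓ ∤ N p` and
`HeckeGaloisCommute N` (formal).
-/
import Mathlib
import Fermat.Agent.ESJ.Interfaces

set_option autoImplicit false

namespace Fermat.Agent.ESJ.Rep.TorsionES

section Abstract

variable {G : Type*} [Group G] {J : Type*} [AddCommGroup J] [DistribMulAction G J]
  {X : Type*} [AddCommGroup X] (p : ℕ) (red : J →+ X)
  (hinj : ∀ x : J, (∃ n : ℕ, p ^ n • x = 0) → red x = 0 → x = 0)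

include hinj

/-- An element acting trivially after reduction acts trivially on `p`-power torsion. -/
theorem smul_eq_of_red (σ : G) (hσ : ∀ x : J, red (σ • x) = red x) (x : J)
    (hx : ∃ n : ℕ, p ^ n • x = 0) : σ • x = x := by
  obtain ⟨n, hn⟩ := hx
  rw [← sub_eq_zero]
  apply hinj
  · refine ⟨n, ?_⟩
    rw [smul_sub, smul_comm, hn, smul_zero, sub_zero]
  · rw [map_sub, hσ, sub_self]

/-- The Eichler–Shimura relation on `p`-power torsion from the congruence after reduction. -/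
theorem quad_of_red (σ : G) (Φ : X →+ X) (T : J →+ J) (ℓ : ℕ)
    (hσ : ∀ x : J, red (σ • x) = Φ (red x)) (hT : ∀ x : J, T (σ • x) = σ • T x)
    (hcong : ∀ x : J, Φ (red (T x)) = Φ (Φ (red x)) + ℓ • red x) (x : J)
    (hx : ∃ n : ℕ, p ^ n • x = 0) : σ • σ • x - T (σ • x) + ℓ • x = 0 := by
  obtain ⟨n, hn⟩ := hx
  apply hinj
  · refine ⟨n, ?_⟩
    rw [smul_add, smul_sub, ← map_nsmul, smul_comm (p ^ n) σ (σ • x), smul_comm (p ^ n) σ x,
      smul_comm (p ^ n) ℓ x, hn]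
    simp
  · rw [map_add, map_sub, hσ, hσ, hT, hσ, hcong, map_nsmul]
    abel

end Abstract

end Fermat.Agent.ESJ.Rep.TorsionES

namespace Fermat.Agent.ESJ

open ModularCurve AlgebraicCurve

/-- `TorsionESRelation` from the local Eichler–Shimura data at all primes `ℓ ∤ N p`. -/
theorem torsionESRelation_of_localESData (N p : ℕ) [NeZero N] (hcomm : HeckeGaloisCommute N)
    (h : ∀ (ℓ : ℕ) (hℓ : ℓ.Prime), ¬ ℓ ∣ N * p →
      ∀ A : ValuationSubring (AlgebraicClosure ℚ), A.LiesOverPrime ℓ → LocalESData N p ℓ hℓ A) :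
    TorsionESRelation N p := by
  intro ℓ hℓ hℓNp A hA
  obtain ⟨X, _, red, Φ, h1, h2, h3, h4⟩ := h ℓ hℓ hℓNp A hA
  refine ⟨fun σ hσ x hx => ?_, fun σ hσ x hx => ?_⟩
  · exact Rep.TorsionES.smul_eq_of_red (G := GQ) (J := JZero N) p red h3 σ (h1 σ hσ) x hx
  · exact Rep.TorsionES.quad_of_red (G := GQ) (J := JZero N) p red h3 σ Φ
      (heckeOperatorBar N ⟨ℓ, hℓ⟩ : Module.End ℤ (JZero N)).toAddMonoidHom ℓ (h2 σ hσ)
      (fun x => hcomm ⟨ℓ, hℓ⟩ σ x) h4 x hx

end Fermat.Agent.ESJ
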