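/-
ESJ / REP layer (helper55) — the single geometric target for the adic statements (S30, S31).

* `TateCore p N`  : `TateDatum` without the multiplicity field `eigen_dim`.
* `TateCore.toTateDatum` : a `TateCore` with comparison data `CmpData` is a `TateDatum`.
* `TateCmpExists` : "for all `p`, `N` there are a `TateCore` and a `CmpData` for it".
* `KummerCmp N p` : the ONLY predicate the TATE assembly needs from JAC-TORS — a compatible,
  Hecke-equivariant family of Kummer isomorphisms `J₀(N)[pⁿ] ≃ Hom_pe(Γ₀(N), ℤ/pⁿ)`.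
-/
import Mathlib
import Fermat.Prelude.Def_ModularCurve_HeckeModule
import Fermat.Agent.ESJ.Rep.Defs
import Fermat.Agent.ESJ.Rep.EigenDim
import Fermat.Agent.ESJ.ParHom.HeckeGamma0

set_option autoImplicit false

open scoped TensorProduct MatrixGroups
open CongruenceSubgroup ModularCurve AlgebraicCurve

namespace Fermat.Agent.ESJ.Rep

/-- `TateDatum` without the multiplicity field: a finite free `ℤ_[p]`-module with a continuous
Galois action, commuting Hecke operators commuting with Galois, unramified outside `N p`, and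
the Eichler–Shimura relation for Frobenius lifts at `ℓ ∤ N p`. -/
structure TateCore (p N : ℕ) [Fact p.Prime] [NeZero N] : Type 1 where
  /-- the Tate module -/
  Ta : Type
  [instAddCommGroup : AddCommGroup Ta]
  [instModule : Module ℤ_[p] Ta]
  [instFree : Module.Free ℤ_[p] Ta]
  [instFinite : Module.Finite ℤ_[p] Ta]
  /-- the Galois action -/
  gal : GQ →* Module.End ℤ_[p] Ta
  /-- the Hecke operators -/
  hecke : Nat.Primes → Module.End ℤ_[p] Ta
  gal_continuous : ∀ n : ℕ, ∃ L : IntermediateField ℚ Qb, FiniteDimensional ℚ L ∧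
    ∀ σ : GQ, (∀ x ∈ L, σ x = x) → ∀ v : Ta, ∃ w : Ta, gal σ v - v = (p : ℤ_[p]) ^ n • w
  hecke_comm : ∀ ℓ ℓ' : Nat.Primes, Commute (hecke ℓ) (hecke ℓ')
  hecke_gal : ∀ (ℓ : Nat.Primes) (σ : GQ), Commute (hecke ℓ) (gal σ)
  unram : ∀ q : ℕ, q.Prime → ¬ q ∣ N → q ≠ p →
    ∀ A : ValuationSubring Qb, A.LiesOverPrime q → ∀ σ ∈ A.inertiaSubgroupIn ℚ, gal σ = 1
  eichlerShimura : ∀ ℓ : Nat.Primes, ¬ (ℓ : ℕ) ∣ N → (ℓ : ℕ) ≠ p →
    ∀ A : ValuationSubring Qb, A.LiesOverPrime ℓ → ∀ σ : GQ, A.IsFrobeniusAt σ ℓ →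
      gal σ * gal σ - hecke ℓ * gal σ + ((ℓ : ℕ) : Module.End ℤ_[p] Ta) = 0

attribute [instance] TateCore.instAddCommGroup TateCore.instModule TateCore.instFree
  TateCore.instFinite

/-- A `TateCore` with comparison data is a `TateDatum` (multiplicity by `eigen_dim_of_cmpData`). -/
noncomputable def TateCore.toTateDatum {p N : ℕ} [Fact p.Prime] [NeZero N] (D : TateCore p N)
    (C : CmpData p N D.Ta D.hecke) : TateDatum p N where
  Ta := D.Ta
  gal := D.gal
  hecke := D.hecke
  gal_continuous := D.gal_continuous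
  hecke_comm := D.hecke_comm
  hecke_gal := D.hecke_gal
  unram := D.unram
  eichlerShimura := D.eichlerShimura
  eigen_dim := fun E _ _ _ χ => eigen_dim_of_cmpData C E χ

/-- The single geometric target for the adic statements: for all `p`, `N` a `TateCore` together
with comparison data. -/
def TateCmpExists : Prop :=
  ∀ (p N : ℕ) [Fact p.Prime] [NeZero N], ∃ D : TateCore p N, Nonempty (CmpData p N D.Ta D.hecke)

theorem tateDatumExists_of_tateCmpExists (h : TateCmpExists) : TateDatumExists := by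
  intro p N _ _
  obtain ⟨D, ⟨C⟩⟩ := h p N
  exact ⟨D.toTateDatum C⟩

/-- **What the TATE assembly needs from JAC-TORS**: Kummer isomorphisms
`κ_n : J₀(N)[pⁿ] ≃ Hom_pe(Γ₀(N), ℤ/pⁿ)`, compatible in `n` (multiplication by `p` on the left is
reduction mod `pⁿ` on the right) and Hecke-equivariant AT THE PRIMES `ℓ ∤ N`
(`heckeOperatorBar N ℓ` on the left, `ParHom.heckePE N ℓ` on the right).  For `ℓ ∣ N` the
geometric correspondence `α_* β^*` is `U_ℓ^*` (double coset of `[ℓ, 0; 0, 1]`) on Kummer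
characters, not the `U_ℓ` of `heckePE`, so no equivariance is asked there. -/
def KummerCmp (N p : ℕ) [NeZero N] : Prop :=
  ∃ κ : ∀ n : ℕ, Pic0.torsion (AlgebraicClosure ℚ) (modularFunctionFieldBar N) (p ^ n) ≃+
      ParHom.peHoms (Gamma0 N) ℤ (ZMod (p ^ n)),
    (∀ (n : ℕ) (x : JZero N)
        (hx : x ∈ Pic0.torsion (AlgebraicClosure ℚ) (modularFunctionFieldBar N) (p ^ (n + 1)))
        (hx' : p • x ∈ Pic0.torsion (AlgebraicClosure ℚ) (modularFunctionFieldBar N) (p ^ n))
        (γ : Additive (Gamma0 N)),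
        (κ n ⟨p • x, hx'⟩ : Additive (Gamma0 N) →+ ZMod (p ^ n)) γ =
          ZMod.castHom (pow_dvd_pow p n.le_succ) (ZMod (p ^ n))
            ((κ (n + 1) ⟨x, hx⟩ : Additive (Gamma0 N) →+ ZMod (p ^ (n + 1))) γ)) ∧
    (∀ (n : ℕ) (ℓ : Nat.Primes), ¬ (ℓ : ℕ) ∣ N → ∀ (x : JZero N)
        (hx : x ∈ Pic0.torsion (AlgebraicClosure ℚ) (modularFunctionFieldBar N) (p ^ n))
        (hx' : heckeOperatorBar N ℓ x ∈
          Pic0.torsion (AlgebraicClosure ℚ) (modularFunctionFieldBar N) (p ^ n)),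
        κ n ⟨heckeOperatorBar N ℓ x, hx'⟩ = ParHom.heckePE N ℓ ℤ (ZMod (p ^ n)) (κ n ⟨x, hx⟩))

end Fermat.Agent.ESJ.Rep
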