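/-
ESJ / REP layer (helper84): **the TATE assembly** — from the Kummer comparison `KummerCmp N p`
(JAC-H) and the torsion-level interfaces (`TorsionESRelation`, `TorsionFiniteLevel`,
`HeckeGaloisCommute`) to the single geometric target of the trunk,

  `tateCmpA_of : KummerCmp N p → TorsionESRelation N p → (∀ n, TorsionFiniteLevel N (p ^ n)) →
      HeckeGaloisCommute N → ∃ D : TateDatumA p N, Nonempty (CmpData p N D.Ta D.hecke)`.

Model: `Ta := ParHom.taPE p N = Hom_PE(Γ₀(N), ℤ_p)`, `hecke := ParHom.heckeTa p N`,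
comparison data `ParHom.cmpData p N`, and level maps
`π n := (J₀(N)[pⁿ] ↪ J₀(N)) ∘ (κ n)⁻¹ ∘ redTa p N n`.
-/
import Mathlib
import Fermat.Agent.ESJ.Rep.TateAsmA
import Fermat.Agent.ESJ.Rep.TateCore
import Fermat.Agent.ESJ.ParHom.Torsion
import Fermat.Agent.ESJ.ParHom.CmpData
import Fermat.Agent.ESJ.Jac.FiniteLevel
import Fermat.Agent.ESJ.Cong.Comm

set_option autoImplicit false

open scoped TensorProduct MatrixGroups
open CongruenceSubgroup ModularCurve AlgebraicCurve

namespace Fermat.Agent.ESJ.Rep.TateKummer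

open Fermat.Agent.ESJ.ParHom

variable {p N : ℕ} [Fact p.Prime] [NeZero N]

/-- The level map attached to a Kummer isomorphism at level `pⁿ`. -/
noncomputable def levelMap (p N : ℕ) [Fact p.Prime] [NeZero N] (n : ℕ)
    (κ : Pic0.torsion (AlgebraicClosure ℚ) (modularFunctionFieldBar N) (p ^ n) ≃+
      peHoms (Gamma0 N) ℤ (ZMod (p ^ n))) : taPE p N →+ JZero N :=
  (Pic0.torsion (AlgebraicClosure ℚ) (modularFunctionFieldBar N) (p ^ n)).subtype.comp
    (κ.symm.toAddMonoidHom.comp (redTa p N n))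

theorem levelMap_apply (n : ℕ)
    (κ : Pic0.torsion (AlgebraicClosure ℚ) (modularFunctionFieldBar N) (p ^ n) ≃+
      peHoms (Gamma0 N) ℤ (ZMod (p ^ n))) (t : taPE p N) :
    levelMap p N n κ t = ((κ.symm (redTa p N n t) :
      Pic0.torsion (AlgebraicClosure ℚ) (modularFunctionFieldBar N) (p ^ n)) : JZero N) := rfl

theorem levelMap_mem (n : ℕ)
    (κ : Pic0.torsion (AlgebraicClosure ℚ) (modularFunctionFieldBar N) (p ^ n) ≃+
      peHoms (Gamma0 N) ℤ (ZMod (p ^ n))) (t : taPE p N) :
    levelMap p N n κ t ∈ Pic0.torsion (AlgebraicClosure ℚ) (modularFunctionFieldBar N) (p ^ n) :=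
  (κ.symm (redTa p N n t)).2

theorem apply_levelMap (n : ℕ)
    (κ : Pic0.torsion (AlgebraicClosure ℚ) (modularFunctionFieldBar N) (p ^ n) ≃+
      peHoms (Gamma0 N) ℤ (ZMod (p ^ n))) (t : taPE p N) :
    κ ⟨levelMap p N n κ t, levelMap_mem n κ t⟩ = redTa p N n t :=
  κ.apply_symm_apply _

/-- A point of `J₀(N)[pⁿ]` whose Kummer image is `redTa p N n t` is `levelMap n t`. -/
theorem eq_levelMap_of_apply_eq (n : ℕ)
    (κ : Pic0.torsion (AlgebraicClosure ℚ) (modularFunctionFieldBar N) (p ^ n) ≃+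
      peHoms (Gamma0 N) ℤ (ZMod (p ^ n))) (t : taPE p N) (x : JZero N)
    (hx : x ∈ Pic0.torsion (AlgebraicClosure ℚ) (modularFunctionFieldBar N) (p ^ n))
    (h : κ ⟨x, hx⟩ = redTa p N n t) : x = levelMap p N n κ t := by
  rw [levelMap_apply, ← h, κ.symm_apply_apply]

/-- **The TATE assembly** (anemic form): the Kummer comparison and the torsion-level
interfaces give an anemic Tate datum with comparison data. -/
theorem tateCmpA_of (hK : KummerCmp N p) (hES : TorsionESRelation N p)
    (hL : ∀ n : ℕ, TorsionFiniteLevel N (p ^ n)) (hG : HeckeGaloisCommute N) :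
    ∃ D : TateDatumA p N, Nonempty (CmpData p N D.Ta D.hecke) := by
  obtain ⟨κ, hcompat, hhecke⟩ := hK
  refine TateAsmA.exists_tateDatumA_of_levelMaps (taPE p N) (heckeTa p N)
    (fun n => levelMap p N n (κ n)) ?_ ?_ ?_ ?_ (heckeTa_comm p N) hG hL hES (cmpData p N)
  · -- (K)
    intro n t
    rw [← redTa_eq_zero_iff, levelMap_apply]
    constructor
    · intro h
      have h1 : (κ n).symm (redTa p N n t) = 0 := Subtype.ext h
      simpa using h1
    · intro h
      rw [h, map_zero]
      rfl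
  · -- (S)
    intro n x hx
    have hx' : x ∈ Pic0.torsion (AlgebraicClosure ℚ) (modularFunctionFieldBar N) (p ^ n) := by
      rw [Pic0.mem_torsion, natCast_zsmul]
      exact hx
    obtain ⟨t, ht⟩ := redTa_surjective p N n (κ n ⟨x, hx'⟩)
    exact ⟨t, (eq_levelMap_of_apply_eq n (κ n) t x hx' ht.symm).symm⟩
  · -- (C)
    intro n t
    have hx := levelMap_mem (n + 1) (κ (n + 1)) t
    have hx' : p • levelMap p N (n + 1) (κ (n + 1)) t ∈
        Pic0.torsion (AlgebraicClosure ℚ) (modularFunctionFieldBar N) (p ^ n) := by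
      rw [Pic0.mem_torsion, natCast_zsmul] at hx ⊢
      rw [← mul_nsmul', ← pow_succ]
      exact hx
    refine eq_levelMap_of_apply_eq n (κ n) t _ hx' ?_
    apply Subtype.ext
    refine AddMonoidHom.ext fun γ => ?_
    rw [hcompat n _ hx hx' γ, apply_levelMap]
    exact congrArg (fun χ : peHoms (Gamma0 N) ℤ (ZMod (p ^ n)) =>
      (χ : Additive (Gamma0 N) →+ ZMod (p ^ n)) γ) (mapPE_castHom_redTa p N n t)
  · -- (H) at `ℓ ∤ N`
    intro ℓ hℓN n t
    have hx := levelMap_mem n (κ n) t
    have hx' : heckeOperatorBar N ℓ (levelMap p N n (κ n) t) ∈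
        Pic0.torsion (AlgebraicClosure ℚ) (modularFunctionFieldBar N) (p ^ n) := by
      rw [Pic0.mem_torsion] at hx ⊢
      rw [← map_zsmul, hx, map_zero]
    refine (eq_levelMap_of_apply_eq n (κ n) _ _ hx' ?_).symm
    rw [hhecke n ℓ hℓN _ hx hx', apply_levelMap]
    exact (redTa_heckePE p N n ℓ t).symm

/-- The Kummer comparison makes `J₀(N)[pⁿ]` finite. -/
theorem torsionFinite_of_kummerCmp (hK : KummerCmp N p) (n : ℕ) : TorsionFinite N (p ^ n) := by
  obtain ⟨κ, -, -⟩ := hK
  have hp : p.Prime := Fact.out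
  have : NeZero (p ^ n) := ⟨pow_ne_zero n hp.ne_zero⟩
  have h1 : Finite (peHoms (Gamma0 N) ℤ (ZMod (p ^ n))) :=
    Finite.of_equiv _ (evalEquiv N ℤ (ZMod (p ^ n))).toEquiv.symm
  have h2 : Finite (Pic0.torsion (AlgebraicClosure ℚ) (modularFunctionFieldBar N) (p ^ n)) :=
    Finite.of_equiv _ (κ n).toEquiv.symm
  exact Set.toFinite _

/-- The Kummer comparison gives the finite-level property of the Galois action on `J₀(N)[pⁿ]`
(through JAC-TORS J2). -/
theorem torsionFiniteLevel_of_kummerCmp (hK : KummerCmp N p) (n : ℕ) :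
    TorsionFiniteLevel N (p ^ n) :=
  Fermat.Agent.ESJ.Jac.FiniteLevel.torsionFiniteLevel_of_torsionFinite N (p ^ n)
    (torsionFinite_of_kummerCmp hK n)

/-- **The TATE assembly**, with the two inputs that are already theorems discharged
(`HeckeGaloisCommute` = `Cong.heckeGaloisCommute`, `TorsionFiniteLevel` from the Kummer
comparison): an anemic Tate datum with comparison data from `KummerCmp N p` (JAC-H) and
`TorsionESRelation N p` (RED + ES-CONG). -/
theorem tateCmpA_of_kummerCmp (hK : KummerCmp N p) (hES : TorsionESRelation N p) :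
    ∃ D : TateDatumA p N, Nonempty (CmpData p N D.Ta D.hecke) :=
  tateCmpA_of hK hES (torsionFiniteLevel_of_kummerCmp hK)
    (Fermat.Agent.ESJ.Cong.heckeGaloisCommute N)

/-- **The single geometric target of the trunk** from the two geometric predicates. -/
theorem tateCmpAExists_of
    (hK : ∀ (p N : ℕ) [Fact p.Prime] [NeZero N], KummerCmp N p)
    (hES : ∀ (p N : ℕ) [Fact p.Prime] [NeZero N], TorsionESRelation N p) :
    TateCmpAExists := by
  intro p N _ _
  exact tateCmpA_of_kummerCmp (hK p N) (hES p N)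

end Fermat.Agent.ESJ.Rep.TateKummer
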