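/-
ESJ / REP layer (helper84): **level maps on the anemic Tate datum** — the companion of
`Rep/TateKummer.lean` asked for by the BAD layers (S34, S35).

`TateKummer.tateCmpA_of` only says that an anemic Tate datum with comparison data exists.  Here
the datum comes together with its level maps `π n : D.Ta →+ J₀(N)` ("`T_p J → J[pⁿ]`"), which
determine the Galois action and the Hecke operators at `ℓ ∤ N`:

* `LevelMaps p N D` : level maps of `D : TateDatumA p N` with
  (ker) `π n t = 0 ↔ t ∈ pⁿ Ta`, (surj) onto `J₀(N)[pⁿ]`, (compat) `p • π (n+1) t = π n t`,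
  (hecke) `π n (D.hecke ℓ t) = heckeOperatorBar N ℓ (π n t)` for `ℓ ∤ N`,
  (gal) `π n (D.gal σ t) = σ • π n t`;
* `exists_levelMaps_of_kummerCmp` : the raw level maps of the model `ParHom.taPE p N`;
* `exists_tateDatumA_levelMaps` : from `KummerCmp N p` and `TorsionESRelation N p`,
  `∃ D : TateDatumA p N, Nonempty (CmpData p N D.Ta D.hecke) ∧ Nonempty (LevelMaps p N D)`;
* transfer tools: `LevelMaps.eq_zero_of_forall`, `LevelMaps.linearMap_ext`,
  `LevelMaps.map_natCast_smul`, `LevelMaps.exists_lift` (every additive map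
  `J₀(N) →+ J₀(N')` lifts uniquely to a `ℤ_p`-linear map of Tate modules),
  `LevelMaps.lift_gal`, `LevelMaps.lift_hecke`.
-/
import Mathlib
import Fermat.Agent.ESJ.Rep.TateKummer

set_option autoImplicit false

open scoped TensorProduct MatrixGroups
open CongruenceSubgroup ModularCurve AlgebraicCurve

namespace Fermat.Agent.ESJ.Rep.TateLevel

open Fermat.Agent.ESJ.ParHom Fermat.Agent.Lib.TateLim Fermat.Agent.ESJ.Rep.TateKummer

local notation "Qb" => AlgebraicClosure ℚ
local notation "GQ" => (AlgebraicClosure ℚ ≃ₐ[ℚ] AlgebraicClosure ℚ)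

/-! ### Lifting between two level systems -/

section Lift

variable {p : ℕ} [Fact p.Prime]
variable {Ta Ta' : Type*} [AddCommGroup Ta] [Module ℤ_[p] Ta] [AddCommGroup Ta']
  [Module ℤ_[p] Ta'] [Module.Free ℤ_[p] Ta'] [Module.Finite ℤ_[p] Ta']
variable {J J' : Type*} [AddCommGroup J] [AddCommGroup J']

/-- **Lifting between two level systems**: an additive map `φ : J →+ J'` carrying the image of
`π n` into the image of `π' n` lifts to a `ℤ_p`-linear map `Ta → Ta'`. -/
theorem exists_lift₂ (π : ℕ → Ta →+ J) (π' : ℕ → Ta' →+ J')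
    (hK : ∀ n t, π n t = 0 ↔ ∃ w : Ta, t = (p : ℤ_[p]) ^ n • w)
    (hC : ∀ n t, p • π (n + 1) t = π n t)
    (hK' : ∀ n t, π' n t = 0 ↔ ∃ w : Ta', t = (p : ℤ_[p]) ^ n • w)
    (hC' : ∀ n t, p • π' (n + 1) t = π' n t) (φ : J →+ J')
    (hφ : ∀ n t, ∃ s, π' n s = φ (π n t)) :
    ∃ Φ : Ta →ₗ[ℤ_[p]] Ta', ∀ n t, π' n (Φ t) = φ (π n t) := by
  choose s hs using hφ
  have hcau : ∀ t n, ∃ w, s (n + 1) t - s n t = (p : ℤ_[p]) ^ n • w := by
    intro t n
    apply (hK' n _).mp
    rw [map_sub, hs n t, ← hC' n (s (n + 1) t), hs (n + 1) t, ← map_nsmul, hC n t, sub_self]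
  have hlim : ∀ t, ∃ L : Ta', ∀ n, ∃ w, L - s n t = (p : ℤ_[p]) ^ n • w :=
    fun t => module_limit (fun n => s n t) (hcau t)
  choose Φ₀ hΦ₀ using hlim
  have hΦ : ∀ n t, π' n (Φ₀ t) = φ (π n t) := by
    intro n t
    obtain ⟨w, hw⟩ := hΦ₀ t n
    have h0 : π' n (Φ₀ t - s n t) = 0 := (hK' n _).mpr ⟨w, hw⟩
    rw [map_sub, sub_eq_zero] at h0
    rw [h0, hs]
  refine ⟨{ toFun := Φ₀, map_add' := ?_, map_smul' := ?_ }, hΦ⟩
  · intro t t'
    apply eq_of_forall π' hK'
    intro n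
    rw [hΦ, map_add, map_add, map_add, hΦ, hΦ]
  · intro a t
    apply eq_of_forall π' hK'
    intro n
    rw [RingHom.id_apply, hΦ, map_smul_appr π hK, map_smul_appr π' hK', map_nsmul, hΦ]

end Lift

variable {p N : ℕ} [Fact p.Prime] [NeZero N]

/-! ### The raw level maps of the model `taPE p N` -/

/-- **The level maps of the Kummer model**: `π n := (J₀(N)[pⁿ] ↪ J₀(N)) ∘ (κ n)⁻¹ ∘ redTa`
with (K), (S), (C) and (H) at `ℓ ∤ N`. -/
theorem exists_levelMaps_of_kummerCmp (hK : KummerCmp N p) :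
    ∃ π : ℕ → taPE p N →+ JZero N,
      (∀ n t, π n t = 0 ↔ ∃ w : taPE p N, t = (p : ℤ_[p]) ^ n • w) ∧
      (∀ (n : ℕ) (x : JZero N), p ^ n • x = 0 → ∃ t, π n t = x) ∧
      (∀ n t, p • π (n + 1) t = π n t) ∧
      (∀ ℓ : Nat.Primes, ¬ (ℓ : ℕ) ∣ N → ∀ (n : ℕ) (t : taPE p N),
        π n (heckeTa p N ℓ t) = heckeOperatorBar N ℓ (π n t)) := by
  obtain ⟨κ, hcompat, hhecke⟩ := hK
  refine ⟨fun n => levelMap p N n (κ n), ?_, ?_, ?_, ?_⟩
  · -- (K)
    intro n t
    rw [← redTa_eq_zero_iff, levelMap_apply]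
    constructor
    · intro h
      have h1 : (κ n).symm (redTa p N n t) = 0 := Subtype.ext h
      simpa using h1
    · intro h
      rw [h, map_zero]
      rfl
  · -- (S)
    intro n x hx
    have hx' : x ∈ Pic0.torsion (AlgebraicClosure ℚ) (modularFunctionFieldBar N) (p ^ n) := by
      rw [Pic0.mem_torsion, natCast_zsmul]
      exact hx
    obtain ⟨t, ht⟩ := redTa_surjective p N n (κ n ⟨x, hx'⟩)
    exact ⟨t, (eq_levelMap_of_apply_eq n (κ n) t x hx' ht.symm).symm⟩
  · -- (C)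
    intro n t
    have hx := levelMap_mem (n + 1) (κ (n + 1)) t
    have hx' : p • levelMap p N (n + 1) (κ (n + 1)) t ∈
        Pic0.torsion (AlgebraicClosure ℚ) (modularFunctionFieldBar N) (p ^ n) := by
      rw [Pic0.mem_torsion, natCast_zsmul] at hx ⊢
      rw [← mul_nsmul', ← pow_succ]
      exact hx
    refine eq_levelMap_of_apply_eq n (κ n) t _ hx' ?_
    apply Subtype.ext
    refine AddMonoidHom.ext fun γ => ?_
    rw [hcompat n _ hx hx' γ, apply_levelMap]
    exact congrArg (fun χ : peHoms (Gamma0 N) ℤ (ZMod (p ^ n)) =>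
      (χ : Additive (Gamma0 N) →+ ZMod (p ^ n)) γ) (mapPE_castHom_redTa p N n t)
  · -- (H) at `ℓ ∤ N`
    intro ℓ hℓN n t
    have hx := levelMap_mem n (κ n) t
    have hx' : heckeOperatorBar N ℓ (levelMap p N n (κ n) t) ∈
        Pic0.torsion (AlgebraicClosure ℚ) (modularFunctionFieldBar N) (p ^ n) := by
      rw [Pic0.mem_torsion] at hx ⊢
      rw [← map_zsmul, hx, map_zero]
    refine (eq_levelMap_of_apply_eq n (κ n) _ _ hx' ?_).symm
    rw [hhecke n ℓ hℓN _ hx hx', apply_levelMap]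
    exact (redTa_heckePE p N n ℓ t).symm

/-- The level data of the trunk in the raw existential shape consumed by
`BAD.tateCmpAMonodromyExists_of` and `BAD.tateCmpABadExists_of`. -/
theorem exists_levelData_of_kummerCmp (hK : KummerCmp N p) :
    ∃ (Ta : Type) (_ : AddCommGroup Ta) (_ : Module ℤ_[p] Ta) (_ : Module.Free ℤ_[p] Ta)
      (_ : Module.Finite ℤ_[p] Ta) (hecke : Nat.Primes → Module.End ℤ_[p] Ta)
      (π : ℕ → Ta →+ JZero N),
      (∀ n t, π n t = 0 ↔ ∃ w : Ta, t = (p : ℤ_[p]) ^ n • w) ∧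
      (∀ (n : ℕ) (x : JZero N), p ^ n • x = 0 → ∃ t, π n t = x) ∧
      (∀ n t, p • π (n + 1) t = π n t) ∧
      (∀ ℓ : Nat.Primes, ¬ (ℓ : ℕ) ∣ N → ∀ (n : ℕ) (t : Ta),
        π n (hecke ℓ t) = heckeOperatorBar N ℓ (π n t)) ∧
      (∀ ℓ ℓ' : Nat.Primes, Commute (hecke ℓ) (hecke ℓ')) ∧
      Nonempty (CmpData p N Ta hecke) := by
  obtain ⟨π, h1, h2, h3, h4⟩ := exists_levelMaps_of_kummerCmp hK
  exact ⟨taPE p N, inferInstance, inferInstance, inferInstance, inferInstance, heckeTa p N, π,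
    h1, h2, h3, h4, heckeTa_comm p N, ⟨cmpData p N⟩⟩

/-! ### Level maps on an anemic Tate datum -/

/-- **Level maps** of an anemic Tate datum: the projections `T_p J₀(N) → J₀(N)[pⁿ]`, through
which the Galois action and the Hecke operators at `ℓ ∤ N` of the datum are the geometric
ones. -/
structure LevelMaps (p N : ℕ) [Fact p.Prime] [NeZero N] (D : TateDatumA p N) where
  /-- the level maps -/
  π : ℕ → D.Ta →+ JZero N
  /-- (K): the kernel of `π n` is `pⁿ Ta` -/
  ker : ∀ n t, π n t = 0 ↔ ∃ w : D.Ta, t = (p : ℤ_[p]) ^ n • w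
  /-- (S): `π n` is onto the `pⁿ`-torsion -/
  surj : ∀ (n : ℕ) (x : JZero N), p ^ n • x = 0 → ∃ t, π n t = x
  /-- (C): compatibility of the levels -/
  compat : ∀ n t, p • π (n + 1) t = π n t
  /-- (H): Hecke-equivariance at the primes not dividing `N` -/
  hecke : ∀ ℓ : Nat.Primes, ¬ (ℓ : ℕ) ∣ N → ∀ (n : ℕ) (t : D.Ta),
    π n (D.hecke ℓ t) = heckeOperatorBar N ℓ (π n t)
  /-- (G): Galois-equivariance -/
  gal : ∀ (σ : GQ) (n : ℕ) (t : D.Ta), π n (D.gal σ t) = σ • π n t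

/-- From raw level maps to an anemic Tate datum **with** its level maps (the same construction
as `TateAsmA.exists_tateDatumA_of_levelMaps`, remembering the maps). -/
theorem exists_tateDatumA_levelMaps_of_levelMaps
    (Ta : Type) [AddCommGroup Ta] [Module ℤ_[p] Ta] [Module.Free ℤ_[p] Ta]
    [Module.Finite ℤ_[p] Ta]
    (hecke : Nat.Primes → Module.End ℤ_[p] Ta) (π : ℕ → Ta →+ JZero N)
    (hK : ∀ n t, π n t = 0 ↔ ∃ w : Ta, t = (p : ℤ_[p]) ^ n • w)
    (hS : ∀ (n : ℕ) (x : JZero N), p ^ n • x = 0 → ∃ t, π n t = x)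
    (hC : ∀ n t, p • π (n + 1) t = π n t)
    (hH : ∀ ℓ : Nat.Primes, ¬ (ℓ : ℕ) ∣ N → ∀ (n : ℕ) (t : Ta),
      π n (hecke ℓ t) = heckeOperatorBar N ℓ (π n t))
    (hcomm : ∀ ℓ ℓ' : Nat.Primes, Commute (hecke ℓ) (hecke ℓ'))
    (hG : HeckeGaloisCommute N) (hL : ∀ n : ℕ, TorsionFiniteLevel N (p ^ n))
    (hES : TorsionESRelation N p) (C : CmpData p N Ta hecke) :
    ∃ D : TateDatumA p N, Nonempty (CmpData p N D.Ta D.hecke) ∧ Nonempty (LevelMaps p N D) := by
  obtain ⟨gal, h0, h1, h2, h3, h4⟩ := TateAsmA.exists_gal Ta hecke π hK hS hC hH hG hL hES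
  exact ⟨{ Ta := Ta, gal := gal, hecke := hecke, gal_continuous := h1, hecke_comm := hcomm,
           hecke_gal := h2, unram := h3, eichlerShimura := h4,
           eigen_dim := fun E _ _ _ χ => eigen_dim_of_cmpData C E χ }, ⟨C⟩,
         ⟨{ π := π, ker := hK, surj := hS, compat := hC, hecke := hH, gal := h0 }⟩⟩

/-- **The TATE assembly with level maps**: from the Kummer comparison (JAC-H) and the
Eichler–Shimura relation on torsion (RED + ES-CONG), an anemic Tate datum with comparison data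
and level maps. -/
theorem exists_tateDatumA_levelMaps (hK : KummerCmp N p) (hES : TorsionESRelation N p) :
    ∃ D : TateDatumA p N, Nonempty (CmpData p N D.Ta D.hecke) ∧ Nonempty (LevelMaps p N D) := by
  obtain ⟨π, h1, h2, h3, h4⟩ := exists_levelMaps_of_kummerCmp hK
  exact exists_tateDatumA_levelMaps_of_levelMaps (taPE p N) (heckeTa p N) π h1 h2 h3 h4
    (heckeTa_comm p N) (Fermat.Agent.ESJ.Cong.heckeGaloisCommute N)
    (torsionFiniteLevel_of_kummerCmp hK) hES (cmpData p N)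

/-- The trunk target with level maps. -/
def TateCmpALevelExists : Prop :=
  ∀ (p N : ℕ) [Fact p.Prime] [NeZero N],
    ∃ D : TateDatumA p N, Nonempty (CmpData p N D.Ta D.hecke) ∧ Nonempty (LevelMaps p N D)

theorem tateCmpALevelExists_of
    (hK : ∀ (p N : ℕ) [Fact p.Prime] [NeZero N], KummerCmp N p)
    (hES : ∀ (p N : ℕ) [Fact p.Prime] [NeZero N], TorsionESRelation N p) :
    TateCmpALevelExists := by
  intro p N _ _
  exact exists_tateDatumA_levelMaps (hK p N) (hES p N)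

theorem tateCmpAExists_of_level (h : TateCmpALevelExists) : TateCmpAExists := by
  intro p N _ _
  obtain ⟨D, hC, -⟩ := h p N
  exact ⟨D, hC⟩

/-! ### Transfer tools -/

namespace LevelMaps

variable {D : TateDatumA p N} (L : LevelMaps p N D)

/-- The image of `π n` is killed by `pⁿ`. -/
theorem pow_nsmul (n : ℕ) (t : D.Ta) : p ^ n • L.π n t = 0 :=
  pow_nsmul_map L.π L.ker n t

/-- The image of `π n` is `p`-power torsion. -/
theorem exists_pow_nsmul (n : ℕ) (t : D.Ta) : ∃ m : ℕ, p ^ m • L.π n t = 0 :=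
  ⟨n, L.pow_nsmul n t⟩

/-- An element of the Tate module killed by all level maps is zero. -/
theorem eq_zero_of_forall (t : D.Ta) (h : ∀ n, L.π n t = 0) : t = 0 :=
  sep L.π L.ker t h

/-- Two elements of the Tate module with the same images under all level maps are equal. -/
theorem eq_of_forall {t t' : D.Ta} (h : ∀ n, L.π n t = L.π n t') : t = t' :=
  Fermat.Agent.Lib.TateLim.eq_of_forall L.π L.ker h

/-- Two endomorphisms of the Tate module which agree after all level maps are equal. -/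
theorem linearMap_ext {Φ Ψ : Module.End ℤ_[p] D.Ta} (h : ∀ n t, L.π n (Φ t) = L.π n (Ψ t)) :
    Φ = Ψ :=
  Fermat.Agent.Lib.TateLim.linearMap_ext L.π L.ker h

/-- The level maps are semilinear along `ℤ_p → ℤ / pⁿ`. -/
theorem map_smul_appr (a : ℤ_[p]) (n : ℕ) (t : D.Ta) : L.π n (a • t) = a.appr n • L.π n t :=
  Fermat.Agent.Lib.TateLim.map_smul_appr L.π L.ker a n t

/-- Multiplication by a natural number on the Tate module and on `J₀(N)`. -/
theorem map_natCast_smul (m : ℕ) (n : ℕ) (t : D.Ta) :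
    L.π n ((m : ℤ_[p]) • t) = m • L.π n t := by
  rw [Nat.cast_smul_eq_nsmul, map_nsmul]

/-- Multiplication by an integer on the Tate module and on `J₀(N)`. -/
theorem map_intCast_smul (m : ℤ) (n : ℕ) (t : D.Ta) :
    L.π n ((m : ℤ_[p]) • t) = m • L.π n t := by
  rw [Int.cast_smul_eq_zsmul, map_zsmul]

/-- **Torsion-to-Tate transfer**: an endomorphism of the Tate module which induces, through
the level maps, an additive endomorphism of `J₀(N)` killing the `p`-power torsion, is zero. -/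
theorem eq_zero_of_torsion (Φ : Module.End ℤ_[p] D.Ta) (φ : JZero N →+ JZero N)
    (h : ∀ n t, L.π n (Φ t) = φ (L.π n t))
    (hφ : ∀ x : JZero N, (∃ m : ℕ, p ^ m • x = 0) → φ x = 0) : Φ = 0 :=
  L.linearMap_ext fun n t => by
    rw [h, hφ _ (L.exists_pow_nsmul n t), LinearMap.zero_apply, map_zero]

variable {N' : ℕ} [NeZero N'] {D' : TateDatumA p N'} (L' : LevelMaps p N' D')

/-- **Lifting**: every additive map `J₀(N) →+ J₀(N')` lifts to a `ℤ_p`-linear map of the Tate
modules, compatible with the level maps. -/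
theorem exists_lift (f : JZero N →+ JZero N') :
    ∃ δ : D.Ta →ₗ[ℤ_[p]] D'.Ta, ∀ n t, L'.π n (δ t) = f (L.π n t) := by
  refine exists_lift₂ L.π L'.π L.ker L.compat L'.ker L'.compat f (fun n t => L'.surj n _ ?_)
  rw [← map_nsmul, L.pow_nsmul, map_zero]

/-- The lift is unique. -/
theorem lift_unique (f : JZero N →+ JZero N') {δ δ' : D.Ta →ₗ[ℤ_[p]] D'.Ta}
    (h : ∀ n t, L'.π n (δ t) = f (L.π n t)) (h' : ∀ n t, L'.π n (δ' t) = f (L.π n t)) :
    δ = δ' :=
  LinearMap.ext fun t => L'.eq_of_forall fun n => by rw [h, h']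

/-- The lift of a Galois-equivariant map is Galois-equivariant. -/
theorem lift_gal (f : JZero N →+ JZero N') (δ : D.Ta →ₗ[ℤ_[p]] D'.Ta)
    (h : ∀ n t, L'.π n (δ t) = f (L.π n t)) (σ : GQ)
    (hf : ∀ x : JZero N, f (σ • x) = σ • f x) (t : D.Ta) :
    δ (D.gal σ t) = D'.gal σ (δ t) :=
  L'.eq_of_forall fun n => by rw [h, L.gal, hf, L'.gal, h]

/-- The lift of a Hecke-equivariant map is Hecke-equivariant (at a prime dividing neither
level). -/
theorem lift_hecke (f : JZero N →+ JZero N') (δ : D.Ta →ₗ[ℤ_[p]] D'.Ta)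
    (h : ∀ n t, L'.π n (δ t) = f (L.π n t)) (ℓ : Nat.Primes) (hℓ : ¬ (ℓ : ℕ) ∣ N)
    (hℓ' : ¬ (ℓ : ℕ) ∣ N')
    (hf : ∀ x : JZero N, f (heckeOperatorBar N ℓ x) = heckeOperatorBar N' ℓ (f x)) (t : D.Ta) :
    δ (D.hecke ℓ t) = D'.hecke ℓ (δ t) :=
  L'.eq_of_forall fun n => by rw [h, L.hecke ℓ hℓ, hf, L'.hecke ℓ hℓ', h]

/-- If the lift kills `t`, the map kills all levels of `t`. -/
theorem map_eq_zero_of_lift (f : JZero N →+ JZero N') (δ : D.Ta →ₗ[ℤ_[p]] D'.Ta)
    (h : ∀ n t, L'.π n (δ t) = f (L.π n t)) (t : D.Ta) (ht : δ t = 0) (n : ℕ) :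
    f (L.π n t) = 0 := by
  rw [← h, ht, map_zero]

end LevelMaps

end Fermat.Agent.ESJ.Rep.TateLevel
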