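/-
ESJ / REP layer (helper84): **the BAD targets from the trunk inputs** — closing the chains of
S34 and S35 on top of `Rep/TateLevel.lean`.

* `LevelMaps.monodromyA` : `BAD.TorsionMonodromy N p` gives `S31.MonodromyA D` for any anemic
  Tate datum with level maps;
* `LevelMaps.badNewData` : `BAD.TorsionNewFrob N N' q p` gives `BAD.BadNewData p N N' q D` from
  level maps at the two levels;
* `tateCmpAMonodromyExists_of_trunk : (K) → (E) → (∀ N p, TorsionMonodromy N p) →
    S31.TateCmpAMonodromyExists`   (⇒ S34 by `S31.S34_ofA`);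
* `tateCmpABadExists_of_trunk : (K) → (E) → (∀ …, TorsionNewFrob N N' q p) →
    BAD.TateCmpABadExists`         (⇒ S35 by `BAD.S35_of`).

Here (K) and (E) are the two trunk families in the shapes of `ESJ/Trunk.lean`.  No hypothesis
on `TorsionFiniteLevel` is needed (it follows from (K) at the levels `pⁿ`).
-/
import Mathlib
import Fermat.Agent.ESJ.Rep.TateLevel
import Fermat.Agent.BAD.Interfaces
import Fermat.Agent.BAD.S35Levels

set_option autoImplicit false

open scoped TensorProduct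
open ModularCurve AlgebraicCurve

namespace Fermat.Agent.ESJ.Rep.TateLevel

open Fermat.Agent.BAD

local notation "Qb" => AlgebraicClosure ℚ
local notation "GQ" => (AlgebraicClosure ℚ ≃ₐ[ℚ] AlgebraicClosure ℚ)

variable {p N : ℕ} [Fact p.Prime] [NeZero N]

/-- **S34 transfer**: the torsion-level monodromy statement gives the monodromy clause of any
anemic Tate datum with level maps. -/
theorem LevelMaps.monodromyA {D : TateDatumA p N} (L : LevelMaps p N D)
    (hU : TorsionMonodromy N p) : S31.MonodromyA D := by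
  intro q hq hqp hqN hq2 P hP τ hτ
  refine L.linearMap_ext fun n t => ?_
  have key := hU q hq hqp hqN hq2 P hP τ hτ τ hτ (L.π n t) (L.exists_pow_nsmul n t)
  have e : ((D.gal τ - 1) * (D.gal τ - 1)) t = D.gal τ (D.gal τ t) - D.gal τ t - D.gal τ t + t := by
    simp only [Module.End.mul_apply, LinearMap.sub_apply, Module.End.one_apply, map_sub]
    abel
  rw [e, LinearMap.zero_apply, map_zero, map_add, map_sub, map_sub]
  simp only [L.gal]
  exact key

/-- **S35 transfer**: the torsion-level statement (BAD-F′) gives the bad-prime data of an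
anemic Tate datum of level `N = N' q` from level maps at the levels `N` and `N'`. -/
theorem LevelMaps.badNewData {N' q : ℕ} [NeZero N'] {D : TateDatumA p N}
    {D' : TateDatumA p N'} (L : LevelMaps p N D) (L' : LevelMaps p N' D')
    (C' : CmpData p N' D'.Ta D'.hecke) (hN : N = N' * q) (hNew : TorsionNewFrob N N' q p) :
    Nonempty (BadNewData p N N' q D) := by
  obtain ⟨a₁, a₂, hh₁, hh₂, hfrob⟩ := hNew
  obtain ⟨δ₁, hδ₁⟩ := L.exists_lift L' a₁
  obtain ⟨δ₂, hδ₂⟩ := L.exists_lift L' a₂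
  have hdvd : ∀ ℓ : Nat.Primes, ¬ (ℓ : ℕ) ∣ N → ¬ (ℓ : ℕ) ∣ N' := by
    intro ℓ hℓ hd
    apply hℓ
    rw [hN]
    exact Dvd.dvd.mul_right hd q
  refine ⟨{ Ta' := D'.Ta, hecke' := D'.hecke, cmp' := C', δ₁ := δ₁, δ₂ := δ₂,
            δ₁_hecke := fun ℓ hℓ x =>
              L.lift_hecke L' a₁ δ₁ hδ₁ ℓ hℓ (hdvd ℓ hℓ) (hh₁ ℓ hℓ) x,
            δ₂_hecke := fun ℓ hℓ x =>
              L.lift_hecke L' a₂ δ₂ hδ₂ ℓ hℓ (hdvd ℓ hℓ) (hh₂ ℓ hℓ) x,
            frob := ?_ }⟩
  intro P hP φ hφ x hx1 hx2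
  apply L.eq_zero_of_forall
  intro n
  have e1 : ((q : ℤ_[p]) ^ 2 + 1) = ((q ^ 2 + 1 : ℕ) : ℤ_[p]) := by push_cast; ring
  have e2 : ((q : ℤ_[p]) ^ 2) = ((q ^ 2 : ℕ) : ℤ_[p]) := by push_cast; ring
  rw [e1, e2, map_add, map_sub, L.map_natCast_smul, L.map_natCast_smul]
  simp only [L.gal]
  exact hfrob P hP φ hφ (L.π n x) (L.exists_pow_nsmul n x)
    (L.map_eq_zero_of_lift L' a₁ δ₁ hδ₁ x hx1 n) (L.map_eq_zero_of_lift L' a₂ δ₂ hδ₂ x hx2 n)

section Trunk

variable (hK : ∀ (N p : ℕ) [NeZero N], p.Prime → KummerCmp N p)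
  (hE : ∀ (N p : ℕ) [NeZero N], p.Prime → TorsionESRelation N p)

include hK hE

/-- The trunk target with level maps, from the two trunk families. -/
theorem tateCmpALevelExists_of_trunk : TateCmpALevelExists := by
  intro p N _ _
  exact exists_tateDatumA_levelMaps (hK N p Fact.out) (hE N p Fact.out)

/-- **S34 from the trunk and (BAD-U)**: `S31.TateCmpAMonodromyExists`. -/
theorem tateCmpAMonodromyExists_of_trunk
    (hU : ∀ (N p : ℕ) [NeZero N], p.Prime → TorsionMonodromy N p) :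
    S31.TateCmpAMonodromyExists := by
  intro p N _ _
  obtain ⟨D, hC, ⟨L⟩⟩ := tateCmpALevelExists_of_trunk hK hE p N
  exact ⟨D, hC, L.monodromyA (hU N p Fact.out)⟩

/-- **S35 from the trunk and (BAD-F′)**: `BAD.TateCmpABadExists`. -/
theorem tateCmpABadExists_of_trunk
    (hNew : ∀ (N N' q p : ℕ) [NeZero N] [NeZero N'], p.Prime → q.Prime → q ≠ p →
      N = N' * q → ¬ q ∣ N' → TorsionNewFrob N N' q p) :
    TateCmpABadExists := by
  intro p N _ _
  obtain ⟨D, -, ⟨L⟩⟩ := tateCmpALevelExists_of_trunk hK hE p N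
  refine ⟨D, ?_⟩
  intro N' _ q hq hqp hN hqN'
  obtain ⟨D', ⟨C'⟩, ⟨L'⟩⟩ := tateCmpALevelExists_of_trunk hK hE p N'
  exact L.badNewData L' C' hN (hNew N N' q p Fact.out hq hqp hN hqN')

end Trunk

end Fermat.Agent.ESJ.Rep.TateLevel
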