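/-
ESJ / REP layer (helper55): the Frobenius density hypothesis `FrobDensity` of `Rep/Defs.lean`
is a theorem — a restatement of FROB's `Fermat.Agent.Frob.exists_frobenius_generating`.
-/
import Mathlib
import Fermat.Agent.ESJ.Rep.Defs
import Fermat.Agent.Frob.Main

set_option autoImplicit false

namespace Fermat.Agent.ESJ.Rep

/-- The Frobenius density theorem in the form consumed by the REP layer. -/
theorem frobDensity : FrobDensity := by
  intro L hL S g
  have : FiniteDimensional ℚ L := hL
  obtain ⟨ℓ, hℓ, hℓS, A, σ, k, _j, hA, hσ, h1, _h2⟩ :=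
    Fermat.Agent.Frob.exists_frobenius_generating L S g
  exact ⟨ℓ, A, σ, k, hℓ, hℓS, hA, hσ, fun x hx => (h1 x hx).symm⟩

end Fermat.Agent.ESJ.Rep
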