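/-
ESJ / REP layer, REP-EXTRACT (owner: helper73), D4 of the ESJ architecture.

From a nonzero finite-dimensional `k[G_ℚ]`-module of finite level on which every Frobenius
element `σ_ℓ` (`ℓ ∤ N p`) satisfies `σ² - φ(a_ℓ) σ + ℓ = 0`, extract a two-dimensional residual
Galois representation attached to the eigenform, unramified outside `N p`.
-/
import Mathlib
import Fermat.Agent.ESJ.Interfaces
import Fermat.Agent.ESJ.Rep.Cyclo
import Fermat.Agent.ESJ.Rep.ExtractCore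

set_option autoImplicit false

namespace Fermat.Agent.ESJ.Rep.Extract

open Polynomial

/-- The reduction map `ℤ_p → k` for a field `k` of characteristic `p`. -/
noncomputable def redHom (p : ℕ) [Fact p.Prime] (k : Type) [Field k] [CharP k p] : ℤ_[p] →+* k :=
  (ZMod.castHom (dvd_refl p) k).comp PadicInt.toZMod

/-- The mod `p` cyclotomic character with values in `k`. -/
noncomputable def chi (p : ℕ) [Fact p.Prime] (k : Type) [Field k] [CharP k p] : GQ →* kˣ :=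
  (Units.map (redHom p k : ℤ_[p] →* k)).comp (cyclo p)

theorem chi_val (p : ℕ) [Fact p.Prime] (k : Type) [Field k] [CharP k p] (σ : GQ) :
    (chi p k σ : k) = redHom p k ((cyclo p σ : ℤ_[p]ˣ) : ℤ_[p]) := rfl

theorem chi_frob (p : ℕ) [Fact p.Prime] (k : Type) [Field k] [CharP k p] {ℓ : ℕ}
    (hℓ : ℓ.Prime) (hℓp : ℓ ≠ p) (A : ValuationSubring Qb) (hA : A.LiesOverPrime ℓ) (σ : GQ)
    (hσ : A.IsFrobeniusAt σ ℓ) : (chi p k σ : k) = (ℓ : k) := by
  rw [chi_val, cyclo_frobenius p hℓ hℓp A hA σ hσ, map_natCast]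

theorem chi_inertia (p : ℕ) [Fact p.Prime] (k : Type) [Field k] [CharP k p] {q : ℕ}
    (hq : q.Prime) (hqp : q ≠ p) (A : ValuationSubring Qb) (hA : A.LiesOverPrime q) (σ : GQ)
    (hσ : σ ∈ A.inertiaSubgroupIn ℚ) : chi p k σ = 1 := by
  rw [chi, MonoidHom.comp_apply, cyclo_inertia p hq hqp A hA σ hσ, map_one]

theorem chi_level (p : ℕ) [Fact p.Prime] (k : Type) [Field k] [CharP k p] :
    ∃ L : IntermediateField ℚ Qb, FiniteDimensional ℚ L ∧
      ∀ σ : GQ, (∀ x ∈ L, σ x = x) → chi p k σ = 1 := by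
  obtain ⟨L, hL, h⟩ := cyclo_sub_one p 1
  refine ⟨L, hL, fun σ hσ => ?_⟩
  obtain ⟨c, hc⟩ := h σ hσ
  apply Units.ext
  rw [chi_val, Units.val_one]
  have h1 : ((cyclo p σ : ℤ_[p]ˣ) : ℤ_[p]) = 1 + (p : ℤ_[p]) ^ 1 * c := by
    rw [← hc]; ring
  rw [h1, map_add, map_one, map_mul, pow_one, map_natCast, CharP.cast_eq_zero k p, zero_mul,
    add_zero]

/-- The quadratic polynomial `X² - a X + ℓ` with `a` an algebraic integer splits over the
algebraic integers. -/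
theorem exists_roots (a : integralClosure ℤ ℂ) (ℓ : ℕ) :
    ∃ r s : integralClosure ℤ ℂ, r + s = a ∧ r * s = (ℓ : integralClosure ℤ ℂ) := by
  obtain ⟨z, hz⟩ := IsAlgClosed.exists_eq_mul_self ((a : ℂ) ^ 2 - 4 * (ℓ : ℂ))
  set r : ℂ := ((a : ℂ) + z) / 2 with hr
  have hroot : r ^ 2 - (a : ℂ) * r + (ℓ : ℂ) = 0 := by
    rw [hr]
    field_simp
    linear_combination (-1 : ℂ) * hz
  have hdeg : (C a * X - C (ℓ : integralClosure ℤ ℂ) : (integralClosure ℤ ℂ)[X]).degree <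
      ((2 : ℕ) : WithBot ℕ) := by
    refine lt_of_le_of_lt (degree_sub_le _ _) ?_
    refine max_lt (lt_of_le_of_lt (degree_C_mul_X_le _) (by norm_num))
      (lt_of_le_of_lt degree_C_le (by norm_num))
  have hint' : IsIntegral (integralClosure ℤ ℂ) r := by
    refine ⟨X ^ 2 - (C a * X - C (ℓ : integralClosure ℤ ℂ)), monic_X_pow_sub hdeg, ?_⟩
    rw [← aeval_def]
    simp only [map_sub, map_pow, aeval_X, map_mul, aeval_C, map_natCast]
    have : (algebraMap (integralClosure ℤ ℂ) ℂ) a = (a : ℂ) := rfl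
    rw [this]
    linear_combination hroot
  have hint : IsIntegral ℤ r := isIntegral_trans r hint'
  refine ⟨⟨r, hint⟩, a - ⟨r, hint⟩, by ring, ?_⟩
  apply Subtype.ext
  push_cast
  linear_combination (-1 : ℂ) * hroot

/-- Frobenius density + the quadratic relation for Frobenius elements give the split quadratic
relation for every element of `G_ℚ`. -/
theorem quadRel_of_ES (hFrob : FrobGenerating) {N : ℕ} (hN : N ≠ 0)
    (g : CuspForm (CongruenceSubgroup.Gamma0 N) 2) (p : ℕ) [hp : Fact p.Prime] (k : Type)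
    [Field k] [CharP k p] (φ : integralClosure ℤ ℂ →+* k) {W : Type} [AddCommGroup W]
    [Module k W] (ρ : GQ →* Module.End k W) (hlev : GaloisFactorsThroughFiniteLevel ρ)
    (hES : ∀ ℓ : ℕ, ℓ.Prime → ¬ ℓ ∣ N * p →
      ∀ A : ValuationSubring (AlgebraicClosure ℚ), A.LiesOverPrime ℓ →
        (∀ σ ∈ A.inertiaSubgroupIn ℚ, ρ σ = 1) ∧
        ∀ σ : GQ, A.IsFrobeniusAt σ ℓ →
          ∃ a : integralClosure ℤ ℂ, (a : ℂ) = ModularFormClass.qCoeff g ℓ ∧
            ρ σ * ρ σ - φ a • ρ σ + (ℓ : k) • (1 : Module.End k W) = 0) :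
    QuadRel ρ (chi p k) := by
  intro γ
  obtain ⟨L₀, hL₀, h₀⟩ := hlev
  obtain ⟨L₁, hL₁, h₁⟩ := chi_level p k
  have hfin : FiniteDimensional ℚ ↥(L₀ ⊔ L₁) := IntermediateField.finiteDimensional_sup L₀ L₁
  have hNp : N * p ≠ 0 := Nat.mul_ne_zero hN hp.1.ne_zero
  obtain ⟨ℓ, hℓ, hℓS, A, σ, n, j, hA, hσ, hgσ, -⟩ := hFrob (L₀ ⊔ L₁) (N * p).primeFactors γ
  have hℓNp : ¬ ℓ ∣ N * p := fun hd => hℓS (Nat.mem_primeFactors.mpr ⟨hℓ, hd, hNp⟩)
  have hℓp : ℓ ≠ p := by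
    rintro rfl
    exact hℓNp (dvd_mul_left _ _)
  obtain ⟨a, -, ha⟩ := (hES ℓ hℓ hℓNp A hA).2 σ hσ
  obtain ⟨r, s, hrs, hrs'⟩ := exists_roots a ℓ
  -- `τ := (σ ^ n)⁻¹ * γ` fixes `L₀ ⊔ L₁`
  have hτ : ∀ x ∈ L₀ ⊔ L₁, ((σ ^ n)⁻¹ * γ) x = x := by
    intro x hx
    rw [AlgEquiv.mul_apply, hgσ x hx]
    exact (σ ^ n).symm_apply_apply x
  have hγ : γ = σ ^ n * ((σ ^ n)⁻¹ * γ) := by group
  have hργ : ρ γ = ρ σ ^ n := by
    have h1 := h₀ ((σ ^ n)⁻¹ * γ) (fun x hx => hτ x ((le_sup_left : L₀ ≤ L₀ ⊔ L₁) hx))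
    conv_lhs => rw [hγ]
    rw [map_mul, h1, mul_one, map_pow]
  have hχγ : chi p k γ = chi p k σ ^ n := by
    have h1 := h₁ ((σ ^ n)⁻¹ * γ) (fun x hx => hτ x ((le_sup_right : L₁ ≤ L₀ ⊔ L₁) hx))
    conv_lhs => rw [hγ]
    rw [map_mul, h1, mul_one, map_pow]
  have hM : ∀ w : W, ρ σ (ρ σ w) - (φ r + φ s) • ρ σ w + (φ r * φ s) • w = 0 := by
    intro w
    have := congrArg (fun f : Module.End k W => f w) ha
    rw [← map_add, hrs, ← map_mul, hrs', map_natCast]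
    simpa using this
  have hpow := quad_pow (ρ σ) (φ r) (φ s) hM n
  refine ⟨φ r ^ n, φ s ^ n, ?_, ?_⟩
  · rw [hχγ, ← mul_pow, ← map_mul, hrs', map_natCast, Units.val_pow_eq_pow_val,
      chi_frob p k hℓ hℓp A hA σ hσ]
  · rw [hργ]
    exact hpow

end Fermat.Agent.ESJ.Rep.Extract

namespace Fermat.Agent.ESJ

open Polynomial Rep.Extract

/-- **REP-EXTRACT** (D4): from a residual Eichler–Shimura module to a two-dimensional residual
Galois representation attached to the eigenform. -/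
theorem exists_residualGaloisRep_of_ESModule (hFrob : FrobGenerating) {N : ℕ}
    (g : CuspForm (CongruenceSubgroup.Gamma0 N) 2) {p : ℕ} (hp : p.Prime) (k : Type) [Field k]
    [CharP k p] (φ : integralClosure ℤ ℂ →+* k) (hW : ResidualESModule g p k φ) :
    ∃ ρ : ResidualGaloisRep k, ρ.IsAttachedTo g φ ∧
      ∀ ℓ : ℕ, ℓ.Prime → ¬ ℓ ∣ N * p → ρ.IsUnramifiedAt ℓ := by
  have : Fact p.Prime := ⟨hp⟩
  rcases eq_or_ne N 0 with rfl | hN
  · -- level `0`: both conditions are vacuous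
    refine ⟨{ V := Fin 2 → k
              finrank_eq := by simp
              ρ := 1
              factorsThroughFiniteLevel := ⟨⊥, inferInstance, fun _ _ => rfl⟩ }, ?_, ?_⟩
    · intro ℓ hℓ hℓN
      exact absurd (dvd_zero ℓ) hℓN
    · intro ℓ hℓ hℓN
      exact absurd (by simp) hℓN
  obtain ⟨W, _, _, _, _, ρ, hlev, hES⟩ := hW
  have hq := quadRel_of_ES hFrob hN g p k φ ρ hlev hES
  obtain ⟨U, hU, hU0, hmin⟩ := exists_minimal_inv ρ
  have hs := orbitSpan_resRep ρ U hU hmin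
  have hqU := quadRel_resRep ρ (chi p k) hq U hU
  have hle := finrank_le_two (resRep ρ U hU) (chi p k) hqU hs
  have hntU : Nontrivial U := Submodule.nontrivial_iff_ne_bot.mpr hU0
  have hpos : 0 < Module.finrank k U := Module.finrank_pos
  -- facts about the restricted representation
  have hres_one : ∀ σ : GQ, ρ σ = 1 → resRep ρ U hU σ = 1 := by
    intro σ h
    ext w
    rw [resRep_apply, h]
    rfl
  have hlevU : GaloisFactorsThroughFiniteLevel (resRep ρ U hU) := by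
    obtain ⟨L, hL, h⟩ := hlev
    exact ⟨L, hL, fun σ hσ => hres_one σ (h σ hσ)⟩
  have hprime : ∀ ℓ : ℕ, ℓ.Prime → ¬ ℓ ∣ N → (ℓ : k) ≠ 0 → ¬ ℓ ∣ N * p ∧ ℓ ≠ p := by
    intro ℓ hℓ hℓN hℓk
    have hℓp : ℓ ≠ p := by
      rintro rfl
      exact hℓk (CharP.cast_eq_zero k ℓ)
    refine ⟨fun hd => ?_, hℓp⟩
    rcases (Nat.Prime.dvd_mul hℓ).mp hd with h | h
    · exact hℓN h
    · exact hℓp ((Nat.prime_dvd_prime_iff_eq hℓ hp).mp h)
  have hrelU : ∀ ℓ : ℕ, ℓ.Prime → ¬ ℓ ∣ N * p → ℓ ≠ p →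
      ∀ A : ValuationSubring (AlgebraicClosure ℚ), A.LiesOverPrime ℓ →
        ∀ σ : GQ, A.IsFrobeniusAt σ ℓ →
          ∃ a : integralClosure ℤ ℂ, (a : ℂ) = ModularFormClass.qCoeff g ℓ ∧
            (chi p k σ : k) = (ℓ : k) ∧
            ∀ w : U, resRep ρ U hU σ (resRep ρ U hU σ w) - φ a • resRep ρ U hU σ w +
              (chi p k σ : k) • w = 0 := by
    intro ℓ hℓ hℓNp hℓp A hA σ hσ
    obtain ⟨a, ha1, ha2⟩ := (hES ℓ hℓ hℓNp A hA).2 σ hσ
    have hχ := chi_frob p k hℓ hℓp A hA σ hσ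
    refine ⟨a, ha1, hχ, fun w => ?_⟩
    apply Subtype.ext
    rw [Submodule.coe_add, Submodule.coe_sub, Submodule.coe_smul, Submodule.coe_smul,
      Submodule.coe_zero, resRep_apply, resRep_apply, hχ]
    have := congrArg (fun f : Module.End k W => f (w : W)) ha2
    simpa using this
  have hcases : Module.finrank k U = 1 ∨ Module.finrank k U = 2 := by omega
  rcases hcases with h1 | h2
  · -- dimension one: `ψ ⊕ χ ψ⁻¹`
    set ψ : GQ →* kˣ :=
      ((LinearMap.det : Module.End k U →* k).comp (resRep ρ U hU)).toHomUnits with hψ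
    have hψ_val : ∀ σ : GQ, (ψ σ : k) = LinearMap.det (resRep ρ U hU σ) := fun σ => rfl
    have hψ_one : ∀ σ : GQ, ρ σ = 1 → ψ σ = 1 := by
      intro σ h
      apply Units.ext
      rw [hψ_val, hres_one σ h, map_one, Units.val_one]
    obtain ⟨L₀, hL₀, h₀⟩ := hlev
    obtain ⟨L₁, hL₁, h₁⟩ := chi_level p k
    have hfin : FiniteDimensional ℚ ↥(L₀ ⊔ L₁) := IntermediateField.finiteDimensional_sup L₀ L₁
    refine ⟨{ V := Fin 2 → k
              finrank_eq := by simp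
              ρ := diagRep ψ (chi p k)
              factorsThroughFiniteLevel := ⟨L₀ ⊔ L₁, hfin, fun σ hσ =>
                diagRep_eq_one ψ (chi p k) σ
                  (hψ_one σ (h₀ σ fun x hx => hσ x ((le_sup_left : L₀ ≤ L₀ ⊔ L₁) hx)))
                  (h₁ σ fun x hx => hσ x ((le_sup_right : L₁ ≤ L₀ ⊔ L₁) hx))⟩ }, ?_, ?_⟩
    · intro ℓ hℓ hℓN hℓk A hA σ hσ
      obtain ⟨hℓNp, hℓp⟩ := hprime ℓ hℓ hℓN hℓk
      obtain ⟨a, ha1, hχ, hrel⟩ := hrelU ℓ hℓ hℓNp hℓp A hA σ hσ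
      refine ⟨a, ha1, ?_⟩
      rw [← hχ]
      apply charpoly_diagRep
      obtain ⟨w, hw⟩ := exists_ne (0 : U)
      have e := hrel w
      rw [apply_eq_det_smul h1 (resRep ρ U hU σ) w, map_smul,
        apply_eq_det_smul h1 (resRep ρ U hU σ) w, smul_smul, smul_smul, ← sub_smul,
        ← add_smul] at e
      rcases smul_eq_zero.mp e with h0 | h0
      · rw [hψ_val]
        exact h0
      · exact absurd h0 hw
    · intro ℓ hℓ hℓNp A hA σ hσ
      have hℓp : ℓ ≠ p := by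
        rintro rfl
        exact hℓNp (dvd_mul_left _ _)
      exact diagRep_eq_one ψ (chi p k) σ (hψ_one σ ((hES ℓ hℓ hℓNp A hA).1 σ hσ))
        (chi_inertia p k hℓ hℓp A hA σ hσ)
  · -- dimension two: the simple submodule itself
    have hns := exists_nonscalar_of_finrank_two h2 (resRep ρ U hU) hs
    refine ⟨{ V := U
              finrank_eq := h2
              ρ := resRep ρ U hU
              factorsThroughFiniteLevel := hlevU }, ?_, ?_⟩
    · intro ℓ hℓ hℓN hℓk A hA σ hσ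
      obtain ⟨hℓNp, hℓp⟩ := hprime ℓ hℓ hℓN hℓk
      obtain ⟨a, ha1, hχ, hrel⟩ := hrelU ℓ hℓ hℓNp hℓp A hA σ hσ
      refine ⟨a, ha1, ?_⟩
      rw [← hχ]
      exact charpoly_eq_of_finrank_two h2 (resRep ρ U hU) (chi p k) hqU hns σ (φ a) hrel
    · intro ℓ hℓ hℓNp A hA σ hσ
      exact hres_one σ ((hES ℓ hℓ hℓNp A hA).1 σ hσ)

end Fermat.Agent.ESJ
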