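/-
ESJ / REP layer, D5 of the ESJ architecture (owner: helper73).

The residual Eichler–Shimura module: `M` = the `k`-space of additive maps `μ : J₀(N)[p] → k`
with `μ ∘ T_ℓ = φ(a_ℓ) μ` for all `ℓ ∤ N p`, with `G_ℚ` acting on the right by `μ ↦ μ ∘ σ`;
`W := Hom_k(M, k)` with the transposed (left) action.  The Eichler–Shimura relation on
`J₀(N)[p]` transposes twice to the same relation on `W`.
-/
import Mathlib
import Fermat.Agent.ESJ.Interfaces
import Fermat.Agent.ESJ.Rep.Extract

set_option autoImplicit false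

noncomputable section

namespace Fermat.Agent.ESJ.Rep.ResModule

/-! ### The abstract construction -/

section Abstract

variable {G : Type*} [Group G] {J : Type*} [AddCommGroup J] [DistribMulAction G J]
  (P : AddSubgroup J) (hP : ∀ (σ : G) (x : J), x ∈ P → σ • x ∈ P)
  {ι : Type*} (T : ι → J → J) (good : ι → Prop)
  (hcomm : ∀ (ℓ : ι) (σ : G) (x : J), T ℓ (σ • x) = σ • T ℓ x)
  {k : Type*} [Field k] (c : ι → k)

/-- The action on the stable subgroup. -/
def act (σ : G) (x : P) : P := ⟨σ • (x : J), hP σ x x.2⟩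

theorem coe_act (σ : G) (x : P) : ((act P hP σ x : P) : J) = σ • (x : J) := rfl

theorem act_mul (σ τ : G) (x : P) : act P hP (σ * τ) x = act P hP σ (act P hP τ x) :=
  Subtype.ext (mul_smul _ _ _)

theorem act_add (σ : G) (x y : P) : act P hP σ (x + y) = act P hP σ x + act P hP σ y :=
  Subtype.ext (smul_add _ _ _)

theorem act_eq_self (σ : G) (h : ∀ x ∈ P, σ • x = x) (x : P) : act P hP σ x = x :=
  Subtype.ext (h x x.2)

/-- The space of eigen-functionals on `P` for the eigenvalue system `c`. -/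
def eigSpace : Submodule k (P → k) where
  carrier := {μ | (∀ x y : P, μ (x + y) = μ x + μ y) ∧
    ∀ ℓ : ι, good ℓ → ∀ x y : P, (y : J) = T ℓ (x : J) → μ y = c ℓ * μ x}
  add_mem' := by
    rintro μ ν ⟨h1, h2⟩ ⟨h3, h4⟩
    refine ⟨fun x y => ?_, fun ℓ hℓ x y hxy => ?_⟩
    · simp only [Pi.add_apply, h1 x y, h3 x y]; ring
    · simp only [Pi.add_apply, h2 ℓ hℓ x y hxy, h4 ℓ hℓ x y hxy]; ring
  zero_mem' := ⟨fun x y => by simp, fun ℓ hℓ x y hxy => by simp⟩
  smul_mem' := by
    rintro a μ ⟨h1, h2⟩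
    refine ⟨fun x y => ?_, fun ℓ hℓ x y hxy => ?_⟩
    · simp only [Pi.smul_apply, h1 x y, smul_eq_mul]; ring
    · simp only [Pi.smul_apply, h2 ℓ hℓ x y hxy, smul_eq_mul]; ring

theorem eigSpace_add (μ : eigSpace P T good c) (x y : P) :
    μ.1 (x + y) = μ.1 x + μ.1 y := μ.2.1 x y

theorem eigSpace_nsmul (μ : eigSpace P T good c) (n : ℕ) (x : P) :
    μ.1 (n • x) = (n : k) * μ.1 x := by
  have := map_nsmul (AddMonoidHom.mk' μ.1 (eigSpace_add P T good c μ)) n x
  simpa [nsmul_eq_mul] using this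

theorem eigSpace_eig (μ : eigSpace P T good c) (ℓ : ι) (hℓ : good ℓ) (x y : P)
    (hxy : (y : J) = T ℓ (x : J)) : μ.1 y = c ℓ * μ.1 x :=
  μ.2.2 ℓ hℓ x y hxy

/-- Right translation `μ ↦ μ ∘ σ` on the eigenspace. -/
def transl (σ : G) : eigSpace P T good c →ₗ[k] eigSpace P T good c where
  toFun μ := ⟨fun x => μ.1 (act P hP σ x), fun x y => by
      show μ.1 (act P hP σ (x + y)) = μ.1 (act P hP σ x) + μ.1 (act P hP σ y)
      rw [act_add, eigSpace_add],
    fun ℓ hℓ x y hxy => eigSpace_eig P T good c μ ℓ hℓ _ _ (by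
      rw [coe_act, coe_act, hxy]
      exact (hcomm ℓ σ (x : J)).symm)⟩
  map_add' μ ν := rfl
  map_smul' a μ := rfl

theorem transl_apply (σ : G) (μ : eigSpace P T good c) (x : P) :
    (transl P hP T good hcomm c σ μ).1 x = μ.1 (act P hP σ x) := rfl

theorem transl_eq_id (σ : G) (h : ∀ x ∈ P, σ • x = x) :
    transl P hP T good hcomm c σ = LinearMap.id := by
  ext μ x
  rw [transl_apply, act_eq_self P hP σ h]
  rfl

theorem transl_mul (σ τ : G) :
    transl P hP T good hcomm c (σ * τ) =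
      transl P hP T good hcomm c τ ∘ₗ transl P hP T good hcomm c σ := by
  ext μ x
  rw [transl_apply, act_mul]
  rfl

/-- The representation on the dual of the eigenspace. -/
def dualRep : G →* Module.End k (Module.Dual k (eigSpace P T good c)) where
  toFun σ := (transl P hP T good hcomm c σ).dualMap
  map_one' := by
    rw [transl_eq_id P hP T good hcomm c 1 (fun x _ => one_smul _ x), LinearMap.dualMap_id]
    rfl
  map_mul' σ τ := by
    rw [transl_mul, ← LinearMap.dualMap_comp_dualMap]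
    rfl

theorem dualRep_apply (σ : G) (ξ : Module.Dual k (eigSpace P T good c))
    (μ : eigSpace P T good c) :
    dualRep P hP T good hcomm c σ ξ μ = ξ (transl P hP T good hcomm c σ μ) := rfl

theorem dualRep_eq_one (σ : G) (h : ∀ x ∈ P, σ • x = x) :
    dualRep P hP T good hcomm c σ = 1 := by
  ext ξ μ
  rw [dualRep_apply, transl_eq_id P hP T good hcomm c σ h]
  rfl

/-- The quadratic relation transposes twice. -/
theorem dualRep_quad (σ : G) (ℓ : ι) (hℓ : good ℓ) (n : ℕ)
    (hrel : ∀ x ∈ P, σ • σ • x - T ℓ (σ • x) + n • x = 0) :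
    dualRep P hP T good hcomm c σ * dualRep P hP T good hcomm c σ -
      c ℓ • dualRep P hP T good hcomm c σ +
      (n : k) • (1 : Module.End k (Module.Dual k (eigSpace P T good c))) = 0 := by
  ext ξ μ
  simp only [LinearMap.add_apply, LinearMap.sub_apply, Module.End.mul_apply,
    LinearMap.smul_apply, Module.End.one_apply, dualRep_apply, LinearMap.zero_apply]
  have key : transl P hP T good hcomm c σ (transl P hP T good hcomm c σ μ) -
      c ℓ • transl P hP T good hcomm c σ μ + (n : k) • μ = 0 := by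
    apply Subtype.ext
    funext x
    have hx := hrel (x : J) x.2
    set z : P := act P hP σ x with hz
    set y : P := act P hP σ z with hy
    have ht : ((y + n • x : P) : J) = T ℓ ((z : P) : J) := by
      rw [AddSubgroup.coe_add, AddSubgroup.coe_nsmul, hy, coe_act, hz, coe_act]
      rw [← sub_eq_zero, ← hx]
      abel
    have h1 := eigSpace_eig P T good c μ ℓ hℓ z (y + n • x) ht
    rw [eigSpace_add, eigSpace_nsmul] at h1
    show μ.1 (act P hP σ (act P hP σ x)) - c ℓ * μ.1 (act P hP σ x) + (n : k) * μ.1 x = 0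
    rw [← hz, ← hy, ← h1]
    ring
  have := congrArg ξ key
  rw [map_add, map_sub, map_smul, map_smul, map_zero] at this
  exact this

end Abstract

/-- The abstract statement behind D5. -/
theorem exists_module {G : Type} [Group G] {J : Type} [AddCommGroup J] [DistribMulAction G J]
    (P : AddSubgroup J) (hP : ∀ (σ : G) (x : J), x ∈ P → σ • x ∈ P) [Finite P]
    {ι : Type} (T : ι → J → J) (good : ι → Prop)
    (hcomm : ∀ (ℓ : ι) (σ : G) (x : J), T ℓ (σ • x) = σ • T ℓ x)
    {k : Type} [Field k] (c : ι → k) (lam : P →+ k) (hlam0 : lam ≠ 0)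
    (hlam : ∀ ℓ : ι, good ℓ → ∀ x y : P, (y : J) = T ℓ (x : J) → lam y = c ℓ * lam x) :
    ∃ (W : Type) (_ : AddCommGroup W) (_ : Module k W) (_ : Module.Finite k W)
      (_ : Nontrivial W) (ρ : G →* Module.End k W),
      (∀ σ : G, (∀ x ∈ P, σ • x = x) → ρ σ = 1) ∧
      (∀ (σ : G) (ℓ : ι), good ℓ → ∀ n : ℕ,
        (∀ x ∈ P, σ • σ • x - T ℓ (σ • x) + n • x = 0) →
          ρ σ * ρ σ - c ℓ • ρ σ + (n : k) • (1 : Module.End k W) = 0) := by
  have hlam_mem : (fun x => lam x) ∈ eigSpace P T good c :=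
    ⟨fun x y => map_add lam x y, fun ℓ hℓ x y hxy => hlam ℓ hℓ x y hxy⟩
  have hnt : Nontrivial (eigSpace P T good c) := by
    refine ⟨⟨⟨_, hlam_mem⟩, 0, fun h => hlam0 ?_⟩⟩
    ext x
    have := congrFun (congrArg Subtype.val h) x
    simpa using this
  have hntD : Nontrivial (Module.Dual k (eigSpace P T good c)) := by
    apply Module.nontrivial_of_finrank_pos (R := k)
    rw [Subspace.dual_finrank_eq]
    exact Module.finrank_pos
  exact ⟨Module.Dual k (eigSpace P T good c), inferInstance, inferInstance, inferInstance, hntD,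
    dualRep P hP T good hcomm c, fun σ h => dualRep_eq_one P hP T good hcomm c σ h,
    fun σ ℓ hℓ n hrel => dualRep_quad P hP T good hcomm c σ ℓ hℓ n hrel⟩

end Fermat.Agent.ESJ.Rep.ResModule

namespace Fermat.Agent.ESJ

open ModularCurve AlgebraicCurve

/-- The `p`-torsion of `J₀(N)` is stable under the Galois action. -/
theorem smul_mem_torsion_jZero (N p : ℕ) (σ : GQ) (x : JZero N)
    (hx : x ∈ Pic0.torsion (AlgebraicClosure ℚ) (modularFunctionFieldBar N) p) :
    σ • x ∈ Pic0.torsion (AlgebraicClosure ℚ) (modularFunctionFieldBar N) p := by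
  rw [Pic0.mem_torsion] at hx ⊢
  rw [smul_comm, hx]
  exact smul_zero (A := JZero N) σ

/-- **D5**: the residual Eichler–Shimura module from the torsion-level interfaces. -/
theorem residualESModule_of_torsion (N p : ℕ) [NeZero N] (hES : TorsionESRelation N p)
    (hfin : TorsionFinite N p) (hlev : TorsionFiniteLevel N p) (heig : EigenFunctionalModP N p)
    (hcomm : HeckeGaloisCommute N) {g : CuspForm (CongruenceSubgroup.Gamma0 N) 2}
    (hg : g.IsNormalizedEigenform) (k : Type) [Field k] [CharP k p]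
    (φ : integralClosure ℤ ℂ →+* k) : ResidualESModule g p k φ := by
  obtain ⟨lam, hlam0, hlam⟩ := heig g hg k φ
  choose! a ha using hlam
  have hfinJ : Finite (Pic0.torsion (AlgebraicClosure ℚ) (modularFunctionFieldBar N) p) :=
    hfin.to_subtype
  obtain ⟨W, i1, i2, i3, i4, ρ, h1, h2⟩ := Rep.ResModule.exists_module (G := GQ) (J := JZero N)
    (Pic0.torsion (AlgebraicClosure ℚ) (modularFunctionFieldBar N) p)
    (smul_mem_torsion_jZero N p)
    (fun (ℓ : Nat.Primes) (x : JZero N) => heckeOperatorBar N ℓ x)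
    (fun ℓ : Nat.Primes => ¬ (ℓ : ℕ) ∣ N * p)
    (fun ℓ σ x => hcomm ℓ σ x) (fun ℓ => φ (a ℓ)) lam hlam0
    (fun ℓ hℓ x y hxy => (ha ℓ hℓ).2 x y hxy)
  have hpow : ∀ x ∈ Pic0.torsion (AlgebraicClosure ℚ) (modularFunctionFieldBar N) p,
      ∃ n : ℕ, p ^ n • x = 0 := by
    intro x hx
    refine ⟨1, ?_⟩
    rw [pow_one, ← natCast_zsmul]
    exact Pic0.mem_torsion.mp hx
  refine ⟨W, i1, i2, i3, i4, ρ, ?_, ?_⟩
  · obtain ⟨L, hL, h⟩ := hlev
    exact ⟨L, hL, fun σ hσ => h1 σ (h σ hσ)⟩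
  · intro ℓ hℓ hℓNp A hA
    obtain ⟨hI, hF⟩ := hES ℓ hℓ hℓNp A hA
    refine ⟨fun σ hσ => h1 σ (fun x hx => hI σ hσ x (hpow x hx)),
      fun σ hσ => ⟨a ⟨ℓ, hℓ⟩, (ha ⟨ℓ, hℓ⟩ hℓNp).1, ?_⟩⟩
    exact h2 σ ⟨ℓ, hℓ⟩ hℓNp ℓ (fun x hx => hF σ hσ x (hpow x hx))

/-- Level `0`: the trivial module (all conditions are vacuous). -/
theorem residualESModule_zero (g : CuspForm (CongruenceSubgroup.Gamma0 0) 2) (p : ℕ) (k : Type)
    [Field k] (φ : integralClosure ℤ ℂ →+* k) : ResidualESModule g p k φ :=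
  ⟨k, inferInstance, inferInstance, inferInstance, inferInstance, 1,
    ⟨⊥, inferInstance, fun _ _ => rfl⟩, fun ℓ _ hℓN => absurd (by simp) hℓN⟩

/-- **S29 from the layer interfaces** (the frozen statement S29, including level `0`):
REP-EXTRACT applied to the double-dual module. -/
theorem S29_of_interfaces (hFrob : FrobGenerating)
    (hES : ∀ (N p : ℕ) [NeZero N], p.Prime → TorsionESRelation N p)
    (hfin : ∀ (N n : ℕ) [NeZero N], 0 < n → TorsionFinite N n)
    (hlev : ∀ (N n : ℕ) [NeZero N], 0 < n → TorsionFiniteLevel N n)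
    (heig : ∀ (N p : ℕ) [NeZero N], p.Prime → EigenFunctionalModP N p)
    (hcomm : ∀ (N : ℕ) [NeZero N], HeckeGaloisCommute N)
    {N : ℕ} {g : CuspForm (CongruenceSubgroup.Gamma0 N) 2} (hg : g.IsNormalizedEigenform)
    {p : ℕ} (hp : p.Prime) {k : Type} [Field k] [CharP k p]
    (φ : integralClosure ℤ ℂ →+* k) :
    ∃ ρ : ResidualGaloisRep k, ρ.IsAttachedTo g φ ∧
      ∀ ℓ : ℕ, ℓ.Prime → ¬ ℓ ∣ N * p → ρ.IsUnramifiedAt ℓ := by
  rcases eq_or_ne N 0 with rfl | hN
  · exact exists_residualGaloisRep_of_ESModule hFrob g hp k φ (residualESModule_zero g p k φ)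
  · have : NeZero N := ⟨hN⟩
    exact exists_residualGaloisRep_of_ESModule hFrob g hp k φ
      (residualESModule_of_torsion N p (hES N p hp) (hfin N p hp.pos) (hlev N p hp.pos)
        (heig N p hp) (hcomm N) hg k φ)

end Fermat.Agent.ESJ

end
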