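/-
ESJ / REP layer — conditional form of S30 from ANEMIC Tate data (owner: helper55).

`S30_ofA : FrobDensity → TateDatumAExists → (frozen statement S30)`.

Unlike `S30_of` this needs the Hecke–Galois commutation only at the primes not dividing the
level: the representation is extracted from the anemic eigen-lattice (`AdicMod`) by
`AdicExtract.exists_galoisRepAdic_of_module` (no multiplicity one).
-/
import Mathlib
import Fermat.Agent.ESJ.Rep.DefsA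
import Fermat.Agent.ESJ.Rep.AdicMod
import Fermat.Agent.ESJ.Rep.AdicExtract
import Fermat.Agent.ESJ.Rep.ZpAlg
import Fermat.Agent.ESJ.Rep.LiftChar
import Fermat.Agent.S22

set_option autoImplicit false

open Polynomial

namespace Fermat.Agent.ESJ.Rep

/-- The representation cut out of the anemic eigen-lattice `AdicMod.latA D 𝒪 χ` of anemic Tate
data, over a finite extension of the coefficient ring (which is a given `ℤ_[p]`-algebra), with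
the determinant and the relation-transfer clauses. -/
theorem exists_galoisRepAdic_of_latA (hFrob : FrobDensity) {p N : ℕ} [Fact p.Prime]
    [NeZero N] (D : TateDatumA p N)
    (𝒪 : Type) [CommRing 𝒪] [IsDomain 𝒪] [IsDiscreteValuationRing 𝒪]
    [IsAdicComplete (IsLocalRing.maximalIdeal 𝒪) 𝒪] [Finite (IsLocalRing.ResidueField 𝒪)]
    [CharZero 𝒪] [Algebra ℤ_[p] 𝒪] (hp : (p : 𝒪) ∈ IsLocalRing.maximalIdeal 𝒪)
    (χ : CuspForm.heckeAlgebra N 2 (∅ : Set ℕ) →+* 𝒪) :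
    ∃ (𝒪'' : Type) (_ : CommRing 𝒪'') (_ : IsDomain 𝒪'') (_ : IsDiscreteValuationRing 𝒪'')
      (_ : IsAdicComplete (IsLocalRing.maximalIdeal 𝒪'') 𝒪'')
      (_ : Finite (IsLocalRing.ResidueField 𝒪'')) (_ : CharZero 𝒪'')
      (_ : Algebra 𝒪 𝒪'') (_ : Module.Finite 𝒪 𝒪'') (_ : IsLocalHom (algebraMap 𝒪 𝒪'')),
      Function.Injective (algebraMap 𝒪 𝒪'') ∧
      ∃ ρ : GaloisRepAdic 𝒪'',
        (∀ (ℓ : ℕ) (hℓ : ℓ.Prime) (hℓN : ¬ ℓ ∣ N), ℓ ≠ p →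
          ∀ A : ValuationSubring Qb, A.LiesOverPrime ℓ → ∀ σ : GQ, A.IsFrobeniusAt σ ℓ →
            LinearMap.charpoly (ρ.ρ σ) =
              X ^ 2 - C (algebraMap 𝒪 𝒪''
                (χ (CuspForm.heckeAlgebra.T hℓ hℓN (Set.notMem_empty ℓ)))) * X
                + C ((ℓ : 𝒪''))) ∧
        (∀ q : ℕ, q.Prime → ¬ q ∣ N → q ≠ p → ρ.IsUnramifiedAt q) ∧
        (∀ g : GQ, LinearMap.det (ρ.ρ g) =
          algebraMap 𝒪 𝒪'' (algebraMap ℤ_[p] 𝒪 ((cyclo p g : ℤ_[p]ˣ) : ℤ_[p]))) ∧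
        (∀ (g : GQ) (P : 𝒪[X]), aeval (AdicMod.rhoA D 𝒪 χ g) P = 0 →
          ∃ v : ρ.V, v ≠ 0 ∧ aeval (ρ.ρ g) (P.map (algebraMap 𝒪 𝒪'')) v = 0) := by
  classical
  have hN : N ≠ 0 := NeZero.ne N
  let a : ℕ → 𝒪 := fun ℓ => if h : ℓ.Prime then AdicMod.ev 𝒪 χ ⟨ℓ, h⟩ else 0
  have hquad : ∀ ℓ : ℕ, ℓ.Prime → ℓ ∉ insert p N.primeFactors →
      ∀ A : ValuationSubring Qb, A.LiesOverPrime ℓ → ∀ σ : GQ, A.IsFrobeniusAt σ ℓ →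
        AdicMod.rhoA D 𝒪 χ σ * AdicMod.rhoA D 𝒪 χ σ - a ℓ • AdicMod.rhoA D 𝒪 χ σ
          + (ℓ : 𝒪) • (1 : Module.End 𝒪 (AdicMod.latA D 𝒪 χ)) = 0 := by
    intro ℓ hℓ hℓS A hA σ hσ
    rw [Finset.mem_insert, not_or] at hℓS
    have hℓN : ¬ ℓ ∣ N := fun hd => hℓS.2 (Nat.mem_primeFactors.mpr ⟨hℓ, hd, hN⟩)
    have ha : a ℓ = AdicMod.ev 𝒪 χ ⟨ℓ, hℓ⟩ := dif_pos hℓ
    rw [ha]
    exact AdicMod.rhoA_quadratic D 𝒪 χ ⟨ℓ, hℓ⟩ hℓN hℓS.1 A hA σ hσ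
  obtain ⟨𝒪'', i1, i2, i3, i4, i5, i6, i7, i8, i9, hinj, ρ, hρ1, hρ2, hρ3, hρ4⟩ :=
    AdicExtract.exists_galoisRepAdic_of_module hFrob 𝒪 hp (insert p N.primeFactors)
      (Finset.mem_insert_self _ _) a (AdicMod.latA D 𝒪 χ) (AdicMod.rhoA D 𝒪 χ)
      (AdicMod.rhoA_continuous D 𝒪 χ hp) hquad
  refine ⟨𝒪'', i1, i2, i3, i4, i5, i6, i7, i8, i9, hinj, ρ, ?_, ?_, hρ3, hρ4⟩
  · intro ℓ hℓ hℓN hℓp A hA σ hσ
    have hℓS : ℓ ∉ insert p N.primeFactors := by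
      rw [Finset.mem_insert, not_or]
      exact ⟨hℓp, fun hm => hℓN (Nat.dvd_of_mem_primeFactors hm)⟩
    have ha : a ℓ = χ (CuspForm.heckeAlgebra.T hℓ hℓN (Set.notMem_empty ℓ)) := by
      have h1 : a ℓ = AdicMod.ev 𝒪 χ ⟨ℓ, hℓ⟩ := dif_pos hℓ
      rw [h1]
      show χ (CuspForm.heckeFormsGen N 2 ⟨ℓ, hℓ⟩) = _
      rw [CuspForm.heckeFormsGen_of_not_dvd (ℓ := ⟨ℓ, hℓ⟩) hℓN]
    rw [← ha]
    exact hρ1 ℓ hℓ hℓS A hA σ hσ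
  · intro q hq hqN hqp
    exact hρ2 q hq hqp (fun A hA σ hσ => AdicMod.rhoA_eq_one_of_inertia D 𝒪 χ hq hqN hqp A hA σ hσ)

/-- The representation attached to a character of the full Hecke algebra, from anemic Tate
data, over a finite extension of the coefficient ring. -/
theorem exists_galoisRepAdic_of_fullCharA (hFrob : FrobDensity) {p N : ℕ} [Fact p.Prime]
    [NeZero N] (D : TateDatumA p N)
    (𝒪 : Type) [CommRing 𝒪] [IsDomain 𝒪] [IsDiscreteValuationRing 𝒪]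
    [IsAdicComplete (IsLocalRing.maximalIdeal 𝒪) 𝒪] [Finite (IsLocalRing.ResidueField 𝒪)]
    [CharZero 𝒪] (hp : (p : 𝒪) ∈ IsLocalRing.maximalIdeal 𝒪)
    (χ : CuspForm.heckeAlgebra N 2 (∅ : Set ℕ) →+* 𝒪) :
    ∃ (𝒪'' : Type) (_ : CommRing 𝒪'') (_ : IsDomain 𝒪'') (_ : IsDiscreteValuationRing 𝒪'')
      (_ : IsAdicComplete (IsLocalRing.maximalIdeal 𝒪'') 𝒪'')
      (_ : Finite (IsLocalRing.ResidueField 𝒪'')) (_ : CharZero 𝒪'')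
      (_ : Algebra 𝒪 𝒪'') (_ : Module.Finite 𝒪 𝒪'') (_ : IsLocalHom (algebraMap 𝒪 𝒪'')),
      Function.Injective (algebraMap 𝒪 𝒪'') ∧
      ∃ ρ : GaloisRepAdic 𝒪'',
        (∀ (ℓ : ℕ) (hℓ : ℓ.Prime) (hℓN : ¬ ℓ ∣ N), ℓ ≠ p →
          ∀ A : ValuationSubring Qb, A.LiesOverPrime ℓ → ∀ σ : GQ, A.IsFrobeniusAt σ ℓ →
            LinearMap.charpoly (ρ.ρ σ) =
              X ^ 2 - C (algebraMap 𝒪 𝒪''
                (χ (CuspForm.heckeAlgebra.T hℓ hℓN (Set.notMem_empty ℓ)))) * X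
                + C ((ℓ : 𝒪''))) ∧
        (∀ q : ℕ, q.Prime → ¬ q ∣ N → q ≠ p → ρ.IsUnramifiedAt q) := by
  obtain ⟨f⟩ := exists_padicInt_ringHom p 𝒪 hp
  let _ : Algebra ℤ_[p] 𝒪 := f.toAlgebra
  obtain ⟨𝒪'', i1, i2, i3, i4, i5, i6, i7, i8, i9, hinj, ρ, hρ1, hρ2, -, -⟩ :=
    exists_galoisRepAdic_of_latA hFrob D 𝒪 hp χ
  exact ⟨𝒪'', i1, i2, i3, i4, i5, i6, i7, i8, i9, hinj, ρ, hρ1, hρ2⟩

/-- **S30, conditional form (anemic).** Frobenius density and the existence of anemic Tate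
data imply the frozen statement S30 (Galois representations attached to `𝒪`-valued points of
the Hecke algebra). -/
theorem S30_ofA (hFrob : FrobDensity) (hD : TateDatumAExists) :
    ∀ (p : ℕ) [Fact p.Prime] (N : ℕ) [NeZero N] (S : Finset ℕ)
      (_hpS : p ∈ S) (_hNS : ∀ q : ℕ, q.Prime → q ∣ N → q ∈ S)
      (𝒪' : Type) [CommRing 𝒪'] [IsDomain 𝒪'] [IsDiscreteValuationRing 𝒪']
      [IsAdicComplete (IsLocalRing.maximalIdeal 𝒪') 𝒪'] [Finite (IsLocalRing.ResidueField 𝒪')]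
      [CharZero 𝒪'] (_hp𝒪' : (p : 𝒪') ∈ IsLocalRing.maximalIdeal 𝒪')
      (χ : CuspForm.heckeAlgebra N 2 (↑S : Set ℕ) →+* 𝒪'),
      ∃ (𝒪'' : Type) (_ : CommRing 𝒪'') (_ : IsDomain 𝒪'') (_ : IsDiscreteValuationRing 𝒪'')
        (_ : IsAdicComplete (IsLocalRing.maximalIdeal 𝒪'') 𝒪'')
        (_ : Finite (IsLocalRing.ResidueField 𝒪'')) (_ : CharZero 𝒪'')
        (_ : Algebra 𝒪' 𝒪'') (_ : Module.Finite 𝒪' 𝒪'') (_ : IsLocalHom (algebraMap 𝒪' 𝒪'')),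
      Function.Injective (algebraMap 𝒪' 𝒪'') ∧
      ∃ ρ : GaloisRepAdic 𝒪'',
        (∀ (ℓ : ℕ) (hℓ : ℓ.Prime) (hℓN : ¬ ℓ ∣ N) (hℓS : ℓ ∉ (↑S : Set ℕ)),
          ∀ A : ValuationSubring (AlgebraicClosure ℚ), A.LiesOverPrime ℓ →
            ∀ σ : AlgebraicClosure ℚ ≃ₐ[ℚ] AlgebraicClosure ℚ, A.IsFrobeniusAt σ ℓ →
              LinearMap.charpoly (ρ.ρ σ) =
                X ^ 2 - C (algebraMap 𝒪' 𝒪'' (χ (CuspForm.heckeAlgebra.T hℓ hℓN hℓS))) * X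
                  + C ((ℓ : 𝒪''))) ∧
        (∀ q : ℕ, q.Prime → ¬ q ∣ N → q ≠ p → ρ.IsUnramifiedAt q) := by
  intro p _ N _ S hpS _hNS 𝒪' _ _ _ _ _ _ hp𝒪' χ
  -- the inclusion of the `S`-anemic Hecke algebra into the full one
  let i : CuspForm.heckeAlgebra N 2 (↑S : Set ℕ) →+* CuspForm.heckeAlgebra N 2 (∅ : Set ℕ) :=
    (Subalgebra.inclusion (CuspForm.heckeAlgebra_mono (Set.empty_subset (↑S : Set ℕ)))).toRingHom
  have hi : Function.Injective i :=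
    Subalgebra.inclusion_injective (CuspForm.heckeAlgebra_mono (Set.empty_subset (↑S : Set ℕ)))
  have : Module.Finite ℤ (CuspForm.heckeAlgebra N 2 (∅ : Set ℕ)) := Fermat.Agent.S22.result N 2 ∅
  obtain ⟨𝒪₁, j1, j2, j3, j4, j5, j6, j7, j8, j9, hinj₁, χ₁, hχ₁⟩ :=
    exists_extension_of_ringHom i hi 𝒪' χ
  have hp₁ : (p : 𝒪₁) ∈ IsLocalRing.maximalIdeal 𝒪₁ := by
    have h1 : ¬ IsUnit (p : 𝒪') := hp𝒪'
    have h2 : ¬ IsUnit (algebraMap 𝒪' 𝒪₁ (p : 𝒪')) := fun h => h1 (isUnit_of_map_unit _ _ h)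
    rw [map_natCast] at h2
    exact h2
  obtain ⟨D⟩ := hD p N
  obtain ⟨𝒪'', i1, i2, i3, i4, i5, i6, i7, i8, i9, hinj, ρ, h1, h2⟩ :=
    exists_galoisRepAdic_of_fullCharA hFrob D 𝒪₁ hp₁ χ₁
  let alg : Algebra 𝒪' 𝒪'' := ((algebraMap 𝒪₁ 𝒪'').comp (algebraMap 𝒪' 𝒪₁)).toAlgebra
  have htower : IsScalarTower 𝒪' 𝒪₁ 𝒪'' := IsScalarTower.of_algebraMap_eq (fun x => rfl)
  have hfin : Module.Finite 𝒪' 𝒪'' := Module.Finite.trans 𝒪₁ 𝒪''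
  have hloc : IsLocalHom (algebraMap 𝒪' 𝒪'') :=
    RingHom.isLocalHom_comp (algebraMap 𝒪₁ 𝒪'') (algebraMap 𝒪' 𝒪₁)
  refine ⟨𝒪'', i1, i2, i3, i4, i5, i6, alg, hfin, hloc, hinj.comp hinj₁, ρ, ?_, h2⟩
  intro ℓ hℓ hℓN hℓS A hA σ hσ
  have hℓp : ℓ ≠ p := by
    rintro rfl
    exact hℓS (Finset.mem_coe.mpr hpS)
  have h := h1 ℓ hℓ hℓN hℓp A hA σ hσ
  have hT : i (CuspForm.heckeAlgebra.T hℓ hℓN hℓS) =
      CuspForm.heckeAlgebra.T hℓ hℓN (Set.notMem_empty ℓ) := Subtype.ext rfl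
  rw [← hT, hχ₁] at h
  exact h

end Fermat.Agent.ESJ.Rep
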