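/-
ESJ / REP layer — task 175 (helper84): S42 from S29.

`S42_of_S29`: if every normalized eigenform has a residual Galois representation in the sense
of the frozen statement S29 (taken here as a hypothesis `S29Statement`), then the frozen
statement S42 holds: for every Frey package `P`, every level `M > 0`, every normalized eigenform
`g` of level `M` and every maximal ideal `𝔪 ∋ p` of `ℤ̄` there are a residual representation
over `ℤ̄ ⧸ 𝔪` with the right traces and determinants of Frobenius, and a finite Galois extension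
`F / ℚ` through which both this representation and the action on `E[p]` of the Frey curve
factor.
-/
import Mathlib
import Fermat.Prelude.Def_FreyPackage_EigenformResidualAttachment
import Fermat.Prelude.Def_GaloisRep_Residual
import Fermat.Agent.EC.FreyTors
import Fermat.Agent.Lib.GalQbar

set_option autoImplicit false

open scoped TensorProduct
open Polynomial
open WeierstrassCurve WeierstrassCurve.Affine WeierstrassCurve.Affine.Point

namespace Fermat.Agent.ESJ.Rep.S42Aux

/-- The field `ℚ̄`. -/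
abbrev Qbar : Type := AlgebraicClosure ℚ

/-- The absolute Galois group of `ℚ`. -/
abbrev GalQ : Type := Qbar ≃ₐ[ℚ] Qbar

/-- The frozen statement S29, as a proposition. -/
def S29Statement : Prop :=
  ∀ {N : ℕ} {g : CuspForm (CongruenceSubgroup.Gamma0 N) 2}, g.IsNormalizedEigenform →
    ∀ {p : ℕ}, p.Prime → ∀ {k : Type} [Field k] [CharP k p] (φ : integralClosure ℤ ℂ →+* k),
    ∃ ρ : ResidualGaloisRep k, ρ.IsAttachedTo g φ ∧
      ∀ ℓ : ℕ, ℓ.Prime → ¬ ℓ ∣ N * p → ρ.IsUnramifiedAt ℓ

/-- The coordinates of a point. -/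
def coords {W : WeierstrassCurve ℚ} : (W⁄Qbar).Point → Set Qbar
  | .zero => ∅
  | @Point.some _ _ _ x y _ => {x, y}

theorem finite_coords {W : WeierstrassCurve ℚ} (Q : (W⁄Qbar).Point) : (coords Q).Finite := by
  rcases Q with _ | ⟨x, y, h⟩
  · exact Set.finite_empty
  · exact Set.toFinite {x, y}

theorem map_eq_self_of_fixes {W : WeierstrassCurve ℚ} (σ : GalQ) (Q : (W⁄Qbar).Point)
    (hfix : ∀ z ∈ coords Q, σ z = z) : Point.map (W' := W) σ.toAlgHom Q = Q := by
  rcases Q with _ | ⟨x, y, h⟩
  · rfl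
  · rw [Point.map_some]
    have h1' : σ.toAlgHom x = x := hfix x (by simp [coords])
    have h2' : σ.toAlgHom y = y := hfix y (by simp [coords])
    simp only [h1', h2']

/-- The Galois action on `E[p]` of the Frey curve factors through a finite level. -/
theorem exists_finiteLevel_frey (P : FreyPackage) :
    ∃ L : IntermediateField ℚ Qbar, FiniteDimensional ℚ L ∧
      ∀ σ : GalQ, (∀ x ∈ L, σ x = x) → ∀ x : Fermat.Agent.EC.FreyV P, σ • x = x := by
  have hfin : Finite (Fermat.Agent.EC.FreyV P) := Fermat.Agent.EC.frey_finite P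
  let S : Set Qbar := ⋃ x : Fermat.Agent.EC.FreyV P, coords x.1
  have hS : S.Finite := Set.finite_iUnion fun x => finite_coords x.1
  have hS' : Finite S := hS
  have : Algebra.IsAlgebraic ℚ Qbar := Fermat.Agent.Lib.GalQbar.isAlgebraic_rat
  refine ⟨IntermediateField.adjoin ℚ S,
    IntermediateField.finiteDimensional_adjoin
      (fun z _ => (Algebra.IsAlgebraic.isAlgebraic z).isIntegral), ?_⟩
  intro σ hσ x
  apply Subtype.ext
  rw [Fermat.Agent.EC.freyV_smul_coe]
  apply map_eq_self_of_fixes
  intro z hz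
  exact hσ z (IntermediateField.subset_adjoin ℚ S (Set.mem_iUnion.mpr ⟨x, hz⟩))

/-- Trace and determinant of an endomorphism of a two-dimensional space from its
characteristic polynomial. -/
theorem trace_det_of_charpoly {K V : Type} [Field K] [AddCommGroup V] [Module K V]
    [Module.Finite K V] (h2 : Module.finrank K V = 2) (f : V →ₗ[K] V) (t d : K)
    (hf : f.charpoly = X ^ 2 - C t * X + C d) :
    LinearMap.trace K V f = t ∧ LinearMap.det f = d := by
  let b : Module.Basis (Fin 2) K V := Module.finBasisOfFinrankEq K V h2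
  have h1 : f.charpoly = (LinearMap.toMatrix b b f).charpoly :=
    (LinearMap.charpoly_toMatrix f b).symm
  rw [Matrix.charpoly_fin_two] at h1
  rw [h1] at hf
  have htr : LinearMap.trace K V f = (LinearMap.toMatrix b b f).trace :=
    LinearMap.trace_eq_matrix_trace K b f
  have hdet : LinearMap.det f = (LinearMap.toMatrix b b f).det :=
    (LinearMap.det_toMatrix b f).symm
  have c1 : ((LinearMap.toMatrix b b) f).trace = t := by
    have := congrArg (fun q => Polynomial.coeff q 1) hf
    simpa using this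
  have c0 : ((LinearMap.toMatrix b b) f).det = d := by
    have := congrArg (fun q => Polynomial.coeff q 0) hf
    simpa [-LinearMap.det_toMatrix] using this
  exact ⟨htr.trans c1, hdet.trans c0⟩

/-- A finite-dimensional intermediate field of `ℚ̄ / ℚ` is a number field. -/
theorem numberField_of_finiteDimensional (F : IntermediateField ℚ Qbar)
    (hF : FiniteDimensional ℚ F) : NumberField F := by
  refine { to_charZero := inferInstance, to_finiteDimensional := ?_ }
  convert hF

/-- A normal intermediate field of `ℚ̄ / ℚ` is Galois over `ℚ`. -/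
theorem isGalois_of_normal (F : IntermediateField ℚ Qbar) (hF : Normal ℚ F) :
    IsGalois ℚ F := by
  have : Algebra.IsAlgebraic ℚ F := hF.toIsAlgebraic
  have : Algebra.IsSeparable ℚ F := Algebra.IsAlgebraic.isSeparable_of_perfectField
  exact ⟨⟩

/-- An element of the kernel of the restriction to a normal subfield fixes it pointwise. -/
theorem fixes_of_mem_ker_restrictNormalHom (F : IntermediateField ℚ Qbar) [Algebra ℚ F]
    [IsScalarTower ℚ F Qbar] [Normal ℚ F] (σ : GalQ)
    (hσ : σ ∈ (AlgEquiv.restrictNormalHom (F := ℚ) (K₁ := Qbar) F).ker) :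
    ∀ x ∈ F, σ x = x := by
  intro x hx
  have h1 : AlgEquiv.restrictNormalHom (F := ℚ) (K₁ := Qbar) F σ = 1 := hσ
  have h2 := AlgEquiv.restrictNormal_commutes σ F ⟨x, hx⟩
  have h3 : σ.restrictNormal F = 1 := h1
  rw [h3] at h2
  exact h2.symm

/-- S42 from S29. -/
theorem S42_of_S29 (h29 : S29Statement) (P : FreyPackage) :
    ∀ M : ℕ, 0 < M → P.EigenformResidualAttachmentAt M := by
  intro M _ g hg 𝔪 h𝔪 hp𝔪
  let K : Type := integralClosure ℤ ℂ ⧸ 𝔪
  let _ : Field K := Ideal.Quotient.field 𝔪
  let ψ : integralClosure ℤ ℂ →+* K := Ideal.Quotient.mk 𝔪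
  have hchar : CharP K P.p := by
    rw [CharP.charP_iff_prime_eq_zero P.pp]
    have : ψ (P.p : integralClosure ℤ ℂ) = 0 := Ideal.Quotient.eq_zero_iff_mem.mpr hp𝔪
    rwa [map_natCast] at this
  obtain ⟨ρ, hatt, -⟩ := h29 hg P.pp ψ
  let _ : Algebra (ZMod P.p) K := ZMod.algebra K P.p
  obtain ⟨L₁, hL₁, hLρ⟩ := ρ.factorsThroughFiniteLevel
  obtain ⟨L₂, hL₂, hLE⟩ := exists_finiteLevel_frey P
  let L : IntermediateField ℚ Qbar := L₁ ⊔ L₂
  have hL : FiniteDimensional ℚ L := IntermediateField.finiteDimensional_sup L₁ L₂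
  let F : IntermediateField ℚ Qbar := IntermediateField.normalClosure ℚ L Qbar
  have hF : FiniteDimensional ℚ F := normalClosure.is_finiteDimensional ℚ L Qbar
  have hQn : Normal ℚ Qbar := Fermat.Agent.Lib.GalQbar.normal_rat
  have hFn : Normal ℚ F := normalClosure.normal ℚ L Qbar
  have hLF : L ≤ F := IntermediateField.le_normalClosure L
  have hne : ∀ ℓ : ℕ, ℓ.Prime → ℓ ≠ P.p → (ℓ : K) ≠ 0 := by
    intro ℓ hℓ hℓp h0
    rw [CharP.cast_eq_zero_iff K P.p ℓ] at h0
    exact hℓp ((Nat.prime_dvd_prime_iff_eq P.pp hℓ).mp h0).symm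
  refine ⟨K, inferInstance, inferInstance, ρ.V, inferInstance, inferInstance, ρ.ρ, ψ, F,
    inferInstance, numberField_of_finiteDimensional F hF, isGalois_of_normal F hFn,
    inferInstance, ?_, ?_⟩
  · have e : (DivisionRing.toRatAlgebra : Algebra ℚ F) = F.algebra' := Subsingleton.elim _ _
    rw [e]
    infer_instance
  · refine ⟨Ideal.mk_ker.ge, ρ.finrank_eq, ?_, ?_, ?_⟩
    · intro σ hσ
      have hfix : ∀ x ∈ F, σ x = x := fixes_of_mem_ker_restrictNormalHom F σ hσ
      refine ⟨?_, ?_⟩
      · refine LinearMap.ext fun x => ?_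
        rw [galoisRepModuleEnd_apply]
        exact hLE σ (fun z hz => hfix z (hLF (le_sup_right (a := L₁) hz))) x
      · exact hLρ σ (fun z hz => hfix z (hLF (le_sup_left (b := L₂) hz)))
    · intro ℓ hℓ hℓM hℓp A hA τ hτ
      obtain ⟨a, ha, hcp⟩ := hatt ℓ hℓ hℓM (hne ℓ hℓ hℓp) A hA τ hτ
      exact ⟨a, ha, (trace_det_of_charpoly ρ.finrank_eq (ρ.ρ τ) (ψ a) (ℓ : K) hcp).1⟩
    · intro ℓ hℓ hℓM hℓp A hA τ hτ
      obtain ⟨a, -, hcp⟩ := hatt ℓ hℓ hℓM (hne ℓ hℓ hℓp) A hA τ hτ
      exact (trace_det_of_charpoly ρ.finrank_eq (ρ.ρ τ) (ψ a) (ℓ : K) hcp).2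

end Fermat.Agent.ESJ.Rep.S42Aux
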