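/-
ESJ / REP layer (owner: helper73): S42 from the layer interfaces, through
`S29_of_interfaces` (REP-EXTRACT + the double-dual module) and helper84's `S42Aux.S42_of_S29`.
-/
import Mathlib
import Fermat.Agent.ESJ.Rep.ResModule
import Fermat.Agent.ESJ.Rep.S42Aux

set_option autoImplicit false

namespace Fermat.Agent.ESJ

/-- **S42 from the layer interfaces** (the frozen statement S42). -/
theorem S42_of_interfaces (hFrob : FrobGenerating)
    (hES : ∀ (N p : ℕ) [NeZero N], p.Prime → TorsionESRelation N p)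
    (hfin : ∀ (N n : ℕ) [NeZero N], 0 < n → TorsionFinite N n)
    (hlev : ∀ (N n : ℕ) [NeZero N], 0 < n → TorsionFiniteLevel N n)
    (heig : ∀ (N p : ℕ) [NeZero N], p.Prime → EigenFunctionalModP N p)
    (hcomm : ∀ (N : ℕ) [NeZero N], HeckeGaloisCommute N) (P : FreyPackage) :
    ∀ M : ℕ, 0 < M → P.EigenformResidualAttachmentAt M :=
  Rep.S42Aux.S42_of_S29
    (fun hg _ hp _ _ _ φ => S29_of_interfaces hFrob hES hfin hlev heig hcomm hg hp φ) P

end Fermat.Agent.ESJ
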