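/-
ESJ / REP layer (owner: helper73): the mod `M` cyclotomic character of `G_ℚ`, for an arbitrary
modulus `M ≥ 1`: the value `ℓ mod M` on Frobenius lifts at `ℓ ∤ M`, triviality on inertia at
`q ∤ M`, finite level.  (Used for the determinant `ℓ ↦ ℓ · ε(ℓ)` of the Galois
representations attached to eigen-systems with nebentypus.)
-/
import Mathlib
import Fermat.Agent.ESJ.Rep.Cyclo

set_option autoImplicit false

namespace Fermat.Agent.ESJ.Rep

namespace CycloMod

/-- Two powers of an `N`-th root of unity which are congruent modulo the maximal ideal of a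
valuation subring of residue characteristic `q ∤ N` are equal. -/
theorem pow_eq_pow_of_sub_mem_nonunits {K : Type*} [Field K] (A : ValuationSubring K) {q N : ℕ}
    (hq : q.Prime) (hN : N ≠ 0) (hqN : ¬ q ∣ N) (hA : (q : K) ∈ A.nonunits) {ζ : K}
    (hζ : ζ ^ N = 1) (a b : ℕ) (h : ζ ^ a - ζ ^ b ∈ A.nonunits) : ζ ^ a = ζ ^ b := by
  by_contra hne
  have hζ0 : ζ ≠ 0 := by
    rintro rfl
    rw [zero_pow hN] at hζ
    exact zero_ne_one hζ
  have hζint : IsIntegral ℤ ζ := by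
    refine ⟨Polynomial.X ^ N - 1, Polynomial.monic_X_pow_sub_C 1 hN, ?_⟩
    simp [hζ]
  have hζinv : ζ⁻¹ ^ N = 1 := by rw [inv_pow, hζ, inv_one]
  have hζinvint : IsIntegral ℤ ζ⁻¹ := by
    refine ⟨Polynomial.X ^ N - 1, Polynomial.monic_X_pow_sub_C 1 hN, ?_⟩
    simp [hζinv]
  have hζA : ζ ∈ A := Lib.ValuationIntegral.mem_of_isIntegral_int A hζint
  have hζinvA : ζ⁻¹ ∈ A := Lib.ValuationIntegral.mem_of_isIntegral_int A hζinvint
  set x : K := ζ ^ a * ζ⁻¹ ^ b with hx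
  have hxN : x ^ N = 1 := by
    rw [hx, mul_pow, ← pow_mul, ← pow_mul, mul_comm a, mul_comm b, pow_mul, pow_mul, hζ, hζinv,
      one_pow, one_pow, one_mul]
  have hb0 : ζ ^ b ≠ 0 := pow_ne_zero _ hζ0
  have hx1 : x ≠ 1 := by
    intro h1
    apply hne
    rw [hx, inv_pow] at h1
    field_simp at h1
    exact h1
  have hxA : x ∈ A := mul_mem (pow_mem hζA a) (pow_mem hζinvA b)
  have h1x : 1 - x ∈ A.nonunits := by
    have e : 1 - x = (ζ ^ a - ζ ^ b) * (-ζ⁻¹ ^ b) := by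
      rw [hx, inv_pow]
      field_simp
      ring
    rw [e]
    exact Lib.ValuationIntegral.mul_mem_nonunits A h (neg_mem (pow_mem hζinvA b))
  have hpn : ((N : ℕ) : K) ∈ A.nonunits := Cyclo.natCast_mem_nonunits_of_root A hxN hx1 hxA h1x
  have hndvd : ¬ (q : ℤ) ∣ ((N : ℕ) : ℤ) := by
    rw [Int.natCast_dvd_natCast]
    exact hqN
  have := Lib.ValuationIntegral.intCast_notMem_nonunits A hq hA hndvd
  apply this
  exact_mod_cast hpn

/-- Existence of primitive `M`-th roots of unity in `ℚ̄`. -/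
theorem exists_primitiveRoot (M : ℕ) [NeZero M] : ∃ ζ : Qb, IsPrimitiveRoot ζ M :=
  HasEnoughRootsOfUnity.exists_primitiveRoot Qb M

theorem card_rootsOfUnity (M : ℕ) [NeZero M] : Nat.card (rootsOfUnity M Qb) = M := by
  obtain ⟨ζ, hζ⟩ := exists_primitiveRoot M
  exact hζ.card_rootsOfUnity

end CycloMod

/-- The mod `M` cyclotomic character of `G_ℚ`. -/
noncomputable def cycloMod (M : ℕ) [NeZero M] : GQ →* (ZMod M)ˣ :=
  (modularCyclotomicCharacter Qb (CycloMod.card_rootsOfUnity M)).comp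
    (MulSemiringAction.toRingAut GQ Qb)

/-- The defining property of `cycloMod`. -/
theorem cycloMod_spec (M : ℕ) [NeZero M] (σ : GQ) (t : Qb) (ht : t ^ M = 1) :
    σ t = t ^ ((cycloMod M σ : (ZMod M)ˣ) : ZMod M).val := by
  have ht0 : t ≠ 0 := by
    rintro rfl
    rw [zero_pow (NeZero.ne M)] at ht
    exact zero_ne_one ht
  have hmem : Units.mk0 t ht0 ∈ rootsOfUnity M Qb := by
    rw [mem_rootsOfUnity]
    ext
    simpa using ht
  exact modularCyclotomicCharacter.spec Qb (CycloMod.card_rootsOfUnity M)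
    (MulSemiringAction.toRingAut GQ Qb σ) hmem

/-- Reading off `cycloMod M σ` from the action on a primitive `M`-th root of unity. -/
theorem cycloMod_eq_natCast (M : ℕ) [NeZero M] (σ : GQ) (b : ℕ) {ζ : Qb}
    (hζ : IsPrimitiveRoot ζ M) (h : σ ζ = ζ ^ b) :
    ((cycloMod M σ : (ZMod M)ˣ) : ZMod M) = (b : ZMod M) := by
  have h1 := cycloMod_spec M σ ζ hζ.pow_eq_one
  rw [h] at h1
  have hpos : 0 < M := Nat.pos_of_ne_zero (NeZero.ne M)
  have h2 : b ≡ ((cycloMod M σ : (ZMod M)ˣ) : ZMod M).val [MOD M] := by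
    refine hζ.pow_inj (Nat.mod_lt _ hpos) (Nat.mod_lt _ hpos) ?_
    have e : ∀ k : ℕ, ζ ^ (k % M) = ζ ^ k := fun k => by
      conv_lhs => rw [hζ.eq_orderOf]
      exact pow_mod_orderOf ζ k
    rw [e, e, h1]
  have h3 := (ZMod.natCast_eq_natCast_iff _ _ _).mpr h2
  rw [ZMod.natCast_zmod_val] at h3
  exact h3.symm

/-- If `σ ζ ≡ ζ ^ b` modulo the maximal ideal of `A` for all roots of unity `ζ`, and the
residue characteristic `q` of `A` does not divide `M`, then `cycloMod M σ = b`. -/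
theorem cycloMod_eq_natCast_of_congr (M : ℕ) [NeZero M] {q : ℕ} (hq : q.Prime) (hqM : ¬ q ∣ M)
    (A : ValuationSubring Qb) (hA : A.LiesOverPrime q) (σ : GQ) (b : ℕ)
    (h : ∀ ζ : Qb, IsIntegral ℤ ζ → σ ζ - ζ ^ b ∈ A.nonunits) :
    ((cycloMod M σ : (ZMod M)ˣ) : ZMod M) = (b : ZMod M) := by
  obtain ⟨ζ, hζ⟩ := CycloMod.exists_primitiveRoot M
  have hM : M ≠ 0 := NeZero.ne M
  have hζint : IsIntegral ℤ ζ := hζ.isIntegral (Nat.pos_of_ne_zero hM)
  have h1 := cycloMod_spec M σ ζ hζ.pow_eq_one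
  have h2 := h ζ hζint
  rw [h1] at h2
  have h3 := CycloMod.pow_eq_pow_of_sub_mem_nonunits A hq hM hqM hA hζ.pow_eq_one _ _ h2
  rw [← h1] at h3
  exact cycloMod_eq_natCast M σ b hζ h3

/-- The mod `M` cyclotomic character takes the value `ℓ` on Frobenius lifts at `ℓ ∤ M`. -/
theorem cycloMod_frobenius (M : ℕ) [NeZero M] {ℓ : ℕ} (hℓ : ℓ.Prime) (hℓM : ¬ ℓ ∣ M)
    (A : ValuationSubring Qb) (hA : A.LiesOverPrime ℓ) (σ : GQ) (hσ : A.IsFrobeniusAt σ ℓ) :
    ((cycloMod M σ : (ZMod M)ˣ) : ZMod M) = (ℓ : ZMod M) :=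
  cycloMod_eq_natCast_of_congr M hℓ hℓM A hA σ ℓ fun _ hζ =>
    Cyclo.frob_sub_mem_nonunits A σ ℓ hσ (Lib.ValuationIntegral.mem_of_isIntegral_int A hζ)

/-- The mod `M` cyclotomic character is trivial on inertia at `q ∤ M`. -/
theorem cycloMod_inertia (M : ℕ) [NeZero M] {q : ℕ} (hq : q.Prime) (hqM : ¬ q ∣ M)
    (A : ValuationSubring Qb) (hA : A.LiesOverPrime q) (σ : GQ)
    (hσ : σ ∈ A.inertiaSubgroupIn ℚ) : cycloMod M σ = 1 := by
  apply Units.ext
  have h := cycloMod_eq_natCast_of_congr M hq hqM A hA σ 1 fun ζ hζ => by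
    rw [pow_one]
    exact (S05.Inertia.mem_and_sub_mem_nonunits A σ hσ).2 ζ
      (Lib.ValuationIntegral.mem_of_isIntegral_int A hζ)
  rw [h, Nat.cast_one, Units.val_one]

/-- The mod `M` cyclotomic character factors through a finite level. -/
theorem cycloMod_level (M : ℕ) [NeZero M] :
    ∃ L : IntermediateField ℚ Qb, FiniteDimensional ℚ L ∧
      ∀ σ : GQ, (∀ x ∈ L, σ x = x) → cycloMod M σ = 1 := by
  obtain ⟨ζ, hζ⟩ := CycloMod.exists_primitiveRoot M
  have hM : M ≠ 0 := NeZero.ne M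
  have hζint : IsIntegral ℤ ζ := hζ.isIntegral (Nat.pos_of_ne_zero hM)
  refine ⟨IntermediateField.adjoin ℚ {ζ},
    IntermediateField.adjoin.finiteDimensional hζint.tower_top, fun σ hσ => ?_⟩
  have h1 : σ ζ = ζ ^ 1 := by
    rw [pow_one]
    exact hσ ζ (IntermediateField.mem_adjoin_simple_self ℚ ζ)
  apply Units.ext
  rw [cycloMod_eq_natCast M σ 1 hζ h1, Nat.cast_one, Units.val_one]

end Fermat.Agent.ESJ.Rep
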