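import Mathlib

/-!
# REP-COMPL1: the adic completion of a DVR is a complete DVR with the same residue field

`𝒪 := AdicCompletion (maximalIdeal R) R` for a discrete valuation ring `R`.
Mathlib provides: commutative ring, local ring, adic completeness for its maximal ideal,
bijectivity of the residue field map.  Here we add: `𝒪` is a domain and a DVR.
-/

set_option autoImplicit false

noncomputable section

open IsLocalRing

namespace Fermat.Agent.ESJ.Rep.DvrCompl

variable (R : Type*) [CommRing R] [IsDomain R] [IsDiscreteValuationRing R]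

/-- The completion of `R` at its maximal ideal. -/
abbrev Cmpl : Type _ := AdicCompletion (maximalIdeal R) R

/-- The canonical map `R → 𝒪` is injective. -/
theorem algebraMap_injective : Function.Injective (algebraMap R (Cmpl R)) := by
  have h : Function.Injective (AdicCompletion.of (maximalIdeal R) R) :=
    AdicCompletion.of_injective (maximalIdeal R) R
  intro a b hab
  exact h hab

variable {R}

/-- The maximal ideal of the completion is generated by the image of a uniformizer. -/
theorem maximalIdeal_eq_span {π : R} (hπ : Irreducible π) :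
    maximalIdeal (Cmpl R) = Ideal.span {algebraMap R (Cmpl R) π} := by
  have h := congrArg (Ideal.map (algebraMap R (Cmpl R))) hπ.maximalIdeal_eq
  rw [Ideal.map_span, Set.image_singleton] at h
  rw [AdicCompletion.maximalIdeal_eq_map]
  exact h

theorem maximalIdeal_pow_eq_span {π : R} (hπ : Irreducible π) (n : ℕ) :
    maximalIdeal (Cmpl R) ^ n = Ideal.span {algebraMap R (Cmpl R) π ^ n} := by
  rw [maximalIdeal_eq_span hπ, Ideal.span_singleton_pow]

theorem algebraMap_pow_ne_zero {π : R} (hπ : Irreducible π) (n : ℕ) :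
    algebraMap R (Cmpl R) π ^ n ≠ 0 := by
  rw [← map_pow]
  intro h
  have := algebraMap_injective R (h.trans (map_zero _).symm)
  exact pow_ne_zero n hπ.ne_zero this

/-- Every nonzero element of the completion is a unit times a power of the uniformizer. -/
theorem exists_eq_pow_mul_unit {π : R} (hπ : Irreducible π) {x : Cmpl R} (hx : x ≠ 0) :
    ∃ (n : ℕ) (u : (Cmpl R)ˣ), x = algebraMap R (Cmpl R) π ^ n * u := by
  classical
  have hex : ∃ n : ℕ, x ∉ maximalIdeal (Cmpl R) ^ n := by
    by_contra hcon
    have hcon : ∀ n : ℕ, x ∈ maximalIdeal (Cmpl R) ^ n := by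
      intro n
      by_contra h
      exact hcon ⟨n, h⟩
    apply hx
    have hH : IsHausdorff (maximalIdeal (Cmpl R)) (Cmpl R) := inferInstance
    apply hH.haus
    intro n
    rw [SModEq.zero]
    simpa using hcon n
  let n := Nat.find hex
  have hn : x ∉ maximalIdeal (Cmpl R) ^ n := Nat.find_spec hex
  have hn0 : n ≠ 0 := by
    intro h0
    rw [h0, pow_zero, Ideal.one_eq_top] at hn
    exact hn Submodule.mem_top
  obtain ⟨m, hm⟩ := Nat.exists_eq_succ_of_ne_zero hn0
  have hm' : x ∈ maximalIdeal (Cmpl R) ^ m := by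
    by_contra hcon
    have := Nat.find_min' hex hcon
    omega
  rw [maximalIdeal_pow_eq_span hπ, Ideal.mem_span_singleton'] at hm'
  obtain ⟨u, hu⟩ := hm'
  have hunit : IsUnit u := by
    by_contra hnu
    have hmem : u ∈ maximalIdeal (Cmpl R) := (mem_maximalIdeal u).mpr hnu
    apply hn
    rw [hm, pow_succ, ← hu, mul_comm u]
    exact Ideal.mul_mem_mul (by
      rw [maximalIdeal_pow_eq_span hπ]; exact Ideal.mem_span_singleton_self _) hmem
  exact ⟨m, hunit.unit, by rw [IsUnit.unit_spec, ← hu, mul_comm]⟩

variable (R)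

theorem isDomain_cmpl : IsDomain (Cmpl R) := by
  obtain ⟨π, hπ⟩ := IsDiscreteValuationRing.exists_irreducible R
  have : NoZeroDivisors (Cmpl R) := by
    refine ⟨fun {a b} hab => ?_⟩
    by_contra hcon
    rw [not_or] at hcon
    obtain ⟨i, u, hu⟩ := exists_eq_pow_mul_unit hπ hcon.1
    obtain ⟨j, v, hv⟩ := exists_eq_pow_mul_unit hπ hcon.2
    have h1 : algebraMap R (Cmpl R) π ^ (i + j) * ((u * v : (Cmpl R)ˣ) : Cmpl R) = 0 := by
      rw [← hab, hu, hv, pow_add, Units.val_mul]; ring
    have h2 : algebraMap R (Cmpl R) π ^ (i + j) = 0 := by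
      have := congrArg (fun t => t * (((u * v)⁻¹ : (Cmpl R)ˣ) : Cmpl R)) h1
      simpa [mul_assoc] using this
    exact algebraMap_pow_ne_zero hπ _ h2
  exact NoZeroDivisors.to_isDomain _

theorem isDiscreteValuationRing_cmpl :
    haveI := isDomain_cmpl R
    IsDiscreteValuationRing (Cmpl R) := by
  have := isDomain_cmpl R
  obtain ⟨π, hπ⟩ := IsDiscreteValuationRing.exists_irreducible R
  apply IsDiscreteValuationRing.ofHasUnitMulPowIrreducibleFactorization
  refine ⟨algebraMap R (Cmpl R) π, ?_, ?_⟩
  · have h0 : algebraMap R (Cmpl R) π ≠ 0 := by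
      simpa using algebraMap_pow_ne_zero hπ 1
    have hprime : Prime (algebraMap R (Cmpl R) π) := by
      rw [← Ideal.span_singleton_prime h0, ← maximalIdeal_eq_span hπ]
      infer_instance
    exact hprime.irreducible
  · intro x hx
    obtain ⟨n, u, hu⟩ := exists_eq_pow_mul_unit hπ hx
    exact ⟨n, u, hu.symm⟩

theorem charZero_cmpl [CharZero R] : CharZero (Cmpl R) :=
  charZero_of_injective_ringHom (algebraMap_injective R)

/-- The residue map of the completion, with values in the residue field of `R`. -/
def resid : Cmpl R →+* ResidueField R :=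
  ((RingEquiv.ofBijective _ (AdicCompletion.residueField_map_bijective R)).symm : _ →+* _).comp
    (residue (Cmpl R))

theorem resid_algebraMap (x : R) : resid R (algebraMap R (Cmpl R) x) = residue R x := by
  unfold resid
  rw [RingHom.comp_apply, RingHom.coe_coe, RingEquiv.symm_apply_eq]
  simp [ResidueField.map_residue]

theorem algebraMap_mem_maximalIdeal {x : R} (hx : x ∈ maximalIdeal R) :
    algebraMap R (Cmpl R) x ∈ maximalIdeal (Cmpl R) := by
  rw [AdicCompletion.maximalIdeal_eq_map]
  exact Ideal.mem_map_of_mem _ hx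

end Fermat.Agent.ESJ.Rep.DvrCompl

namespace Fermat.Agent.ESJ.Rep

open Fermat.Agent.ESJ.Rep.DvrCompl in
/-- **REP-COMPL1.** The adic completion of a DVR of characteristic zero is a complete DVR of
characteristic zero with the same residue field. -/
theorem exists_complete_dvr (R : Type) [CommRing R] [IsDomain R] [IsDiscreteValuationRing R]
    [CharZero R] :
    ∃ (𝒪 : Type) (_ : CommRing 𝒪) (_ : IsDomain 𝒪) (_ : IsDiscreteValuationRing 𝒪)
      (_ : IsAdicComplete (IsLocalRing.maximalIdeal 𝒪) 𝒪) (_ : CharZero 𝒪)
      (f : R →+* 𝒪) (r : 𝒪 →+* IsLocalRing.ResidueField R),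
      (∀ x : R, x ∈ IsLocalRing.maximalIdeal R → f x ∈ IsLocalRing.maximalIdeal 𝒪) ∧
      ∀ x : R, r (f x) = IsLocalRing.residue R x :=
  ⟨Cmpl R, inferInstance, isDomain_cmpl R, isDiscreteValuationRing_cmpl R, inferInstance,
    charZero_cmpl R, algebraMap R (Cmpl R), resid R,
    fun _ hx => algebraMap_mem_maximalIdeal R hx, resid_algebraMap R⟩

open Fermat.Agent.ESJ.Rep.DvrCompl in
/-- A stronger form of `exists_complete_dvr`: the map `R → 𝒪` is injective and the residue fields
are identified by a ring isomorphism (so finiteness of the residue field is inherited). -/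
theorem exists_complete_dvr_equiv (R : Type) [CommRing R] [IsDomain R]
    [IsDiscreteValuationRing R] [CharZero R] :
    ∃ (𝒪 : Type) (_ : CommRing 𝒪) (_ : IsDomain 𝒪) (_ : IsDiscreteValuationRing 𝒪)
      (_ : IsAdicComplete (IsLocalRing.maximalIdeal 𝒪) 𝒪) (_ : CharZero 𝒪)
      (f : R →+* 𝒪) (e : IsLocalRing.ResidueField 𝒪 ≃+* IsLocalRing.ResidueField R),
      Function.Injective f ∧
      (∀ x : R, x ∈ IsLocalRing.maximalIdeal R → f x ∈ IsLocalRing.maximalIdeal 𝒪) ∧
      ∀ x : R, e (IsLocalRing.residue 𝒪 (f x)) = IsLocalRing.residue R x :=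
  ⟨Cmpl R, inferInstance, isDomain_cmpl R, isDiscreteValuationRing_cmpl R, inferInstance,
    charZero_cmpl R, algebraMap R (Cmpl R),
    (RingEquiv.ofBijective _ (AdicCompletion.residueField_map_bijective R)).symm,
    algebraMap_injective R, fun _ hx => algebraMap_mem_maximalIdeal R hx, resid_algebraMap R⟩

end Fermat.Agent.ESJ.Rep
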