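/-
ESJ / REP layer (owner: helper73): REP-EXTRACT with an ARBITRARY determinant character, with
output a homomorphism `G_ℚ → GL₂(k)`.

From a nonzero finite-dimensional `k[G_ℚ]`-module of finite level on which every Frobenius
element `σ` at `ℓ ∉ S` satisfies a split quadratic relation `σ² - c_ℓ σ + δ(σ) = 0`, where
`δ : G_ℚ → kˣ` is a character of finite level, extract `r : G_ℚ → GL₂(k)` of finite level with
`tr r(σ) = c_ℓ`, `det r(σ) = δ(σ)` at those Frobenius elements, trivial wherever the module and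
`δ` are trivial.  (This is the shape needed for eigen-systems with nebentypus: `δ(Frob_ℓ) =
ℓ · ε(ℓ)`.)
-/
import Mathlib
import Fermat.Agent.ESJ.Rep.Defs
import Fermat.Agent.ESJ.Rep.ExtractCore

set_option autoImplicit false

namespace Fermat.Agent.ESJ.Rep.ExtractChar

open Polynomial Fermat.Agent.ESJ.Rep.Extract

/-! ### From endomorphisms of a plane to `GL₂` -/

section ToGL

variable {G : Type*} [Group G] {k : Type*} [Field k] {V : Type*} [AddCommGroup V] [Module k V]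

/-- The matrix form of a representation on a space with a basis indexed by `Fin 2`. -/
noncomputable def toGL (b : Module.Basis (Fin 2) k V) (ρ : G →* Module.End k V) :
    G →* GL (Fin 2) k :=
  (((LinearMap.toMatrixAlgEquiv b : Module.End k V ≃ₐ[k] Matrix (Fin 2) (Fin 2) k) :
    Module.End k V →* Matrix (Fin 2) (Fin 2) k).comp ρ).toHomUnits

theorem toGL_val (b : Module.Basis (Fin 2) k V) (ρ : G →* Module.End k V) (g : G) :
    ((toGL b ρ g : GL (Fin 2) k) : Matrix (Fin 2) (Fin 2) k) = LinearMap.toMatrix b b (ρ g) :=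
  rfl

theorem toGL_eq_one (b : Module.Basis (Fin 2) k V) (ρ : G →* Module.End k V) (g : G)
    (h : ρ g = 1) : toGL b ρ g = 1 := by
  apply Units.ext
  rw [toGL_val, h, Units.val_one]
  exact LinearMap.toMatrix_one b

theorem toGL_charpoly [Module.Finite k V] (b : Module.Basis (Fin 2) k V)
    (ρ : G →* Module.End k V) (g : G) :
    ((toGL b ρ g : GL (Fin 2) k) : Matrix (Fin 2) (Fin 2) k).charpoly = (ρ g).charpoly := by
  rw [toGL_val, LinearMap.charpoly_toMatrix]

end ToGL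

/-- Trace and determinant of a `2 × 2` matrix from its characteristic polynomial. -/
theorem trace_det_of_charpoly {k : Type*} [Field k] (M : Matrix (Fin 2) (Fin 2) k) (a d : k)
    (h : M.charpoly = X ^ 2 - C a * X + C d) : M.trace = a ∧ M.det = d := by
  rw [Matrix.charpoly_fin_two] at h
  have h1 := congrArg (fun p : k[X] => p.coeff 1) h
  have h0 := congrArg (fun p : k[X] => p.coeff 0) h
  simp only [coeff_add, coeff_sub, coeff_X_pow, coeff_C_mul, coeff_X_one,
    coeff_X_zero, coeff_C] at h1 h0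
  norm_num at h1 h0
  exact ⟨h1, h0⟩

/-! ### The group-theoretic extraction -/

/-- **Extraction, group form.**  A nonzero finite-dimensional representation on which every
element satisfies a split quadratic relation with constant term `χ g` has a two-dimensional
"companion" `r : G → GL₂(k)`: trivial wherever `ρ` and `χ` are, and with characteristic
polynomial `X² - a X + χ g` at every `g` satisfying `g² - a g + χ g = 0` on the module. -/
theorem exists_rep_two {G : Type*} [Group G] {k : Type*} [Field k] {W : Type*} [AddCommGroup W]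
    [Module k W] [FiniteDimensional k W] [Nontrivial W] (ρ : G →* Module.End k W) (χ : G →* kˣ)
    (hq : QuadRel ρ χ) :
    ∃ r : G →* GL (Fin 2) k,
      (∀ g : G, ρ g = 1 → χ g = 1 → r g = 1) ∧
      ∀ (g : G) (a : k), (∀ w : W, ρ g (ρ g w) - a • ρ g w + (χ g : k) • w = 0) →
        ((r g : GL (Fin 2) k) : Matrix (Fin 2) (Fin 2) k).charpoly =
          X ^ 2 - C a * X + C (χ g : k) := by
  obtain ⟨U, hU, hU0, hmin⟩ := exists_minimal_inv ρ
  have hs := orbitSpan_resRep ρ U hU hmin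
  have hqU := quadRel_resRep ρ χ hq U hU
  have hle := finrank_le_two (resRep ρ U hU) χ hqU hs
  have hntU : Nontrivial U := Submodule.nontrivial_iff_ne_bot.mpr hU0
  have hpos : 0 < Module.finrank k U := Module.finrank_pos
  have hres_one : ∀ g : G, ρ g = 1 → resRep ρ U hU g = 1 := by
    intro g h
    ext w
    rw [resRep_apply, h]
    rfl
  have hrelU : ∀ (g : G) (a : k), (∀ w : W, ρ g (ρ g w) - a • ρ g w + (χ g : k) • w = 0) →
      ∀ w : U, resRep ρ U hU g (resRep ρ U hU g w) - a • resRep ρ U hU g w +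
        (χ g : k) • w = 0 := by
    intro g a h w
    apply Subtype.ext
    rw [Submodule.coe_add, Submodule.coe_sub, Submodule.coe_smul, Submodule.coe_smul,
      Submodule.coe_zero, resRep_apply, resRep_apply]
    exact h (w : W)
  have hcases : Module.finrank k U = 1 ∨ Module.finrank k U = 2 := by omega
  rcases hcases with h1 | h2
  · -- dimension one: `ψ ⊕ χ ψ⁻¹`
    set ψ : G →* kˣ :=
      ((LinearMap.det : Module.End k U →* k).comp (resRep ρ U hU)).toHomUnits with hψ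
    have hψ_val : ∀ g : G, (ψ g : k) = LinearMap.det (resRep ρ U hU g) := fun g => rfl
    have hψ_one : ∀ g : G, ρ g = 1 → ψ g = 1 := by
      intro g h
      apply Units.ext
      rw [hψ_val, hres_one g h, map_one, Units.val_one]
    refine ⟨toGL (Pi.basisFun k (Fin 2)) (diagRep ψ χ), fun g hg hχ => ?_, fun g a h => ?_⟩
    · exact toGL_eq_one _ _ g (diagRep_eq_one ψ χ g (hψ_one g hg) hχ)
    · rw [toGL_charpoly]
      apply charpoly_diagRep
      obtain ⟨w, hw⟩ := exists_ne (0 : U)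
      have e := hrelU g a h w
      rw [apply_eq_det_smul h1 (resRep ρ U hU g) w, map_smul,
        apply_eq_det_smul h1 (resRep ρ U hU g) w, smul_smul, smul_smul, ← sub_smul,
        ← add_smul] at e
      rcases smul_eq_zero.mp e with h0 | h0
      · rw [hψ_val]
        exact h0
      · exact absurd h0 hw
  · -- dimension two: the simple submodule itself
    have hns := exists_nonscalar_of_finrank_two h2 (resRep ρ U hU) hs
    refine ⟨toGL (Module.finBasisOfFinrankEq k U h2) (resRep ρ U hU), fun g hg _ => ?_,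
      fun g a h => ?_⟩
    · exact toGL_eq_one _ _ g (hres_one g hg)
    · rw [toGL_charpoly]
      exact charpoly_eq_of_finrank_two h2 (resRep ρ U hU) χ hqU hns g a (hrelU g a h)

/-! ### Frobenius density: from Frobenius elements to all of `G_ℚ` -/

/-- Frobenius density + split quadratic relations at Frobenius elements outside `S` give the
split quadratic relation for every element of `G_ℚ`. -/
theorem quadRel_of_frob (hFrob : FrobDensity) {k : Type} [Field k] (S : Finset ℕ)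
    (δ : GQ →* kˣ) (hδ : GaloisFactorsThroughFiniteLevel δ)
    {W : Type} [AddCommGroup W] [Module k W] (ρ : GQ →* Module.End k W)
    (hlev : GaloisFactorsThroughFiniteLevel ρ)
    (hES : ∀ ℓ : ℕ, ℓ.Prime → ℓ ∉ S → ∀ A : ValuationSubring Qb, A.LiesOverPrime ℓ →
      ∀ σ : GQ, A.IsFrobeniusAt σ ℓ → ∃ α β : k, α * β = (δ σ : k) ∧
        ∀ w : W, ρ σ (ρ σ w) - (α + β) • ρ σ w + (α * β) • w = 0) :
    QuadRel ρ δ := by
  intro γ
  obtain ⟨L₀, hL₀, h₀⟩ := hlev
  obtain ⟨L₁, hL₁, h₁⟩ := hδ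
  have hfin : FiniteDimensional ℚ ↥(L₀ ⊔ L₁) := IntermediateField.finiteDimensional_sup L₀ L₁
  obtain ⟨ℓ, A, σ, n, hℓ, hℓS, hA, hσ, hgσ⟩ := hFrob (L₀ ⊔ L₁) hfin S γ
  obtain ⟨α, β, hαβ, hrel⟩ := hES ℓ hℓ hℓS A hA σ hσ
  -- `τ := (σ ^ n)⁻¹ * γ` fixes `L₀ ⊔ L₁`
  have hτ : ∀ x ∈ L₀ ⊔ L₁, ((σ ^ n)⁻¹ * γ) x = x := by
    intro x hx
    rw [AlgEquiv.mul_apply, ← hgσ x hx]
    exact (σ ^ n).symm_apply_apply x
  have hγ : γ = σ ^ n * ((σ ^ n)⁻¹ * γ) := by group
  have hργ : ρ γ = ρ σ ^ n := by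
    have h1 := h₀ ((σ ^ n)⁻¹ * γ) (fun x hx => hτ x ((le_sup_left : L₀ ≤ L₀ ⊔ L₁) hx))
    conv_lhs => rw [hγ]
    rw [map_mul, h1, mul_one, map_pow]
  have hχγ : δ γ = δ σ ^ n := by
    have h1 := h₁ ((σ ^ n)⁻¹ * γ) (fun x hx => hτ x ((le_sup_right : L₁ ≤ L₀ ⊔ L₁) hx))
    conv_lhs => rw [hγ]
    rw [map_mul, h1, mul_one, map_pow]
  have hpow := quad_pow (ρ σ) α β hrel n
  refine ⟨α ^ n, β ^ n, ?_, ?_⟩
  · rw [hχγ, ← mul_pow, hαβ, Units.val_pow_eq_pow_val]
  · rw [hργ]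
    exact hpow

/-! ### The Galois form -/

/-- **REP-EXTRACT with an arbitrary determinant character.**  `S` is the set of bad primes,
`δ` the determinant character, `c ℓ` the prescribed traces. -/
theorem exists_galoisRep_of_quadFrob (hFrob : FrobDensity) {k : Type} [Field k] (S : Finset ℕ)
    (δ : GQ →* kˣ) (hδ : GaloisFactorsThroughFiniteLevel δ)
    (hδI : ∀ q : ℕ, q.Prime → q ∉ S → ∀ A : ValuationSubring Qb, A.LiesOverPrime q →
      ∀ σ ∈ A.inertiaSubgroupIn ℚ, δ σ = 1)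
    {W : Type} [AddCommGroup W] [Module k W] [FiniteDimensional k W] [Nontrivial W]
    (ρ : GQ →* Module.End k W) (hlev : GaloisFactorsThroughFiniteLevel ρ) (c : ℕ → k)
    (hES : ∀ ℓ : ℕ, ℓ.Prime → ℓ ∉ S → ∀ A : ValuationSubring Qb, A.LiesOverPrime ℓ →
      (∀ σ ∈ A.inertiaSubgroupIn ℚ, ρ σ = 1) ∧
      ∀ σ : GQ, A.IsFrobeniusAt σ ℓ →
        (∃ α β : k, α + β = c ℓ ∧ α * β = (δ σ : k)) ∧
        ρ σ * ρ σ - c ℓ • ρ σ + (δ σ : k) • (1 : Module.End k W) = 0) :
    ∃ r : GQ →* GL (Fin 2) k, GaloisFactorsThroughFiniteLevel r ∧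
      ∀ ℓ : ℕ, ℓ.Prime → ℓ ∉ S → ∀ A : ValuationSubring Qb, A.LiesOverPrime ℓ →
        (∀ σ ∈ A.inertiaSubgroupIn ℚ, r σ = 1) ∧
        ∀ σ : GQ, A.IsFrobeniusAt σ ℓ →
          ((r σ : GL (Fin 2) k) : Matrix (Fin 2) (Fin 2) k).trace = c ℓ ∧
          ((r σ : GL (Fin 2) k) : Matrix (Fin 2) (Fin 2) k).det = (δ σ : k) := by
  have hpt : ∀ ℓ : ℕ, ℓ.Prime → ℓ ∉ S → ∀ A : ValuationSubring Qb, A.LiesOverPrime ℓ →
      ∀ σ : GQ, A.IsFrobeniusAt σ ℓ →
        ∀ w : W, ρ σ (ρ σ w) - c ℓ • ρ σ w + (δ σ : k) • w = 0 := by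
    intro ℓ hℓ hℓS A hA σ hσ w
    have := congrArg (fun f : Module.End k W => f w) ((hES ℓ hℓ hℓS A hA).2 σ hσ).2
    simpa using this
  have hq : QuadRel ρ δ := by
    refine quadRel_of_frob hFrob S δ hδ ρ hlev fun ℓ hℓ hℓS A hA σ hσ => ?_
    obtain ⟨α, β, hab, hab'⟩ := ((hES ℓ hℓ hℓS A hA).2 σ hσ).1
    refine ⟨α, β, hab', fun w => ?_⟩
    rw [hab, hab']
    exact hpt ℓ hℓ hℓS A hA σ hσ w
  obtain ⟨r, hr1, hr2⟩ := exists_rep_two ρ δ hq
  refine ⟨r, ?_, fun ℓ hℓ hℓS A hA => ⟨fun σ hσ => ?_, fun σ hσ => ?_⟩⟩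
  · obtain ⟨L₀, hL₀, h₀⟩ := hlev
    obtain ⟨L₁, hL₁, h₁⟩ := hδ
    have hfin : FiniteDimensional ℚ ↥(L₀ ⊔ L₁) := IntermediateField.finiteDimensional_sup L₀ L₁
    exact ⟨L₀ ⊔ L₁, hfin, fun σ hσ => hr1 σ
      (h₀ σ fun x hx => hσ x ((le_sup_left : L₀ ≤ L₀ ⊔ L₁) hx))
      (h₁ σ fun x hx => hσ x ((le_sup_right : L₁ ≤ L₀ ⊔ L₁) hx))⟩
  · exact hr1 σ ((hES ℓ hℓ hℓS A hA).1 σ hσ) (hδI ℓ hℓ hℓS A hA σ hσ)
  · exact trace_det_of_charpoly _ _ _ (hr2 σ (c ℓ) (hpt ℓ hℓ hℓS A hA σ hσ))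

end Fermat.Agent.ESJ.Rep.ExtractChar
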