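/-
ESJ / REP layer, task 173 (REP-COMPL2, helper5): a complete discrete valuation ring receiving a
given eigencharacter `T → ℤ̄` and compatible with a given residue map `φ : ℤ̄ → k`.

Construction: the values of `χ` generate a number field `K ⊆ ℂ`; `χ` factors through `𝓞 K`;
`𝔓 := ker (φ|_{𝓞 K})` is a nonzero prime containing `p`; the localisation `R` of `𝓞 K` at `𝔓` is
a discrete valuation ring of characteristic zero on which `φ` extends, factoring through the
residue field; finally complete `R` (REP-COMPL1).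
-/
import Mathlib
import Fermat.Agent.ESJ.Rep.DvrCompl

set_option autoImplicit false

namespace Fermat.Agent.ESJ.Rep

namespace NumCompl

open IsLocalRing NumberField

/-- The statement of REP-COMPL1 (the adic completion of a DVR is a complete DVR with the same
residue field), as a proposition. -/
def CompleteDvrExists : Prop :=
  ∀ (R : Type) [CommRing R] [IsDomain R] [IsDiscreteValuationRing R] [CharZero R],
    ∃ (𝒪 : Type) (_ : CommRing 𝒪) (_ : IsDomain 𝒪) (_ : IsDiscreteValuationRing 𝒪)
      (_ : IsAdicComplete (IsLocalRing.maximalIdeal 𝒪) 𝒪) (_ : CharZero 𝒪)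
      (f : R →+* 𝒪) (r : 𝒪 →+* IsLocalRing.ResidueField R),
      (∀ x : R, x ∈ IsLocalRing.maximalIdeal R → f x ∈ IsLocalRing.maximalIdeal 𝒪) ∧
      ∀ x : R, r (f x) = IsLocalRing.residue R x

/-- The values of a ring homomorphism from a finite `ℤ`-algebra to the algebraic integers lie in
a number field. -/
theorem exists_numberField {T : Type} [CommRing T] [Module.Finite ℤ T]
    (χ : T →+* integralClosure ℤ ℂ) :
    ∃ K : IntermediateField ℚ ℂ, FiniteDimensional ℚ K ∧ ∀ t : T, ((χ t : integralClosure ℤ ℂ) : ℂ) ∈ K := by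
  obtain ⟨s, hs⟩ := (Module.Finite.fg_top : (⊤ : Submodule ℤ T).FG)
  refine ⟨IntermediateField.adjoin ℚ ((fun t : T => ((χ t : integralClosure ℤ ℂ) : ℂ)) '' (s : Set T)),
    ?_, ?_⟩
  · have : Finite ((fun t : T => ((χ t : integralClosure ℤ ℂ) : ℂ)) '' (s : Set T)) :=
      (s.finite_toSet.image _).to_subtype
    apply IntermediateField.finiteDimensional_adjoin
    rintro x ⟨t, -, rfl⟩
    exact (χ t).2.tower_top
  · intro t
    have ht : t ∈ Submodule.span ℤ (s : Set T) := by rw [hs]; exact Submodule.mem_top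
    induction ht using Submodule.span_induction with
    | mem x hx => exact IntermediateField.subset_adjoin _ _ ⟨x, hx, rfl⟩
    | zero => simp
    | add x y _ _ hx hy =>
      rw [map_add]
      exact add_mem hx hy
    | smul n x _ hx =>
      rw [map_zsmul]
      exact zsmul_mem hx n

/-- REP-COMPL2, relative to REP-COMPL1. -/
theorem exists_complete_dvr_of_ringHom_of (hC : CompleteDvrExists) {T : Type} [CommRing T]
    [Module.Finite ℤ T] (χ : T →+* integralClosure ℤ ℂ) {p : ℕ} (hp : p.Prime) {k : Type}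
    [Field k] [CharP k p] (φ : integralClosure ℤ ℂ →+* k) :
    ∃ (𝒪 : Type) (_ : CommRing 𝒪) (_ : IsDomain 𝒪) (_ : IsDiscreteValuationRing 𝒪)
      (_ : IsAdicComplete (IsLocalRing.maximalIdeal 𝒪) 𝒪) (_ : CharZero 𝒪)
      (χ' : T →+* 𝒪) (ψ : 𝒪 →+* k),
      (p : 𝒪) ∈ IsLocalRing.maximalIdeal 𝒪 ∧ ∀ t : T, ψ (χ' t) = φ (χ t) := by
  obtain ⟨K, hfd, hK⟩ := exists_numberField χ
  have : NumberField K := { to_charZero := inferInstance, to_finiteDimensional := hfd }
  -- `χ` factors through `𝓞 K`
  let g : T →+* K := RingHom.codRestrict ((algebraMap (integralClosure ℤ ℂ) ℂ).comp χ) K hK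
  have hg : ∀ t, IsIntegral ℤ (g t) := by
    intro t
    have h1 : IsIntegral ℤ (algebraMap K ℂ (g t)) := (χ t).2
    exact (isIntegral_algebraMap_iff (algebraMap K ℂ).injective).mp h1
  let χB : T →+* 𝓞 K :=
    { RingOfIntegers.restrict_monoidHom (g : T →* K) hg with
      map_zero' := (RingOfIntegers.restrict_addMonoidHom (g : T →+ K) hg).map_zero
      map_add' := (RingOfIntegers.restrict_addMonoidHom (g : T →+ K) hg).map_add }
  -- back to the algebraic integers of `ℂ`
  let ι : 𝓞 K →+* integralClosure ℤ ℂ :=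
    RingHom.codRestrict ((algebraMap K ℂ).comp (algebraMap (𝓞 K) K)) (integralClosure ℤ ℂ)
      (fun x => (RingOfIntegers.isIntegral_coe x).algebraMap)
  have hιχ : ∀ t, ι (χB t) = χ t := fun t => Subtype.ext rfl
  let φB : 𝓞 K →+* k := φ.comp ι
  -- the prime `𝔓 = ker φB`
  have h𝔓 : (RingHom.ker φB).IsPrime := RingHom.ker_isPrime φB
  have hp𝔓 : ((p : ℕ) : 𝓞 K) ∈ RingHom.ker φB := by
    rw [RingHom.mem_ker, map_natCast]
    exact CharP.cast_eq_zero k p
  have h𝔓0 : RingHom.ker φB ≠ ⊥ := by
    intro h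
    rw [h, Ideal.mem_bot] at hp𝔓
    exact hp.ne_zero (Nat.cast_eq_zero.mp hp𝔓)
  -- the localisation
  have : IsDomain (Localization.AtPrime (RingHom.ker φB)) :=
    IsLocalization.isDomain_localization (Ideal.primeCompl_le_nonZeroDivisors _)
  have : IsDiscreteValuationRing (Localization.AtPrime (RingHom.ker φB)) :=
    IsLocalization.AtPrime.isDiscreteValuationRing_of_dedekind_domain (𝓞 K) h𝔓0 _
  have hinj : Function.Injective
      (algebraMap (𝓞 K) (Localization.AtPrime (RingHom.ker φB))) :=
    IsLocalization.injective _ (Ideal.primeCompl_le_nonZeroDivisors (RingHom.ker φB))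
  have : CharZero (Localization.AtPrime (RingHom.ker φB)) :=
    charZero_of_injective_ringHom hinj
  -- extend `φB` to the localisation and descend to the residue field
  have hunit : ∀ y : (RingHom.ker φB).primeCompl, IsUnit (φB y) :=
    fun y => IsUnit.mk0 _ (fun h0 => y.2 (RingHom.mem_ker.mpr h0))
  let φR : Localization.AtPrime (RingHom.ker φB) →+* k := IsLocalization.lift hunit
  have hφR : ∀ x : 𝓞 K,
      φR (algebraMap (𝓞 K) (Localization.AtPrime (RingHom.ker φB)) x) = φB x :=
    fun x => IsLocalization.lift_eq hunit x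
  have hmax : maximalIdeal (Localization.AtPrime (RingHom.ker φB)) ≤ RingHom.ker φR := by
    rw [← IsLocalization.AtPrime.map_eq_maximalIdeal (RingHom.ker φB)
      (Localization.AtPrime (RingHom.ker φB)), Ideal.map_le_iff_le_comap]
    intro x hx
    rw [Ideal.mem_comap, RingHom.mem_ker, hφR]
    exact hx
  let ψ₀ : ResidueField (Localization.AtPrime (RingHom.ker φB)) →+* k :=
    Ideal.Quotient.lift (maximalIdeal (Localization.AtPrime (RingHom.ker φB))) φR
      (fun a ha => hmax ha)
  have hψ₀ : ∀ x : Localization.AtPrime (RingHom.ker φB),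
      ψ₀ (residue (Localization.AtPrime (RingHom.ker φB)) x) = φR x :=
    fun x => Ideal.Quotient.lift_mk _ _ _
  -- complete
  obtain ⟨𝒪, i1, i2, i3, i4, i5, f, r, hf, hr⟩ := hC (Localization.AtPrime (RingHom.ker φB))
  refine ⟨𝒪, i1, i2, i3, i4, i5,
    f.comp ((algebraMap (𝓞 K) (Localization.AtPrime (RingHom.ker φB))).comp χB), ψ₀.comp r,
    ?_, ?_⟩
  · have h1 : ((p : ℕ) : Localization.AtPrime (RingHom.ker φB)) ∈
        maximalIdeal (Localization.AtPrime (RingHom.ker φB)) := by
      rw [← IsLocalization.AtPrime.map_eq_maximalIdeal (RingHom.ker φB)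
        (Localization.AtPrime (RingHom.ker φB))]
      have := Ideal.mem_map_of_mem
        (algebraMap (𝓞 K) (Localization.AtPrime (RingHom.ker φB))) hp𝔓
      rwa [map_natCast] at this
    have := hf _ h1
    rwa [map_natCast] at this
  · intro t
    simp only [RingHom.comp_apply]
    rw [hr, hψ₀, hφR]
    show φ (ι (χB t)) = φ (χ t)
    rw [hιχ]

/-- REP-COMPL1 holds (`DvrCompl.lean`). -/
theorem completeDvrExists : CompleteDvrExists :=
  fun R _ _ _ _ => exists_complete_dvr R

end NumCompl

/-- **REP-COMPL2**: a complete discrete valuation ring receiving a given eigencharacter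
`χ : T → ℤ̄` and compatible with a given residue map `φ : ℤ̄ → k`. -/
theorem exists_complete_dvr_of_ringHom {T : Type} [CommRing T] [Module.Finite ℤ T]
    (χ : T →+* integralClosure ℤ ℂ) {p : ℕ} (hp : p.Prime) {k : Type} [Field k] [CharP k p]
    (φ : integralClosure ℤ ℂ →+* k) :
    ∃ (𝒪 : Type) (_ : CommRing 𝒪) (_ : IsDomain 𝒪) (_ : IsDiscreteValuationRing 𝒪)
      (_ : IsAdicComplete (IsLocalRing.maximalIdeal 𝒪) 𝒪) (_ : CharZero 𝒪)
      (χ' : T →+* 𝒪) (ψ : 𝒪 →+* k),
      (p : 𝒪) ∈ IsLocalRing.maximalIdeal 𝒪 ∧ ∀ t : T, ψ (χ' t) = φ (χ t) :=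
  NumCompl.exists_complete_dvr_of_ringHom_of NumCompl.completeDvrExists χ hp φ

end Fermat.Agent.ESJ.Rep
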