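/-
ESJ / REP layer — REP-A (owner: helper55).

From a Tate datum and the Frobenius density theorem: for every character `χ` of the FULL
Hecke algebra `heckeAlgebra N 2 ∅` with values in a complete DVR `𝒪` of residue characteristic
`p`, a two-dimensional representation of `G_ℚ` over `𝒪`, unramified outside `N p`, with
characteristic polynomial `X² - χ(T_ℓ) X + ℓ` at every Frobenius lift at `ℓ ∤ N p`.
-/
import Mathlib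
import Fermat.Agent.ESJ.Rep.Defs
import Fermat.Agent.ESJ.Rep.Lattice
import Fermat.Agent.ESJ.Rep.Dichotomy
import Fermat.Agent.ESJ.Rep.ZpAlg

set_option autoImplicit false

open scoped TensorProduct
open Polynomial

namespace Fermat.Agent.ESJ.Rep

namespace RepA

variable {p N : ℕ} [Fact p.Prime] [NeZero N] (D : TateDatum p N)
variable (𝒪 : Type) [CommRing 𝒪] [Algebra ℤ_[p] 𝒪]

/-- The Hecke operators on `𝒪 ⊗ Ta`. -/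
noncomputable def tO (ℓ : Nat.Primes) : Module.End 𝒪 (𝒪 ⊗[ℤ_[p]] D.Ta) :=
  (D.hecke ℓ).baseChange 𝒪

/-- The Galois action on `𝒪 ⊗ Ta`. -/
noncomputable def galO : GQ →* Module.End 𝒪 (𝒪 ⊗[ℤ_[p]] D.Ta) where
  toFun σ := (D.gal σ).baseChange 𝒪
  map_one' := by rw [map_one, LinearMap.baseChange_one]
  map_mul' σ τ := by rw [map_mul, LinearMap.baseChange_mul]

theorem galO_apply (σ : GQ) : galO D 𝒪 σ = (D.gal σ).baseChange 𝒪 := rfl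

theorem tO_comm_galO (ℓ : Nat.Primes) (σ : GQ) :
    tO D 𝒪 ℓ * galO D 𝒪 σ = galO D 𝒪 σ * tO D 𝒪 ℓ := by
  rw [tO, galO_apply, ← LinearMap.baseChange_mul, ← LinearMap.baseChange_mul,
    (D.hecke_gal ℓ σ).eq]

variable (χ : CuspForm.heckeAlgebra N 2 (∅ : Set ℕ) →+* 𝒪)

/-- The eigenvalues. -/
noncomputable def ev (ℓ : Nat.Primes) : 𝒪 := χ (CuspForm.heckeFormsGen N 2 ℓ)

/-- The eigen-sublattice of `𝒪 ⊗ Ta`. -/
noncomputable def lat : Submodule 𝒪 (𝒪 ⊗[ℤ_[p]] D.Ta) :=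
  eigenspace (tO D 𝒪) (ev 𝒪 χ)

/-- (Instance-search helper: with `ℤ_[p]` as base ring the default search for the group
structure on a submodule of `𝒪 ⊗ Ta` exceeds the pending-synthesis depth.) -/
noncomputable instance instAddCommGroupLat : AddCommGroup (lat D 𝒪 χ) :=
  Submodule.addCommGroup _

theorem mem_lat {x : 𝒪 ⊗[ℤ_[p]] D.Ta} :
    x ∈ lat D 𝒪 χ ↔ ∀ ℓ : Nat.Primes, tO D 𝒪 ℓ x = ev 𝒪 χ ℓ • x :=
  mem_eigenspace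

theorem galO_mem_lat (σ : GQ) {x : 𝒪 ⊗[ℤ_[p]] D.Ta} (hx : x ∈ lat D 𝒪 χ) :
    galO D 𝒪 σ x ∈ lat D 𝒪 χ := by
  rw [mem_lat] at hx ⊢
  intro ℓ
  have h := congrArg (fun f : Module.End 𝒪 (𝒪 ⊗[ℤ_[p]] D.Ta) => f x) (tO_comm_galO D 𝒪 ℓ σ)
  simp only [Module.End.mul_apply] at h
  rw [h, hx ℓ, map_smul]

/-- The Galois action on the eigen-sublattice. -/
noncomputable def rho0 : GQ →* Module.End 𝒪 (lat D 𝒪 χ) where
  toFun σ := (galO D 𝒪 σ).restrict (fun _ hx => galO_mem_lat D 𝒪 χ σ hx)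
  map_one' := by
    ext x
    simp [LinearMap.restrict_apply]
  map_mul' σ τ := by
    ext x
    simp [LinearMap.restrict_apply]

theorem rho0_apply_coe (σ : GQ) (x : lat D 𝒪 χ) :
    ((rho0 D 𝒪 χ σ x : lat D 𝒪 χ) : 𝒪 ⊗[ℤ_[p]] D.Ta) = galO D 𝒪 σ x := rfl

/-- `p`-adic continuity on `𝒪 ⊗ Ta`. -/
theorem galO_sub_self (n : ℕ) (σ : GQ)
    (h : ∀ v : D.Ta, ∃ w : D.Ta, D.gal σ v - v = (p : ℤ_[p]) ^ n • w)
    (x : 𝒪 ⊗[ℤ_[p]] D.Ta) :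
    ∃ y : 𝒪 ⊗[ℤ_[p]] D.Ta, galO D 𝒪 σ x - x = (p : 𝒪) ^ n • y := by
  induction x using TensorProduct.induction_on with
  | zero => exact ⟨0, by simp⟩
  | tmul c v =>
    obtain ⟨w, hw⟩ := h v
    refine ⟨c ⊗ₜ[ℤ_[p]] w, ?_⟩
    rw [galO_apply, LinearMap.baseChange_tmul, ← TensorProduct.tmul_sub, hw,
      TensorProduct.tmul_smul, TensorProduct.smul_tmul', TensorProduct.smul_tmul',
      Algebra.smul_def, smul_eq_mul, map_pow, map_natCast, mul_comm]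
  | add x y hx hy =>
    obtain ⟨x', hx'⟩ := hx
    obtain ⟨y', hy'⟩ := hy
    refine ⟨x' + y', ?_⟩
    rw [map_add, add_sub_add_comm, hx', hy', smul_add]

/-- The Eichler–Shimura relation on `𝒪 ⊗ Ta`. -/
theorem galO_quadratic (ℓ : Nat.Primes) (σ : GQ)
    (h : D.gal σ * D.gal σ - D.hecke ℓ * D.gal σ + ((ℓ : ℕ) : Module.End ℤ_[p] D.Ta) = 0)
    (x : 𝒪 ⊗[ℤ_[p]] D.Ta) :
    galO D 𝒪 σ (galO D 𝒪 σ x) - tO D 𝒪 ℓ (galO D 𝒪 σ x) + ((ℓ : ℕ) : 𝒪) • x = 0 := by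
  induction x using TensorProduct.induction_on with
  | zero => simp
  | tmul c v =>
    have hv := congrArg (fun f : Module.End ℤ_[p] D.Ta => f v) h
    simp only [LinearMap.add_apply, LinearMap.sub_apply, Module.End.mul_apply,
      LinearMap.zero_apply] at hv
    rw [galO_apply, tO, LinearMap.baseChange_tmul, LinearMap.baseChange_tmul,
      LinearMap.baseChange_tmul, ← TensorProduct.tmul_sub]
    have h3 : ((ℓ : ℕ) : 𝒪) • c ⊗ₜ[ℤ_[p]] v = c ⊗ₜ[ℤ_[p]] (((ℓ : ℕ) : Module.End ℤ_[p] D.Ta) v) := by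
      rw [Module.End.natCast_apply, TensorProduct.tmul_smul, Nat.cast_smul_eq_nsmul]
    rw [h3, ← TensorProduct.tmul_add, hv, TensorProduct.tmul_zero]
  | add x y hx hy =>
    simp only [map_add, smul_add]
    rw [← add_zero (0 : 𝒪 ⊗[ℤ_[p]] D.Ta)]
    nth_rewrite 2 [← hx]
    nth_rewrite 1 [← hy]
    abel

theorem rho0_quadratic (ℓ : Nat.Primes)
    (hℓN : ¬ (ℓ : ℕ) ∣ N) (hℓp : (ℓ : ℕ) ≠ p) (A : ValuationSubring Qb)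
    (hA : A.LiesOverPrime ℓ) (σ : GQ) (hσ : A.IsFrobeniusAt σ ℓ) :
    (rho0 D 𝒪 χ σ * rho0 D 𝒪 χ σ - ev 𝒪 χ ℓ • rho0 D 𝒪 χ σ
      + ((ℓ : ℕ) : 𝒪) • (1 : Module.End 𝒪 (lat D 𝒪 χ)) : Module.End 𝒪 (lat D 𝒪 χ)) = 0 := by
  have h := D.eichlerShimura ℓ hℓN hℓp A hA σ hσ
  ext x
  have hx := galO_quadratic D 𝒪 ℓ σ h (x : 𝒪 ⊗[ℤ_[p]] D.Ta)
  have hmem : galO D 𝒪 σ (x : 𝒪 ⊗[ℤ_[p]] D.Ta) ∈ lat D 𝒪 χ := galO_mem_lat D 𝒪 χ σ x.2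
  rw [(mem_lat D 𝒪 χ).mp hmem ℓ] at hx
  simp only [LinearMap.add_apply, LinearMap.sub_apply, Module.End.mul_apply, LinearMap.smul_apply,
    Module.End.one_apply, LinearMap.zero_apply, Submodule.coe_add, Submodule.coe_sub,
    Submodule.coe_smul, rho0_apply_coe, Submodule.coe_zero]
  exact hx

section Main

variable {p N : ℕ} [Fact p.Prime] [NeZero N] (D : TateDatum p N)
variable (𝒪 : Type) [CommRing 𝒪] [IsDomain 𝒪] [IsDiscreteValuationRing 𝒪] [CharZero 𝒪]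
  [Algebra ℤ_[p] 𝒪]
variable (χ : CuspForm.heckeAlgebra N 2 (∅ : Set ℕ) →+* 𝒪)

theorem finrank_lat : Module.finrank 𝒪 (lat D 𝒪 χ) = 2 := by
  have h1 := finrank_eigenspace_fraction ℤ_[p] D.Ta D.hecke 𝒪 (FractionRing 𝒪) (ev 𝒪 χ)
  have h2 := D.eigen_dim (FractionRing 𝒪) ((algebraMap 𝒪 (FractionRing 𝒪)).comp χ)
  exact h1.trans h2

instance instFreeLat : Module.Free 𝒪 (lat D 𝒪 χ) :=
  Module.Free.of_basis
    (Submodule.basisOfPid (Module.Free.chooseBasis 𝒪 (𝒪 ⊗[ℤ_[p]] D.Ta)) (lat D 𝒪 χ)).2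

theorem rho0_sub_self (hp : (p : 𝒪) ∈ IsLocalRing.maximalIdeal 𝒪) (n : ℕ) (σ : GQ)
    (h : ∀ v : D.Ta, ∃ w : D.Ta, D.gal σ v - v = (p : ℤ_[p]) ^ n • w) (v : lat D 𝒪 χ) :
    rho0 D 𝒪 χ σ v - v ∈
      (IsLocalRing.maximalIdeal 𝒪 ^ n) • (⊤ : Submodule 𝒪 (lat D 𝒪 χ)) := by
  obtain ⟨y, hy⟩ := galO_sub_self D 𝒪 n σ h (v : 𝒪 ⊗[ℤ_[p]] D.Ta)
  have hpn : ((p : 𝒪) ^ n) ≠ 0 :=
    pow_ne_zero n (Nat.cast_ne_zero.mpr (Fact.out : p.Prime).ne_zero)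
  have hy_mem : y ∈ lat D 𝒪 χ := by
    refine eigenspace_saturated ℤ_[p] D.Ta D.hecke 𝒪 (ev 𝒪 χ) ((p : 𝒪) ^ n) hpn y ?_
    rw [← hy]
    exact sub_mem (galO_mem_lat D 𝒪 χ σ v.2) v.2
  have hv : rho0 D 𝒪 χ σ v - v = (p : 𝒪) ^ n • (⟨y, hy_mem⟩ : lat D 𝒪 χ) := by
    apply Subtype.ext
    rw [Submodule.coe_sub, rho0_apply_coe, hy]
    rfl
  rw [hv]
  exact Submodule.smul_mem_smul (Ideal.pow_mem_pow hp n) Submodule.mem_top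

/-- The representation on the eigen-sublattice. -/
noncomputable def rep0 (hp : (p : 𝒪) ∈ IsLocalRing.maximalIdeal 𝒪) : GaloisRepAdic 𝒪 where
  V := lat D 𝒪 χ
  finrank_eq := finrank_lat D 𝒪 χ
  ρ := rho0 D 𝒪 χ
  isAdicContinuous := by
    intro n
    obtain ⟨L, hL, h⟩ := D.gal_continuous n
    exact ⟨L, hL, fun σ hσ v => rho0_sub_self D 𝒪 χ hp n σ (h σ hσ) v⟩

theorem rep0_unramified (hp : (p : 𝒪) ∈ IsLocalRing.maximalIdeal 𝒪) {q : ℕ} (hq : q.Prime)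
    (hqN : ¬ q ∣ N) (hqp : q ≠ p) : (rep0 D 𝒪 χ hp).IsUnramifiedAt q := by
  intro A hA σ hσ
  have h1 : D.gal σ = 1 := D.unram q hq hqN hqp A hA σ hσ
  show rho0 D 𝒪 χ σ = 1
  ext x
  rw [rho0_apply_coe, galO_apply, h1, LinearMap.baseChange_one]
  rfl

theorem rep0_quadratic (hp : (p : 𝒪) ∈ IsLocalRing.maximalIdeal 𝒪) (ℓ : Nat.Primes)
    (hℓN : ¬ (ℓ : ℕ) ∣ N) (hℓp : (ℓ : ℕ) ≠ p) (A : ValuationSubring Qb)
    (hA : A.LiesOverPrime ℓ) (σ : GQ) (hσ : A.IsFrobeniusAt σ ℓ) :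
    (rep0 D 𝒪 χ hp).ρ σ * (rep0 D 𝒪 χ hp).ρ σ - ev 𝒪 χ ℓ • (rep0 D 𝒪 χ hp).ρ σ
      + ((ℓ : ℕ) : 𝒪) • (1 : Module.End 𝒪 (rep0 D 𝒪 χ hp).V) = 0 :=
  rho0_quadratic D 𝒪 χ ℓ hℓN hℓp A hA σ hσ

end Main

end RepA

/-- **REP-A.** From a Tate datum and Frobenius density: a two-dimensional Galois
representation with the prescribed Frobenius characteristic polynomials, for every character
of the full Hecke algebra with values in a complete DVR of residue characteristic `p`. -/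
theorem exists_galoisRepAdic_of_fullChar (hFrob : FrobDensity) {p N : ℕ} [Fact p.Prime] [NeZero N]
    (D : TateDatum p N)
    (𝒪 : Type) [CommRing 𝒪] [IsDomain 𝒪] [IsDiscreteValuationRing 𝒪]
    [IsAdicComplete (IsLocalRing.maximalIdeal 𝒪) 𝒪] [CharZero 𝒪]
    (hp : (p : 𝒪) ∈ IsLocalRing.maximalIdeal 𝒪)
    (χ : CuspForm.heckeAlgebra N 2 (∅ : Set ℕ) →+* 𝒪) :
    ∃ ρ : GaloisRepAdic 𝒪,
      (∀ (ℓ : ℕ) (hℓ : ℓ.Prime) (hℓN : ¬ ℓ ∣ N), ℓ ≠ p →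
        ∀ A : ValuationSubring Qb, A.LiesOverPrime ℓ → ∀ σ : GQ, A.IsFrobeniusAt σ ℓ →
          LinearMap.charpoly (ρ.ρ σ) =
            X ^ 2 - C (χ (CuspForm.heckeAlgebra.T hℓ hℓN (Set.notMem_empty ℓ))) * X
              + C ((ℓ : 𝒪))) ∧
      (∀ q : ℕ, q.Prime → ¬ q ∣ N → q ≠ p → ρ.IsUnramifiedAt q) := by
  classical
  obtain ⟨f⟩ := exists_padicInt_ringHom p 𝒪 hp
  let _ : Algebra ℤ_[p] 𝒪 := f.toAlgebra
  have hN : N ≠ 0 := NeZero.ne N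
  let a : ℕ → 𝒪 := fun ℓ => if h : ℓ.Prime then RepA.ev 𝒪 χ ⟨ℓ, h⟩ else 0
  have hquad : ∀ ℓ : ℕ, ℓ.Prime → ℓ ∉ insert p N.primeFactors →
      ∀ A : ValuationSubring Qb, A.LiesOverPrime ℓ → ∀ σ : GQ, A.IsFrobeniusAt σ ℓ →
        (RepA.rep0 D 𝒪 χ hp).ρ σ * (RepA.rep0 D 𝒪 χ hp).ρ σ - a ℓ • (RepA.rep0 D 𝒪 χ hp).ρ σ
          + (ℓ : 𝒪) • (1 : Module.End 𝒪 (RepA.rep0 D 𝒪 χ hp).V) = 0 := by
    intro ℓ hℓ hℓS A hA σ hσ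
    rw [Finset.mem_insert, not_or] at hℓS
    have hℓN : ¬ ℓ ∣ N := fun hd => hℓS.2 (Nat.mem_primeFactors.mpr ⟨hℓ, hd, hN⟩)
    have ha : a ℓ = RepA.ev 𝒪 χ ⟨ℓ, hℓ⟩ := dif_pos hℓ
    rw [ha]
    exact RepA.rep0_quadratic D 𝒪 χ hp ⟨ℓ, hℓ⟩ hℓN hℓS.1 A hA σ hσ
  obtain ⟨ρ, hρ1, hρ2⟩ := exists_rep_of_quadratic hFrob 𝒪 hp (RepA.rep0 D 𝒪 χ hp)
    (insert p N.primeFactors) (Finset.mem_insert_self _ _) a hquad
  refine ⟨ρ, ?_, ?_⟩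
  · intro ℓ hℓ hℓN hℓp A hA σ hσ
    have hℓS : ℓ ∉ insert p N.primeFactors := by
      rw [Finset.mem_insert, not_or]
      exact ⟨hℓp, fun hm => hℓN (Nat.dvd_of_mem_primeFactors hm)⟩
    have ha : a ℓ = χ (CuspForm.heckeAlgebra.T hℓ hℓN (Set.notMem_empty ℓ)) := by
      have h1 : a ℓ = RepA.ev 𝒪 χ ⟨ℓ, hℓ⟩ := dif_pos hℓ
      rw [h1]
      show χ (CuspForm.heckeFormsGen N 2 ⟨ℓ, hℓ⟩) = _
      rw [CuspForm.heckeFormsGen_of_not_dvd (ℓ := ⟨ℓ, hℓ⟩) hℓN]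
    rw [← ha]
    exact hρ1 ℓ hℓ hℓS A hA σ hσ
  · intro q hq hqN hqp
    exact hρ2 q hq hqp (RepA.rep0_unramified D 𝒪 χ hp hq hqN hqp)

end Fermat.Agent.ESJ.Rep
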