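/-
ESJ / REP layer (owner: helper73): the residual Eichler–Shimura module WITH DIAMOND OPERATORS
and the residual Galois representation with nebentypus — the REP side of `H_ES(Γ₁(M))`.

Abstract input: `G_ℚ` acting on an abelian group `J`, a finite stable subgroup `P` of finite
level, commuting operators `T_ℓ`, `D_ℓ` on `J` (Hecke and diamond operators), an
eigen-functional `lam : P → k` and the Eichler–Shimura relation
`σ² x - T_ℓ (σ x) + ℓ • D_ℓ x = 0` on `P` for Frobenius elements `σ` at `ℓ ∉ S`.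
Output: `r : G_ℚ → GL₂(k)` of finite level, unramified outside `S`, with
`tr r(Frob_ℓ) = c_ℓ`, `det r(Frob_ℓ) = ℓ · e_ℓ`.
-/
import Mathlib
import Fermat.Agent.ESJ.Rep.ResModule
import Fermat.Agent.ESJ.Rep.ExtractChar
import Fermat.Agent.ESJ.Rep.CycloMod
import Fermat.Agent.ESJ.Rep.FrobDens

set_option autoImplicit false

noncomputable section

namespace Fermat.Agent.ESJ.Rep.ResModuleChar

open Fermat.Agent.ESJ.Rep.ResModule

/-! ### The abstract construction with two families of operators -/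

section Abstract

variable {G : Type*} [Group G] {J : Type*} [AddCommGroup J] [DistribMulAction G J]
  (P : AddSubgroup J) (hP : ∀ (σ : G) (x : J), x ∈ P → σ • x ∈ P)
  {ι : Type*} (T D : ι → J → J) (good : ι → Prop)
  (hT : ∀ (ℓ : ι) (σ : G) (x : J), T ℓ (σ • x) = σ • T ℓ x)
  (hD : ∀ (ℓ : ι) (σ : G) (x : J), D ℓ (σ • x) = σ • D ℓ x)
  {k : Type*} [Field k] (c e : ι → k)

/-- The two families of operators as one family. -/
def opTD : ι ⊕ ι → J → J := Sum.elim T D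

/-- The index condition for the combined family. -/
def goodTD : ι ⊕ ι → Prop := Sum.elim good good

/-- The eigenvalue system for the combined family. -/
def eigTD : ι ⊕ ι → k := Sum.elim c e

include hT hD in
theorem opTD_comm (ℓ : ι ⊕ ι) (σ : G) (x : J) : opTD T D ℓ (σ • x) = σ • opTD T D ℓ x := by
  rcases ℓ with ℓ | ℓ
  · exact hT ℓ σ x
  · exact hD ℓ σ x

/-- The representation on the dual of the space of eigen-functionals for both families. -/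
def dualRepTD : G →* Module.End k
    (Module.Dual k (eigSpace P (opTD T D) (goodTD good) (eigTD c e))) :=
  dualRep P hP (opTD T D) (goodTD good) (opTD_comm T D hT hD) (eigTD c e)

theorem dualRepTD_eq_one (σ : G) (h : ∀ x ∈ P, σ • x = x) :
    dualRepTD P hP T D good hT hD c e σ = 1 :=
  dualRep_eq_one P hP (opTD T D) (goodTD good) (opTD_comm T D hT hD) (eigTD c e) σ h

/-- The quadratic relation with a diamond operator in the constant term transposes twice. -/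
theorem dualRepTD_quad (σ : G) (ℓ : ι) (hℓ : good ℓ) (n : ℕ)
    (hDP : ∀ x ∈ P, D ℓ x ∈ P)
    (hrel : ∀ x ∈ P, σ • σ • x - T ℓ (σ • x) + n • D ℓ x = 0) :
    dualRepTD P hP T D good hT hD c e σ * dualRepTD P hP T D good hT hD c e σ -
      c ℓ • dualRepTD P hP T D good hT hD c e σ +
      ((n : k) * e ℓ) • (1 : Module.End k
        (Module.Dual k (eigSpace P (opTD T D) (goodTD good) (eigTD c e)))) = 0 := by
  ext ξ μ
  simp only [LinearMap.add_apply, LinearMap.sub_apply, Module.End.mul_apply,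
    LinearMap.smul_apply, Module.End.one_apply, dualRepTD, dualRep_apply,
    LinearMap.zero_apply]
  have key : transl P hP (opTD T D) (goodTD good) (opTD_comm T D hT hD) (eigTD c e) σ
        (transl P hP (opTD T D) (goodTD good) (opTD_comm T D hT hD) (eigTD c e) σ μ) -
      c ℓ • transl P hP (opTD T D) (goodTD good) (opTD_comm T D hT hD) (eigTD c e) σ μ +
      ((n : k) * e ℓ) • μ = 0 := by
    apply Subtype.ext
    funext x
    have hx := hrel (x : J) x.2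
    set z : P := act P hP σ x with hz
    set y : P := act P hP σ z with hy
    set w : P := ⟨D ℓ (x : J), hDP x x.2⟩ with hw
    have ht : ((y + n • w : P) : J) = opTD T D (Sum.inl ℓ) ((z : P) : J) := by
      rw [AddSubgroup.coe_add, AddSubgroup.coe_nsmul, hy, coe_act, hz, coe_act]
      show σ • σ • (x : J) + n • D ℓ (x : J) = T ℓ (σ • (x : J))
      rw [← sub_eq_zero, ← hx]
      abel
    have h1 := eigSpace_eig P (opTD T D) (goodTD good) (eigTD c e) μ (Sum.inl ℓ) hℓ z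
      (y + n • w) ht
    have h2 := eigSpace_eig P (opTD T D) (goodTD good) (eigTD c e) μ (Sum.inr ℓ) hℓ x w rfl
    rw [eigSpace_add, eigSpace_nsmul] at h1
    have h1' : μ.1 y + (n : k) * μ.1 w = c ℓ * μ.1 z := h1
    have h2' : μ.1 w = e ℓ * μ.1 x := h2
    show μ.1 (act P hP σ (act P hP σ x)) - c ℓ * μ.1 (act P hP σ x) +
      ((n : k) * e ℓ) * μ.1 x = 0
    rw [← hz, ← hy]
    linear_combination h1' - (n : k) * h2'
  have := congrArg ξ key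
  rw [map_add, map_sub, map_smul, map_smul, map_zero] at this
  exact this

end Abstract

/-- The abstract module behind `H_ES` with nebentypus: a finite stable subgroup `P` with an
eigen-functional for two commuting families `T`, `D` gives a nonzero finite-dimensional
representation on which the relations `σ² - T_ℓ σ + n D_ℓ = 0` become
`σ² - c_ℓ σ + n e_ℓ = 0`. -/
theorem exists_module_diamond {G : Type} [Group G] {J : Type} [AddCommGroup J]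
    [DistribMulAction G J] (P : AddSubgroup J) (hP : ∀ (σ : G) (x : J), x ∈ P → σ • x ∈ P)
    [Finite P] {ι : Type} (T D : ι → J → J) (good : ι → Prop)
    (hT : ∀ (ℓ : ι) (σ : G) (x : J), T ℓ (σ • x) = σ • T ℓ x)
    (hD : ∀ (ℓ : ι) (σ : G) (x : J), D ℓ (σ • x) = σ • D ℓ x)
    {k : Type} [Field k] (c e : ι → k) (lam : P →+ k) (hlam0 : lam ≠ 0)
    (hlamT : ∀ ℓ : ι, good ℓ → ∀ x y : P, (y : J) = T ℓ (x : J) → lam y = c ℓ * lam x)
    (hlamD : ∀ ℓ : ι, good ℓ → ∀ x y : P, (y : J) = D ℓ (x : J) → lam y = e ℓ * lam x) :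
    ∃ (W : Type) (_ : AddCommGroup W) (_ : Module k W) (_ : Module.Finite k W)
      (_ : Nontrivial W) (ρ : G →* Module.End k W),
      (∀ σ : G, (∀ x ∈ P, σ • x = x) → ρ σ = 1) ∧
      (∀ (σ : G) (ℓ : ι), good ℓ → ∀ n : ℕ, (∀ x ∈ P, D ℓ x ∈ P) →
        (∀ x ∈ P, σ • σ • x - T ℓ (σ • x) + n • D ℓ x = 0) →
          ρ σ * ρ σ - c ℓ • ρ σ + ((n : k) * e ℓ) • (1 : Module.End k W) = 0) := by
  have hlam_mem : (fun x => lam x) ∈ eigSpace P (opTD T D) (goodTD good) (eigTD c e) := by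
    refine ⟨fun x y => map_add lam x y, fun ℓ hℓ x y hxy => ?_⟩
    rcases ℓ with ℓ | ℓ
    · exact hlamT ℓ hℓ x y hxy
    · exact hlamD ℓ hℓ x y hxy
  have hnt : Nontrivial (eigSpace P (opTD T D) (goodTD good) (eigTD c e)) := by
    refine ⟨⟨⟨_, hlam_mem⟩, 0, fun h => hlam0 ?_⟩⟩
    ext x
    have := congrFun (congrArg Subtype.val h) x
    simpa using this
  have hntD : Nontrivial (Module.Dual k (eigSpace P (opTD T D) (goodTD good) (eigTD c e))) := by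
    apply Module.nontrivial_of_finrank_pos (R := k)
    rw [Subspace.dual_finrank_eq]
    exact Module.finrank_pos
  exact ⟨Module.Dual k (eigSpace P (opTD T D) (goodTD good) (eigTD c e)), inferInstance,
    inferInstance, inferInstance, hntD, dualRepTD P hP T D good hT hD c e,
    fun σ h => dualRepTD_eq_one P hP T D good hT hD c e σ h,
    fun σ ℓ hℓ n hDP hrel => dualRepTD_quad P hP T D good hT hD c e σ ℓ hℓ n hDP hrel⟩

/-! ### Characters of `G_ℚ` from Dirichlet characters -/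

/-- The character of `G_ℚ` attached to a character of `(ℤ/M)ˣ`. -/
def dirChar (M : ℕ) [NeZero M] {k : Type} [Field k] (ψ : (ZMod M)ˣ →* kˣ) : GQ →* kˣ :=
  ψ.comp (cycloMod M)

theorem dirChar_level (M : ℕ) [NeZero M] {k : Type} [Field k] (ψ : (ZMod M)ˣ →* kˣ) :
    GaloisFactorsThroughFiniteLevel (dirChar M ψ) := by
  obtain ⟨L, hL, h⟩ := cycloMod_level M
  exact ⟨L, hL, fun σ hσ => by rw [dirChar, MonoidHom.comp_apply, h σ hσ, map_one]⟩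

theorem dirChar_inertia (M : ℕ) [NeZero M] {k : Type} [Field k] (ψ : (ZMod M)ˣ →* kˣ) {q : ℕ}
    (hq : q.Prime) (hqM : ¬ q ∣ M) (A : ValuationSubring Qb) (hA : A.LiesOverPrime q) (σ : GQ)
    (hσ : σ ∈ A.inertiaSubgroupIn ℚ) : dirChar M ψ σ = 1 := by
  rw [dirChar, MonoidHom.comp_apply, cycloMod_inertia M hq hqM A hA σ hσ, map_one]

theorem dirChar_frobenius (M : ℕ) [NeZero M] {k : Type} [Field k] (ψ : (ZMod M)ˣ →* kˣ) {ℓ : ℕ}
    (hℓ : ℓ.Prime) (hℓM : ¬ ℓ ∣ M) (A : ValuationSubring Qb) (hA : A.LiesOverPrime ℓ) (σ : GQ)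
    (hσ : A.IsFrobeniusAt σ ℓ) :
    dirChar M ψ σ = ψ (ZMod.unitOfCoprime ℓ ((Nat.Prime.coprime_iff_not_dvd hℓ).mpr hℓM)) := by
  rw [dirChar, MonoidHom.comp_apply]
  congr 1
  apply Units.ext
  rw [cycloMod_frobenius M hℓ hℓM A hA σ hσ, ZMod.coe_unitOfCoprime]

/-! ### The Galois representation -/

/-- **REP side of `H_ES` with nebentypus, abstract torsion form.**  `P` is the torsion module
(finite, Galois-stable, of finite level, unramified outside `S`), `T ℓ` and `D ℓ` the Hecke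
and diamond operators, `lam` an eigen-functional with eigenvalues `c ℓ`, `e ℓ`, `δ` a character
of `G_ℚ` of finite level, unramified outside `S`, with `δ(Frob_ℓ) = ℓ · e ℓ`. -/
theorem exists_galoisRep_of_torsion {J : Type} [AddCommGroup J] [DistribMulAction GQ J]
    (P : AddSubgroup J) (hP : ∀ (σ : GQ) (x : J), x ∈ P → σ • x ∈ P) [Finite P]
    (hPlev : ∃ L : IntermediateField ℚ Qb, FiniteDimensional ℚ L ∧
      ∀ σ : GQ, (∀ x ∈ L, σ x = x) → ∀ x ∈ P, σ • x = x)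
    (T D : ℕ → J → J)
    (hT : ∀ (ℓ : ℕ) (σ : GQ) (x : J), T ℓ (σ • x) = σ • T ℓ x)
    (hD : ∀ (ℓ : ℕ) (σ : GQ) (x : J), D ℓ (σ • x) = σ • D ℓ x)
    {k : Type} [Field k] (S : Finset ℕ) (c e : ℕ → k) (lam : P →+ k) (hlam0 : lam ≠ 0)
    (hlamT : ∀ ℓ : ℕ, ℓ.Prime → ℓ ∉ S → ∀ x y : P, (y : J) = T ℓ (x : J) →
      lam y = c ℓ * lam x)
    (hlamD : ∀ ℓ : ℕ, ℓ.Prime → ℓ ∉ S → ∀ x y : P, (y : J) = D ℓ (x : J) →
      lam y = e ℓ * lam x)
    (hDP : ∀ ℓ : ℕ, ℓ.Prime → ℓ ∉ S → ∀ x ∈ P, D ℓ x ∈ P)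
    (δ : GQ →* kˣ) (hδ : GaloisFactorsThroughFiniteLevel δ)
    (hδI : ∀ q : ℕ, q.Prime → q ∉ S → ∀ A : ValuationSubring Qb, A.LiesOverPrime q →
      ∀ σ ∈ A.inertiaSubgroupIn ℚ, δ σ = 1)
    (hδF : ∀ ℓ : ℕ, ℓ.Prime → ℓ ∉ S → ∀ A : ValuationSubring Qb, A.LiesOverPrime ℓ →
      ∀ σ : GQ, A.IsFrobeniusAt σ ℓ → (δ σ : k) = (ℓ : k) * e ℓ)
    (hsplit : ∀ ℓ : ℕ, ℓ.Prime → ℓ ∉ S → ∃ α β : k, α + β = c ℓ ∧ α * β = (ℓ : k) * e ℓ)
    (hES : ∀ ℓ : ℕ, ℓ.Prime → ℓ ∉ S → ∀ A : ValuationSubring Qb, A.LiesOverPrime ℓ →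
      (∀ σ ∈ A.inertiaSubgroupIn ℚ, ∀ x ∈ P, σ • x = x) ∧
      ∀ σ : GQ, A.IsFrobeniusAt σ ℓ → ∀ x ∈ P, σ • σ • x - T ℓ (σ • x) + ℓ • D ℓ x = 0) :
    ∃ r : GQ →* GL (Fin 2) k, GaloisFactorsThroughFiniteLevel r ∧
      ∀ ℓ : ℕ, ℓ.Prime → ℓ ∉ S → ∀ A : ValuationSubring Qb, A.LiesOverPrime ℓ →
        (∀ σ ∈ A.inertiaSubgroupIn ℚ, r σ = 1) ∧
        ∀ σ : GQ, A.IsFrobeniusAt σ ℓ →
          ((r σ : GL (Fin 2) k) : Matrix (Fin 2) (Fin 2) k).trace = c ℓ ∧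
          ((r σ : GL (Fin 2) k) : Matrix (Fin 2) (Fin 2) k).det = (ℓ : k) * e ℓ := by
  obtain ⟨W, i1, i2, i3, i4, ρ, h1, h2⟩ := exists_module_diamond (G := GQ) P hP T D
    (fun ℓ : ℕ => ℓ.Prime ∧ ℓ ∉ S) hT hD c e lam hlam0
    (fun ℓ hℓ x y hxy => hlamT ℓ hℓ.1 hℓ.2 x y hxy)
    (fun ℓ hℓ x y hxy => hlamD ℓ hℓ.1 hℓ.2 x y hxy)
  have hlev : GaloisFactorsThroughFiniteLevel ρ := by
    obtain ⟨L, hL, h⟩ := hPlev
    exact ⟨L, hL, fun σ hσ => h1 σ (h σ hσ)⟩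
  obtain ⟨r, hr1, hr2⟩ := ExtractChar.exists_galoisRep_of_quadFrob frobDensity S δ hδ hδI ρ hlev c
    (fun ℓ hℓ hℓS A hA => ⟨fun σ hσ => h1 σ ((hES ℓ hℓ hℓS A hA).1 σ hσ), fun σ hσ => by
      have hδσ := hδF ℓ hℓ hℓS A hA σ hσ
      obtain ⟨α, β, hab, hab'⟩ := hsplit ℓ hℓ hℓS
      refine ⟨⟨α, β, hab, by rw [hab', hδσ]⟩, ?_⟩
      rw [hδσ]
      exact h2 σ ℓ ⟨hℓ, hℓS⟩ ℓ (hDP ℓ hℓ hℓS) ((hES ℓ hℓ hℓS A hA).2 σ hσ)⟩)
  refine ⟨r, hr1, fun ℓ hℓ hℓS A hA => ⟨(hr2 ℓ hℓ hℓS A hA).1, fun σ hσ => ?_⟩⟩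
  obtain ⟨ht, hd⟩ := (hr2 ℓ hℓ hℓS A hA).2 σ hσ
  exact ⟨ht, by rw [hd, hδF ℓ hℓ hℓS A hA σ hσ]⟩

/-- **REP side of `H_ES(Γ₁(M))`**: the same with the determinant character given by a character
`ψ` of `(ℤ/M)ˣ` with `ψ(ℓ) = ℓ · e ℓ` (e.g. `ψ(d) = d · θ(⟨d⟩)` for a field `k` of
characteristic dividing `M`); the bad set `S` contains the primes dividing `M`. -/
theorem exists_galoisRep_of_torsion_dirChar {J : Type} [AddCommGroup J] [DistribMulAction GQ J]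
    (P : AddSubgroup J) (hP : ∀ (σ : GQ) (x : J), x ∈ P → σ • x ∈ P) [Finite P]
    (hPlev : ∃ L : IntermediateField ℚ Qb, FiniteDimensional ℚ L ∧
      ∀ σ : GQ, (∀ x ∈ L, σ x = x) → ∀ x ∈ P, σ • x = x)
    (T D : ℕ → J → J)
    (hT : ∀ (ℓ : ℕ) (σ : GQ) (x : J), T ℓ (σ • x) = σ • T ℓ x)
    (hD : ∀ (ℓ : ℕ) (σ : GQ) (x : J), D ℓ (σ • x) = σ • D ℓ x)
    {k : Type} [Field k] (S : Finset ℕ) (c e : ℕ → k) (lam : P →+ k) (hlam0 : lam ≠ 0)
    (hlamT : ∀ ℓ : ℕ, ℓ.Prime → ℓ ∉ S → ∀ x y : P, (y : J) = T ℓ (x : J) →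
      lam y = c ℓ * lam x)
    (hlamD : ∀ ℓ : ℕ, ℓ.Prime → ℓ ∉ S → ∀ x y : P, (y : J) = D ℓ (x : J) →
      lam y = e ℓ * lam x)
    (hDP : ∀ ℓ : ℕ, ℓ.Prime → ℓ ∉ S → ∀ x ∈ P, D ℓ x ∈ P)
    (M : ℕ) [NeZero M] (hMS : ∀ q : ℕ, q.Prime → q ∣ M → q ∈ S) (ψ : (ZMod M)ˣ →* kˣ)
    (hψ : ∀ (ℓ : ℕ) (hℓ : ℓ.Prime) (hℓM : ¬ ℓ ∣ M), ℓ ∉ S →
      (ψ (ZMod.unitOfCoprime ℓ ((Nat.Prime.coprime_iff_not_dvd hℓ).mpr hℓM)) : k) =
        (ℓ : k) * e ℓ)
    (hsplit : ∀ ℓ : ℕ, ℓ.Prime → ℓ ∉ S → ∃ α β : k, α + β = c ℓ ∧ α * β = (ℓ : k) * e ℓ)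
    (hES : ∀ ℓ : ℕ, ℓ.Prime → ℓ ∉ S → ∀ A : ValuationSubring Qb, A.LiesOverPrime ℓ →
      (∀ σ ∈ A.inertiaSubgroupIn ℚ, ∀ x ∈ P, σ • x = x) ∧
      ∀ σ : GQ, A.IsFrobeniusAt σ ℓ → ∀ x ∈ P, σ • σ • x - T ℓ (σ • x) + ℓ • D ℓ x = 0) :
    ∃ r : GQ →* GL (Fin 2) k, GaloisFactorsThroughFiniteLevel r ∧
      ∀ ℓ : ℕ, ℓ.Prime → ℓ ∉ S → ∀ A : ValuationSubring Qb, A.LiesOverPrime ℓ →
        (∀ σ ∈ A.inertiaSubgroupIn ℚ, r σ = 1) ∧
        ∀ σ : GQ, A.IsFrobeniusAt σ ℓ →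
          ((r σ : GL (Fin 2) k) : Matrix (Fin 2) (Fin 2) k).trace = c ℓ ∧
          ((r σ : GL (Fin 2) k) : Matrix (Fin 2) (Fin 2) k).det = (ℓ : k) * e ℓ :=
  exists_galoisRep_of_torsion P hP hPlev T D hT hD S c e lam hlam0 hlamT hlamD hDP
    (dirChar M ψ) (dirChar_level M ψ)
    (fun q hq hqS A hA σ hσ => dirChar_inertia M ψ hq (fun h => hqS (hMS q hq h)) A hA σ hσ)
    (fun ℓ hℓ hℓS A hA σ hσ => by
      have hℓM : ¬ ℓ ∣ M := fun h => hℓS (hMS ℓ hℓ h)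
      rw [dirChar_frobenius M ψ hℓ hℓM A hA σ hσ]
      exact hψ ℓ hℓ hℓM hℓS)
    hsplit hES

end Fermat.Agent.ESJ.Rep.ResModuleChar

end
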