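/-
ESJ / REP layer — task 175 (helper84): the assembly of S29 from the three REP inputs
(REP-EIGFORM, REP-COMPL2, REP-A), stated as hypotheses so that this file does not depend on
the files of those tasks.  `S29Of.lean` instantiates the hypotheses.
-/
import Mathlib
import Fermat.Agent.ESJ.Rep.Defs
import Fermat.Agent.S22

set_option autoImplicit false

open scoped TensorProduct
open Polynomial

namespace Fermat.Agent.ESJ.Rep.S29Aux

/-- Statement of REP-EIGFORM (`exists_ringHom_of_isNormalizedEigenform`). -/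
def EigCharStatement : Prop :=
  ∀ {N : ℕ} [NeZero N] {g : CuspForm (CongruenceSubgroup.Gamma0 N) 2},
    g.IsNormalizedEigenform →
    ∃ χ : CuspForm.heckeAlgebra N 2 (∅ : Set ℕ) →+* integralClosure ℤ ℂ,
      (∀ t : CuspForm.heckeAlgebra N 2 (∅ : Set ℕ),
        (t : Module.End ℂ (CuspForm (CongruenceSubgroup.Gamma0 N) 2)) g =
          ((χ t : integralClosure ℤ ℂ) : ℂ) • g) ∧
      ∀ (ℓ : ℕ) (hℓ : ℓ.Prime) (hℓN : ¬ ℓ ∣ N),
        ((χ (CuspForm.heckeAlgebra.T hℓ hℓN (Set.notMem_empty ℓ)) : integralClosure ℤ ℂ) : ℂ) =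
          ModularFormClass.qCoeff g ℓ

/-- Statement of REP-COMPL2 (`exists_complete_dvr_of_ringHom`). -/
def NumComplStatement : Prop :=
  ∀ {T : Type} [CommRing T] [Module.Finite ℤ T]
    (χ : T →+* integralClosure ℤ ℂ) {p : ℕ} (_ : p.Prime) {k : Type} [Field k] [CharP k p]
    (φ : integralClosure ℤ ℂ →+* k),
    ∃ (𝒪 : Type) (_ : CommRing 𝒪) (_ : IsDomain 𝒪) (_ : IsDiscreteValuationRing 𝒪)
      (_ : IsAdicComplete (IsLocalRing.maximalIdeal 𝒪) 𝒪) (_ : CharZero 𝒪)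
      (χ' : T →+* 𝒪) (ψ : 𝒪 →+* k),
      (p : 𝒪) ∈ IsLocalRing.maximalIdeal 𝒪 ∧ ∀ t : T, ψ (χ' t) = φ (χ t)

/-- Statement of REP-A (`exists_galoisRepAdic_of_fullChar`, with `FrobDensity` already
applied). -/
def RepAStatement : Prop :=
  ∀ {p N : ℕ} [Fact p.Prime] [NeZero N] (_ : TateDatum p N)
    (𝒪 : Type) [CommRing 𝒪] [IsDomain 𝒪] [IsDiscreteValuationRing 𝒪]
    [IsAdicComplete (IsLocalRing.maximalIdeal 𝒪) 𝒪] [CharZero 𝒪]
    (_ : (p : 𝒪) ∈ IsLocalRing.maximalIdeal 𝒪)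
    (χ : CuspForm.heckeAlgebra N 2 (∅ : Set ℕ) →+* 𝒪),
    ∃ ρ : GaloisRepAdic 𝒪,
      (∀ (ℓ : ℕ) (hℓ : ℓ.Prime) (hℓN : ¬ ℓ ∣ N), ℓ ≠ p →
        ∀ A : ValuationSubring Qb, A.LiesOverPrime ℓ → ∀ σ : GQ, A.IsFrobeniusAt σ ℓ →
          LinearMap.charpoly (ρ.ρ σ) =
            X ^ 2 - C (χ (CuspForm.heckeAlgebra.T hℓ hℓN (Set.notMem_empty ℓ))) * X
              + C ((ℓ : 𝒪))) ∧
      (∀ q : ℕ, q.Prime → ¬ q ∣ N → q ≠ p → ρ.IsUnramifiedAt q)

/-- The trivial two-dimensional residual representation. -/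
noncomputable def trivialRep (k : Type) [Field k] : ResidualGaloisRep k where
  V := Fin 2 → k
  finrank_eq := by simp
  ρ := 1
  factorsThroughFiniteLevel := ⟨⊥, inferInstance, fun _ _ => rfl⟩

/-- Reduction of an adic representation along a ring hom to a field that kills the maximal
ideal. -/
noncomputable def reduceAlong {𝒪 : Type} [CommRing 𝒪] [IsLocalRing 𝒪] {k : Type} [Field k]
    (ρ : GaloisRepAdic 𝒪) (ψ : 𝒪 →+* k) (hψ : IsLocalRing.maximalIdeal 𝒪 ≤ RingHom.ker ψ) :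
    ResidualGaloisRep k :=
  ρ.residual.baseChangeAlong (Ideal.Quotient.lift (IsLocalRing.maximalIdeal 𝒪) ψ
    (fun _ ha => RingHom.mem_ker.mp (hψ ha)))

theorem charpoly_reduceAlong {𝒪 : Type} [CommRing 𝒪] [IsLocalRing 𝒪] {k : Type} [Field k]
    (ρ : GaloisRepAdic 𝒪) (ψ : 𝒪 →+* k) (hψ : IsLocalRing.maximalIdeal 𝒪 ≤ RingHom.ker ψ)
    (σ : GQ) :
    LinearMap.charpoly ((reduceAlong ρ ψ hψ).ρ σ) = (LinearMap.charpoly (ρ.ρ σ)).map ψ := by
  let _ : Algebra (IsLocalRing.ResidueField 𝒪) k :=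
    (Ideal.Quotient.lift (IsLocalRing.maximalIdeal 𝒪) ψ
      (fun _ ha => RingHom.mem_ker.mp (hψ ha))).toAlgebra
  change LinearMap.charpoly
    (((ρ.ρ σ).baseChange (IsLocalRing.ResidueField 𝒪)).baseChange k) = _
  rw [LinearMap.charpoly_baseChange, LinearMap.charpoly_baseChange, Polynomial.map_map]
  congr 1

theorem reduceAlong_eq_one {𝒪 : Type} [CommRing 𝒪] [IsLocalRing 𝒪] {k : Type} [Field k]
    (ρ : GaloisRepAdic 𝒪) (ψ : 𝒪 →+* k) (hψ : IsLocalRing.maximalIdeal 𝒪 ≤ RingHom.ker ψ)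
    (σ : GQ) (h : ρ.ρ σ = 1) : (reduceAlong ρ ψ hψ).ρ σ = 1 := by
  let _ : Algebra (IsLocalRing.ResidueField 𝒪) k :=
    (Ideal.Quotient.lift (IsLocalRing.maximalIdeal 𝒪) ψ
      (fun _ ha => RingHom.mem_ker.mp (hψ ha))).toAlgebra
  change ((ρ.ρ σ).baseChange (IsLocalRing.ResidueField 𝒪)).baseChange k = 1
  rw [h, LinearMap.baseChange_one, LinearMap.baseChange_one]

/-- In a DVR of characteristic zero, a ring hom to a field of characteristic `p` kills the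
maximal ideal. -/
theorem maximalIdeal_le_ker {𝒪 : Type} [CommRing 𝒪] [IsDomain 𝒪] [IsDiscreteValuationRing 𝒪]
    [CharZero 𝒪] {p : ℕ} (hp : p.Prime) {k : Type} [Field k] [CharP k p] (ψ : 𝒪 →+* k) :
    IsLocalRing.maximalIdeal 𝒪 ≤ RingHom.ker ψ := by
  have hprime : (RingHom.ker ψ).IsPrime := RingHom.ker_isPrime ψ
  have hne : RingHom.ker ψ ≠ ⊥ := by
    intro h
    have hmem : (p : 𝒪) ∈ RingHom.ker ψ := by
      rw [RingHom.mem_ker, map_natCast]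
      exact CharP.cast_eq_zero k p
    rw [h, Ideal.mem_bot] at hmem
    exact hp.ne_zero (Nat.cast_eq_zero.mp hmem)
  have hmax : (RingHom.ker ψ).IsMaximal := hprime.isMaximal hne
  exact (IsLocalRing.eq_maximalIdeal hmax).ge

/-- S29 from the three REP inputs. -/
theorem S29_of_aux (hE : EigCharStatement) (hC : NumComplStatement) (hA : RepAStatement)
    (hD : TateDatumExists)
    {N : ℕ} {g : CuspForm (CongruenceSubgroup.Gamma0 N) 2} (hg : g.IsNormalizedEigenform)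
    {p : ℕ} (hp : p.Prime) {k : Type} [Field k] [CharP k p] (φ : integralClosure ℤ ℂ →+* k) :
    ∃ ρ : ResidualGaloisRep k, ρ.IsAttachedTo g φ ∧
      ∀ ℓ : ℕ, ℓ.Prime → ¬ ℓ ∣ N * p → ρ.IsUnramifiedAt ℓ := by
  rcases Nat.eq_zero_or_pos N with hN | hN
  · subst hN
    refine ⟨trivialRep k, ?_, ?_⟩
    · intro ℓ _ hℓN
      exact absurd (dvd_zero ℓ) hℓN
    · intro ℓ _ hℓN
      rw [zero_mul] at hℓN
      exact absurd (dvd_zero ℓ) hℓN
  · have : NeZero N := ⟨hN.ne'⟩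
    have : Fact p.Prime := ⟨hp⟩
    have : Module.Finite ℤ (CuspForm.heckeAlgebra N 2 (∅ : Set ℕ)) :=
      Fermat.Agent.S22.result N 2 ∅
    obtain ⟨χ, -, hχ⟩ := hE hg
    obtain ⟨𝒪, _, _, _, _, _, χ', ψ, hp𝒪, hψχ⟩ := hC χ hp φ
    obtain ⟨D⟩ := hD p N
    obtain ⟨ρ, hρchar, hρunr⟩ := hA D 𝒪 hp𝒪 χ'
    have hker : IsLocalRing.maximalIdeal 𝒪 ≤ RingHom.ker ψ := maximalIdeal_le_ker hp ψ
    refine ⟨reduceAlong ρ ψ hker, ?_, ?_⟩
    · intro ℓ hℓ hℓN hℓk A hA σ hσ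
      have hℓp : ℓ ≠ p := by
        rintro rfl
        exact hℓk (CharP.cast_eq_zero k ℓ)
      refine ⟨χ (CuspForm.heckeAlgebra.T hℓ hℓN (Set.notMem_empty ℓ)), hχ ℓ hℓ hℓN, ?_⟩
      rw [charpoly_reduceAlong, hρchar ℓ hℓ hℓN hℓp A hA σ hσ]
      simp only [Polynomial.map_add, Polynomial.map_sub, Polynomial.map_mul, Polynomial.map_pow,
        Polynomial.map_X, Polynomial.map_C, map_natCast, Polynomial.map_natCast, hψχ]
    · intro ℓ hℓ hℓNp A hA σ hσ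
      have hℓN : ¬ ℓ ∣ N := fun h => hℓNp (Dvd.dvd.mul_right h p)
      have hℓp : ℓ ≠ p := by
        rintro rfl
        exact hℓNp (Dvd.intro_left N rfl)
      exact reduceAlong_eq_one ρ ψ hker σ (hρunr ℓ hℓ hℓN hℓp A hA σ hσ)

end Fermat.Agent.ESJ.Rep.S29Aux
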