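/-
ESJ / REP layer — task 175 (helper84): conditional form of S29.

`S29_of_repA`: S29 from REP-A (as a hypothesis `S29Aux.RepAStatement`) and `TateDatumExists`,
using REP-EIGFORM (`EigChar.lean`) and REP-COMPL2 (`NumCompl.lean`).

`S29_of`: S29 from `FrobDensity` and `TateDatumExists` (REP-A instantiated from `RepA.lean`).
-/
import Mathlib
import Fermat.Agent.ESJ.Rep.Defs
import Fermat.Agent.ESJ.Rep.S29Aux
import Fermat.Agent.ESJ.Rep.EigChar
import Fermat.Agent.ESJ.Rep.NumCompl
import Fermat.Agent.ESJ.Rep.RepA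

set_option autoImplicit false

open scoped TensorProduct
open Polynomial

namespace Fermat.Agent.ESJ.Rep

namespace S29Of

theorem eigCharStatement : S29Aux.EigCharStatement :=
  fun hg => exists_ringHom_of_isNormalizedEigenform hg

theorem numComplStatement : S29Aux.NumComplStatement :=
  fun χ _ hp _ _ _ φ => exists_complete_dvr_of_ringHom χ hp φ

theorem repAStatement (hFrob : FrobDensity) : S29Aux.RepAStatement :=
  fun D 𝒪 _ _ _ _ _ hp χ => exists_galoisRepAdic_of_fullChar hFrob D 𝒪 hp χ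

end S29Of

/-- S29 from REP-A (in the form `S29Aux.RepAStatement`) and the existence of Tate data. -/
theorem S29_of_repA (hA : S29Aux.RepAStatement) (hD : TateDatumExists)
    {N : ℕ} {g : CuspForm (CongruenceSubgroup.Gamma0 N) 2} (hg : g.IsNormalizedEigenform)
    {p : ℕ} (hp : p.Prime) {k : Type} [Field k] [CharP k p] (φ : integralClosure ℤ ℂ →+* k) :
    ∃ ρ : ResidualGaloisRep k, ρ.IsAttachedTo g φ ∧
      ∀ ℓ : ℕ, ℓ.Prime → ¬ ℓ ∣ N * p → ρ.IsUnramifiedAt ℓ :=
  S29Aux.S29_of_aux S29Of.eigCharStatement S29Of.numComplStatement hA hD hg hp φ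

/-- S29 from the Frobenius density theorem and the existence of Tate data. -/
theorem S29_of (hFrob : FrobDensity) (hD : TateDatumExists)
    {N : ℕ} {g : CuspForm (CongruenceSubgroup.Gamma0 N) 2} (hg : g.IsNormalizedEigenform)
    {p : ℕ} (hp : p.Prime) {k : Type} [Field k] [CharP k p] (φ : integralClosure ℤ ℂ →+* k) :
    ∃ ρ : ResidualGaloisRep k, ρ.IsAttachedTo g φ ∧
      ∀ ℓ : ℕ, ℓ.Prime → ¬ ℓ ∣ N * p → ρ.IsUnramifiedAt ℓ :=
  S29_of_repA (S29Of.repAStatement hFrob) hD hg hp φ

end Fermat.Agent.ESJ.Rep
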