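/-
ESJ / REP layer (owner: helper73): the frozen statements S29 and S42 from the SINGLE remaining
geometric family

* `(E)`  `TorsionESRelation N p`  for all levels `N ≠ 0` and primes `p`   (RED + ES-CONG),

with the lightest possible import closure (no Tate module, no `TorsionAssembly`): the JAC-TORS
layer (`Jac/Main.lean`), `Cong.heckeGaloisCommute`, FROB and the residual extraction
(`Rep/ResModule.lean`, `Rep/S42Wire.lean`).  `S29.lean` / `S42.lean` are one line each on top
of whichever producer of `(E)` lands first.
-/
import Mathlib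
import Fermat.Agent.ESJ.Rep.S42Wire
import Fermat.Agent.ESJ.Jac.Main
import Fermat.Agent.ESJ.Cong.Comm
import Fermat.Agent.Frob.Main

set_option autoImplicit false

namespace Fermat.Agent.ESJ

open ModularCurve AlgebraicCurve

/-- **S29 from `(E)`** (the frozen statement S29, given the torsion Eichler–Shimura
relations). -/
theorem S29_of_torsionES
    (hE : ∀ (N p : ℕ) [NeZero N], p.Prime → TorsionESRelation N p)
    {N : ℕ} {g : CuspForm (CongruenceSubgroup.Gamma0 N) 2} (hg : g.IsNormalizedEigenform)
    {p : ℕ} (hp : p.Prime) {k : Type} [Field k] [CharP k p] (φ : integralClosure ℤ ℂ →+* k) :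
    ∃ ρ : ResidualGaloisRep k, ρ.IsAttachedTo g φ ∧
      ∀ ℓ : ℕ, ℓ.Prime → ¬ ℓ ∣ N * p → ρ.IsUnramifiedAt ℓ :=
  S29_of_interfaces (fun F _ S g => Fermat.Agent.Frob.exists_frobenius_generating F S g)
    hE
    (fun N n _ hn => torsionFinite N n hn)
    (fun N n _ hn => torsionFiniteLevel N n hn)
    (fun N p _ hp => eigenFunctionalModP N p hp)
    (fun N _ => Cong.heckeGaloisCommute N) hg hp φ

/-- **S42 from `(E)`** (the frozen statement S42, given the torsion Eichler–Shimura
relations). -/
theorem S42_of_torsionES
    (hE : ∀ (N p : ℕ) [NeZero N], p.Prime → TorsionESRelation N p)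
    (P : FreyPackage) : ∀ M : ℕ, 0 < M → P.EigenformResidualAttachmentAt M :=
  S42_of_interfaces (fun F _ S g => Fermat.Agent.Frob.exists_frobenius_generating F S g)
    hE
    (fun N n _ hn => torsionFinite N n hn)
    (fun N n _ hn => torsionFiniteLevel N n hn)
    (fun N p _ hp => eigenFunctionalModP N p hp)
    (fun N _ => Cong.heckeGaloisCommute N) P

end Fermat.Agent.ESJ
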