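/-
ESJ / REP layer (owner: helper73): the frozen statements S29 and S42 from the two outputs
of the RED layer ALONE:

* **R2** existence of a place reduction `ReductionInputsModL A N`,
* **R1** `RedTorsionInjective N ℓ A` (S18 for an arbitrary place reduction),

for every level `N ≠ 0`, every prime `ℓ ∤ N` and every valuation subring `A` of `ℚ̄` over `ℓ`.
Everything else is a theorem on main: the JAC-TORS layer (`Jac/Main.lean`: `torsionFinite`,
`torsionFiniteLevel`, `eigenFunctionalModP`), ES-CONG (`TorsionAssembly.lean`: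
`torsionESRelation_of_red`, `Cong.heckeGaloisCommute`), FROB (`Frob/Main.lean`) and the
REP extraction (`Rep/ResModule.lean`, `Rep/S42Wire.lean`).
-/
import Mathlib
import Fermat.Agent.ESJ.Rep.S42Wire
import Fermat.Agent.ESJ.Jac.Main
import Fermat.Agent.ESJ.TorsionAssembly
import Fermat.Agent.Frob.Main

set_option autoImplicit false

namespace Fermat.Agent.ESJ

open ModularCurve AlgebraicCurve

/-- The Frobenius-density statement of the FROB project, in the interface shape. -/
theorem frobGenerating_of_frob : FrobGenerating :=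
  fun F _ S g => Fermat.Agent.Frob.exists_frobenius_generating F S g

/-- **S29 from the RED layer** (the frozen statement S29, given R1 and R2). -/
theorem S29_of_red
    (hR2 : ∀ (N : ℕ) [NeZero N] (ℓ : ℕ), ℓ.Prime → ¬ ℓ ∣ N →
      ∀ A : ValuationSubring (AlgebraicClosure ℚ), A.LiesOverPrime ℓ → ReductionInputsModL A N)
    (hR1 : ∀ (N : ℕ) [NeZero N] (ℓ : ℕ), ℓ.Prime → ¬ ℓ ∣ N →
      ∀ A : ValuationSubring (AlgebraicClosure ℚ), A.LiesOverPrime ℓ →
        RedTorsionInjective N ℓ A)
    {N : ℕ} {g : CuspForm (CongruenceSubgroup.Gamma0 N) 2} (hg : g.IsNormalizedEigenform)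
    {p : ℕ} (hp : p.Prime) {k : Type} [Field k] [CharP k p] (φ : integralClosure ℤ ℂ →+* k) :
    ∃ ρ : ResidualGaloisRep k, ρ.IsAttachedTo g φ ∧
      ∀ ℓ : ℕ, ℓ.Prime → ¬ ℓ ∣ N * p → ρ.IsUnramifiedAt ℓ :=
  S29_of_interfaces frobGenerating_of_frob
    (fun N p _ _ => torsionESRelation_of_red N p (hR2 N) (hR1 N))
    (fun N n _ hn => torsionFinite N n hn)
    (fun N n _ hn => torsionFiniteLevel N n hn)
    (fun N p _ hp => eigenFunctionalModP N p hp)
    (fun N _ => Cong.heckeGaloisCommute N) hg hp φ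

/-- **S42 from the RED layer** (the frozen statement S42, given R1 and R2). -/
theorem S42_of_red
    (hR2 : ∀ (N : ℕ) [NeZero N] (ℓ : ℕ), ℓ.Prime → ¬ ℓ ∣ N →
      ∀ A : ValuationSubring (AlgebraicClosure ℚ), A.LiesOverPrime ℓ → ReductionInputsModL A N)
    (hR1 : ∀ (N : ℕ) [NeZero N] (ℓ : ℕ), ℓ.Prime → ¬ ℓ ∣ N →
      ∀ A : ValuationSubring (AlgebraicClosure ℚ), A.LiesOverPrime ℓ →
        RedTorsionInjective N ℓ A)
    (P : FreyPackage) : ∀ M : ℕ, 0 < M → P.EigenformResidualAttachmentAt M :=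
  S42_of_interfaces frobGenerating_of_frob
    (fun N p _ _ => torsionESRelation_of_red N p (hR2 N) (hR1 N))
    (fun N n _ hn => torsionFinite N n hn)
    (fun N n _ hn => torsionFiniteLevel N n hn)
    (fun N p _ hp => eigenFunctionalModP N p hp)
    (fun N _ => Cong.heckeGaloisCommute N) P

end Fermat.Agent.ESJ
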