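/-
ESJ / REP layer — conditional form of S30 (owner: helper55).

`S30_of : FrobDensity → TateDatumExists → (frozen statement S30)`.
-/
import Mathlib
import Fermat.Agent.ESJ.Rep.Defs
import Fermat.Agent.ESJ.Rep.RepA
import Fermat.Agent.ESJ.Rep.LiftChar
import Fermat.Agent.S22

set_option autoImplicit false

open Polynomial

namespace Fermat.Agent.ESJ.Rep

/-- **S30, conditional form.** Frobenius density and the existence of Tate data imply the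
frozen statement S30 (Galois representations attached to `𝒪`-valued points of the Hecke
algebra). -/
theorem S30_of (hFrob : FrobDensity) (hD : TateDatumExists) :
    ∀ (p : ℕ) [Fact p.Prime] (N : ℕ) [NeZero N] (S : Finset ℕ)
      (_hpS : p ∈ S) (_hNS : ∀ q : ℕ, q.Prime → q ∣ N → q ∈ S)
      (𝒪' : Type) [CommRing 𝒪'] [IsDomain 𝒪'] [IsDiscreteValuationRing 𝒪']
      [IsAdicComplete (IsLocalRing.maximalIdeal 𝒪') 𝒪'] [Finite (IsLocalRing.ResidueField 𝒪')]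
      [CharZero 𝒪'] (_hp𝒪' : (p : 𝒪') ∈ IsLocalRing.maximalIdeal 𝒪')
      (χ : CuspForm.heckeAlgebra N 2 (↑S : Set ℕ) →+* 𝒪'),
      ∃ (𝒪'' : Type) (_ : CommRing 𝒪'') (_ : IsDomain 𝒪'') (_ : IsDiscreteValuationRing 𝒪'')
        (_ : IsAdicComplete (IsLocalRing.maximalIdeal 𝒪'') 𝒪'')
        (_ : Finite (IsLocalRing.ResidueField 𝒪'')) (_ : CharZero 𝒪'')
        (_ : Algebra 𝒪' 𝒪'') (_ : Module.Finite 𝒪' 𝒪'') (_ : IsLocalHom (algebraMap 𝒪' 𝒪'')),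
      Function.Injective (algebraMap 𝒪' 𝒪'') ∧
      ∃ ρ : GaloisRepAdic 𝒪'',
        (∀ (ℓ : ℕ) (hℓ : ℓ.Prime) (hℓN : ¬ ℓ ∣ N) (hℓS : ℓ ∉ (↑S : Set ℕ)),
          ∀ A : ValuationSubring (AlgebraicClosure ℚ), A.LiesOverPrime ℓ →
            ∀ σ : AlgebraicClosure ℚ ≃ₐ[ℚ] AlgebraicClosure ℚ, A.IsFrobeniusAt σ ℓ →
              LinearMap.charpoly (ρ.ρ σ) =
                X ^ 2 - C (algebraMap 𝒪' 𝒪'' (χ (CuspForm.heckeAlgebra.T hℓ hℓN hℓS))) * X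
                  + C ((ℓ : 𝒪''))) ∧
        (∀ q : ℕ, q.Prime → ¬ q ∣ N → q ≠ p → ρ.IsUnramifiedAt q) := by
  intro p _ N _ S hpS _hNS 𝒪' _ _ _ _ _ _ hp𝒪' χ
  -- the inclusion of the `S`-anemic Hecke algebra into the full one
  let i : CuspForm.heckeAlgebra N 2 (↑S : Set ℕ) →+* CuspForm.heckeAlgebra N 2 (∅ : Set ℕ) :=
    (Subalgebra.inclusion (CuspForm.heckeAlgebra_mono (Set.empty_subset (↑S : Set ℕ)))).toRingHom
  have hi : Function.Injective i :=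
    Subalgebra.inclusion_injective (CuspForm.heckeAlgebra_mono (Set.empty_subset (↑S : Set ℕ)))
  have : Module.Finite ℤ (CuspForm.heckeAlgebra N 2 (∅ : Set ℕ)) := Fermat.Agent.S22.result N 2 ∅
  obtain ⟨𝒪'', i1, i2, i3, i4, i5, i6, i7, i8, i9, hinj, χ', hχ'⟩ :=
    exists_extension_of_ringHom i hi 𝒪' χ
  have hp'' : (p : 𝒪'') ∈ IsLocalRing.maximalIdeal 𝒪'' := by
    have h1 : ¬ IsUnit (p : 𝒪') := hp𝒪'
    have h2 : ¬ IsUnit (algebraMap 𝒪' 𝒪'' (p : 𝒪')) := fun h => h1 (isUnit_of_map_unit _ _ h)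
    rw [map_natCast] at h2
    exact h2
  obtain ⟨D⟩ := hD p N
  obtain ⟨ρ, h1, h2⟩ := exists_galoisRepAdic_of_fullChar hFrob D 𝒪'' hp'' χ'
  refine ⟨𝒪'', i1, i2, i3, i4, i5, i6, i7, i8, i9, hinj, ρ, ?_, h2⟩
  intro ℓ hℓ hℓN hℓS A hA σ hσ
  have hℓp : ℓ ≠ p := by
    rintro rfl
    exact hℓS (Finset.mem_coe.mpr hpS)
  have h := h1 ℓ hℓ hℓN hℓp A hA σ hσ
  have hT : i (CuspForm.heckeAlgebra.T hℓ hℓN hℓS) =
      CuspForm.heckeAlgebra.T hℓ hℓN (Set.notMem_empty ℓ) := Subtype.ext rfl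
  rw [← hT, hχ'] at h
  exact h

end Fermat.Agent.ESJ.Rep
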