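/-
ESJ / REP layer — task 175 (helper84): conditional form of S42.

`S42_of_repA`: S42 from REP-A (as a hypothesis `S29Aux.RepAStatement`) and `TateDatumExists`.
`S42_of`: S42 from `FrobDensity` and `TateDatumExists`.
-/
import Mathlib
import Fermat.Agent.ESJ.Rep.S29Of
import Fermat.Agent.ESJ.Rep.S42Aux

set_option autoImplicit false

namespace Fermat.Agent.ESJ.Rep

/-- S42 from REP-A (in the form `S29Aux.RepAStatement`) and the existence of Tate data. -/
theorem S42_of_repA (hA : S29Aux.RepAStatement) (hD : TateDatumExists) (P : FreyPackage) :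
    ∀ M : ℕ, 0 < M → P.EigenformResidualAttachmentAt M :=
  S42Aux.S42_of_S29 (fun hg _ hp _ _ _ φ => S29_of_repA hA hD hg hp φ) P

/-- S42 from the Frobenius density theorem and the existence of Tate data. -/
theorem S42_of (hFrob : FrobDensity) (hD : TateDatumExists) (P : FreyPackage) :
    ∀ M : ℕ, 0 < M → P.EigenformResidualAttachmentAt M :=
  S42_of_repA (S29Of.repAStatement hFrob) hD P

end Fermat.Agent.ESJ.Rep
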