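/-
ESJ / REP layer, task TATE-LATT: the lattice `H = Hom_pe(Γ₀(N), ℤ)` compared with `S₂ × S₂`,
Hecke-equivariantly, and commutativity of the Hecke operators on `H`.

Both statements are the exact shapes requested by the TATE assembly (helper55, report #1121);
the mathematical content is in `Fermat/Agent/ESJ/ParHom/Cmp.lean` (`cmpS2`, `cmpS2_hecke`,
`heckePE_comm_int`), which rests on Eichler–Shimura (S21), the dimension formula (S20) and the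
freeness of `Γ₀(N)^ab / ⟨parabolic, elliptic⟩`.
-/
import Mathlib
import Fermat.Agent.ESJ.Rep.Defs
import Fermat.Agent.ESJ.ParHom.HeckePeriod
import Fermat.Agent.ESJ.ParHom.Cmp

set_option autoImplicit false

open scoped TensorProduct MatrixGroups
open CongruenceSubgroup ModularCurve

namespace Fermat.Agent.ESJ.Rep

/-- **Eichler–Shimura comparison for the integral lattice**: `ℂ ⊗ Hom_pe(Γ₀(N), ℤ) ≃ S₂ × S₂`,
compatibly with all Hecke operators (`T_ℓ` for `ℓ ∤ N`, `U_ℓ` for `ℓ ∣ N`). -/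
theorem exists_cmpS2 (N : ℕ) [NeZero N] :
    ∃ cmpS2 : ℂ ⊗[ℤ] ParHom.peHoms (Gamma0 N) ℤ ℤ ≃ₗ[ℂ]
        (CuspForm (Gamma0 N) 2 × CuspForm (Gamma0 N) 2),
      ∀ (ℓ : Nat.Primes) (x : ℂ ⊗[ℤ] ParHom.peHoms (Gamma0 N) ℤ ℤ),
        cmpS2 ((ParHom.heckePE N ℓ ℤ ℤ).baseChange ℂ x)
          = (heckeOp N ℓ (cmpS2 x).1, heckeOp N ℓ (cmpS2 x).2) :=
  ⟨ParHom.cmpS2 N, fun ℓ x => ParHom.cmpS2_hecke N ℓ x⟩

/-- The Hecke operators on `Hom_pe(Γ₀(N), ℤ)` commute. -/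
theorem commute_heckePE (N : ℕ) [NeZero N] (ℓ ℓ' : Nat.Primes) :
    Commute (ParHom.heckePE N ℓ ℤ ℤ) (ParHom.heckePE N ℓ' ℤ ℤ) :=
  ParHom.heckePE_comm_int N ℓ ℓ'

end Fermat.Agent.ESJ.Rep
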