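/-
ESJ / REP layer (helper55) — the anemic Tate datum TOGETHER WITH its torsion level maps.

`TateDatumA p N` has an abstract carrier `Ta`.  Consumers that must realise quotients of the
Tate module inside the torsion of `J₀(N)` (flatness at `p`, S32; module-level local statements)
need the identification `Ta / pⁿ ≅ J₀(N)[pⁿ]`, compatibly with `n`, with the Galois action and
with the Hecke operators at `ℓ ∤ N`.  The Tate assembly (`TateAsmA`, `TateKummer`, helper84)
constructs the datum from such level maps; here they are exported: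

* `TorsLevelMaps D` : level maps `π n : D.Ta →+ J₀(N)` with kernel `pⁿ Ta`, image the
  `pⁿ`-torsion, `p • π (n+1) = π n`, Galois- and (anemic) Hecke-equivariant;
* `TateCmpATorsExists` : the trunk target `TateCmpAExists` with level maps;
* `tateCmpATorsExists_of` : from the two geometric predicates `KummerCmp`, `TorsionESRelation`.
-/
import Mathlib
import Fermat.Agent.ESJ.Rep.TateKummer

set_option autoImplicit false

open scoped TensorProduct MatrixGroups
open CongruenceSubgroup ModularCurve AlgebraicCurve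

namespace Fermat.Agent.ESJ.Rep

/-- Torsion level maps of an anemic Tate datum: `Ta / pⁿ ≅ J₀(N)[pⁿ]`, compatibly with `n`,
with Galois and with the Hecke operators at the primes not dividing `N`. -/
structure TorsLevelMaps {p N : ℕ} [Fact p.Prime] [NeZero N] (D : TateDatumA p N) : Type where
  /-- The level maps. -/
  π : ℕ → D.Ta →+ JZero N
  /-- The kernel of `π n` is `pⁿ Ta`. -/
  ker : ∀ (n : ℕ) (t : D.Ta), π n t = 0 ↔ ∃ w : D.Ta, t = (p : ℤ_[p]) ^ n • w
  /-- The image of `π n` contains the `pⁿ`-torsion. -/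
  surj : ∀ (n : ℕ) (x : JZero N), p ^ n • x = 0 → ∃ t : D.Ta, π n t = x
  /-- Compatibility in `n`. -/
  compat : ∀ (n : ℕ) (t : D.Ta), p • π (n + 1) t = π n t
  /-- Hecke equivariance at the primes not dividing `N`. -/
  hecke : ∀ ℓ : Nat.Primes, ¬ (ℓ : ℕ) ∣ N → ∀ (n : ℕ) (t : D.Ta),
    π n (D.hecke ℓ t) = heckeOperatorBar N ℓ (π n t)
  /-- Galois equivariance. -/
  gal : ∀ (σ : GQ) (n : ℕ) (t : D.Ta), π n (D.gal σ t) = σ • π n t

namespace TorsLevelMaps

variable {p N : ℕ} [Fact p.Prime] [NeZero N] {D : TateDatumA p N} (T : TorsLevelMaps D)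

/-- The image of `π n` is killed by `pⁿ`. -/
theorem pow_nsmul (n : ℕ) (t : D.Ta) : p ^ n • T.π n t = 0 := by
  have h : T.π n ((p ^ n : ℕ) • t) = 0 := by
    refine (T.ker n _).mpr ⟨t, ?_⟩
    rw [← Nat.cast_smul_eq_nsmul ℤ_[p], Nat.cast_pow]
  rw [← h, map_nsmul]

/-- The image of `π n` is exactly the `pⁿ`-torsion. -/
theorem exists_iff (n : ℕ) (x : JZero N) : (∃ t : D.Ta, T.π n t = x) ↔ p ^ n • x = 0 :=
  ⟨fun ⟨t, ht⟩ => ht ▸ T.pow_nsmul n t, T.surj n x⟩

end TorsLevelMaps

/-- **The trunk target with torsion level maps**: for all primes `p` and levels `N ≠ 0` an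
anemic Tate datum with comparison data and level maps `Ta / pⁿ ≅ J₀(N)[pⁿ]`. -/
def TateCmpATorsExists : Prop :=
  ∀ (p N : ℕ) [Fact p.Prime] [NeZero N],
    ∃ D : TateDatumA p N, Nonempty (CmpData p N D.Ta D.hecke) ∧ Nonempty (TorsLevelMaps D)

theorem tateCmpAExists_of_tors (h : TateCmpATorsExists) : TateCmpAExists := by
  intro p N _ _
  obtain ⟨D, hC, -⟩ := h p N
  exact ⟨D, hC⟩

namespace TateTors

open Fermat.Agent.ESJ.ParHom Fermat.Agent.ESJ.Rep.TateKummer

variable {p N : ℕ} [Fact p.Prime] [NeZero N]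

/-- `TateAsmA.exists_tateDatumA_of_levelMaps` keeping the level maps. -/
theorem exists_tateDatumATors_of_levelMaps
    (Ta : Type) [AddCommGroup Ta] [Module ℤ_[p] Ta] [Module.Free ℤ_[p] Ta]
    [Module.Finite ℤ_[p] Ta]
    (hecke : Nat.Primes → Module.End ℤ_[p] Ta) (π : ℕ → Ta →+ JZero N)
    (hK : ∀ n t, π n t = 0 ↔ ∃ w : Ta, t = (p : ℤ_[p]) ^ n • w)
    (hS : ∀ (n : ℕ) (x : JZero N), p ^ n • x = 0 → ∃ t, π n t = x)
    (hC : ∀ n t, p • π (n + 1) t = π n t)
    (hH : ∀ ℓ : Nat.Primes, ¬ (ℓ : ℕ) ∣ N → ∀ (n : ℕ) (t : Ta),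
      π n (hecke ℓ t) = heckeOperatorBar N ℓ (π n t))
    (hcomm : ∀ ℓ ℓ' : Nat.Primes, Commute (hecke ℓ) (hecke ℓ'))
    (hG : HeckeGaloisCommute N) (hL : ∀ n : ℕ, TorsionFiniteLevel N (p ^ n))
    (hES : TorsionESRelation N p) (C : CmpData p N Ta hecke) :
    ∃ D : TateDatumA p N, Nonempty (CmpData p N D.Ta D.hecke) ∧ Nonempty (TorsLevelMaps D) := by
  obtain ⟨gal, h0, h1, h2, h3, h4⟩ := TateAsmA.exists_gal Ta hecke π hK hS hC hH hG hL hES
  exact ⟨{ Ta := Ta, gal := gal, hecke := hecke, gal_continuous := h1, hecke_comm := hcomm,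
           hecke_gal := h2, unram := h3, eichlerShimura := h4,
           eigen_dim := fun E _ _ _ χ => eigen_dim_of_cmpData C E χ }, ⟨C⟩,
    ⟨{ π := π, ker := hK, surj := hS, compat := hC, hecke := hH, gal := h0 }⟩⟩

/-- **The TATE assembly with level maps**: the Kummer comparison and the torsion-level
interfaces give an anemic Tate datum with comparison data and torsion level maps. -/
theorem tateCmpATors_of (hK : KummerCmp N p) (hES : TorsionESRelation N p)
    (hL : ∀ n : ℕ, TorsionFiniteLevel N (p ^ n)) (hG : HeckeGaloisCommute N) :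
    ∃ D : TateDatumA p N, Nonempty (CmpData p N D.Ta D.hecke) ∧ Nonempty (TorsLevelMaps D) := by
  obtain ⟨κ, hcompat, hhecke⟩ := hK
  refine exists_tateDatumATors_of_levelMaps (taPE p N) (heckeTa p N)
    (fun n => levelMap p N n (κ n)) ?_ ?_ ?_ ?_ (heckeTa_comm p N) hG hL hES (cmpData p N)
  · -- (K)
    intro n t
    rw [← redTa_eq_zero_iff, levelMap_apply]
    constructor
    · intro h
      have h1 : (κ n).symm (redTa p N n t) = 0 := Subtype.ext h
      simpa using h1
    · intro h
      rw [h, map_zero]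
      rfl
  · -- (S)
    intro n x hx
    have hx' : x ∈ Pic0.torsion (AlgebraicClosure ℚ) (modularFunctionFieldBar N) (p ^ n) := by
      rw [Pic0.mem_torsion, natCast_zsmul]
      exact hx
    obtain ⟨t, ht⟩ := redTa_surjective p N n (κ n ⟨x, hx'⟩)
    exact ⟨t, (eq_levelMap_of_apply_eq n (κ n) t x hx' ht.symm).symm⟩
  · -- (C)
    intro n t
    have hx := levelMap_mem (n + 1) (κ (n + 1)) t
    have hx' : p • levelMap p N (n + 1) (κ (n + 1)) t ∈
        Pic0.torsion (AlgebraicClosure ℚ) (modularFunctionFieldBar N) (p ^ n) := by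
      rw [Pic0.mem_torsion, natCast_zsmul] at hx ⊢
      rw [← mul_nsmul', ← pow_succ]
      exact hx
    refine eq_levelMap_of_apply_eq n (κ n) t _ hx' ?_
    apply Subtype.ext
    refine AddMonoidHom.ext fun γ => ?_
    rw [hcompat n _ hx hx' γ, apply_levelMap]
    exact congrArg (fun χ : peHoms (Gamma0 N) ℤ (ZMod (p ^ n)) =>
      (χ : Additive (Gamma0 N) →+ ZMod (p ^ n)) γ) (mapPE_castHom_redTa p N n t)
  · -- (H) at `ℓ ∤ N`
    intro ℓ hℓN n t
    have hx := levelMap_mem n (κ n) t
    have hx' : heckeOperatorBar N ℓ (levelMap p N n (κ n) t) ∈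
        Pic0.torsion (AlgebraicClosure ℚ) (modularFunctionFieldBar N) (p ^ n) := by
      rw [Pic0.mem_torsion] at hx ⊢
      rw [← map_zsmul, hx, map_zero]
    refine (eq_levelMap_of_apply_eq n (κ n) _ _ hx' ?_).symm
    rw [hhecke n ℓ hℓN _ hx hx', apply_levelMap]
    exact (redTa_heckePE p N n ℓ t).symm

/-- The TATE assembly with level maps, from `KummerCmp N p` (JAC-H) and `TorsionESRelation N p`
(RED + ES-CONG). -/
theorem tateCmpATors_of_kummerCmp (hK : KummerCmp N p) (hES : TorsionESRelation N p) :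
    ∃ D : TateDatumA p N, Nonempty (CmpData p N D.Ta D.hecke) ∧ Nonempty (TorsLevelMaps D) :=
  tateCmpATors_of hK hES (torsionFiniteLevel_of_kummerCmp hK)
    (Fermat.Agent.ESJ.Cong.heckeGaloisCommute N)

end TateTors

/-- **The trunk target with torsion level maps** from the two geometric predicates. -/
theorem tateCmpATorsExists_of
    (hK : ∀ (p N : ℕ) [Fact p.Prime] [NeZero N], KummerCmp N p)
    (hES : ∀ (p N : ℕ) [Fact p.Prime] [NeZero N], TorsionESRelation N p) :
    TateCmpATorsExists := by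
  intro p N _ _
  exact TateTors.tateCmpATors_of_kummerCmp (hK p N) (hES p N)

end Fermat.Agent.ESJ.Rep
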