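/-
ESJ / REP layer (helper84): bridge between the two (identical) packagings of the level maps of
an anemic Tate datum — `Rep.TorsLevelMaps D` (helper55, `Rep/TateTors.lean`) and
`Rep.TateLevel.LevelMaps p N D` (`Rep/TateLevel.lean`) — so that the lifting / transfer tools
of `TateLevel` apply to either.
-/
import Mathlib
import Fermat.Agent.ESJ.Rep.TateLevel
import Fermat.Agent.ESJ.Rep.TateTors

set_option autoImplicit false

namespace Fermat.Agent.ESJ.Rep.TateLevel

variable {p N : ℕ} [Fact p.Prime] [NeZero N] {D : TateDatumA p N}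

/-- `TorsLevelMaps` as `LevelMaps`. -/
def LevelMaps.ofTors (T : TorsLevelMaps D) : LevelMaps p N D where
  π := T.π
  ker := T.ker
  surj := T.surj
  compat := T.compat
  hecke := T.hecke
  gal := T.gal

/-- `LevelMaps` as `TorsLevelMaps`. -/
def LevelMaps.toTors (L : LevelMaps p N D) : TorsLevelMaps D where
  π := L.π
  ker := L.ker
  surj := L.surj
  compat := L.compat
  hecke := L.hecke
  gal := L.gal

@[simp] theorem LevelMaps.ofTors_π (T : TorsLevelMaps D) : (LevelMaps.ofTors T).π = T.π := rfl

@[simp] theorem LevelMaps.toTors_π (L : LevelMaps p N D) : L.toTors.π = L.π := rfl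

/-- The two forms of the trunk target with level maps agree. -/
theorem tateCmpALevelExists_iff_tors : TateCmpALevelExists ↔ TateCmpATorsExists := by
  constructor
  · intro h p N _ _
    obtain ⟨D, hC, ⟨L⟩⟩ := h p N
    exact ⟨D, hC, ⟨L.toTors⟩⟩
  · intro h p N _ _
    obtain ⟨D, hC, ⟨T⟩⟩ := h p N
    exact ⟨D, hC, ⟨LevelMaps.ofTors T⟩⟩

end Fermat.Agent.ESJ.Rep.TateLevel
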