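/-
ESJ / REP layer: the trunk target with torsion level maps, UNCONDITIONALLY.

`tateCmpATorsExists : TateCmpATorsExists` — `Rep.tateCmpATorsExists_of` (Rep/TateTors.lean)
applied to the two trunk families, which are theorems: (K) `ESJ.kummerCmp` (Jac/Main.lean) and
(E) `ESJ.RedK.torsionESRelation` (RedK/GoodRed.lean).  Consumer: `Padic.S32.S32_of` (its
hypothesis `htrunk`).
-/
import Mathlib
import Fermat.Agent.ESJ.Rep.TateTors
import Fermat.Agent.ESJ.Rep.TateLevelTors
import Fermat.Agent.ESJ.Jac.Main
import Fermat.Agent.ESJ.RedK.GoodRed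

set_option autoImplicit false

namespace Fermat.Agent.ESJ.Rep

/-- **The trunk target with torsion level maps** (an anemic Tate datum with comparison data and
level maps onto the torsion of `Pic⁰`), for every prime `p` and level `N`. -/
theorem tateCmpATorsExists : TateCmpATorsExists :=
  tateCmpATorsExists_of
    (fun p N _ _ => Fermat.Agent.ESJ.kummerCmp N p (Fact.out : p.Prime).pos)
    (fun p N _ _ => Fermat.Agent.ESJ.RedK.torsionESRelation N p)

/-- The same in the `TateLevel.LevelMaps` packaging. -/
theorem tateCmpALevelExists : TateLevel.TateCmpALevelExists :=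
  TateLevel.tateCmpALevelExists_iff_tors.mpr tateCmpATorsExists

end Fermat.Agent.ESJ.Rep
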